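import Fermat.Agent.Tors.EvalPlace

/-!
# Rigidity (`S26`)

A regular family on `TF K E M` which specialises to the trivial family along the Gauss extensions
of the places over a place `b ↦ 0` of `L' ⊆ M` and of one place `a ↦ 0` fixing `L'` is principal
on the curve `TF K E M` over `M`.
-/

set_option autoImplicit false

noncomputable section

universe u

open AlgebraicCurve
open scoped TensorProduct

namespace Fermat.Agent.Tors

variable {K : Type u} [Field K] [IsAlgClosed K] {E : Type u} [Field E] [Algebra K E]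
  {M : Type u} [Field M] [Algebra K M] {κ : Type u} [Field κ] [Algebra K κ]

open TF

attribute [local instance 50] TF.rightAlgebra

omit [IsAlgClosed K] in
theorem KPlace.specialises_const {F F' : Type u} [Field F] [Algebra K F] [Field F'] [Algebra K F']
    (π : KPlace K F F') (h : Fˣ) : π.Specialises (fun _ => h) 1 :=
  fun V => ⟨1, by simp, by simp⟩

theorem inl_mem_comap_gauss (π : KPlace K M κ) (V : KVal K (TF K E κ)) (r : E) :
    inl K E M r ∈ ((gauss E π).comap V).1 ↔ inl K E κ r ∈ V.1 := by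
  rw [KPlace.mem_comap]
  exact ⟨fun ⟨_, h⟩ => gauss_res_inl (π := π) r ▸ h,
    fun h => ⟨Tors.inl_mem r, (gauss_res_inl (π := π) r).symm ▸ h⟩⟩

theorem comapHom_comap_gauss (π : KPlace K M κ) (V : KVal K (TF K E κ)) :
    ((gauss E π).comap V).comapHom (inl K E M) = V.comapHom (inl K E κ) :=
  Subtype.ext (SetLike.ext fun r => inl_mem_comap_gauss π V r)

theorem inr_mem_comap_gauss (π : KPlace K M κ) {V : KVal K (TF K E κ)}
    (hV : ∀ c, inr K E κ c ∈ V.1) (c : M) :
    inr K E M c ∈ ((gauss E π).comap V).1 ↔ c ∈ π.ring.1 := by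
  rw [KPlace.mem_comap]
  refine ⟨fun ⟨h, _⟩ => inr_mem_iff.mp h, fun h => ⟨Tors.inr_mem ⟨c, h⟩, ?_⟩⟩
  rw [gauss_res_inr (π := π) ⟨c, h⟩]
  exact hV _

theorem specialises_pullE (π : KPlace K M κ) {e : Dv K E}
    (he : ∀ R : KVal K E, R.1 = ⊤ → e R = 1) :
    (gauss E π).Specialises (pullE M e) (pullE κ e) := fun V => by
  have hW : pullE M e (gauss E π).ring = 1 := by
    rw [pullE, he _ (SetLike.ext fun r => ⟨fun _ => ValuationSubring.mem_top _,
      fun _ => Tors.inl_mem r⟩), map_one]
  let a : (gauss E π).ring.subˣ :=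
    Units.map (((inl K E M).codRestrict (gauss E π).ring.sub Tors.inl_mem)).toMonoidHom
      (e (V.comapHom (inl K E κ)))
  refine ⟨a, ?_, ?_⟩
  · rw [hW, div_one, pullE, comapHom_comap_gauss]
    rfl
  · rw [show Units.map (gauss E π).res.toMonoidHom a = pullE κ e V from
      Units.ext (gauss_res_inl (π := π) _), div_self']
    exact one_mem _

/-- Two places with the same values on `E` and on `M` have comparable centres. -/
theorem centre_le_of_res {F' : Type u} [Field F'] [Algebra K F']
    (ρ ρ₁ : KPlace K (TF K E M) F')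
    (hl : ∀ (e : E) (h : inl K E M e ∈ ρ₁.ring.1), ∃ h' : inl K E M e ∈ ρ.ring.1,
      ρ.res ⟨_, h'⟩ = ρ₁.res ⟨_, h⟩)
    (hr : ∀ (c : M) (h : inr K E M c ∈ ρ₁.ring.1), ∃ h' : inr K E M c ∈ ρ.ring.1,
      ρ.res ⟨_, h'⟩ = ρ₁.res ⟨_, h⟩) :
    centre ρ₁.ring ≤ ρ.ring.sub := by
  have key : ∀ y, ∃ h : centreMap ρ₁.ring y ∈ ρ.ring.1,
      ρ.res ⟨_, h⟩ = ρ₁.res ⟨_, centreMap_mem ρ₁.ring y⟩ := fun y => by
    induction y with
    | zero =>
      refine ⟨by rw [map_zero]; exact zero_mem _, ?_⟩
      rw [show (⟨centreMap ρ₁.ring 0, _⟩ : ρ.ring.sub) = 0 from Subtype.ext (map_zero _), map_zero,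
        show (⟨centreMap ρ₁.ring 0, _⟩ : ρ₁.ring.sub) = 0 from Subtype.ext (map_zero _), map_zero]
    | add a b ha hb =>
      obtain ⟨ha, ha'⟩ := ha
      obtain ⟨hb, hb'⟩ := hb
      refine ⟨by rw [map_add]; exact add_mem ha hb, ?_⟩
      rw [show (⟨centreMap ρ₁.ring (a + b), _⟩ : ρ.ring.sub) = ⟨_, ha⟩ + ⟨_, hb⟩ from
          Subtype.ext (map_add _ _ _), map_add, ha', hb', ← map_add]
      exact congrArg ρ₁.res (Subtype.ext (map_add _ _ _).symm)
    | tmul r c =>
      obtain ⟨h1, h1'⟩ := hl (r : E) r.2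
      obtain ⟨h2, h2'⟩ := hr (c : M) c.2
      have heq : centreMap ρ₁.ring (r ⊗ₜ c) = inl K E M (r : E) * inr K E M (c : M) :=
        Algebra.TensorProduct.productMap_apply_tmul _ _ _ _
      refine ⟨heq ▸ mul_mem h1 h2, ?_⟩
      rw [show (⟨centreMap ρ₁.ring (r ⊗ₜ c), _⟩ : ρ.ring.sub) = ⟨_, h1⟩ * ⟨_, h2⟩ from
        Subtype.ext heq, map_mul, h1', h2', ← map_mul]
      exact congrArg ρ₁.res (Subtype.ext heq.symm)
  rintro z ⟨x, y, hy, h⟩
  obtain ⟨hy₁, hy₁'⟩ := key y
  obtain ⟨hx₁, -⟩ := key x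
  have hu : IsUnit (⟨_, centreMap_mem ρ₁.ring y⟩ : ρ₁.ring.sub) :=
    IsUnit.of_mul_eq_one ⟨_, hy.2⟩ (Subtype.ext (mul_inv_cancel₀ hy.1))
  have hu' : IsUnit (⟨_, hy₁⟩ : ρ.ring.sub) :=
    (isUnit_map_iff ρ.res _).mp (hy₁' ▸ hu.map ρ₁.res)
  obtain ⟨b, hb⟩ := isUnit_iff_exists_inv.mp hu'
  have hb' : centreMap ρ₁.ring y * (b : TF K E M) = 1 := congrArg Subtype.val hb
  rw [show z = centreMap ρ₁.ring x * b by rw [← h, mul_assoc, hb', mul_one]]
  exact mul_mem hx₁ b.2

variable [FF.IsFunctionField K E]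

theorem divFamily_eq_one (D : Divisor K E) {v : Place K E} (h : D v = 0) :
    divFamily D (kvalOf K v) = 1 := by
  rw [divFamily, dif_neg (kvalOf_ne_top (K := K) v)]
  show _ ^ D v = (1 : Eˣ)
  rw [h, zpow_zero]

/-- The divisor of a family. -/
def divisorOf [IsAlgClosed M] (d : Dv K (TF K E M)) (hd : (Set.range d).Finite) :
    Divisor M (TF K E M) :=
  haveI := TF.isFunctionField (E := E) (K := K) M
  Finsupp.onFinset
    (hd.biUnion fun a _ => FF.finite_support (K := M) ((a : _ˣ) : TF K E M)).toFinset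
    (fun v => v.ord ((d (kvalOf K v) : _ˣ) : TF K E M)) fun v hv =>
      Set.Finite.mem_toFinset _ |>.mpr (Set.mem_biUnion ⟨_, rfl⟩ hv)

/-- An effective divisor of degree the genus moving in no linear system, avoiding nothing. -/
theorem exists_rigid_divisor : ∃ e : Divisor K E, 0 ≤ e ∧
    Divisor.degree e = genusFF K E ∧ FF.ell K e ≤ 1 := by
  classical
  haveI := FiniteFlat.infinite_place (K := K) (F := E)
  obtain ⟨c, hc1, hc⟩ := FiniteFlat.exists_threshold (K := K) (F := E)
  obtain ⟨v₀⟩ := FF.exists_place (K := K) (F := E)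
  set g : ℤ := (genusFF K E : ℤ)
  have hg0 : 0 ≤ g := Int.natCast_nonneg _
  let n : ℤ := c + g
  have step : ∀ j : ℕ, (j : ℤ) ≤ n - g → ∃ D : Divisor K E,
      Divisor.degree D = n - j ∧ FF.ell K D = n + 1 - g - j := by
    intro j
    induction j with
    | zero =>
      intro _
      refine ⟨Finsupp.single v₀ n, by rw [FiniteFlat.degree_single_one]; simp, ?_⟩
      rw [hc _ (by rw [FiniteFlat.degree_single_one]; omega), FiniteFlat.degree_single_one]
      omega
    | succ j ih =>
      intro hj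
      push_cast at hj
      obtain ⟨D, hD, hl⟩ := ih (by omega)
      obtain ⟨f, hf, hf'⟩ := FF.exists_ne_zero_of_ell_pos (D := D) (by omega)
      obtain ⟨v, hv⟩ := Infinite.exists_notMem_finset (D.support ∪ (FF.div K f).support)
      rw [Finset.mem_union, not_or, Finsupp.notMem_support_iff, Finsupp.notMem_support_iff,
        FF.div_apply] at hv
      refine ⟨D - Finsupp.single v 1, by rw [map_sub, FiniteFlat.degree_single_one, hD]; push_cast;
                                         ring, ?_⟩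
      have hle : D - Finsupp.single v 1 ≤ D := sub_le_self _ (Finsupp.le_def.mpr fun w => by
        rcases eq_or_ne w v with rfl | hw <;> simp [*])
      have h1 := FF.ell_le_of_le hle
      rw [map_sub, FiniteFlat.degree_single_one] at h1
      have h2 : FF.ell K (D - Finsupp.single v 1) < FF.ell K D := by
        have hne : riemannRochSpace (D - Finsupp.single v 1) < riemannRochSpace D := by
          refine lt_of_le_not_ge (FF.riemannRochSpace_mono hle) fun hge => ?_
          have hfm : f ∈ riemannRochSpace D := FF.mem_riemannRochSpace'.mpr fun w =>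
            FF.mem_ordGe_of_le w (by
              have h := Finsupp.le_def.mp hf' w
              simp only [Finsupp.coe_zero, Pi.zero_apply, Finsupp.add_apply, FF.div_apply] at h
              omega)
          have := FF.le_ord_of_mem_ordGe v hf (FF.mem_riemannRochSpace'.mp (hge hfm) v)
          rw [Finsupp.sub_apply, Finsupp.single_eq_same, hv.1, hv.2] at this
          omega
        unfold FF.ell
        exact_mod_cast Submodule.finrank_lt_finrank_of_lt hne
      push_cast
      omega
  obtain ⟨D, hD, hl⟩ := step (n - g).toNat (by omega)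
  rw [Int.toNat_of_nonneg (by omega)] at hD hl
  obtain ⟨f, hf, hf'⟩ := FF.exists_ne_zero_of_ell_pos (D := D) (by omega)
  refine ⟨D + FF.div K f, hf', by rw [map_add, FF.degree_div, hD]; ring, ?_⟩
  rw [FF.ell_add_div hf]
  omega

section Aux

variable [IsAlgClosed M] [IsAlgClosed κ] (e : Divisor K E) (he : 0 ≤ e) (hell : FF.ell K e ≤ 1)
  {d : Dv K (TF K E M)} (hd : Regular d)
  (hgen : ∀ P : KVal K (TF K E M), (∀ c, inr K E M c ∈ P.1) → ((d P : _ˣ) : TF K E M) ∈ P.1)

omit [FF.IsFunctionField K E] [IsAlgClosed M] [IsAlgClosed κ] in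
theorem exists_normalised (d : Dv K (TF K E M)) (π : KPlace K M κ) :
    ∃ c : Mˣ, d (gauss E π).ring / Units.map (inr K E M).toMonoidHom c ∈
      (gauss E π).ring.units := by
  obtain ⟨c, x, y, hx, hy, h⟩ := exists_scale_field (π := π)
    ((d (gauss E π).ring : _ˣ) : TF K E M) (Units.ne_zero _)
  refine ⟨c, KVal.mem_units_iff.mpr ⟨mem_gauss.mpr ⟨x, y, hy, ?_⟩, mem_gauss.mpr ⟨y, x, hx, ?_⟩⟩⟩
  all_goals
    have hc : inr K E M (c : M) ≠ 0 := (_root_.map_ne_zero _).mpr c.ne_zero
    have hd0 : ((d (gauss E π).ring : _ˣ) : TF K E M) ≠ 0 := Units.ne_zero _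
    simp only [Units.val_div_eq_div_val, Units.val_inv_eq_inv_val, Units.coe_map, inv_div]
    show _ / _ * _ = _
  · rw [show (inr K E M).toMonoidHom (c : M) = inr K E M (c : M) from rfl]
    field_simp
    linear_combination h
  · rw [show (inr K E M).toMonoidHom (c : M) = inr K E M (c : M) from rfl]
    field_simp
    linear_combination -h

include he hell hd hgen in
/-- A family specialising to an effective rigid divisor has no zero whose reduction avoids it. -/
theorem mem_units_of_transfer (π : KPlace K M κ)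
    (hspec : (gauss E π).Specialises d (pullE κ (divFamily e)))
    {F'' : Type u} [Field F''] [Algebra K F''] (ρ' : KPlace K (TF K E κ) F'')
    (hρ' : ∀ c, inr K E κ c ∈ ρ'.ring.1) (he1 : divFamily e (ρ'.ring.comapHom (inl K E κ)) = 1)
    (ρ : KPlace K (TF K E M) F'')
    (hl : ∀ (r : E) (h : inl K E M r ∈ ((gauss E π).comp ρ').ring.1),
      ∃ h' : inl K E M r ∈ ρ.ring.1, ρ.res ⟨_, h'⟩ = ((gauss E π).comp ρ').res ⟨_, h⟩)
    (hr : ∀ (c : M) (h : inr K E M c ∈ ((gauss E π).comp ρ').ring.1),
      ∃ h' : inr K E M c ∈ ρ.ring.1, ρ.res ⟨_, h'⟩ = ((gauss E π).comp ρ').res ⟨_, h⟩)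
    (P : KVal K (TF K E M)) (hM : ∀ c, inr K E M c ∈ P.1) (hle : ρ.ring.1 ≤ P.1) :
    d P ∈ P.units := by
  obtain ⟨c, hc⟩ := exists_normalised d π
  set cst := Units.map (inr K E M).toMonoidHom c
  set d' : Dv K (TF K E M) := d / fun _ => cst
  have hd' : Regular d' := hd.div (regular_const _)
  have hcP : ∀ Q : KVal K (TF K E M), (∀ a, inr K E M a ∈ Q.1) → cst ∈ Q.units := fun Q hQ =>
    KVal.mem_units_iff.mpr ⟨hQ _, by rw [← map_inv]; exact hQ _⟩
  have hgen' : ∀ Q : KVal K (TF K E M), (∀ a, inr K E M a ∈ Q.1) →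
      ((d' Q : _ˣ) : TF K E M) ∈ Q.1 := fun Q hQ => by
    show ((d Q / cst : _ˣ) : TF K E M) ∈ Q.1
    rw [div_eq_mul_inv, Units.val_mul]
    exact mul_mem (hgen Q hQ) (KVal.mem_units_iff.mp (hcP Q hQ)).2
  have hW : d' (gauss E π).ring ∈ (gauss E π).ring.units := hc
  have hspec' : (gauss E π).Specialises d' (pullE κ (divFamily e)) := by
    have h := hspec.div ((gauss E π).specialises_const cst)
    rwa [div_one] at h
  obtain ⟨hW1, hW2⟩ := KVal.mem_units_iff.mp hW
  let w : (gauss E π).ring.subˣ := ⟨⟨_, hW1⟩, ⟨_, hW2⟩, Subtype.ext (by simp),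
    Subtype.ext (by simp)⟩
  set k := Units.map (gauss E π).res.toMonoidHom w
  have key : ∀ V : KVal K (TF K E κ), (∀ a, inr K E κ a ∈ V.1) → ∃ a : (gauss E π).ring.subˣ,
      Units.map (gauss E π).res.toMonoidHom a / pullE κ (divFamily e) V ∈ V.units ∧
      ((a * w : (gauss E π).ring.subˣ) : (gauss E π).ring.sub).1 =
        ((d' ((gauss E π).comap V) : _ˣ) : TF K E M) ∧
      ((d' ((gauss E π).comap V) : _ˣ) : TF K E M) ∈ ((gauss E π).comap V).1 := fun V hV => by
    obtain ⟨a, ha, ha'⟩ := hspec' V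
    refine ⟨a, ha', ?_, ?_⟩
    · show ((a : (gauss E π).ring.sub) : TF K E M) * _ = _
      rw [ha]
      show ((d' _ / d' _ : _ˣ) : TF K E M) * (d' (gauss E π).ring : _ˣ) = _
      rw [← Units.val_mul, div_mul_cancel]
    · obtain ⟨t, htmem, ht⟩ := exists_mem_centre hd' ((gauss E π).comap V) π
        (fun a => (inr_mem_comap_gauss π hV a).symm) hgen' hW1
      have h1 := (KVal.mem_units_iff.mp (ht _ (centre_le _))).1
      have h2 := mul_mem h1 (centre_le _ htmem)
      rwa [← Units.val_mul, div_mul_cancel] at h2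
  have hk : ∃ c₀, (k : TF K E κ) = inr K E κ c₀ := eq_inr_of_mem e hell he fun V hV => by
    obtain ⟨a, ha, haw, hmem⟩ := key V hV
    obtain ⟨h1, h2⟩ := (gauss E π).mem_comap.mp hmem
    have h3 : (gauss E π).res ⟨_, h1⟩ =
        ((Units.map (gauss E π).res.toMonoidHom a * k : _ˣ) : TF K E κ) := by
      rw [show (⟨_, h1⟩ : (gauss E π).ring.sub) =
        ((a * w : (gauss E π).ring.subˣ) : (gauss E π).ring.sub) from Subtype.ext haw.symm,
        ← map_mul]
      rfl
    rw [h3] at h2
    have h4 := mul_mem h2 (KVal.mem_units_iff.mp (inv_mem ha)).1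
    rwa [inv_div, ← Units.val_mul, mul_comm _ k, mul_assoc, mul_div_cancel, Units.val_mul] at h4
  obtain ⟨c₀, hc₀⟩ := hk
  have hkunit : ∀ V : KVal K (TF K E κ), (∀ a, inr K E κ a ∈ V.1) → k ∈ V.units := fun V hV =>
    KVal.mem_units_iff.mpr ⟨hc₀ ▸ hV _, by
      rw [Units.val_inv_eq_inv_val, hc₀, ← map_inv₀]; exact hV _⟩
  -- the family is a unit at the composite valuation
  obtain ⟨a, ha, haw, hmem⟩ := key ρ'.ring hρ'
  rw [pullE, he1, map_one, div_one] at ha
  have hV1 : d' ((gauss E π).comp ρ').ring ∈ ((gauss E π).comp ρ').ring.units := by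
    obtain ⟨h1, -⟩ := (gauss E π).mem_comap.mp hmem
    refine (gauss E π).mem_units_comap h1 (Units.map (gauss E π).res.toMonoidHom a * k) ?_
      (mul_mem ha (hkunit _ hρ'))
    rw [← map_mul]
    exact congrArg (gauss E π).res (Subtype.ext haw)
  obtain ⟨t, htmem, ht⟩ := exists_mem_centre hd' ((gauss E π).comp ρ').ring π
    (fun a => (inr_mem_comap_gauss π hρ' a).symm) hgen' hW1
  have htunit : t ∈ ((gauss E π).comp ρ').ring.units := by
    have h := div_mem hV1 (ht _ (centre_le _))
    rwa [div_div_cancel] at h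
  have hinv : ((t⁻¹ : _ˣ) : TF K E M) ∈ centre ((gauss E π).comp ρ').ring := by
    have h := (KVal.mem_units_iff.mp htunit).2
    rw [Units.val_inv_eq_inv_val] at h ⊢
    exact inv_mem_centre htmem t.ne_zero h
  have hcP' : centre ((gauss E π).comp ρ').ring ≤ P.sub := fun z hz =>
    hle (centre_le_of_res ρ _ hl hr hz)
  have htP : t ∈ P.units := KVal.mem_units_iff.mpr ⟨hcP' htmem, hcP' hinv⟩
  have h := mul_mem (mul_mem (ht P hcP') htP) (hcP P hM)
  rwa [show d' P = d P / cst from rfl, div_mul_cancel, div_mul_cancel] at h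

end Aux

variable {L' : Type u} [Field L'] [Algebra K L'] [IsAlgClosed L'] [IsAlgClosed M]

/-- A valuation of `M` over `L'` refines to a place over a place of `L'`. -/
theorem exists_place_le (ι₀ : L' →ₐ[K] M) (πb : KPlace K L' K) {x : M}
    (hx : x ∉ ι₀.range) :
    ∃ π : KPlace K M K, x ∉ π.ring.1 ∧
      ∀ r : πb.ring.sub, ∃ h : ι₀ (r : L') ∈ π.ring.1, π.res ⟨_, h⟩ = πb.res r := by
  let _ : Algebra L' M := ι₀.toRingHom.toAlgebra
  have : IsIntegrallyClosedIn ι₀.range.toSubring M := Subring.isIntegrallyClosedIn_iff.mpr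
    fun {z} hz => by
      obtain ⟨p, hp, hpz⟩ := hz
      have hint : IsIntegral L' z := by
        choose pre hpre using fun i => (p.coeff i).2
        let q : Polynomial L' := ∑ i ∈ p.support, Polynomial.C (pre i) * Polynomial.X ^ i
        have hq : q.map (algebraMap L' M) = p.map ι₀.range.toSubring.subtype := by
          simp only [q, Polynomial.map_sum, Polynomial.map_mul, Polynomial.map_C,
            Polynomial.map_pow, Polynomial.map_X]
          conv_rhs => rw [p.as_sum_support_C_mul_X_pow]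
          simp only [Polynomial.map_sum, Polynomial.map_mul, Polynomial.map_C,
            Polynomial.map_pow, Polynomial.map_X]
          exact Finset.sum_congr rfl fun i _ => by
            rw [show (algebraMap L' M) (pre i) = ι₀.range.toSubring.subtype (p.coeff i) from hpre i]
        refine ⟨q, Polynomial.monic_of_injective (algebraMap L' M).injective
          (hq ▸ hp.map _), ?_⟩
        rw [← Polynomial.eval_map, hq, Polynomial.eval_map]
        exact hpz
      have : FiniteDimensional L' (IntermediateField.adjoin L' {z}) :=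
        IntermediateField.adjoin.finiteDimensional hint
      have hb := IntermediateField.eq_bot_of_isAlgClosed_of_isAlgebraic
        (IntermediateField.adjoin L' {z})
      obtain ⟨a, ha⟩ := IntermediateField.mem_bot.mp
        (hb ▸ IntermediateField.mem_adjoin_simple_self L' z)
      exact ⟨a, ha⟩
  obtain ⟨w, hw, hxw⟩ := Subring.exists_le_valuationSubring_of_isIntegrallyClosedIn
    (R := ι₀.range.toSubring) (x := x) hx
  let wK : KVal K M := ⟨w, fun c => hw (ι₀.range.algebraMap_mem c)⟩
  let j : πb.ring.sub →ₐ[K] IsLocalRing.ResidueField wK.sub :=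
    (IsScalarTower.toAlgHom K wK.sub (IsLocalRing.ResidueField wK.sub)).comp
      ((ι₀.comp πb.ring.sub.val).codRestrict wK.sub fun r => hw ⟨_, rfl⟩)
  have hj : Function.Injective j := fun r s h => by
    let j' : L' →ₐ[K] IsLocalRing.ResidueField wK.sub :=
      (IsScalarTower.toAlgHom K wK.sub (IsLocalRing.ResidueField wK.sub)).comp
        (ι₀.codRestrict wK.sub fun r => hw ⟨r, rfl⟩)
    exact Subtype.ext (j'.toRingHom.injective h)
  obtain ⟨π', hle, hπ'⟩ := exists_kplace (F' := K) j.range
    (πb.res.comp (AlgEquiv.ofInjective j hj).symm.toAlgHom)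
  refine ⟨(KPlace.ofRing wK).comp π', fun h => hxw ((KPlace.ofRing wK).comap_le _ h),
    fun r => ⟨(KPlace.mem_comap _).mpr ⟨hw ⟨_, rfl⟩, hle ⟨r, rfl⟩⟩, ?_⟩⟩
  rw [KPlace.comp_res]
  have h := DFunLike.congr_fun hπ' (AlgEquiv.ofInjective j hj r)
  rw [AlgHom.comp_apply, AlgHom.comp_apply, AlgEquiv.coe_toAlgHom, AlgEquiv.symm_apply_apply] at h
  exact h

omit [IsAlgClosed L'] [IsAlgClosed M] in
theorem exists_fraction_poles_at (v : Place K E) (r : E) :
    ∃ φ ψ : E, ψ ≠ 0 ∧ r = φ / ψ ∧ (∀ w : Place K E, w ≠ v → φ ∈ (kvalOf K w).1) ∧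
      (∀ w : Place K E, w ≠ v → ψ ∈ (kvalOf K w).1) := by
  classical
  rcases eq_or_ne r 0 with rfl | hr
  · exact ⟨0, 1, one_ne_zero, by simp, fun w _ => zero_mem _, fun w _ => one_mem _⟩
  set P := FF.poles K r
  let m : ℤ := Divisor.degree P + genusFF K E
  set D : Divisor K E := Finsupp.single v m - P
  have h1 := FF.riemann_inequality D
  rw [FF.ell_zero, map_sub, FiniteFlat.degree_single_one] at h1
  obtain ⟨g, hg, hg'⟩ := FF.exists_ne_zero_of_ell_pos (D := D) (by omega)
  have key : ∀ w : Place K E, w ≠ v → max 0 (-w.ord r) ≤ w.ord g := fun w hw => by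
    have := Finsupp.le_def.mp hg' w
    simp only [D, P, Finsupp.coe_zero, Pi.zero_apply, Finsupp.add_apply, Finsupp.sub_apply,
      Finsupp.single_eq_of_ne hw, FF.poles_apply, FF.div_apply] at this
    omega
  refine ⟨g * r, g, hg, by field_simp, fun w hw => ?_, fun w hw => ?_⟩
  · rw [mem_kvalOf w (mul_ne_zero hg hr), w.ord_mul hg hr]
    have := key w hw
    omega
  · rw [mem_kvalOf w hg]
    have := key w hw
    omega

/-- Rigidity. -/
theorem exists_const_of_specialises (ι₀ : L' →ₐ[K] M) (πb : KPlace K L' K) (πa : KPlace K M L')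
    (hπa : ∀ c, ∃ h : ι₀ c ∈ πa.ring.1, πa.res ⟨_, h⟩ = c) {d₀ : Dv K (TF K E M)}
    (hd₀ : Regular d₀) (hfin : (Set.range d₀).Finite)
    (h1 : ∀ π : KPlace K M K,
      (∀ r : πb.ring.sub, ∃ h : ι₀ (r : L') ∈ π.ring.1, π.res ⟨_, h⟩ = πb.res r) →
        (gauss E π).Specialises d₀ 1)
    (h2 : (gauss E πa).Specialises d₀ 1) :
    ∃ h : (TF K E M)ˣ, ∀ P : KVal K (TF K E M), (∀ c, inr K E M c ∈ P.1) →
      d₀ P / h ∈ P.units := by
  classical
  haveI := TF.isFunctionField (E := E) (K := K) M
  wlog hdeg : 0 ≤ Divisor.degree (divisorOf d₀ hfin) generalizing d₀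
  · have hfin' : (Set.range d₀⁻¹).Finite := by
      rw [show Set.range d₀⁻¹ = (fun a => a⁻¹) '' Set.range d₀ from
        Set.range_comp' (fun a => a⁻¹) d₀]
      exact hfin.image _
    obtain ⟨h, hh⟩ := this hd₀.inv hfin'
      (fun π hπ => by simpa using (h1 π hπ).inv) (by simpa using h2.inv) (by
        rw [show divisorOf d₀⁻¹ hfin' = -divisorOf d₀ hfin from Finsupp.ext fun v => by
          show v.ord (((d₀ (kvalOf K v))⁻¹ : _ˣ) : TF K E M) = -v.ord _
          rw [Units.val_inv_eq_inv_val, v.ord_inv], map_neg]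
        omega)
    refine ⟨h⁻¹, fun P hP => ?_⟩
    have := inv_mem (hh P hP)
    rwa [Pi.inv_apply, inv_div, div_inv_eq_mul, mul_comm, ← div_inv_eq_mul] at this
  obtain ⟨e, he, hedeg, hell⟩ := exists_rigid_divisor (K := K) (E := E)
  set pe := pullE M (divFamily e)
  have htop : ∀ {D : Divisor K E} (R : KVal K E), R.1 = ⊤ → divFamily D R = 1 :=
    fun R hR => divFamily_top _ hR
  have hlift : ∀ P : Place M (TF K E M), ((kvalOf K P).comapHom (inl K E M)).1 = ⊤ ∨
      ∃ v, P = liftPlace M v := fun P => by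
    by_cases h : ((kvalOf K P).comapHom (inl K E M)).1 = ⊤
    · exact Or.inl h
    · exact Or.inr ⟨placeAt _ ((kvalOf K P).comapHom (inl K E M)).2 h, eq_liftPlace P _ rfl⟩
  have hord_pe : ∀ (D : Divisor K E) (P : Place M (TF K E M)),
      ((kvalOf K P).comapHom (inl K E M)).1 = ⊤ →
      P.ord ((pullE M (divFamily D) (kvalOf K P) : _ˣ) : TF K E M) = 0 := fun D P h => by
    rw [pullE, htop _ h, map_one, Units.val_one, P.ord_one]
  -- a section of `d₀ + e`
  let D₁ : Divisor M (TF K E M) := divisorOf d₀ hfin + e.mapDomain (liftPlace M)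
  obtain ⟨f, hf, hf'⟩ := exists_effective (E := E) D₁ (by
    rw [map_add]
    have : Divisor.degree (e.mapDomain (liftPlace (K := K) M)) = Divisor.degree e := by
      rw [FF.degree_eq_sum _ (e.support.image (liftPlace M)) Finsupp.mapDomain_support,
        FF.degree_eq_sum _ e.support subset_rfl,
        Finset.sum_image fun a _ b _ h => liftPlace_injective h]
      refine Finset.sum_congr rfl fun v _ => ?_
      rw [Finsupp.mapDomain_apply liftPlace_injective, FF.deg_eq_one, FF.deg_eq_one]
    omega)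
  set fu := Units.mk0 f hf
  set d : Dv K (TF K E M) := d₀ * pe * fun _ => fu
  have hd : Regular d :=
    (hd₀.mul (regular_pullE (compatible_divFamily e))).mul (regular_const _)
  have hordd : ∀ P : Place M (TF K E M), P.ord ((d (kvalOf K P) : _ˣ) : TF K E M) =
      D₁ P + P.ord f := fun P => by
    show P.ord (((d₀ (kvalOf K P) * pe (kvalOf K P)) * fu : _ˣ) : TF K E M) = _
    rw [Units.val_mul, Units.val_mul, P.ord_mul (mul_ne_zero (Units.ne_zero _) (Units.ne_zero _))
      (Units.ne_zero _), P.ord_mul (Units.ne_zero _) (Units.ne_zero _), Units.val_mk0]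
    congr 1
    show _ = P.ord _ + e.mapDomain (liftPlace M) P
    congr 1
    rcases hlift P with h | ⟨v, rfl⟩
    · rw [hord_pe e P h, Finsupp.mapDomain_of_notMem_range]
      rintro ⟨v, rfl⟩
      rw [kvalOf_liftPlace, overPlace_comap] at h
      exact v.ne_top' h
    · rw [Finsupp.mapDomain_apply liftPlace_injective]
      exact ord_pullE_divFamily e v
  have hplace : ∀ P : KVal K (TF K E M), (∀ c, inr K E M c ∈ P.1) → P.1 ≠ ⊤ →
      ∃ Q : Place M (TF K E M), kvalOf K Q = P := fun P hP h =>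
    ⟨placeAt P hP h, rfl⟩
  have hgen : ∀ P : KVal K (TF K E M), (∀ c, inr K E M c ∈ P.1) →
      ((d P : _ˣ) : TF K E M) ∈ P.1 := fun P hP => by
    by_cases h : P.1 = ⊤
    · rw [h]; exact ValuationSubring.mem_top _
    · obtain ⟨Q, rfl⟩ := hplace P hP h
      rw [mem_kvalOf Q (Units.ne_zero _), hordd]
      exact hf' Q
  have hspec : ∀ {κ : Type u} [Field κ] [Algebra K κ] (π : KPlace K M κ),
      (gauss E π).Specialises d₀ 1 → (gauss E π).Specialises d (pullE κ (divFamily e)) :=
    fun π h => by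
      have h' := (h.mul (specialises_pullE π (e := divFamily e) htop)).mul
        ((gauss E π).specialises_const fu)
      rwa [one_mul, mul_one] at h'
  -- every zero lies over the support of `e`
  have hπaK : ∀ c : K, πa.res ⟨algebraMap K M c, πa.ring.2 c⟩ = algebraMap K L' c :=
    fun c => πa.res.commutes c
  have hzero : ∀ P : Place M (TF K E M), (∀ v, P = liftPlace M v → e v = 0) →
      P.ord ((d (kvalOf K P) : _ˣ) : TF K E M) = 0 := by
    intro P hP
    rw [← mem_units_kvalOf (K := K) P]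
    let ρP := placeEval K P
    have hρM : ∀ c, ρP.res ⟨inr K E M c, P.algebraMap_mem' c⟩ = c := placeEval_algebraMap P
    have hcomp : ∀ {κ : Type u} [Field κ] [Algebra K κ] (π : KPlace K M κ) {F'' : Type u}
        [Field F''] [Algebra K F''] (ρ' : KPlace K (TF K E κ) F'') (τ : KPlace K κ F'')
        (_ : ∀ c, ∃ h : inr K E κ c ∈ ρ'.ring.1, ∃ h' : c ∈ τ.ring.1,
          ρ'.res ⟨_, h⟩ = τ.res ⟨c, h'⟩) (c : M)
        (h : inr K E M c ∈ ((gauss E π).comp ρ').ring.1),
        ∃ h₁ : c ∈ π.ring.1, ∃ h₂ : π.res ⟨c, h₁⟩ ∈ τ.ring.1,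
          ((gauss E π).comp ρ').res ⟨_, h⟩ = τ.res ⟨_, h₂⟩ := by
      intro κ _ _ π F'' _ _ ρ' τ hτ c h
      obtain ⟨h₀, -⟩ := (gauss E π).mem_comap.mp h
      have hc : c ∈ π.ring.1 := inr_mem_iff.mp h₀
      obtain ⟨hr, hr', hr''⟩ := hτ (π.res ⟨c, hc⟩)
      refine ⟨hc, hr', ?_⟩
      rw [KPlace.comp_res, ← hr'']
      exact congrArg ρ'.res (Subtype.ext (gauss_res_inr (π := π) ⟨c, hc⟩))
    by_cases htopP : ((kvalOf K P).comapHom (inl K E M)).1 = ⊤
    · let ι : E →ₐ[K] M := ρP.res.comp ((inl K E M).codRestrict ρP.ring.sub fun r =>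
        htopP.ge (ValuationSubring.mem_top r))
      obtain ⟨vinf, hvinf⟩ := (FiniteFlat.infinite_place (K := K) (F := E)).exists_notMem_finset
        e.support
      rw [Finsupp.notMem_support_iff] at hvinf
      have hval : ∀ φ : E, (∀ w, w ≠ vinf → φ ∈ (kvalOf K w).1) → ι φ ∈ ι₀.range ∨
          d (kvalOf K P) ∈ (kvalOf K P).units := fun φ hφ => by
        refine or_iff_not_imp_left.mpr fun hne => ?_
        obtain ⟨π, hπx, hπ⟩ := exists_place_le ι₀ πb hne
        let ρ := ρP.comp π
        have hR : ρ.ring.comapHom (inl K E M) = kvalOf K vinf := by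
          have hφρ : φ ∉ (ρ.ring.comapHom (inl K E M)).1 := fun h => by
            obtain ⟨h', h''⟩ := ρP.mem_comap.mp h
            exact hπx h''
          have hne' : (ρ.ring.comapHom (inl K E M)).1 ≠ ⊤ := fun h =>
            hφρ (h ▸ ValuationSubring.mem_top _)
          have : placeAt _ (ρ.ring.comapHom (inl K E M)).2 hne' = vinf := by
            by_contra h
            exact hφρ (hφ _ h)
          rw [← this]
          rfl
        refine mem_units_of_transfer e he hell hd hgen π (hspec π (h1 π hπ))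
          (overPlace K vinf) (inr_mem_overPlace vinf) ?_ ρ ?_ ?_ _ P.algebraMap_mem'
          (ρP.comap_le _)
        · rw [overPlace_comap]
          exact divFamily_eq_one e hvinf
        · intro r h
          have hv : ((gauss E π).comp (overPlace K vinf)).ring.comapHom (inl K E M) =
              kvalOf K vinf := (comapHom_comap_gauss π _).trans (overPlace_comap vinf)
          have hrv : r ∈ (kvalOf K vinf).1 := hv ▸ h
          obtain ⟨hm, hm'⟩ := res_eq_eval ρ (inl K E M) vinf hR ⟨r, hrv⟩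
          obtain ⟨hn, hn'⟩ := res_eq_eval ((gauss E π).comp (overPlace K vinf)) (inl K E M) vinf
            hv ⟨r, hrv⟩
          exact ⟨hm, hm'.trans hn'.symm⟩
        · intro c h
          obtain ⟨hc, hc', hc''⟩ := hcomp π (overPlace K vinf)
            (KPlace.ofAlgHom (AlgHom.id K K))
            (fun a => ⟨inr_mem_overPlace vinf a, ValuationSubring.mem_top _,
              (overPlace_res_inr vinf a).trans rfl⟩) c h
          refine ⟨ρP.mem_comap.mpr ⟨P.algebraMap_mem' c, ?_⟩, ?_⟩
          · rw [hρM c]; exact hc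
          · rw [hc'', KPlace.ofAlgHom_res, AlgHom.id_apply, KPlace.comp_res]
            exact congrArg π.res (Subtype.ext (hρM c))
      by_cases hall : ∀ φ, (∀ w, w ≠ vinf → φ ∈ (kvalOf K w).1) → ι φ ∈ ι₀.range
      · have hrange : ∀ r, ι r ∈ ι₀.range := fun r => by
          obtain ⟨φ, ψ, hψ, hr, hφ', hψ'⟩ := exists_fraction_poles_at vinf r
          obtain ⟨a, ha⟩ := hall φ hφ'
          obtain ⟨b, hb⟩ := hall ψ hψ'
          refine ⟨a / b, ?_⟩
          show ι₀ (a / b) = ι r
          rw [hr, map_div₀, map_div₀]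
          exact congrArg₂ (· / ·) ha hb
        let ι' : E →ₐ[K] L' := (AlgEquiv.ofInjective ι₀ ι₀.toRingHom.injective).symm.toAlgHom.comp
          (ι.codRestrict ι₀.range hrange)
        have hι' : ∀ r, ι₀ (ι' r) = ι r := fun r => congrArg Subtype.val
          ((AlgEquiv.ofInjective ι₀ ι₀.toRingHom.injective).apply_symm_apply ⟨ι r, hrange r⟩)
        refine mem_units_of_transfer e he hell hd hgen πa (hspec πa h2) (evalPlace ι')
          (inr_mem_evalPlace ι') (htop _ (evalPlace_comap ι')) (ρP.comp πa) ?_ ?_ _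
          P.algebraMap_mem' (ρP.comap_le _)
        · intro r h
          have hr : inl K E M r ∈ ρP.ring.1 := htopP.ge (ValuationSubring.mem_top r)
          obtain ⟨h₀, h₀'⟩ := hπa (ι' r)
          have hval' : ρP.res ⟨_, hr⟩ = ι₀ (ι' r) := (hι' r).symm
          refine ⟨ρP.mem_comap.mpr ⟨hr, hval'.symm ▸ h₀⟩, ?_⟩
          rw [KPlace.comp_res, KPlace.comp_res]
          exact ((congrArg πa.res (Subtype.ext hval')).trans h₀').trans
            ((congrArg (evalPlace ι').res (Subtype.ext (gauss_res_inl (π := πa) r))).trans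
              (evalPlace_res_inl ι' r)).symm
        · intro c h
          obtain ⟨hc, hc', hc''⟩ := hcomp πa (evalPlace ι') (KPlace.ofAlgHom (AlgHom.id K L'))
            (fun a => ⟨inr_mem_evalPlace ι' a, ValuationSubring.mem_top _,
              (evalPlace_res_inr ι' a).trans rfl⟩) c h
          refine ⟨ρP.mem_comap.mpr ⟨P.algebraMap_mem' c, ?_⟩, ?_⟩
          · rw [hρM c]; exact hc
          · rw [hc'', KPlace.ofAlgHom_res, AlgHom.id_apply, KPlace.comp_res]
            exact congrArg πa.res (Subtype.ext (hρM c))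
      · push Not at hall
        obtain ⟨φ, hφ, hφ'⟩ := hall
        exact (hval φ hφ).resolve_left hφ'
    · set v := placeAt _ ((kvalOf K P).comapHom (inl K E M)).2 htopP
      have hPv : P = liftPlace M v := eq_liftPlace P v rfl
      have hev : e v = 0 := hP v hPv
      let ρ := ρP.comp πa
      have hR : ρ.ring.comapHom (inl K E M) = kvalOf K v := by
        refine Subtype.ext (SetLike.ext fun r => ?_)
        refine ⟨fun h => ρP.comap_le _ h, fun h => ?_⟩
        obtain ⟨hm, hm'⟩ := res_eq_eval ρP (inl K E M) v rfl ⟨r, h⟩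
        exact ρP.mem_comap.mpr ⟨hm, hm'.symm ▸ πa.ring.2 _⟩
      refine mem_units_of_transfer e he hell hd hgen πa (hspec πa h2)
        (overPlace L' v) (inr_mem_overPlace v) ?_ ρ ?_ ?_ _ P.algebraMap_mem' (ρP.comap_le _)
      · rw [overPlace_comap]
        exact divFamily_eq_one e hev
      · intro r h
        have hv : ((gauss E πa).comp (overPlace L' v)).ring.comapHom (inl K E M) =
            kvalOf K v := (comapHom_comap_gauss πa _).trans (overPlace_comap v)
        have hrv : r ∈ (kvalOf K v).1 := hv ▸ h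
        obtain ⟨hm, hm'⟩ := res_eq_eval ρ (inl K E M) v hR ⟨r, hrv⟩
        obtain ⟨hn, hn'⟩ := res_eq_eval ((gauss E πa).comp (overPlace L' v)) (inl K E M) v
          hv ⟨r, hrv⟩
        exact ⟨hm, hm'.trans hn'.symm⟩
      · intro c h
        obtain ⟨hc, hc', hc''⟩ := hcomp πa (overPlace L' v) (KPlace.ofAlgHom (AlgHom.id K L'))
          (fun a => ⟨inr_mem_overPlace v a, ValuationSubring.mem_top _,
            (overPlace_res_inr v a).trans rfl⟩) c h
        refine ⟨ρP.mem_comap.mpr ⟨P.algebraMap_mem' c, ?_⟩, ?_⟩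
        · rw [hρM c]; exact hc
        · rw [hc'', KPlace.ofAlgHom_res, AlgHom.id_apply, KPlace.comp_res]
          exact congrArg πa.res (Subtype.ext (hρM c))
  -- the zeros form a rigid divisor equivalent to `e`
  let G : Divisor K E := Finsupp.onFinset e.support
    (fun v => if e v = 0 then 0 else
      (liftPlace M v).ord ((d (kvalOf K (liftPlace M v)) : _ˣ) : TF K E M))
    fun v hv => Finsupp.mem_support_iff.mpr fun h => by simp [h] at hv
  have hGord : ∀ v, G v = (liftPlace M v).ord ((d (kvalOf K (liftPlace M v)) : _ˣ) : TF K E M) :=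
    fun v => by
      show (if e v = 0 then 0 else _) = _
      split
      next h => exact (hzero _ fun w hw => liftPlace_injective hw ▸ h).symm
      next => rfl
  have hG0 : 0 ≤ G := Finsupp.le_def.mpr fun v => by
    rw [hGord]
    simpa using (hordd (liftPlace M v)).symm ▸ hf' (liftPlace M v)
  set d₄ : Dv K (TF K E M) := d / pullE M (divFamily G)
  have hd₄ : Regular d₄ := hd.div (regular_pullE (compatible_divFamily G))
  have hgen₄ : ∀ P : KVal K (TF K E M), (∀ c, inr K E M c ∈ P.1) → d₄ P ∈ P.units := fun P hP => by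
    by_cases h : P.1 = ⊤
    · exact KVal.mem_units_iff.mpr ⟨by rw [h]; exact ValuationSubring.mem_top _,
        by rw [h]; exact ValuationSubring.mem_top _⟩
    · obtain ⟨Q, rfl⟩ := hplace P hP h
      rw [mem_units_kvalOf, show d₄ (kvalOf K Q) = d (kvalOf K Q) / pullE M (divFamily G) _ from rfl,
        Units.val_div_eq_div_val, FF.ord_div Q (Units.ne_zero _) (Units.ne_zero _), sub_eq_zero]
      rcases hlift Q with h' | ⟨v, rfl⟩
      · rw [hord_pe G Q h']
        refine hzero Q fun v hv => ?_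
        rw [hv, kvalOf_liftPlace, overPlace_comap] at h'
        exact absurd h' v.ne_top'
      · rw [ord_pullE_divFamily G v, hGord]
  obtain ⟨c, hc⟩ := exists_normalised d₄ πa
  set cst := Units.map (inr K E M).toMonoidHom c
  set d₅ : Dv K (TF K E M) := d₄ / fun _ => cst
  have hd₅ : Regular d₅ := hd₄.div (regular_const _)
  have hgen₅ : ∀ P : KVal K (TF K E M), (∀ a, inr K E M a ∈ P.1) → d₅ P ∈ P.units := fun P hP =>
    div_mem (hgen₄ P hP) (KVal.mem_units_iff.mpr ⟨hP _, by rw [← map_inv]; exact hP _⟩)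
  obtain ⟨hW1, hW2⟩ := KVal.mem_units_iff.mp (show d₅ _ ∈ (gauss E πa).ring.units from hc)
  have hspec₅ : (gauss E πa).Specialises d₅
      (pullE L' (divFamily e) / pullE L' (divFamily G)) := by
    have h := (((hspec πa h2).div (specialises_pullE πa (e := divFamily G) htop))).div
      ((gauss E πa).specialises_const cst)
    rwa [div_one] at h
  let w : (gauss E πa).ring.subˣ := ⟨⟨_, hW1⟩, ⟨_, hW2⟩, Subtype.ext (by simp),
    Subtype.ext (by simp)⟩
  set k := Units.map (gauss E πa).res.toMonoidHom w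
  have key : ∀ V : KVal K (TF K E L'), (∀ a, inr K E L' a ∈ V.1) →
      pullE L' (divFamily e) V / pullE L' (divFamily G) V * k ∈ V.units := fun V hV => by
    obtain ⟨a, ha, ha'⟩ := hspec₅ V
    have hu : ∀ x : M, x ∈ πa.ring.1 ↔ inr K E M x ∈ ((gauss E πa).comap V).1 :=
      fun x => (inr_mem_comap_gauss πa hV x).symm
    obtain ⟨t, htmem, ht⟩ := exists_mem_centre hd₅ _ πa hu
      (fun P hP => (KVal.mem_units_iff.mp (hgen₅ P hP)).1) hW1
    obtain ⟨s, hsmem, hs⟩ := exists_mem_centre hd₅.inv _ πa hu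
      (fun P hP => (KVal.mem_units_iff.mp (hgen₅ P hP)).2) hW2
    have hunit : d₅ ((gauss E πa).comap V) ∈ ((gauss E πa).comap V).units := by
      refine KVal.mem_units_iff.mpr ⟨?_, ?_⟩
      · have h := mul_mem (KVal.mem_units_iff.mp (ht _ (centre_le _))).1 (centre_le _ htmem)
        rwa [← Units.val_mul, div_mul_cancel] at h
      · have h := mul_mem (KVal.mem_units_iff.mp (hs _ (centre_le _))).1 (centre_le _ hsmem)
        rwa [← Units.val_mul, div_mul_cancel] at h
    obtain ⟨h1', h2'⟩ := KVal.mem_units_iff.mp hunit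
    have haw : ((a * w : (gauss E πa).ring.subˣ) : (gauss E πa).ring.sub).1 =
        ((d₅ ((gauss E πa).comap V) : _ˣ) : TF K E M) := by
      show ((a : (gauss E πa).ring.sub) : TF K E M) * _ = _
      rw [ha]
      show ((d₅ _ / d₅ _ : _ˣ) : TF K E M) * (d₅ (gauss E πa).ring : _ˣ) = _
      rw [← Units.val_mul, div_mul_cancel]
    have hres : Units.map (gauss E πa).res.toMonoidHom (a * w) ∈ V.units := by
      refine KVal.mem_units_iff.mpr ⟨?_, ?_⟩
      · obtain ⟨h₀, h₁⟩ := (gauss E πa).mem_comap.mp h1'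
        convert h₁ using 1
        exact congrArg (gauss E πa).res (Subtype.ext haw)
      · obtain ⟨h₀, h₁⟩ := (gauss E πa).mem_comap.mp h2'
        rw [← map_inv]
        convert h₁ using 1
        refine congrArg (gauss E πa).res (Subtype.ext ?_)
        have h3 : ((((a * w)⁻¹ : (gauss E πa).ring.subˣ) : (gauss E πa).ring.sub) : TF K E M) *
            ((a * w : (gauss E πa).ring.subˣ) : (gauss E πa).ring.sub).1 = 1 := by
          rw [← MulMemClass.coe_mul, Units.inv_mul, OneMemClass.coe_one]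
        exact (eq_inv_of_mul_eq_one_left h3).trans
          ((congrArg (·⁻¹) haw).trans (Units.val_inv_eq_inv_val _).symm)
    have hmul := div_mem hres ha'
    rwa [map_mul, Pi.div_apply, ← div_mul, mul_div_cancel_left, mul_comm] at hmul
  obtain ⟨c₀, hc₀⟩ := eq_inr_of_mem e hell he (s := (k : TF K E L')) fun V hV => by
    obtain ⟨h1', -⟩ := KVal.mem_units_iff.mp (key V hV)
    have hG1 : ((pullE L' (divFamily G) V : _ˣ) : TF K E L') ∈ V.1 := by
      by_cases h : V.1 = ⊤
      · rw [h]; exact ValuationSubring.mem_top _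
      · haveI := TF.isFunctionField (E := E) (K := K) L'
        let Q := placeAt V hV h
        rw [show V = kvalOf K Q from rfl, mem_kvalOf Q (Units.ne_zero _)]
        by_cases h' : ((kvalOf K Q).comapHom (inl K E L')).1 = ⊤
        · rw [pullE, htop _ h', map_one, Units.val_one, Q.ord_one]
        · rw [eq_liftPlace Q (placeAt _ ((kvalOf K Q).comapHom (inl K E L')).2 h') rfl,
            ord_pullE_divFamily]
          exact Finsupp.le_def.mp hG0 _
    have := mul_mem h1' hG1
    rwa [← Units.val_mul, mul_right_comm, div_mul_cancel, mul_comm, Units.val_mul] at this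
  have hGe : G = e := Finsupp.ext fun v => by
    haveI := TF.isFunctionField (E := E) (K := K) L'
    have h := key _ (inr_mem_overPlace (M := L') v)
    rw [← kvalOf_liftPlace, mem_units_kvalOf, Units.val_mul, Units.val_div_eq_div_val,
      (liftPlace L' v).ord_mul (div_ne_zero (Units.ne_zero _) (Units.ne_zero _)) (Units.ne_zero _),
      FF.ord_div _ (Units.ne_zero _) (Units.ne_zero _), ord_pullE_divFamily, ord_pullE_divFamily,
      hc₀] at h
    rw [show inr K E L' c₀ = algebraMap L' (TF K E L') c₀ from rfl, FF.ord_algebraMap] at h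
    omega
  refine ⟨fu⁻¹, fun P hP => ?_⟩
  have h := hgen₄ P hP
  rw [show d₄ P = d₀ P * pe P * fu / pullE M (divFamily G) P from rfl, hGe, mul_right_comm,
    mul_div_assoc, div_self', mul_one] at h
  rwa [div_inv_eq_mul]

end Fermat.Agent.Tors
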