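import Fermat.Agent.Tors.CubeWire
import Fermat.Agent.Tors.Rigidity

/-!
# Rigidity of the cube class on the generic fibre (`S26`)
-/

set_option autoImplicit false

noncomputable section

universe u

open AlgebraicCurve

namespace Fermat.Agent.Tors

open TF

variable {K : Type u} [Field K] (Φ : ClassFunctor K) {F : Type u} [Field F] [Algebra K F]

theorem ClassFunctor.cube_zero_snd (P R : Φ.Pt F) : Φ.cube P 0 R = 1 := by
  simp [cube, bil, Φ.q_zero]

theorem ClassFunctor.cube_zero_thd (P Q : Φ.Pt F) : Φ.cube P Q 0 = 1 := by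
  simp [cube, bil, Φ.q_zero]

theorem finite_range_div {d e : Dv K F} (hd : (Set.range d).Finite) (he : (Set.range e).Finite) :
    (Set.range (d / e)).Finite :=
  (hd.image2 (fun a b => a / b) he).subset (by
    rintro _ ⟨V, rfl⟩
    exact ⟨_, ⟨V, rfl⟩, _, ⟨V, rfl⟩, rfl⟩)

theorem finite_range_mul {d e : Dv K F} (hd : (Set.range d).Finite) (he : (Set.range e).Finite) :
    (Set.range (d * e)).Finite :=
  (hd.image2 (fun a b => a * b) he).subset (by
    rintro _ ⟨V, rfl⟩
    exact ⟨_, ⟨V, rfl⟩, _, ⟨V, rfl⟩, rfl⟩)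

theorem ClassFunctor.cube_finite (P Q R : Φ.Pt F) : (Set.range (Φ.cube P Q R)).Finite := by
  have hb : ∀ P Q : Φ.Pt F, (Set.range (Φ.bil P Q)).Finite := fun P Q =>
    finite_range_div (Φ.q_finite _) (finite_range_mul (Φ.q_finite _) (Φ.q_finite _))
  exact finite_range_div (hb _ _) (finite_range_mul (hb _ _) (hb _ _))

variable [IsAlgClosed K]

theorem ClassFunctor.red_gauss_inl {E M κ : Type u} [Field E] [Algebra K E] [Field M] [Algebra K M]
    [Field κ] [Algebra K κ] (π : KPlace K M κ) (ψ : Φ.Pt E) :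
    Φ.red (gauss E π) (Φ.map (inl K E M) ψ) = Φ.map (inl K E κ) ψ :=
  Φ.red_map_of_factor (gauss E π) (inl K E M) (inl K E κ) Tors.inl_mem
    (gauss_res_inl (π := π)) ψ

theorem ClassFunctor.red_gauss_inr {E M κ : Type u} [Field E] [Algebra K E] [Field M] [Algebra K M]
    [Field κ] [Algebra K κ] (π : KPlace K M κ) (a : Φ.Pt M) :
    Φ.red (gauss E π) (Φ.map (inr K E M) a) = Φ.map (inr K E κ) (Φ.red π a) :=
  Φ.red_map_hom π (gauss E π) (inr K E M) (inr K E κ) (fun r => Tors.inr_mem r)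
    (fun r => gauss_res_inr (π := π) r) a

theorem genericRigidity : GenericRigidity Φ := by
  intro E M L' _ _ _ _ _ _ _ _ _ ι₀ πb πa hι x₀ ψ hψ a b ha hb
  refine exists_const_of_specialises ι₀ πb πa hι (regular_cube Φ ψ a (Φ.map ι₀ b))
    (Φ.cube_finite _ _ _) (fun π hπ => ?_) ?_
  · have h := Φ.specialises_cube (gauss E π) (Φ.map (inl K E M) ψ) (Φ.map (inr K E M) a)
      (Φ.map (inr K E M) (Φ.map ι₀ b))
    have hr : Φ.red π (Φ.map ι₀ b) = 0 := by
      rw [Φ.red_map_hom πb π ι₀ (AlgHom.id K K) (fun r => (hπ r).1) (fun r => (hπ r).2), hb,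
        map_zero]
    rwa [Φ.red_gauss_inr π (Φ.map ι₀ b), hr, map_zero, Φ.cube_zero_thd] at h
  · have h := Φ.specialises_cube (gauss E πa) (Φ.map (inl K E M) ψ) (Φ.map (inr K E M) a)
      (Φ.map (inr K E M) (Φ.map ι₀ b))
    rwa [Φ.red_gauss_inr πa a, ha, map_zero, Φ.cube_zero_snd] at h

end Fermat.Agent.Tors
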