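import Fermat.Agent.Tors.Place
import Mathlib.FieldTheory.Normal.Basic
import Mathlib.FieldTheory.Relrank

/-!
# Pullback and descent of classes along field homomorphisms (`S26`)
-/

set_option autoImplicit false

noncomputable section

universe u

open Polynomial

namespace Fermat.Agent.Tors

variable {K : Type u} [Field K] {F F' : Type u} [Field F] [Algebra K F] [Field F'] [Algebra K F']

/-- Equality of families up to units and constant families. -/
abbrev Dv.cls (K : Type u) [Field K] (F : Type u) [Field F] [Algebra K F] :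
    Dv K F →* Dv K F ⧸ principal K F :=
  QuotientGroup.mk' (principal K F)

/-- The pullback of families along an embedding. -/
def Dv.pull (ι : F →ₐ[K] F') : Dv K F →* Dv K F' where
  toFun d V := Units.map ι.toRingHom.toMonoidHom (d (V.comapHom ι))
  map_one' := funext fun _ => map_one _
  map_mul' _ _ := funext fun _ => map_mul _ _ _

theorem Dv.pull_apply (ι : F →ₐ[K] F') (d : Dv K F) (V : KVal K F') :
    Dv.pull ι d V = Units.map ι.toRingHom.toMonoidHom (d (V.comapHom ι)) := rfl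

theorem KVal.mem_units_comapHom {ι : F →ₐ[K] F'} {V : KVal K F'} {a : Fˣ} :
    a ∈ (V.comapHom ι).units ↔ Units.map ι.toRingHom.toMonoidHom a ∈ V.units := by
  rw [KVal.mem_units_iff, KVal.mem_units_iff, ← map_inv]
  rfl

theorem Dv.pull_mem_principal (ι : F →ₐ[K] F') {d : Dv K F} (h : d ∈ principal K F) :
    Dv.pull ι d ∈ principal K F' := by
  obtain ⟨k, hk⟩ := h
  refine ⟨Units.map ι.toRingHom.toMonoidHom k, fun V => ?_⟩
  rw [Dv.pull_apply, ← _root_.map_div]
  exact KVal.mem_units_comapHom.mp (hk _)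

theorem Dv.cls_pull_congr (ι : F →ₐ[K] F') {a b : Dv K F} (h : Dv.cls K F a = Dv.cls K F b) :
    Dv.cls K F' (Dv.pull ι a) = Dv.cls K F' (Dv.pull ι b) := by
  have h' := (QuotientGroup.eq_iff_div_mem (N := principal K F)).mp h
  refine (QuotientGroup.eq_iff_div_mem (N := principal K F')).mpr ?_
  rw [← _root_.map_div]
  exact Dv.pull_mem_principal ι h'

namespace ClassFunctor

variable (Φ : ClassFunctor K)

theorem red_ofAlgHom (ι : F →ₐ[K] F') (P : Φ.Pt F) :
    Φ.red (KPlace.ofAlgHom ι) P = Φ.map ι P := by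
  obtain ⟨Q, rfl⟩ := (Φ.bijective_map_val (KPlace.ofAlgHom ι).ring).2 P
  rw [red_map, ← Φ.map_comp]
  rfl

/-- The class is compatible with embeddings. -/
theorem cls_q_map (ι : F →ₐ[K] F') (P : Φ.Pt F) :
    Dv.cls K F' (Φ.q (Φ.map ι P)) = Dv.cls K F' (Dv.pull ι (Φ.q P)) := by
  refine (QuotientGroup.eq_iff_div_mem (N := principal K F')).mpr ?_
  set π := KPlace.ofAlgHom ι
  set c := Units.map ι.toRingHom.toMonoidHom (Φ.q P π.ring)
  refine ⟨c⁻¹, fun V => ?_⟩
  have h := Φ.specialises_q π P V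
  rw [red_ofAlgHom, KPlace.comap_ofAlgHom] at h
  obtain ⟨a, ha, ha'⟩ := h
  have h1 : Units.map π.res.toMonoidHom a =
      Dv.pull ι (Φ.q P) V / c := by
    refine Units.ext ?_
    rw [Dv.pull_apply, ← _root_.map_div]
    exact (KPlace.ofAlgHom_res ι a).trans (congrArg ι ha)
  rw [h1] at ha'
  have h2 : (Φ.q (Φ.map ι P) / Dv.pull ι (Φ.q P)) V / c⁻¹ =
      (Dv.pull ι (Φ.q P) V / c / Φ.q (Φ.map ι P) V)⁻¹ := by
    rw [Pi.div_apply, inv_div, div_div_eq_mul_div, div_inv_eq_mul, div_mul_eq_mul_div]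
  rw [h2]
  exact inv_mem ha'

end ClassFunctor

/-- Valuation subrings extend along embeddings. -/
theorem KVal.exists_comapHom_eq (ι : F →ₐ[K] F') (V₀ : KVal K F) :
    ∃ V : KVal K F', V.comapHom ι = V₀ := by
  obtain ⟨B, hle, hloc⟩ := (V₀.1.toLocalSubring.map ι.toRingHom).exists_le_valuationSubring
  have hmem : ∀ x : F, x ∈ V₀.1 → ι x ∈ B := fun x hx => hle ⟨x, hx, rfl⟩
  refine ⟨⟨B, fun c => ?_⟩, ?_⟩
  · rw [← ι.commutes c]; exact hmem _ (V₀.2 c)
  apply Subtype.ext
  ext x
  rw [KVal.mem_comapHom]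
  refine ⟨fun hx => ?_, hmem x⟩
  by_contra hx₀
  have hx0 : x ≠ 0 := fun h => hx₀ (h ▸ zero_mem _)
  have hinv := (V₀.1.mem_or_inv_mem x).resolve_left hx₀
  have hu : IsUnit (Subring.inclusion hle ⟨ι x⁻¹, x⁻¹, hinv, rfl⟩) :=
    isUnit_iff_exists_inv.mpr ⟨⟨ι x, hx⟩, Subtype.ext (by
      show ι x⁻¹ * ι x = 1
      rw [← map_mul, inv_mul_cancel₀ hx0, map_one])⟩
  obtain ⟨⟨_, y, hy, rfl⟩, hy'⟩ := isUnit_iff_exists_inv.mp (hloc.map_nonunit _ hu)
  have hy'' : x⁻¹ * y = 1 := ι.injective (by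
    rw [map_mul, map_one]; exact congrArg Subtype.val hy')
  rw [inv_mul_eq_one₀ hx0] at hy''
  exact hx₀ (hy'' ▸ hy)

/-- A family which becomes principal in a normal extension has a principal multiple. -/
theorem exists_pow_mem_principal {Ω : Type u} [Field Ω] [Algebra F Ω] [Algebra K Ω]
    [IsScalarTower K F Ω] [Normal F Ω] {e : Dv K F}
    (h : Dv.pull (IsScalarTower.toAlgHom K F Ω) e ∈ principal K Ω)
    (hsplit : ∀ p : F[X], (p.map (algebraMap F Ω)).Splits) :
    ∃ N : ℕ, 0 < N ∧ e ^ N ∈ principal K F := by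
  obtain ⟨k, hk⟩ := h
  set ι := IsScalarTower.toAlgHom K F Ω
  have hint : IsIntegral F (k : Ω) := Algebra.IsIntegral.isIntegral _
  set p := minpoly F (k : Ω)
  have ha0 : p.coeff 0 ≠ 0 := minpoly.coeff_zero_ne_zero hint k.ne_zero
  set q := p.map (algebraMap F Ω)
  have hmonic : q.Monic := (minpoly.monic hint).map _
  refine ⟨p.natDegree, minpoly.natDegree_pos hint, Units.mk0 _ ha0, fun V₀ => ?_⟩
  obtain ⟨V, rfl⟩ := KVal.exists_comapHom_eq ι V₀
  set c : Ω := ι (e (V.comapHom ι) : F)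
  have hroot : ∀ r ∈ q.roots, c / r ∈ V.1 ∧ r / c ∈ V.1 := fun r hr => by
    rw [mem_roots hmonic.ne_zero, IsRoot, eval_map] at hr
    obtain ⟨τ, hτ⟩ := minpoly.exists_algEquiv_of_root' hint.isAlgebraic
      (show Polynomial.aeval r p = 0 from hr)
    let τK : Ω →ₐ[K] Ω := (τ : Ω →ₐ[F] Ω).restrictScalars K
    have hcomp : (V.comapHom τK).comapHom ι = V.comapHom ι := by
      apply Subtype.ext
      ext x
      simp only [KVal.mem_comapHom]
      rw [show τK (ι x) = ι x from τ.commutes x]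
    obtain ⟨h1, h2⟩ := KVal.mem_units_iff.mp (hk (V.comapHom τK))
    rw [KVal.mem_comapHom, Dv.pull_apply, hcomp, Units.val_div_eq_div_val, map_div₀] at h1
    rw [KVal.mem_comapHom, Dv.pull_apply, hcomp, inv_div, Units.val_div_eq_div_val,
      map_div₀] at h2
    have hc : τK c = c := τ.commutes _
    have hr' : τK (k : Ω) = r := hτ
    exact ⟨by rw [← hc, ← hr']; exact h1, by rw [← hc, ← hr']; exact h2⟩
  have hprod : ∀ s : Multiset Ω, (∀ r ∈ s, c / r ∈ V.1 ∧ r / c ∈ V.1) →
      c ^ Multiset.card s / s.prod ∈ V.1 ∧ s.prod / c ^ Multiset.card s ∈ V.1 := fun s => by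
    induction s using Multiset.induction with
    | empty => intro; simp
    | cons a s ih =>
      intro hs
      obtain ⟨h1, h2⟩ := ih fun r hr => hs r (Multiset.mem_cons_of_mem hr)
      obtain ⟨h3, h4⟩ := hs a (Multiset.mem_cons_self a s)
      rw [Multiset.card_cons, Multiset.prod_cons, pow_succ', ← div_mul_div_comm,
        ← div_mul_div_comm]
      exact ⟨mul_mem h3 h1, mul_mem h4 h2⟩
  obtain ⟨h1, h2⟩ := hprod _ hroot
  have hcard : Multiset.card q.roots = p.natDegree := by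
    rw [← (hsplit p).natDegree_eq_card_roots, natDegree_map]
  have hcoeff : ι (p.coeff 0) = (-1) ^ p.natDegree * q.roots.prod := by
    show algebraMap F Ω (p.coeff 0) = _
    rw [← coeff_map, (hsplit p).coeff_zero_eq_prod_roots_of_monic hmonic, natDegree_map]
  rw [hcard] at h1 h2
  have hneg : (-1 : Ω) ^ p.natDegree ∈ V.1 := pow_mem (neg_mem (one_mem _)) _
  have hneg' : ((-1 : Ω) ^ p.natDegree)⁻¹ ∈ V.1 := by
    rw [← inv_pow, inv_neg, inv_one]; exact hneg
  rw [KVal.mem_units_iff, KVal.mem_comapHom, KVal.mem_comapHom, inv_div, Pi.pow_apply]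
  simp only [Units.val_div_eq_div_val, Units.val_pow_eq_pow_val, Units.val_mk0, map_div₀,
    map_pow, hcoeff]
  refine ⟨?_, ?_⟩
  · rw [div_mul_eq_div_div, div_right_comm, div_eq_mul_inv (c ^ p.natDegree / _)]
    exact mul_mem h1 hneg'
  · rw [mul_div_assoc]
    exact mul_mem hneg h2

/-- The degree of a composite of endomorphisms. -/
theorem finrank_fieldRange_comp (σ τ : F →ₐ[K] F) :
    Module.finrank (σ.comp τ).fieldRange F =
      Module.finrank τ.fieldRange F * Module.finrank σ.fieldRange F := by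
  have h1 : (σ.comp τ).fieldRange = τ.fieldRange.map σ := (τ.map_fieldRange σ).symm
  have h2 : σ.fieldRange = (⊤ : IntermediateField K F).map σ := (AlgHom.fieldRange_eq_map σ)
  rw [← IntermediateField.relfinrank_top_right (A := τ.fieldRange),
    ← IntermediateField.relfinrank_map_map τ.fieldRange ⊤ σ, ← h1, ← h2,
    IntermediateField.relfinrank_mul_finrank_top]
  rw [h1, h2]
  exact IntermediateField.map_mono σ le_top

end Fermat.Agent.Tors
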