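import Fermat.Agent.Tors.SmoothStalk

/-!
# The function field, regular functions at points, and their values at local points (`S26`)
-/

set_option autoImplicit false

noncomputable section

universe u

open CategoryTheory AlgebraicGeometry TopologicalSpace NeronModelInfra GoodReductionJacobian

namespace Fermat.Agent.Tors

variable {K : Type u} [Field K] {A : Scheme.{u}} [IsIntegral A]
  (f : A ⟶ Spec (CommRingCat.of K))

/-- The function field of `A`, as an algebra over the constants through `f`. -/
def funField (f : A ⟶ Spec (CommRingCat.of K)) : Type u :=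
  let _ := f
  A.functionField

instance : Field (funField f) := inferInstanceAs (Field A.functionField)

instance : Algebra K (funField f) := stalkAlgebra f (genericPoint A)

/-- Regular functions at a point, inside the function field. -/
def toFun0 (x : A) : A.presheaf.stalk x →+* funField f :=
  (A.presheaf.stalkSpecializes ((genericPoint_spec A).specializes trivial)).hom

theorem toFun0_injective (x : A) : Function.Injective (toFun0 f x) :=
  IsFractionRing.injective (A.presheaf.stalk x) A.functionField

theorem toFun0_stalkSpecializes {x y : A} (h : x ⤳ y) (s : A.presheaf.stalk y) :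
    toFun0 f x (A.presheaf.stalkSpecializes h s) = toFun0 f y s :=
  congrFun (congrArg DFunLike.coe (congrArg CommRingCat.Hom.hom
    (A.presheaf.stalkSpecializes_comp ((genericPoint_spec A).specializes trivial) h))) s

theorem toFun0_germ {U : A.Opens} [Nonempty U] {x : A} (hx : x ∈ U) (s : Γ(A, U)) :
    toFun0 f x (A.presheaf.germ U x hx s) = A.germToFunctionField U s :=
  A.presheaf.germ_stalkSpecializes_apply _ _ _

theorem toFun0_genericPoint (s : A.presheaf.stalk (genericPoint A)) :
    toFun0 f (genericPoint A) s = s := by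
  show A.presheaf.stalkSpecializes _ s = s
  rw [show A.presheaf.stalkSpecializes ((genericPoint_spec A).specializes trivial) = 𝟙 _ from
    TopCat.Presheaf.stalk_hom_ext _ fun U hU => by simp]
  rfl

/-- The ring of functions regular at `x`. -/
def regAt (x : A) : Subring (funField f) := (toFun0 f x).range

theorem regAt_mono {x y : A} (h : x ⤳ y) : regAt f y ≤ regAt f x := by
  rintro _ ⟨s, rfl⟩
  exact ⟨A.presheaf.stalkSpecializes h s, toFun0_stalkSpecializes f h s⟩

theorem regAt_genericPoint (a : funField f) : a ∈ regAt f (genericPoint A) :=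
  ⟨a, toFun0_genericPoint f a⟩

/-- Functions regular at a point are regular nearby. -/
theorem eventually_mem_regAt {x : A} {a : funField f} (ha : a ∈ regAt f x) :
    ∃ U : A.Opens, x ∈ U ∧ ∀ y ∈ U, a ∈ regAt f y := by
  obtain ⟨s, rfl⟩ := ha
  obtain ⟨U, hxU, s, rfl⟩ := A.presheaf.exists_germ_eq s
  have : Nonempty U := ⟨⟨x, hxU⟩⟩
  exact ⟨U, hxU, fun y hy => ⟨A.presheaf.germ U y hy s, by rw [toFun0_germ, toFun0_germ]⟩⟩

theorem algebraMap_mem_regAt (x : A) (r : K) : algebraMap K (funField f) r ∈ regAt f x :=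
  ⟨A.presheaf.germ ⊤ x trivial (constSec f ⊤ r),
    (A.presheaf.germ_stalkSpecializes_apply _ _ _).trans rfl⟩

/-- Functions invertible at `x`. -/
def unitsAt (x : A) : Subgroup (funField f)ˣ :=
  (Units.map (toFun0 f x).toMonoidHom).range

theorem mem_unitsAt_iff {x : A} {a : (funField f)ˣ} :
    a ∈ unitsAt f x ↔ (a : funField f) ∈ regAt f x ∧ ((a⁻¹ : (funField f)ˣ) : funField f) ∈ regAt f x := by
  constructor
  · rintro ⟨s, rfl⟩
    exact ⟨⟨s, rfl⟩, ⟨(s⁻¹ : (A.presheaf.stalk x)ˣ), by rw [← map_inv]; rfl⟩⟩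
  · rintro ⟨⟨s, hs⟩, ⟨t, ht⟩⟩
    refine ⟨⟨s, t, toFun0_injective f x ?_, toFun0_injective f x ?_⟩, Units.ext hs⟩
    · rw [map_mul, hs, ht, map_one, ← Units.val_mul, mul_inv_cancel, Units.val_one]
    · rw [map_mul, hs, ht, map_one, ← Units.val_mul, inv_mul_cancel, Units.val_one]

theorem unitsAt_mono {x y : A} (h : x ⤳ y) : unitsAt f y ≤ unitsAt f x := fun _ ha =>
  (mem_unitsAt_iff f).mpr ⟨regAt_mono f h ((mem_unitsAt_iff f).mp ha).1,
    regAt_mono f h ((mem_unitsAt_iff f).mp ha).2⟩

theorem unitsAt_genericPoint (a : (funField f)ˣ) : a ∈ unitsAt f (genericPoint A) :=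
  (mem_unitsAt_iff f).mpr ⟨regAt_genericPoint f _, regAt_genericPoint f _⟩

theorem eventually_mem_unitsAt {x : A} {a : (funField f)ˣ} (ha : a ∈ unitsAt f x) :
    ∃ U : A.Opens, x ∈ U ∧ ∀ y ∈ U, a ∈ unitsAt f y := by
  obtain ⟨U, hxU, hU⟩ := eventually_mem_regAt f ((mem_unitsAt_iff f).mp ha).1
  obtain ⟨V, hxV, hV⟩ := eventually_mem_regAt f ((mem_unitsAt_iff f).mp ha).2
  exact ⟨U ⊓ V, ⟨hxU, hxV⟩, fun y hy => (mem_unitsAt_iff f).mpr ⟨hU y hy.1, hV y hy.2⟩⟩

section LocalPoint

variable {R : Type u} [CommRing R] [IsLocalRing R] (P : Spec (CommRingCat.of R) ⟶ A)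

/-- The centre of a local point. -/
abbrev ptCentre : A := P (IsLocalRing.closedPoint (CommRingCat.of R))

/-- Evaluation of functions regular at a specialisation of the centre. -/
def germAt {a : A} (h : ptCentre P ⤳ a) : A.presheaf.stalk a →+* R :=
  (A.presheaf.stalkSpecializes h ≫ Scheme.stalkClosedPointTo P).hom

omit [IsIntegral A] in
theorem SpecMap_germAt {a : A} (h : ptCentre P ⤳ a) :
    Spec.map (CommRingCat.ofHom (germAt P h)) ≫ A.fromSpecStalk a = P := by
  show Spec.map (A.presheaf.stalkSpecializes h ≫ Scheme.stalkClosedPointTo P) ≫ _ = P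
  rw [Spec.map_comp, Category.assoc, Scheme.SpecMap_stalkSpecializes_fromSpecStalk]
  exact Scheme.Spec_stalkClosedPointTo_fromSpecStalk P


omit [IsIntegral A] in
theorem germAt_unique {a : A} (h : ptCentre P ⤳ a) {φ : A.presheaf.stalk a →+* R}
    (hφ : Spec.map (CommRingCat.ofHom φ) ≫ A.fromSpecStalk a = P) : φ = germAt P h := by
  have h1 := (cancel_mono _).mp (hφ.trans (SpecMap_germAt P h).symm)
  exact congrArg CommRingCat.Hom.hom (Spec.map_injective h1)

omit [IsIntegral A] in
theorem germAt_trans {a b : A} (h : ptCentre P ⤳ b) (h' : b ⤳ a) :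
    germAt P (h.trans h') = (germAt P h).comp (A.presheaf.stalkSpecializes h').hom := by
  refine (germAt_unique _ _ ?_).symm
  rw [CommRingCat.ofHom_comp, Spec.map_comp, Category.assoc, CommRingCat.ofHom_hom,
    Scheme.SpecMap_stalkSpecializes_fromSpecStalk, SpecMap_germAt]

omit [IsIntegral A] in
instance isLocalHom_germAt_centre : IsLocalHom (germAt P (specializes_refl (ptCentre P))) := by
  have : germAt P (specializes_refl (ptCentre P)) = (Scheme.stalkClosedPointTo P).hom := by
    show (_ ≫ Scheme.stalkClosedPointTo P).hom = _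
    rw [show A.presheaf.stalkSpecializes (specializes_refl (ptCentre P)) = 𝟙 _ from
      TopCat.Presheaf.stalk_hom_ext _ fun U hU => by simp]
    rfl
  rw [this]
  exact Scheme.isLocalHom_stalkClosedPointTo' P

open Classical in
/-- The value at a local point of a function invertible at its centre. -/
def evalU (a : (funField f)ˣ) : Rˣ :=
  if h : a ∈ unitsAt f (ptCentre P) then
    Units.map (germAt P (specializes_refl _)).toMonoidHom h.choose
  else 1

theorem evalU_eq {x : A} (h : ptCentre P ⤳ x) {a : (funField f)ˣ} {s : (A.presheaf.stalk x)ˣ}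
    (hs : Units.map (toFun0 f x).toMonoidHom s = a) :
    evalU f P a = Units.map (germAt P h).toMonoidHom s := by
  have hc : a ∈ unitsAt f (ptCentre P) := unitsAt_mono f h ⟨s, hs⟩
  rw [evalU, dif_pos hc]
  refine Units.ext ?_
  show germAt P (specializes_refl _) (hc.choose : A.presheaf.stalk (ptCentre P)) = germAt P h s
  have hχ : (hc.choose : A.presheaf.stalk (ptCentre P)) = A.presheaf.stalkSpecializes h s.1 := by
    refine toFun0_injective f _ ?_
    rw [toFun0_stalkSpecializes]
    exact (congrArg Units.val hc.choose_spec).trans (congrArg Units.val hs).symm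
  rw [hχ]
  exact (RingHom.congr_fun (germAt_trans P (specializes_refl _) h) s.1).symm

theorem evalU_mul {a b : (funField f)ˣ} (ha : a ∈ unitsAt f (ptCentre P))
    (hb : b ∈ unitsAt f (ptCentre P)) : evalU f P (a * b) = evalU f P a * evalU f P b := by
  obtain ⟨s, hs⟩ := ha
  obtain ⟨t, ht⟩ := hb
  rw [evalU_eq f P (specializes_refl _) hs, evalU_eq f P (specializes_refl _) ht,
    evalU_eq f P (specializes_refl _) (s := s * t) (by rw [map_mul, hs, ht]), map_mul]

theorem evalU_one : evalU f P 1 = 1 := by
  rw [evalU_eq f P (specializes_refl _) (s := 1) (by simp), map_one]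

theorem evalU_inv {a : (funField f)ˣ} (ha : a ∈ unitsAt f (ptCentre P)) :
    evalU f P a⁻¹ = (evalU f P a)⁻¹ := by
  refine eq_inv_of_mul_eq_one_left ?_
  rw [← evalU_mul f P (inv_mem ha) ha, inv_mul_cancel, evalU_one]

theorem evalU_div {a b : (funField f)ˣ} (ha : a ∈ unitsAt f (ptCentre P))
    (hb : b ∈ unitsAt f (ptCentre P)) : evalU f P (a / b) = evalU f P a / evalU f P b := by
  rw [div_eq_mul_inv, evalU_mul f P ha (inv_mem hb), evalU_inv f P hb, div_eq_mul_inv]

variable {S : Type u} [CommRing S] [IsLocalRing S] (φ : R →+* S)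

omit [IsIntegral A] in
theorem centre_comp_specializes :
    ptCentre (Spec.map (CommRingCat.ofHom φ) ≫ P) ⤳ ptCentre P :=
  (IsLocalRing.specializes_closedPoint _).map P.continuous

omit [IsIntegral A] in
theorem centre_comp [IsLocalHom φ] : ptCentre (Spec.map (CommRingCat.ofHom φ) ≫ P) = ptCentre P := by
  show P ((Spec.map (CommRingCat.ofHom φ)) (IsLocalRing.closedPoint S)) = _
  exact congrArg P (IsLocalRing.comap_closedPoint φ)

omit [IsIntegral A] in
theorem germAt_comp {a : A} (h : ptCentre P ⤳ a) :
    germAt (Spec.map (CommRingCat.ofHom φ) ≫ P) ((centre_comp_specializes P φ).trans h) =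
      φ.comp (germAt P h) := by
  refine (germAt_unique _ _ ?_).symm
  rw [CommRingCat.ofHom_comp, Spec.map_comp, Category.assoc, SpecMap_germAt]

theorem evalU_comp {a : (funField f)ˣ} (ha : a ∈ unitsAt f (ptCentre P)) :
    evalU f (Spec.map (CommRingCat.ofHom φ) ≫ P) a = Units.map φ.toMonoidHom (evalU f P a) := by
  obtain ⟨s, hs⟩ := ha
  rw [evalU_eq f P (specializes_refl _) hs,
    evalU_eq f _ ((centre_comp_specializes P φ).trans (specializes_refl _)) hs, germAt_comp]
  rfl

end LocalPoint

variable {L : RelativeGroupLaw K f}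

/-- The generic point. -/
def genPt : Pts f L (funField f) :=
  ⟨A.fromSpecStalk (genericPoint A), fromSpecStalk_comp_base f (genericPoint A)⟩

theorem centre_genPt : ptCentre (genPt f (L := L)).1 = genericPoint A :=
  Scheme.fromSpecStalk_closedPoint

theorem evalU_genPt (a : (funField f)ˣ) :
    evalU f (genPt f (L := L)).1 a = a := by
  obtain ⟨s, hs⟩ := unitsAt_genericPoint f a
  have h : ptCentre (genPt f (L := L)).1 ⤳ genericPoint A := by rw [centre_genPt]
  rw [evalU_eq f _ h hs]
  have hg : germAt (genPt f (L := L)).1 h = RingHom.id _ := (germAt_unique _ h (by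
    show Spec.map (𝟙 (A.presheaf.stalk (genericPoint A))) ≫ _ = _
    rw [Spec.map_id, Category.id_comp]
    rfl)).symm
  rw [hg, ← hs]
  exact Units.ext (toFun0_genericPoint f _).symm

end Fermat.Agent.Tors
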