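import Fermat.Agent.Tors.Germs2
import Fermat.Agent.Tors.FunField

/-!
# Multiplication by an integer prime to the characteristic (`S26`)

It is dominant, separable of degree the number of rational torsion points.
-/

set_option autoImplicit false

noncomputable section

universe u

open CategoryTheory AlgebraicGeometry TopologicalSpace NeronModelInfra GoodReductionJacobian
  IsLocalRing

namespace Fermat.Agent.Tors

variable {K : Type u} [Field K] {A : Scheme.{u}} [IsIntegral A]
  {f : A ⟶ Spec (CommRingCat.of K)} {L : RelativeGroupLaw K f} [hc : Fact L.IsCommutative] {g : ℕ}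

omit [IsIntegral A] hc in
theorem algHom_toRingHom_of_point {R S : Type u} [CommRing R] [CommRing S] [Algebra K R]
    [Algebra K S] {φ : R →+* S} (h : Spec.map (CommRingCat.ofHom φ) ≫ baseMap K R = baseMap K S)
    (r : K) : φ (algebraMap K R r) = algebraMap K S r := by
  rw [← Spec.map_comp] at h
  exact congr(($(Spec.map_injective h)).hom r)

/-- A morphism out of the function field is determined by the image of the generic point. -/
theorem funField_hom_ext {S : Type u} [CommRing S] [Algebra K S] {φ ψ : funField f →ₐ[K] S}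
    (h : Pts.map φ (genPt f (L := L)) = Pts.map ψ (genPt f)) : φ = ψ := by
  have h1 := congrArg Subtype.val h
  rw [Pts.map_val, Pts.map_val] at h1
  change _ ≫ A.fromSpecStalk (genericPoint A) = _ ≫ A.fromSpecStalk (genericPoint A) at h1
  have h2 := (cancel_mono (A.fromSpecStalk (genericPoint A))).mp h1
  exact AlgHom.ext fun x => congr(($(Spec.map_injective h2)).hom x)

omit hc in
/-- A point centred at the generic point comes from the function field. -/
theorem exists_funField_hom [Fact L.IsCommutative] {S : Type u} [CommRing S] [IsLocalRing S]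
    [Algebra K S] (P : Pts f L S) (h : ptCentre P.1 = genericPoint A) :
    ∃ φ : funField f →ₐ[K] S, Pts.map φ (genPt f) = P := by
  let φ₀ : funField f →+* S := germAt P.1 (a := genericPoint A) (by rw [h])
  have h0 : Spec.map (CommRingCat.ofHom φ₀) ≫ (genPt f (L := L)).1 = P.1 :=
    SpecMap_germAt P.1 (a := genericPoint A) (by rw [h])
  have hb : Spec.map (CommRingCat.ofHom φ₀) ≫ baseMap K (funField f) = baseMap K S := by
    rw [← (genPt f (L := L)).2, ← Category.assoc, h0, P.2]
  exact ⟨{ φ₀ with commutes' := algHom_toRingHom_of_point hb }, Subtype.ext h0⟩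

omit [IsIntegral A] in
/-- Extension of fields does not move the centre. -/
theorem centre_map_field {R S : Type u} [Field R] [Field S] [Algebra K R] [Algebra K S]
    (φ : R →ₐ[K] S) (P : Pts f L R) : ptCentre (Pts.map φ P).1 = ptCentre P.1 :=
  centre_comp P.1 φ.toRingHom

omit [IsIntegral A] hc in
/-- The centre of a sum with a constant point is the translate of the centre. -/
theorem exists_translate [Fact L.IsCommutative] (c : Pts f L K) : ∃ T : A ⟶ A,
    (∀ (R : Type u) [CommRing R] [Algebra K R] (P : Pts f L R),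
      (P + Pts.map (Algebra.ofId K R) c).1 = P.1 ≫ T) := by
  let cf : SchemeHomOver f f :=
    schemeHomOverComp f (by rw [baseMap_self, Category.comp_id]) c
  refine ⟨(L.mul f RelativeGroupLaw.idPoint cf).1, fun R _ _ P => ?_⟩
  have h := congrArg Subtype.val (L.mul_natural f (baseMap K R) P.1 P.2 RelativeGroupLaw.idPoint cf)
  rw [schemeHomOverComp_coe] at h
  rw [h]
  show (L.mul (baseMap K R) P (Pts.map (Algebra.ofId K R) c)).1 = _
  congr 2
  · refine Subtype.ext ?_
    rw [Pts.map_val]
    show _ = P.1 ≫ f ≫ c.1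
    rw [← Category.assoc, P.2]
    rfl

theorem centre_add_constant (c : Pts f L K) :
    ptCentre (genPt f (L := L) + Pts.map (Algebra.ofId K _) c).1 = genericPoint A := by
  obtain ⟨T, hT⟩ := exists_translate c
  obtain ⟨T', hT'⟩ := exists_translate (-c)
  have hid : ∀ x : A, T' (T x) = x := by
    intro x
    let x' : Spec (A.residueField x) ⟶ A := A.fromSpecResidueField x
    let : Algebra K (A.residueField x) := ((Spec.preimage (x' ≫ f)).hom).toAlgebra
    let P : Pts f L (A.residueField x) := ⟨x', (Spec.map_preimage _).symm⟩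
    have h := hT' _ (P + Pts.map (Algebra.ofId K _) c)
    rw [map_neg, add_neg_cancel_right, hT] at h
    obtain ⟨p, hp⟩ : ∃ p, x' p = x :=
      ⟨closedPoint (A.residueField x), Scheme.fromSpecResidueField_apply _ _⟩
    rw [← hp]
    exact (congr($h p)).symm
  have hid' : ∀ x : A, T (T' x) = x := by
    intro x
    let x' : Spec (A.residueField x) ⟶ A := A.fromSpecResidueField x
    let : Algebra K (A.residueField x) := ((Spec.preimage (x' ≫ f)).hom).toAlgebra
    let P : Pts f L (A.residueField x) := ⟨x', (Spec.map_preimage _).symm⟩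
    have h := hT _ (P + Pts.map (Algebra.ofId K _) (-c))
    rw [map_neg, neg_add_cancel_right, ← map_neg, hT'] at h
    obtain ⟨p, hp⟩ : ∃ p, x' p = x :=
      ⟨closedPoint (A.residueField x), Scheme.fromSpecResidueField_apply _ _⟩
    rw [← hp]
    exact (congr($h p)).symm
  let e : A ≃ₜ A :=
    { toFun := T, invFun := T', left_inv := hid, right_inv := hid'
      continuous_toFun := T.continuous, continuous_invFun := T'.continuous }
  show (genPt f (L := L) + Pts.map (Algebra.ofId K _) c).1 (closedPoint (funField f)) = _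
  rw [hT]
  change T (ptCentre (genPt f (L := L)).1) = _
  rw [centre_genPt]
  refine ((genericPoint_spec A).image T.continuous).eq ?_
  rw [Set.image_univ, (show Function.Surjective T from e.surjective).range_eq, closure_univ]
  exact genericPoint_spec A

section Chart

variable (C : Chart L g)

theorem centre_map_of_injective {S : Type u} [Field S] [Algebra K S] {a : C.B →ₐ[K] S}
    (ha : Function.Injective a) : ptCentre (Pts.map a C.ι).1 = genericPoint A := by
  let G := FractionRing C.B
  let j : G →ₐ[K] S := IsFractionRing.liftAlgHom (g := a) ha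
  have hj : j.comp (IsScalarTower.toAlgHom K C.B G) = a :=
    AlgHom.ext fun x => IsFractionRing.lift_algebraMap ha x
  rw [← hj, Pts.map_comp, centre_map_field]
  have : Nonempty (PrimeSpectrum C.B) := ⟨⟨⊥, Ideal.isPrime_bot⟩⟩
  have hbot : (Spec.map (CommRingCat.ofHom (IsScalarTower.toAlgHom K C.B G).toRingHom))
      (closedPoint G) = genericPoint (Spec (CommRingCat.of C.B)) := by
    rw [genericPoint_eq_bot_of_affine]
    refine PrimeSpectrum.ext ?_
    show Ideal.comap (algebraMap C.B G) (IsLocalRing.maximalIdeal G) = ⊥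
    rw [maximalIdeal_eq_bot, Ideal.comap_bot_of_injective _ (IsFractionRing.injective C.B G)]
  show C.ι.1 ((Spec.map (CommRingCat.ofHom (IsScalarTower.toAlgHom K C.B G).toRingHom))
    (closedPoint G)) = _
  rw [hbot]
  exact genericPoint_eq_of_isOpenImmersion C.ι.1

/-- The chart ring inside the function field. -/
theorem exists_chart_embedding : ∃ a : C.B →ₐ[K] funField f,
    Pts.map a C.ι = genPt f ∧ Function.Injective a ∧
    ∀ x, ∃ b c : C.B, x = a b / a c := by
  let G := FractionRing C.B
  obtain ⟨ψ, hψ⟩ := exists_funField_hom (Pts.map (IsScalarTower.toAlgHom K C.B G) C.ι)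
    (centre_map_of_injective C (IsFractionRing.injective C.B G))
  obtain ⟨a, ha⟩ : ∃ a : C.B →ₐ[K] funField f, Pts.map a C.ι = genPt f := by
    refine C.exists_of_range_subset ?_
    rintro _ ⟨p, rfl⟩
    have : ptCentre (genPt f (L := L)).1 ∈ Set.range C.ι.1 := by
      rw [centre_genPt]
      exact (genericPoint_spec A).mem_open_set_iff (IsOpenImmersion.isOpen_range C.ι.1) |>.mpr
        ⟨C.ι.1 (⟨⊥, Ideal.isPrime_bot⟩ : PrimeSpectrum C.B), trivial, Set.mem_range_self _⟩
    rwa [Subsingleton.elim (α := PrimeSpectrum (funField f)) p (closedPoint (funField f))]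
  have hψa : ψ.comp a = IsScalarTower.toAlgHom K C.B G :=
    C.hom_ext (by rw [Pts.map_comp, ha, hψ])
  have hinj : Function.Injective a :=
    Function.Injective.of_comp (f := ψ) (by
      rw [← AlgHom.coe_comp, hψa]; exact IsFractionRing.injective C.B G)
  refine ⟨a, ha, hinj, fun x => ?_⟩
  let j : G →ₐ[K] funField f := IsFractionRing.liftAlgHom (g := a) hinj
  have hj : j.comp (IsScalarTower.toAlgHom K C.B G) = a :=
    AlgHom.ext fun x => IsFractionRing.lift_algebraMap hinj x
  have hid : j.comp ψ = AlgHom.id K _ :=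
    funField_hom_ext (L := L) (by rw [Pts.map_comp, hψ, ← Pts.map_comp, hj, ha, Pts.map_id])
  obtain ⟨b, c, -, hbc⟩ := IsFractionRing.div_surjective (A := C.B) (ψ x)
  refine ⟨b, c, ?_⟩
  have := congr($hid x)
  rw [AlgHom.comp_apply, ← hbc, map_div₀] at this
  rw [← hj]
  exact this.symm

theorem isSeparable_and_essFiniteType (C : Chart L g) :
    ∃ t : Fin g → funField f, AlgebraicIndependent K t ∧
      FiniteDimensional (IntermediateField.adjoin K (Set.range t)) (funField f) ∧
      Algebra.IsSeparable (IntermediateField.adjoin K (Set.range t)) (funField f) ∧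
      Algebra.EssFiniteType K (funField f) := by
  obtain ⟨a, -, hinj, hgen⟩ := exists_chart_embedding C
  let : Algebra C.B (funField f) := a.toRingHom.toAlgebra
  have : IsScalarTower K C.B (funField f) :=
    IsScalarTower.of_algebraMap_eq fun r => (a.commutes r).symm
  have : FaithfulSMul C.B (funField f) := (faithfulSMul_iff_algebraMap_injective _ _).mpr hinj
  have : IsFractionRing C.B (funField f) := IsFractionRing.of_field C.B (funField f) fun z => by
    obtain ⟨b, c, h⟩ := hgen z
    exact ⟨b, c, h⟩
  obtain ⟨h1, h2⟩ := C.finite_and_isSeparable_t (F := funField f)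
  refine ⟨_, C.algebraicIndependent_t, h1, h2, ?_⟩
  have : Algebra.EssFiniteType K
      (IntermediateField.adjoin K (Set.range fun i => algebraMap C.B (funField f) (C.t i))) :=
    IntermediateField.essFiniteType_iff.mpr
      (IntermediateField.fg_adjoin_of_finite (Set.finite_range _))
  exact Algebra.EssFiniteType.comp K
    (IntermediateField.adjoin K (Set.range fun i => algebraMap C.B (funField f) (C.t i))) _

/-- Multiplication by `n` on the generic point is dominant. -/
theorem exists_sigma (C : Chart L g) {n : ℕ} (hn : (n : K) ≠ 0) :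
    ∃ σ : funField f →ₐ[K] funField f, Pts.map σ (genPt f) = n • genPt f (L := L) := by
  obtain ⟨a, ha, ha'⟩ := C.exists_germ X_mem_maximalIdeal
  let S := MvPowerSeries (Fin g) K
  let Ω := FractionRing S
  let q : S →ₐ[K] Ω := IsScalarTower.toAlgHom K S Ω
  have hq : Function.Injective q := IsFractionRing.injective S Ω
  have hlin : C.HasLin (maximalIdeal S) (Pts.map a C.ι) fun i => MvPowerSeries.X i := by
    simpa only [ha] using Chart.HasLin.of_hom ha'
  have hlin' := Chart.near_nsmul (maximalIdeal_le_jacobson ⊥) hlin n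
  obtain ⟨b, hb, hbP⟩ := C.exists_iota_of_hasLin hn
    (P := n • Pts.map a C.ι) (by
      convert hlin' using 2
      funext i
      rw [Pi.smul_apply, Nat.cast_smul_eq_nsmul])
  have hainj : Function.Injective a := C.injective_of_tangent one_ne_zero fun i => by simp [ha]
  obtain ⟨j, hj⟩ := exists_funField_hom (Pts.map (q.comp a) C.ι)
    (centre_map_of_injective C (hq.comp hainj))
  refine exists_funField_hom _ ?_
  rw [← centre_map_field j, map_nsmul, hj, Pts.map_comp, ← map_nsmul, ← hbP, ← Pts.map_comp]
  exact centre_map_of_injective C (hq.comp hb)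

/-- The composite of multiplications. -/
theorem sigma_comp {n m : ℕ} {σ τ ρ : funField f →ₐ[K] funField f}
    (hσ : Pts.map σ (genPt f) = n • genPt f (L := L)) (hτ : Pts.map τ (genPt f) = m • genPt f (L := L))
    (hρ : Pts.map ρ (genPt f) = (n * m) • genPt f (L := L)) : σ.comp τ = ρ :=
  funField_hom_ext (L := L) (by rw [Pts.map_comp, hτ, map_nsmul, hσ, hρ, smul_smul, mul_comm])

/-- Multiplication by `n` is finite and separable. -/
theorem sigma_finite_separable (C : Chart L g) {n : ℕ} (hn : (n : K) ≠ 0)
    {σ : funField f →ₐ[K] funField f} (hσ : Pts.map σ (genPt f) = n • genPt f (L := L)) :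
    FiniteDimensional σ.fieldRange (funField f) ∧
      Algebra.IsSeparable σ.fieldRange (funField f) := by
  obtain ⟨-, -, -, -, hess⟩ := isSeparable_and_essFiniteType C
  have : Algebra.EssFiniteType σ.fieldRange (funField f) :=
    Algebra.EssFiniteType.of_comp K σ.fieldRange _
  have : Algebra.FormallyUnramified σ.fieldRange (funField f) := by
    refine Algebra.FormallyUnramified.iff_comp_injective.mpr fun R _ _ I hI g₁ g₂ h => ?_
    let : Algebra K R := ((algebraMap σ.fieldRange R).comp (algebraMap K σ.fieldRange)).toAlgebra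
    have : IsScalarTower K σ.fieldRange R := IsScalarTower.of_algebraMap_eq fun _ => rfl
    have heq : (g₁.restrictScalars K).comp σ = (g₂.restrictScalars K).comp σ :=
      AlgHom.ext fun x => (g₁.commutes ⟨σ x, ⟨x, rfl⟩⟩).trans (g₂.commutes ⟨σ x, ⟨x, rfl⟩⟩).symm
    have h0 : Pts.map (g₁.restrictScalars K) (genPt f (L := L)) -
        Pts.map (g₂.restrictScalars K) (genPt f) = 0 := by
      refine C.eq_zero_of_sq_zero hI hn ?_ ?_
      · rw [map_sub, ← Pts.map_comp, ← Pts.map_comp, sub_eq_zero]
        exact congrArg (fun z => Pts.map z _) (AlgHom.ext fun x => congr($h x))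
      · rw [smul_sub, ← map_nsmul, ← map_nsmul, ← hσ, ← Pts.map_comp, ← Pts.map_comp, heq,
          sub_self]
    exact AlgHom.ext fun x => congr($(funField_hom_ext (L := L) (sub_eq_zero.mp h0)) x)
  exact ⟨Algebra.FormallyUnramified.finite_of_free _ _,
    (Algebra.FormallyUnramified.iff_isSeparable (K := σ.fieldRange) _).mp this⟩

variable [IsAlgClosed K] [LocallyOfFiniteType f] [IsSeparated f]

/-- Torsion points with values in a field are constant. -/
theorem exists_constant_of_nsmul_eq_zero (C : Chart L g) {n : ℕ} (hn : (n : K) ≠ 0) {Ω : Type u}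
    [Field Ω] [Algebra K Ω] {τ : Pts f L Ω} (hτ : n • τ = 0) :
    ∃ c : Pts f L K, n • c = 0 ∧ Pts.map (Algebra.ofId K Ω) c = τ := by
  have : JacobsonSpace A := LocallyOfFiniteType.jacobsonSpace f
  obtain ⟨x, hxp, hx⟩ := nonempty_inter_closedPoints (X := A) (Z := closure {ptCentre τ.1})
    ⟨_, subset_closure rfl⟩ isClosed_closure.isLocallyClosed
  have hspec : ptCentre τ.1 ⤳ x := specializes_iff_mem_closure.mpr hxp
  let O := A.presheaf.stalk x
  let : Algebra K O := stalkAlgebra f x
  have : IsLocallyNoetherian A := LocallyOfFiniteType.isLocallyNoetherian f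
  have : IsNoetherianRing O := inferInstanceAs (IsNoetherianRing (A.presheaf.stalk x))
  let π₀ : Pts f L O := ⟨A.fromSpecStalk x, fromSpecStalk_comp_base f x⟩
  -- the rational point
  let xK : Pts f L K := ⟨pointOfClosedPoint f x hx, by
    rw [baseMap_self]; exact pointOfClosedPoint_comp f x hx⟩
  have hxK : ptCentre xK.1 ⤳ x := by
    rw [show ptCentre xK.1 = x from pointOfClosedPoint_apply f x hx _]
  let ε₀ : O →ₐ[K] K :=
    { germAt xK.1 hxK with
      commutes' := algHom_toRingHom_of_point (by
        rw [← fromSpecStalk_comp_base f x, ← Category.assoc, SpecMap_germAt, xK.2]) }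
  have hε₀ : Pts.map ε₀ π₀ = xK := Subtype.ext (SpecMap_germAt xK.1 hxK)
  let ψ : O →ₐ[K] Ω :=
    { germAt τ.1 hspec with
      commutes' := algHom_toRingHom_of_point (by
        rw [← fromSpecStalk_comp_base f x, ← Category.assoc, SpecMap_germAt, τ.2]) }
  have hψ : Pts.map ψ π₀ = τ := Subtype.ext (SpecMap_germAt τ.1 hspec)
  let q := RingHom.ker ψ.toRingHom
  have hq : q ≠ ⊤ := RingHom.ker_ne_top _
  have hε : ∀ a ∈ q, ε₀ a = 0 := fun a ha => by
    have hmax : (RingHom.ker ε₀.toRingHom).IsMaximal :=
      RingHom.ker_isMaximal_of_surjective _ fun r => ⟨algebraMap K O r, ε₀.commutes r⟩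
    show a ∈ RingHom.ker ε₀.toRingHom
    rw [IsLocalRing.eq_maximalIdeal hmax]
    exact le_maximalIdeal hq ha
  let R := O ⧸ q
  let ε : R →ₐ[K] K := Ideal.Quotient.liftₐ q ε₀ hε
  let ψR : R →ₐ[K] Ω := Ideal.Quotient.liftₐ q ψ fun a ha => ha
  have : Nontrivial R := Ideal.Quotient.nontrivial_iff.mpr hq
  have : IsLocalRing R := .of_surjective' (Ideal.Quotient.mk q) Ideal.Quotient.mk_surjective
  have hψR : Function.Injective ψR :=
    RingHom.lift_injective_of_ker_le_ideal _ _ le_rfl
  have : IsDomain R := hψR.isDomain _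
  let π : Pts f L R := Pts.map (Ideal.Quotient.mkₐ K q) π₀
  have hεπ : Pts.map ε π = xK := by
    rw [← Pts.map_comp, show ε.comp (Ideal.Quotient.mkₐ K q) = ε₀ from AlgHom.ext fun _ => rfl, hε₀]
  have hψπ : Pts.map ψR π = τ := by
    rw [← Pts.map_comp, show ψR.comp (Ideal.Quotient.mkₐ K q) = ψ from AlgHom.ext fun _ => rfl, hψ]
  have hnπ : n • π = 0 := Pts.map_injective ψR hψR (by rw [map_nsmul, hψπ, hτ, map_zero])
  have hnx : n • xK = 0 := by rw [← hεπ, ← map_nsmul, hnπ, map_zero]
  refine ⟨xK, hnx, ?_⟩
  have h0 : π - Pts.map (Algebra.ofId K R) xK = 0 := by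
    refine C.eq_zero_of_nsmul ε hn ?_ (by rw [smul_sub, hnπ, ← map_nsmul, hnx, map_zero, sub_zero])
    rw [map_sub, hεπ, ← Pts.map_comp, show ε.comp (Algebra.ofId K R) = AlgHom.id K K from
      Subsingleton.elim _ _, Pts.map_id, sub_self]
  rw [sub_eq_zero] at h0
  rw [← hψπ, h0, ← Pts.map_comp, show ψR.comp (Algebra.ofId K R) = Algebra.ofId K Ω from
    Subsingleton.elim _ _]

/-- The degree of multiplication by `n` is the number of `n`-torsion points. -/
theorem finrank_sigma_eq_card (C : Chart L g) {n : ℕ} (hn : (n : K) ≠ 0)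
    {σ : funField f →ₐ[K] funField f} (hσ : Pts.map σ (genPt f) = n • genPt f (L := L)) :
    Module.finrank σ.fieldRange (funField f) = Nat.card {c : Pts f L K // n • c = 0} := by
  obtain ⟨hfin, hsep⟩ := sigma_finite_separable C hn hσ
  let Ω := AlgebraicClosure (funField f)
  let ι₀ : funField f →ₐ[K] Ω := IsScalarTower.toAlgHom K (funField f) Ω
  let ηΩ : Pts f L Ω := Pts.map ι₀ (genPt f)
  have hcen : ∀ c : Pts f L K, ptCentre (ηΩ + Pts.map (Algebra.ofId K Ω) c).1 = genericPoint A :=
    fun c => by
      rw [show Algebra.ofId K Ω = ι₀.comp (Algebra.ofId K (funField f)) from Subsingleton.elim _ _,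
        Pts.map_comp, ← map_add, centre_map_field, centre_add_constant]
  choose ω hω using fun c => exists_funField_hom _ (hcen c)
  have hωσ : ∀ c : {c : Pts f L K // n • c = 0}, ∀ x, ω c.1 (σ x) = ι₀ (σ x) := fun c => by
    refine fun x => congr($(funField_hom_ext (L := L) (φ := (ω c.1).comp σ) (ψ := ι₀.comp σ) ?_) x)
    rw [Pts.map_comp, Pts.map_comp, hσ, map_nsmul, hω, smul_add,
      ← map_nsmul (Pts.map (Algebra.ofId K Ω)), c.2, map_zero, add_zero, map_nsmul]
  let e : {c : Pts f L K // n • c = 0} → (funField f →ₐ[σ.fieldRange] Ω) := fun c =>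
    { (ω c.1).toRingHom with
      commutes' := by rintro ⟨_, x, rfl⟩; exact hωσ c x }
  have he : Function.Bijective e := by
    constructor
    · intro c d h
      have h1 : ω c.1 = ω d.1 := AlgHom.ext fun x => congr($h x)
      refine Subtype.ext (Pts.map_injective (Algebra.ofId K Ω) (RingHom.injective _) ?_)
      have := hω c.1
      rw [h1, hω d.1] at this
      exact (add_left_cancel this).symm
    · intro φ
      let φK : funField f →ₐ[K] Ω := φ.restrictScalars K
      have hτ : n • (Pts.map φK (genPt f (L := L)) - ηΩ) = 0 := by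
        rw [smul_sub, ← map_nsmul, ← map_nsmul, ← hσ, ← Pts.map_comp, ← Pts.map_comp,
          show φK.comp σ = ι₀.comp σ from AlgHom.ext fun x => φ.commutes ⟨σ x, ⟨x, rfl⟩⟩, sub_self]
      obtain ⟨c, hc0, hc1⟩ := exists_constant_of_nsmul_eq_zero C hn hτ
      refine ⟨⟨c, hc0⟩, ?_⟩
      have h1 : ω c = φK := funField_hom_ext (L := L) (by rw [hω, hc1, add_sub_cancel])
      exact AlgHom.ext fun x => congr($h1 x)
  rw [← AlgHom.card σ.fieldRange (funField f) Ω, ← Nat.card_eq_fintype_card]
  exact (Nat.card_eq_of_bijective e he).symm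

/-- Finiteness of the rational torsion. -/
theorem finite_torsion (C : Chart L g) {n : ℕ} (hn : (n : K) ≠ 0) :
    Finite {c : Pts f L K // n • c = 0} := by
  obtain ⟨σ, hσ⟩ := exists_sigma C hn
  obtain ⟨hfin, hsep⟩ := sigma_finite_separable C hn hσ
  refine Nat.finite_of_card_ne_zero ?_
  rw [← finrank_sigma_eq_card C hn hσ]
  exact Module.finrank_pos.ne'

end Chart

omit [IsIntegral A] in
/-- The torsion of the frozen statement. -/
theorem natCard_isTorsionPoint (n : ℕ) :
    Nat.card {x : SchemeHomOver (𝟙 (Spec (CommRingCat.of K))) f //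
        L.IsTorsionPoint (𝟙 (Spec (CommRingCat.of K))) n x} =
      Nat.card {c : Pts f L K // n • c = 0} := by
  rw [← baseMap_self]
  rfl

end Fermat.Agent.Tors
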