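import Fermat.Agent.Tors.ClassOfDivisor
import Fermat.Agent.Tors.Isogeny
import Fermat.Prelude.Def_JacJ1Iface
import Fermat.Agent.Tors.Descent
import Mathlib.FieldTheory.IsAlgClosed.AlgebraicClosure

/-!
# Counting torsion from quadraticity of the class (`S26`)
-/

set_option autoImplicit false

noncomputable section

universe u

open CategoryTheory AlgebraicGeometry TopologicalSpace NeronModelInfra GoodReductionJacobian

namespace Fermat.Agent.Tors

variable {K : Type u} [Field K]

/-- The statement that the symmetrised class is quadratic, over the algebraic closure. -/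
def ClassFunctor.IsQuadraticAt (Φ : ClassFunctor K) {F : Type u} [Field F] [Algebra K F]
    (η : Φ.Pt F) : Prop :=
  ∀ m : ℕ,
    Φ.q (m • Φ.map (IsScalarTower.toAlgHom K F (AlgebraicClosure F)) η) *
        Φ.q (-(m • Φ.map (IsScalarTower.toAlgHom K F (AlgebraicClosure F)) η)) /
      (Φ.q (Φ.map (IsScalarTower.toAlgHom K F (AlgebraicClosure F)) η) *
        Φ.q (-(Φ.map (IsScalarTower.toAlgHom K F (AlgebraicClosure F)) η))) ^ (m ^ 2) ∈
      principal K (AlgebraicClosure F)

theorem ClassFunctor.eq_pow_of_isQuadraticAt (Φ : ClassFunctor K) {F : Type u} [Field F]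
    [Algebra K F] (η : Φ.Pt F) {g : ℕ} (hg : 0 < g) {t : Fin g → F}
    (ht : AlgebraicIndependent K t)
    [FiniteDimensional (IntermediateField.adjoin K (Set.range t)) F]
    [Algebra.IsSeparable (IntermediateField.adjoin K (Set.range t)) F]
    (hd : Effective (Φ.q η)) (hbig : Big (Φ.q η)) (ρ : F →ₐ[K] F) (hρ : Φ.map ρ η = -η)
    (hquad : Φ.IsQuadraticAt η) {n D : ℕ} (hn : 0 < n) (σ : ℕ → F →ₐ[K] F)
    (hσ : ∀ k, Φ.map (σ k) η = n ^ k • η)
    (hfin : ∀ k, FiniteDimensional (σ k).fieldRange F)
    (hsep : ∀ k, Algebra.IsSeparable (σ k).fieldRange F)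
    (hdeg : ∀ k, Module.finrank (σ k).fieldRange F = D ^ k) : D = n ^ (2 * g) := by
  classical
  set d : Dv K F := Φ.q η * Dv.pull ρ (Φ.q η) with hdd
  have hd' : Effective d := fun V => by
    rw [hdd, Pi.mul_apply, Units.val_mul]
    exact mul_mem (hd V) (hd (V.comapHom ρ))
  have hbig' : Big d := fun S => by
    obtain ⟨s, hs, c, hc⟩ := hbig S
    refine ⟨s, hs, c, fun x hx V => ?_⟩
    rw [hdd, Pi.mul_apply, Units.val_mul, mul_pow, ← mul_assoc]
    exact mul_mem (hc x hx V) (pow_mem (show (Dv.pull ρ (Φ.q η) V : F) ∈ V.1 from hd (V.comapHom ρ)) c)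
  have hfin' : (Set.range d).Finite := by
    refine ((Φ.q_finite η).image2 (fun a b => a * Units.map ρ.toRingHom.toMonoidHom b)
      (Φ.q_finite η)).subset ?_
    rintro _ ⟨V, rfl⟩
    exact ⟨_, ⟨V, rfl⟩, _, ⟨V.comapHom ρ, rfl⟩, rfl⟩
  obtain ⟨C, hC⟩ := exists_degree_bound hg ht hd' hbig' hfin'
  have hdcls : Dv.cls K F d = Dv.cls K F (Φ.q η * Φ.q (-η)) := by
    rw [hdd, map_mul, map_mul, ← Φ.cls_q_map, hρ]
  set ι := IsScalarTower.toAlgHom K F (AlgebraicClosure F)
  have hbound : ∀ k, D ^ k ≤ C * (n ^ (2 * g)) ^ k ∧ (n ^ (2 * g)) ^ k ≤ C * D ^ k := fun k => by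
    set m := n ^ k
    set e := Φ.q (m • η) * Φ.q (-(m • η)) / (Φ.q η * Φ.q (-η)) ^ (m ^ 2) with he
    have hpull : Dv.pull ι e ∈ principal K (AlgebraicClosure F) := by
      rw [← QuotientGroup.eq_one_iff]
      show Dv.cls _ _ _ = 1
      have h := (QuotientGroup.eq_one_iff _).mpr (hquad m)
      refine Eq.trans ?_ h
      show _ = Dv.cls _ _ _
      simp only [he, map_div, map_pow, map_mul, ← Φ.cls_q_map, map_nsmul, map_neg]
      rfl
    obtain ⟨N, hN, hNe⟩ := exists_pow_mem_principal hpull
      (fun p => IsAlgClosed.splits (p.map _))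
    have hσd : Dv.cls K F (Dv.pull (σ k) d) = Dv.cls K F (Φ.q (m • η) * Φ.q (-(m • η))) := by
      rw [Dv.cls_pull_congr (σ k) hdcls, map_mul, map_mul, ← Φ.cls_q_map, ← Φ.cls_q_map, hσ,
        map_neg, hσ, ← map_mul]
    have hrel : Dv.pull (σ k) d ^ N / d ^ (m ^ 2 * N) ∈ principal K F := by
      rw [← QuotientGroup.eq_one_iff]
      show Dv.cls _ _ _ = 1
      rw [pow_mul, map_div, map_pow, map_pow, map_pow, hσd, hdcls]
      have h := (QuotientGroup.eq_one_iff _).mpr hNe
      change Dv.cls K F (e ^ N) = 1 at h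
      rwa [he, map_pow, map_div, map_pow, div_pow] at h
    obtain ⟨h, hh⟩ := hrel
    obtain ⟨h1, h2⟩ := hC (m ^ 2) (by positivity) (σ k) (hfin k) (hsep k) ⟨N, h, hN, fun V => by
      have := hh V
      rw [Pi.div_apply, Pi.pow_apply, Pi.pow_apply, div_div, mul_comm _ h] at this
      exact this⟩
    rw [hdeg k, show (m ^ 2) ^ g = (n ^ (2 * g)) ^ k by
      rw [← pow_mul, ← pow_mul, ← pow_mul]; ring] at h1 h2
    exact ⟨h1, h2⟩
  exact eq_of_forall_pow_le (fun k => (hbound k).1) fun k => (hbound k).2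

variable {A : Scheme.{u}} {f : A ⟶ Spec (CommRingCat.of K)} {L : RelativeGroupLaw K f}
  [hc : Fact L.IsCommutative]

/-- Inversion of points is an endomorphism of the scheme. -/
theorem exists_inversion : ∃ T : A ⟶ A,
    (∀ (R : Type u) [CommRing R] [Algebra K R] (P : Pts f L R), (-P).1 = P.1 ≫ T) ∧
      Function.Surjective T := by
  let id' : SchemeHomOver f f := RelativeGroupLaw.idPoint
  have hT : ∀ (R : Type u) [CommRing R] [Algebra K R] (P : Pts f L R),
      (-P).1 = P.1 ≫ (L.inv f id').1 := fun R _ _ P => by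
    let Q : Pts f L R := schemeHomOverComp P.1 P.2 (L.inv f id')
    have h : Q + P = 0 := by
      have h1 := L.mul_natural f (baseMap K R) P.1 P.2 (L.inv f id') id'
      rw [L.inv_mul_cancel, L.one_natural] at h1
      refine Eq.trans ?_ h1.symm
      show L.mul (baseMap K R) Q P = _
      congr 1
    rw [← eq_neg_of_add_eq_zero_left h]
    rfl
  refine ⟨(L.inv f id').1, hT, fun x => ?_⟩
  let x' : Spec (A.residueField x) ⟶ A := A.fromSpecResidueField x
  let : Algebra K (A.residueField x) := ((Spec.preimage (x' ≫ f)).hom).toAlgebra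
  let P : Pts f L (A.residueField x) := ⟨x', (Spec.map_preimage _).symm⟩
  have h := hT _ (-P)
  rw [neg_neg] at h
  obtain ⟨p, hp⟩ : ∃ p, x' p = x :=
    ⟨IsLocalRing.closedPoint (A.residueField x), Scheme.fromSpecResidueField_apply _ _⟩
  exact ⟨(-P).1 p, (congr($h p)).symm.trans hp⟩

variable [IsIntegral A]

theorem exists_neg_hom : ∃ ρ : funField f →ₐ[K] funField f,
    Pts.map ρ (genPt f (L := L)) = -genPt f := by
  obtain ⟨T, hT, hsurj⟩ := exists_inversion (f := f) (L := L)
  refine exists_funField_hom _ ?_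
  show (-genPt f (L := L)).1 (IsLocalRing.closedPoint (funField f)) = _
  rw [hT]
  change T (ptCentre (genPt f (L := L)).1) = _
  rw [centre_genPt]
  refine ((genericPoint_spec A).image T.continuous).eq ?_
  rw [Set.image_univ, hsurj.range_eq, closure_univ]
  exact genericPoint_spec A

variable [IsAlgClosed K]

/-- The number of torsion points, from quadraticity of the class of a divisor. -/
theorem natCard_eq_pow_of_isQuadraticAt (L : RelativeGroupLaw K f) [Fact L.IsCommutative]
    [IsProper f] [CompactSpace A] (g : ℕ) [SmoothOfRelativeDimension g f] {n : ℕ}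
    (hn : (n : K) ≠ 0)
    (hquad : ∀ D : LocalEqns f, (D.classFunctor L).IsQuadraticAt (genPt f (L := L))) :
    Nat.card {c : Pts f L K // n • c = 0} = n ^ (2 * g) := by
  have : Smooth f := SmoothOfRelativeDimension.smooth g f
  obtain ⟨C⟩ := exists_chart (f := f) (L := L) (g := g)
  have hn' : ∀ k, ((n ^ k : ℕ) : K) ≠ 0 := fun k => by
    rw [Nat.cast_pow]; exact pow_ne_zero _ hn
  choose σ hσ using fun k => exists_sigma C (hn' k)
  have hσ1 : Pts.map (σ 1) (genPt f) = n • genPt f (L := L) := by simpa using hσ 1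
  have hdeg : ∀ k, Module.finrank (σ k).fieldRange (funField f) =
      Nat.card {c : Pts f L K // n • c = 0} ^ k := fun k => by
    induction k with
    | zero =>
      have h0 : σ 0 = AlgHom.id K _ := funField_hom_ext (L := L) (by
        rw [hσ 0, Pts.map_id, pow_zero, one_smul])
      rw [h0, pow_zero, show (AlgHom.id K (funField f)).fieldRange = ⊤ from
        AlgHom.fieldRange_eq_top.mpr Function.surjective_id]
      exact IntermediateField.finrank_top
    | succ k ih =>
      rw [← sigma_comp (ρ := σ (k + 1)) (hσ k) hσ1 (by rw [← pow_succ]; exact hσ (k + 1)),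
        finrank_fieldRange_comp, ih, finrank_sigma_eq_card C hn hσ1, pow_succ']
  obtain ⟨t, ht, h1, h2, -⟩ := isSeparable_and_essFiniteType C
  rcases Nat.eq_zero_or_pos g with rfl | hg
  · -- a finite extension of an algebraically closed field
    rw [Set.range_eq_empty t, IntermediateField.adjoin_empty] at h1
    have : Module.Finite K (funField f) :=
      Module.Finite.trans (⊥ : IntermediateField K (funField f)) _
    have hK := IsAlgClosed.algebraMap_bijective_of_isIntegral (k := K) (K := funField f)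
    have := hdeg 1
    rw [pow_one, show (σ 1).fieldRange = ⊤ from AlgHom.fieldRange_eq_top.mpr fun x => by
      obtain ⟨r, rfl⟩ := hK.2 x
      exact ⟨algebraMap K _ r, AlgHom.commutes _ r⟩, IntermediateField.finrank_top] at this
    rw [← this, mul_zero, pow_zero]
  obtain ⟨D, hD⟩ := exists_localEqns (f := f)
  obtain ⟨he, hb, -⟩ := hD L ‹_›
  obtain ⟨ρ, hρ⟩ := exists_neg_hom (f := f) (L := L)
  exact (D.classFunctor L).eq_pow_of_isQuadraticAt (genPt f (L := L)) hg ht he hb ρ hρ (hquad D)
    (Nat.pos_of_ne_zero fun h => hn (by rw [h, Nat.cast_zero])) σ hσ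
    (fun k => (sigma_finite_separable C (hn' k) (hσ k)).1)
    (fun k => (sigma_finite_separable C (hn' k) (hσ k)).2) hdeg

end Fermat.Agent.Tors

namespace Fermat.Agent.Tors

/-- The frozen count of torsion points, from quadraticity of the classes. -/
theorem natCard_isTorsionPoint_eq_pow (K : Type u) [Field K] [IsAlgClosed K] {A : Scheme.{u}}
    (f : A ⟶ Spec (CommRingCat.of K)) (L : RelativeGroupLaw K f) (hc : L.IsCommutative)
    (hA : AbelianSchemePropertyBundle K f) (g : ℕ) [SmoothOfRelativeDimension g f] (n : ℕ)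
    (hn : (n : K) ≠ 0)
    (hquad : ∀ [IsIntegral A] [IsProper f] [Fact L.IsCommutative] (D : LocalEqns f),
      (D.classFunctor L).IsQuadraticAt (genPt f (L := L))) :
    Nat.card {x : SchemeHomOver (𝟙 (Spec (CommRingCat.of K))) f //
        L.IsTorsionPoint (𝟙 (Spec (CommRingCat.of K))) n x} = n ^ (2 * g) := by
  have := hA.proper
  have := hA.smooth
  have : Fact L.IsCommutative := ⟨hc⟩
  have : CompactSpace A := QuasiCompact.compactSpace_of_compactSpace f
  have : ConnectedSpace A := by
    refine connectedSpace_iff_univ.mpr ?_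
    have h := hA.connectedFibres default
    rwa [show f.base ⁻¹' {default} = Set.univ from
      Set.eq_univ_of_forall fun x => Subsingleton.elim (α := PrimeSpectrum K) _ _] at h
  have : IsIntegral A := isIntegral_of_smooth_connected f
  rw [natCard_isTorsionPoint]
  exact natCard_eq_pow_of_isQuadraticAt L g hn hquad

end Fermat.Agent.Tors
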