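import Mathlib.RingTheory.Valuation.ValuationSubring
import Mathlib.Algebra.Algebra.Subalgebra.Basic
import Mathlib.GroupTheory.QuotientGroup.Defs

/-!
# Class functors

The valuative language in which the theorem of the cube is proved (`S26`).

A divisor class over a field `F` is given by a family `V ↦ d V` of elements of `Fˣ` indexed by the
valuation subrings of `F` containing `K`, considered up to units and up to constant families.
A `ClassFunctor` is a functor of points together with such a family for every point, compatible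
with specialisation along places and locally constant over every local subring.
-/

set_option autoImplicit false

noncomputable section

universe u

namespace Fermat.Agent.Tors

variable (K : Type u) [Field K]

/-- Valuation subrings containing the constants. -/
def KVal (F : Type u) [Field F] [Algebra K F] : Type u :=
  {V : ValuationSubring F // ∀ c : K, algebraMap K F c ∈ V}

variable {K} {F F' F'' : Type u} [Field F] [Algebra K F] [Field F'] [Algebra K F'] [Field F'']
  [Algebra K F'']

namespace KVal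

/-- A valuation subring containing `K`, as a subalgebra. -/
def sub (V : KVal K F) : Subalgebra K F :=
  { V.1.toSubring with algebraMap_mem' := V.2 }

@[simp] theorem mem_sub {V : KVal K F} {x : F} : x ∈ V.sub ↔ x ∈ V.1 := Iff.rfl

/-- The trivial valuation. -/
def triv : KVal K F := ⟨⊤, fun _ => ValuationSubring.mem_top _⟩

instance isLocalRing_sub (V : KVal K F) : IsLocalRing V.sub :=
  inferInstanceAs (IsLocalRing V.1)

/-- The unit group. -/
abbrev units (V : KVal K F) : Subgroup Fˣ := V.1.unitGroup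

theorem mem_units_iff {V : KVal K F} {a : Fˣ} :
    a ∈ V.units ↔ (a : F) ∈ V.1 ∧ ((a⁻¹ : Fˣ) : F) ∈ V.1 := by
  rw [units, ValuationSubring.mem_unitGroup_iff, ← ValuationSubring.valuation_le_one_iff,
    ← ValuationSubring.valuation_le_one_iff, Units.val_inv_eq_inv_val, map_inv₀]
  refine ⟨fun h => by simp [h], fun ⟨h1, h2⟩ => le_antisymm h1 ?_⟩
  exact (inv_le_one₀ (zero_lt_iff.mpr ((map_ne_zero _).mpr a.ne_zero))).mp h2

theorem units_mono {V W : KVal K F} (h : V.1 ≤ W.1) : V.units ≤ W.units := fun _ ha =>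
  mem_units_iff.mpr ⟨h (mem_units_iff.mp ha).1, h (mem_units_iff.mp ha).2⟩

end KVal

variable (K) in
/-- Families of local equations. -/
abbrev Dv (F : Type u) [Field F] [Algebra K F] : Type u := KVal K F → Fˣ

/-- The families which are, up to units, one and the same function at every valuation. -/
def principal (K F : Type u) [Field K] [Field F] [Algebra K F] : Subgroup (Dv K F) where
  carrier := {d | ∃ h : Fˣ, ∀ V, d V / h ∈ V.units}
  one_mem' := ⟨1, fun V => by simp⟩
  mul_mem' := by
    rintro a b ⟨h, ha⟩ ⟨k, hb⟩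
    exact ⟨h * k, fun V => by
      rw [Pi.mul_apply, mul_div_mul_comm]; exact mul_mem (ha V) (hb V)⟩
  inv_mem' := by
    rintro a ⟨h, ha⟩
    exact ⟨h⁻¹, fun V => by
      rw [Pi.inv_apply, inv_div_inv, ← inv_div]; exact inv_mem (ha V)⟩

variable (K F F') in
/-- A place of `F` with values in `F'`, trivial on `K`. -/
structure KPlace where
  /-- the valuation ring -/
  ring : KVal K F
  /-- the reduction -/
  res : ring.sub →ₐ[K] F'
  isLocalHom : IsLocalHom res

attribute [instance] KPlace.isLocalHom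

namespace KPlace

variable (π : KPlace K F F')

/-- The composite valuation. -/
def comap (V : KVal K F') : KVal K F :=
  ⟨{ toSubring := (V.sub.comap π.res).toSubring.map π.ring.sub.val.toRingHom
     mem_or_inv_mem' := fun x => by
      rcases π.ring.1.mem_or_inv_mem x with hx | hx
      · rcases V.1.mem_or_inv_mem (π.res ⟨x, hx⟩) with h | h
        · exact Or.inl ⟨⟨x, hx⟩, h, rfl⟩
        · by_cases h0 : π.res ⟨x, hx⟩ = 0
          · exact Or.inl ⟨⟨x, hx⟩, by
              show π.res _ ∈ V.1
              rw [h0]; exact zero_mem _, rfl⟩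
          · obtain ⟨b, hb⟩ := isUnit_iff_exists_inv.mp
              ((isUnit_map_iff π.res _).mp (Ne.isUnit h0))
            refine Or.inr ⟨b, ?_, ?_⟩
            · show π.res b ∈ V.1
              rwa [eq_inv_of_mul_eq_one_right (by rw [← map_mul, hb, map_one] :
                π.res ⟨x, hx⟩ * π.res b = 1)]
            · exact eq_inv_of_mul_eq_one_right (congrArg Subtype.val hb)
      · rcases V.1.mem_or_inv_mem (π.res ⟨x⁻¹, hx⟩) with h | h
        · exact Or.inr ⟨⟨x⁻¹, hx⟩, h, rfl⟩
        · by_cases h0 : π.res ⟨x⁻¹, hx⟩ = 0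
          · exact Or.inr ⟨⟨x⁻¹, hx⟩, by
              show π.res _ ∈ V.1
              rw [h0]; exact zero_mem _, rfl⟩
          · obtain ⟨b, hb⟩ := isUnit_iff_exists_inv.mp
              ((isUnit_map_iff π.res _).mp (Ne.isUnit h0))
            refine Or.inl ⟨b, ?_, ?_⟩
            · show π.res b ∈ V.1
              rwa [eq_inv_of_mul_eq_one_right (by rw [← map_mul, hb, map_one] :
                π.res ⟨x⁻¹, hx⟩ * π.res b = 1)]
            · show (b : F) = x
              rw [eq_inv_of_mul_eq_one_right (congrArg Subtype.val hb)]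
              exact inv_inv x },
    fun c => ⟨algebraMap K _ c, by
      show π.res (algebraMap K _ c) ∈ V.1
      rw [AlgHom.commutes]; exact V.2 c, rfl⟩⟩

theorem mem_comap {V : KVal K F'} {x : F} :
    x ∈ (π.comap V).1 ↔ ∃ h : x ∈ π.ring.1, π.res ⟨x, h⟩ ∈ V.1 := by
  constructor
  · rintro ⟨y, hy, rfl⟩
    exact ⟨y.2, hy⟩
  · rintro ⟨h, hy⟩
    exact ⟨⟨x, h⟩, hy, rfl⟩

theorem comap_le (V : KVal K F') : (π.comap V).1 ≤ π.ring.1 := fun _ hx =>
  (π.mem_comap.mp hx).1

/-- `d'` is the specialisation of `d` along the place. -/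
def Specialises (d : Dv K F) (d' : Dv K F') : Prop :=
  ∀ V : KVal K F', ∃ a : (π.ring.sub)ˣ,
    ((a : π.ring.sub) : F) = ((d (π.comap V) / d π.ring : Fˣ) : F) ∧
      Units.map π.res.toMonoidHom a / d' V ∈ V.units

theorem Specialises.one : π.Specialises 1 1 := fun V => ⟨1, by simp, by simp⟩

variable {π} in
theorem Specialises.mul {d₁ d₂ : Dv K F} {e₁ e₂ : Dv K F'} (h₁ : π.Specialises d₁ e₁)
    (h₂ : π.Specialises d₂ e₂) : π.Specialises (d₁ * d₂) (e₁ * e₂) := fun V => by
  obtain ⟨a, ha, ha'⟩ := h₁ V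
  obtain ⟨b, hb, hb'⟩ := h₂ V
  refine ⟨a * b, ?_, ?_⟩
  · rw [Pi.mul_apply, Pi.mul_apply, mul_div_mul_comm]
    show ((a : π.ring.sub) : F) * ((b : π.ring.sub) : F) = _
    rw [ha, hb, ← Units.val_mul]
  · rw [map_mul, Pi.mul_apply, mul_div_mul_comm]
    exact mul_mem ha' hb'

variable {π} in
theorem Specialises.inv {d : Dv K F} {e : Dv K F'} (h : π.Specialises d e) :
    π.Specialises d⁻¹ e⁻¹ := fun V => by
  obtain ⟨a, ha, ha'⟩ := h V
  refine ⟨a⁻¹, ?_, ?_⟩
  · have h1 : ((((a⁻¹ : (π.ring.sub)ˣ) : π.ring.sub)) : F) * ((a : π.ring.sub) : F) = 1 := by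
      rw [← MulMemClass.coe_mul, Units.inv_mul, OneMemClass.coe_one]
    rw [eq_inv_of_mul_eq_one_left h1, ha, Pi.inv_apply, Pi.inv_apply, inv_div_inv,
      ← inv_div (d (π.comap V)), Units.val_inv_eq_inv_val]
  · rw [map_inv, Pi.inv_apply, inv_div_inv, ← inv_div]
    exact inv_mem ha'

variable {π} in
theorem Specialises.div {d₁ d₂ : Dv K F} {e₁ e₂ : Dv K F'} (h₁ : π.Specialises d₁ e₁)
    (h₂ : π.Specialises d₂ e₂) : π.Specialises (d₁ / d₂) (e₁ / e₂) := by
  rw [div_eq_mul_inv, div_eq_mul_inv]
  exact h₁.mul h₂.inv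

variable {π} in
theorem Specialises.mem_principal {d : Dv K F} {e : Dv K F'} (h : π.Specialises d e)
    (hd : d ∈ principal K F) : e ∈ principal K F' := by
  obtain ⟨k, hk⟩ := hd
  obtain ⟨h0, h0'⟩ := KVal.mem_units_iff.mp (hk π.ring)
  let c : (π.ring.sub)ˣ := ⟨⟨_, h0⟩, ⟨_, h0'⟩, Subtype.ext (by simp), Subtype.ext (by simp)⟩
  refine ⟨(Units.map π.res.toMonoidHom c)⁻¹, fun V => ?_⟩
  obtain ⟨a, ha, ha'⟩ := h V
  have hac : ((a * c : (π.ring.sub)ˣ) : π.ring.sub).1 = ((d (π.comap V) / k : Fˣ) : F) := by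
    show ((a : π.ring.sub) : F) * ((d π.ring / k : Fˣ) : F) = _
    rw [ha, ← Units.val_mul, div_mul_div_cancel]
  have hunit : Units.map π.res.toMonoidHom (a * c) ∈ V.units := by
    obtain ⟨h1, h2⟩ := KVal.mem_units_iff.mp (hk (π.comap V))
    refine KVal.mem_units_iff.mpr ⟨?_, ?_⟩
    · obtain ⟨_, h1⟩ := π.mem_comap.mp h1
      convert h1 using 1
      exact congrArg π.res (Subtype.ext hac)
    · obtain ⟨_, h2⟩ := π.mem_comap.mp h2
      rw [← map_inv]
      convert h2 using 1
      refine congrArg π.res (Subtype.ext ?_)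
      have h3 : ((((a * c)⁻¹ : (π.ring.sub)ˣ) : π.ring.sub) : F) *
          ((a * c : (π.ring.sub)ˣ) : π.ring.sub).1 = 1 := by
        rw [← MulMemClass.coe_mul, Units.inv_mul, OneMemClass.coe_one]
      have h4 := eq_inv_of_mul_eq_one_left h3
      rw [hac, ← Units.val_inv_eq_inv_val] at h4
      exact h4
  have := div_mem hunit ha'
  rw [map_mul] at this
  rwa [show Units.map π.res.toMonoidHom a * Units.map π.res.toMonoidHom c /
    (Units.map π.res.toMonoidHom a / e V) = e V / (Units.map π.res.toMonoidHom c)⁻¹ by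
      simp only [div_eq_mul_inv, mul_inv_rev, inv_inv]
      rw [mul_comm (Units.map π.res.toMonoidHom a), mul_assoc, mul_comm (e V) _, ← mul_assoc (Units.map π.res.toMonoidHom a),
        mul_inv_cancel, one_mul, mul_comm]] at this

end KPlace

variable (K) in
/-- A functor of points in commutative groups, with a divisor class attached to every point. -/
structure ClassFunctor where
  /-- points with values in an algebra -/
  Pt : ∀ (R : Type u) [CommRing R] [Algebra K R], Type u
  addCommGroup : ∀ (R : Type u) [CommRing R] [Algebra K R], AddCommGroup (Pt R)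
  /-- functoriality -/
  map : ∀ {R S : Type u} [CommRing R] [Algebra K R] [CommRing S] [Algebra K S],
    (R →ₐ[K] S) → (Pt R →+ Pt S)
  map_id : ∀ (R : Type u) [CommRing R] [Algebra K R] (P : Pt R), map (AlgHom.id K R) P = P
  map_comp : ∀ {R S T : Type u} [CommRing R] [Algebra K R] [CommRing S] [Algebra K S] [CommRing T]
    [Algebra K T] (φ : R →ₐ[K] S) (χ : S →ₐ[K] T) (P : Pt R),
    map (χ.comp φ) P = map χ (map φ P)
  /-- the valuative criterion -/
  bijective_map_val : ∀ {F : Type u} [Field F] [Algebra K F] (V : KVal K F),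
    Function.Bijective (map V.sub.val)
  /-- the class attached to a point -/
  q : ∀ {F : Type u} [Field F] [Algebra K F], Pt F → Dv K F
  q_zero : ∀ {F : Type u} [Field F] [Algebra K F], q (0 : Pt F) = 1
  q_finite : ∀ {F : Type u} [Field F] [Algebra K F] (P : Pt F), (Set.range (q P)).Finite
  q_local : ∀ {F : Type u} [Field F] [Algebra K F] (S : Subalgebra K F) [IsLocalRing S] (P : Pt S),
    ∃ t : Fˣ, ∀ V : KVal K F, S ≤ V.sub → q (map S.val P) V / t ∈ V.units
  q_spec : ∀ {F F' : Type u} [Field F] [Algebra K F] [Field F'] [Algebra K F']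
    (π : KPlace K F F') (P : Pt π.ring.sub),
    π.Specialises (q (map π.ring.sub.val P)) (q (map π.res P))

attribute [instance] ClassFunctor.addCommGroup

namespace ClassFunctor

variable (Φ : ClassFunctor K)

/-- The defect of additivity of the class. -/
def bil (P Q : Φ.Pt F) : Dv K F := Φ.q (P + Q) / (Φ.q P * Φ.q Q)

/-- The cube class of three points. -/
def cube (P Q R : Φ.Pt F) : Dv K F := Φ.bil (P + Q) R / (Φ.bil P R * Φ.bil Q R)

/-- Extension of a point to the valuation ring of a place. -/
def extend (V : KVal K F) (P : Φ.Pt F) : Φ.Pt V.sub :=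
  (Equiv.ofBijective _ (Φ.bijective_map_val V)).symm P

@[simp] theorem map_extend (V : KVal K F) (P : Φ.Pt F) : Φ.map V.sub.val (Φ.extend V P) = P :=
  (Equiv.ofBijective _ (Φ.bijective_map_val V)).apply_symm_apply P

/-- Reduction of a point along a place. -/
def red (π : KPlace K F F') : Φ.Pt F →+ Φ.Pt F' :=
  (Φ.map π.res).comp
    (AddEquiv.ofBijective (Φ.map π.ring.sub.val) (Φ.bijective_map_val π.ring)).symm.toAddMonoidHom

theorem red_map (π : KPlace K F F') (P : Φ.Pt π.ring.sub) :
    Φ.red π (Φ.map π.ring.sub.val P) = Φ.map π.res P := by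
  show Φ.map π.res ((AddEquiv.ofBijective (Φ.map π.ring.sub.val) (Φ.bijective_map_val π.ring)).symm
    (Φ.map π.ring.sub.val P)) = _
  exact congrArg _ ((AddEquiv.ofBijective (Φ.map π.ring.sub.val)
    (Φ.bijective_map_val π.ring)).symm_apply_apply P)

theorem specialises_q (π : KPlace K F F') (P : Φ.Pt F) :
    π.Specialises (Φ.q P) (Φ.q (Φ.red π P)) := by
  obtain ⟨P, rfl⟩ := (Φ.bijective_map_val π.ring).2 P
  rw [red_map]
  exact Φ.q_spec π P

theorem specialises_bil (π : KPlace K F F') (P Q : Φ.Pt F) :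
    π.Specialises (Φ.bil P Q) (Φ.bil (Φ.red π P) (Φ.red π Q)) := by
  rw [bil, bil, ← map_add]
  exact (Φ.specialises_q π _).div ((Φ.specialises_q π _).mul (Φ.specialises_q π _))

theorem specialises_cube (π : KPlace K F F') (P Q R : Φ.Pt F) :
    π.Specialises (Φ.cube P Q R) (Φ.cube (Φ.red π P) (Φ.red π Q) (Φ.red π R)) := by
  rw [cube, cube, ← map_add]
  exact (Φ.specialises_bil π _ _).div ((Φ.specialises_bil π _ _).mul (Φ.specialises_bil π _ _))

end ClassFunctor

end Fermat.Agent.Tors
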