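import Fermat.Agent.Tors.GrowthBounds

/-!
# The degree of a map multiplying a divisor by `n`

If a separable extension of degree `d` pulls a divisor `D` back to one linearly equivalent, up
to a multiple, to `n D` on an isomorphic field, then `d` and `n ^ g` agree up to a constant
independent of `d` and `n`. Applied to all powers of one map this forces `d = n ^ g`.
-/

noncomputable section

namespace Fermat.Agent.Tors

variable {k F F' : Type*} [Field k] [Field F] [Algebra k F] [Field F'] [Algebra F F']
  [Algebra k F'] [IsScalarTower k F F'] [FiniteDimensional F F'] [Algebra.IsSeparable F F']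
  {s : ValuationSubring F → F} {g C A : ℕ}

/-- Degree of a separable extension against the dimension growth of pole spaces. -/
theorem finrank_le_and_le_of_scaling
    (hfin : ∀ m, FiniteDimensional k (poleSpace k s m))
    (hC : ∀ m, Module.finrank k (poleSpace k s m) ≤ C * (m + 1) ^ g)
    (hA : ∀ m, m ^ g ≤ A * Module.finrank k (poleSpace k s m))
    (hs : ∀ V, IsConstVal k V → s V ∈ V) {ι : Type*} [Fintype ι] (b : Module.Basis ι F F')
    (hb : ∀ i, ∃ c, b i ∈ poleSpace k (pullEq F' s) c) {n N : ℕ} (hn : 0 < n) (hN : 0 < N)
    (hrel : ∀ m, Module.finrank k (poleSpace k (pullEq F' s) (N * m)) =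
      Module.finrank k (poleSpace k s (n * N * m))) :
    Module.finrank F F' ≤ A * C * 4 ^ g * n ^ g ∧
      n ^ g ≤ A * C * 4 ^ g * Module.finrank F F' := by
  choose c' hc' using hb
  set c := ∑ i, c' i
  have hs' : ∀ V, IsConstVal k V → pullEq F' s V ∈ V := fun V hV => by
    have := hs _ hV.comap
    rwa [ValuationSubring.mem_comap] at this
  have hbc : ∀ i, b i ∈ poleSpace k (pullEq F' s) c := fun i =>
    poleSpace_mono hs' (Finset.single_le_sum (fun _ _ => Nat.zero_le _) (Finset.mem_univ i))
      (hc' i)
  rw [Module.finrank_eq_card_basis b]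
  set d := Fintype.card ι
  set m := c + 1
  have hm : 0 < m := Nat.succ_pos c
  have hfin' : ∀ m, FiniteDimensional k (poleSpace k (pullEq F' s) m) := fun m => by
    have := hfin (m + c)
    exact finiteDimensional_poleSpace_pullEq b hbc
  have hgpos : ∀ a, 0 < a → 0 < a ^ g := fun a ha => pow_pos ha g
  constructor
  · -- lower estimate: `d * l(N m) ≤ l'(N m + c) ≤ l'(N * 2 m)`
    have h1 : d * Module.finrank k (poleSpace k s (N * m)) ≤
        Module.finrank k (poleSpace k s (n * N * (2 * m))) := by
      rw [← hrel]
      have := hfin' (N * m + c)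
      refine (card_mul_finrank_le b hbc).trans ?_
      have := hfin' (N * (2 * m))
      refine Submodule.finrank_mono (poleSpace_mono hs' ?_)
      have h2m : N * (2 * m) = 2 * (N * m) := by ring
      have : c ≤ N * m := (Nat.le_succ c).trans (Nat.le_mul_of_pos_left _ hN)
      omega
    have h2 := hC (n * N * (2 * m))
    -- one more step beyond `2 m` is absorbed by the constant
    have h3 : n * N * (2 * m) + 1 ≤ 2 * n * (N * (2 * m)) := by
      have : 0 < n * N * (2 * m) := by positivity
      linarith
    have key : d * (N * m) ^ g ≤ A * C * (4 ^ g) * n ^ g * (N * m) ^ g := by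
      calc d * (N * m) ^ g ≤ d * (A * Module.finrank k (poleSpace k s (N * m))) :=
            Nat.mul_le_mul_left _ (hA _)
        _ = A * (d * Module.finrank k (poleSpace k s (N * m))) := by ring
        _ ≤ A * (C * (2 * n * (N * (2 * m))) ^ g) := Nat.mul_le_mul_left _
            ((h1.trans h2).trans (Nat.mul_le_mul_left _ (Nat.pow_le_pow_left h3 g)))
        _ = A * C * (4 ^ g) * n ^ g * (N * m) ^ g := by
            rw [show 2 * n * (N * (2 * m)) = 4 * (n * (N * m)) by ring, mul_pow, mul_pow]
            ring
    exact Nat.le_of_mul_le_mul_right key (hgpos _ (Nat.mul_pos hN hm))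
  · have h1 : Module.finrank k (poleSpace k s (n * N * m)) ≤
        d * Module.finrank k (poleSpace k s (N * m + c)) := by
      rw [← hrel]
      have := hfin (N * m + c)
      exact finrank_le_card_mul b hbc
    have h2 := hC (N * m + c)
    have h3 : N * m + c + 1 ≤ 4 * (N * m) := by
      have : m ≤ N * m := Nat.le_mul_of_pos_left _ hN
      omega
    have key : n ^ g * (N * m) ^ g ≤ A * C * 4 ^ g * d * (N * m) ^ g := by
      calc n ^ g * (N * m) ^ g = (n * N * m) ^ g := by rw [← mul_pow, mul_assoc]
        _ ≤ A * Module.finrank k (poleSpace k s (n * N * m)) := hA _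
        _ ≤ A * (d * (C * (4 * (N * m)) ^ g)) := Nat.mul_le_mul_left _ (h1.trans
            (Nat.mul_le_mul_left _ (h2.trans (Nat.mul_le_mul_left _ (Nat.pow_le_pow_left h3 g)))))
        _ = A * C * 4 ^ g * d * (N * m) ^ g := by rw [mul_pow]; ring
    exact Nat.le_of_mul_le_mul_right key (hgpos _ (Nat.mul_pos hN hm))

/-- Two multiplicative quantities agreeing up to a constant are equal. -/
theorem eq_of_forall_pow_le {a b B : ℕ} (h₁ : ∀ j, a ^ j ≤ B * b ^ j)
    (h₂ : ∀ j, b ^ j ≤ B * a ^ j) : a = b := by
  have key : ∀ {a b : ℕ}, (∀ j, a ^ j ≤ B * b ^ j) → a ≤ b := by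
    intro a b h
    by_contra hlt
    push Not at hlt
    rcases b.eq_zero_or_pos with rfl | hb
    · have := h 1
      simp at this
      omega
    -- `(1 + 1/b) ^ j` is unbounded
    have hgrow : ∀ j, (b + j) * b ^ j ≤ b * a ^ j := fun j => by
      induction j with
      | zero => simp
      | succ j ih =>
        calc (b + (j + 1)) * b ^ (j + 1) ≤ ((b + j) * (b + 1)) * b ^ j := by
              rw [pow_succ, ← mul_assoc, mul_assoc (b + (j + 1)), mul_comm (b ^ j) b, ← mul_assoc]
              refine Nat.mul_le_mul_right _ ?_
              have := Nat.zero_le j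
              linarith
          _ ≤ (b * a ^ j) * a := by
              rw [mul_right_comm]
              exact Nat.mul_le_mul ih hlt
          _ = b * a ^ (j + 1) := by ring
    have h1 := (hgrow (B * b + 1)).trans (Nat.mul_le_mul_left b (h _))
    rw [← mul_assoc, mul_comm b B] at h1
    have := Nat.le_of_mul_le_mul_right h1 (pow_pos hb _)
    omega
  exact le_antisymm (key h₁) (key h₂)

end Fermat.Agent.Tors
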