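import Fermat.Agent.Tors.Basic
import Fermat.Agent.Tors.Growth

/-!
# The degree of an endomorphism of a function field multiplying a big divisor by `m`
-/

set_option autoImplicit false

noncomputable section

universe u

namespace Fermat.Agent.Tors

variable {K : Type u} [Field K] {F : Type u} [Field F] [Algebra K F]

/-- All local equations are regular. -/
def Effective (d : Dv K F) : Prop := ∀ V : KVal K F, (d V : F) ∈ V.1

/-- Every finite set of functions has, up to a common factor, poles bounded by a multiple. -/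
def Big (d : Dv K F) : Prop :=
  ∀ S : Finset F, ∃ s : F, s ≠ 0 ∧ ∃ c : ℕ, ∀ x ∈ S, ∀ V : KVal K F, s * x * (d V : F) ^ c ∈ V.1

/-- The valuation below along an endomorphism. -/
def KVal.along (σ : F →ₐ[K] F) (V : KVal K F) : KVal K F :=
  ⟨V.1.comap σ.toRingHom, fun c => by
    rw [ValuationSubring.mem_comap]
    simpa using V.2 c⟩

open Classical in
/-- The local equations as a function on all valuation subrings. -/
def Dv.eqn (d : Dv K F) : ValuationSubring F → F := fun V =>
  if h : IsConstVal K V then (d ⟨V, h⟩ : F) else 1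

theorem Dv.eqn_apply (d : Dv K F) {V : ValuationSubring F} (h : IsConstVal K V) :
    d.eqn V = (d ⟨V, h⟩ : F) := dif_pos h

theorem Dv.eqn_mem {d : Dv K F} (hd : Effective d) {V : ValuationSubring F}
    (h : IsConstVal K V) : d.eqn V ∈ V := by
  rw [d.eqn_apply h]; exact hd ⟨V, h⟩

/-- Pole spaces of an effective big divisor grow exactly like `m ^ g`. -/
theorem exists_growth {g : ℕ} (hg : 0 < g) {t : Fin g → F} (ht : AlgebraicIndependent K t)
    [FiniteDimensional (IntermediateField.adjoin K (Set.range t)) F]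
    [Algebra.IsSeparable (IntermediateField.adjoin K (Set.range t)) F]
    {d : Dv K F} (hd : Effective d) (hbig : Big d) (hfin : (Set.range d).Finite) :
    ∃ C A : ℕ, ∀ m, FiniteDimensional K (poleSpace K d.eqn m) ∧
      Module.finrank K (poleSpace K d.eqn m) ≤ C * (m + 1) ^ g ∧
      m ^ g ≤ A * Module.finrank K (poleSpace K d.eqn m) := by
  classical
  set i₀ : Fin g := ⟨0, hg⟩
  set Y := hfin.toFinset
  choose Q p hQ hpm hpc hp0 using fun y : F => exists_mul_isRoot_aeval (k := K) (x := t) y⁻¹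
  choose P hP using hpc
  set h := ∏ y ∈ Y, Q (y : F) with hh
  -- a common exponent at infinity
  set e := ∑ y ∈ Y, (∑ j ∈ Finset.range (p (y : F)).natDegree, (P (y : F) j).totalDegree) +
    ∑ y ∈ Y, (Q (y : F)).totalDegree + 1 with he
  have hh0 : MvPolynomial.aeval t h ≠ 0 := by
    rw [hh, map_prod]; exact Finset.prod_ne_zero_iff.mpr fun y _ => hQ _
  have hsplit : ∀ V (hV : IsConstVal K V), MvPolynomial.aeval t h / d.eqn V =
      MvPolynomial.aeval t (∏ y ∈ Y.erase (d ⟨V, hV⟩), Q (y : F)) *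
        (MvPolynomial.aeval t (Q (d ⟨V, hV⟩ : F)) * ((d ⟨V, hV⟩ : F))⁻¹) := fun V hV => by
    rw [← mul_assoc, ← map_mul, Finset.prod_erase_mul _ (fun y : Fˣ => Q (y : F))
      (hfin.mem_toFinset.mpr (Set.mem_range_self (⟨V, hV⟩ : KVal K F))), d.eqn_apply hV, ← hh,
      div_eq_mul_inv]
  have hfinite : ∀ V, IsConstVal K V → (∀ j, t j ∈ V) →
      MvPolynomial.aeval t h ^ 1 / d.eqn V ∈ V := fun V hV htV => by
    rw [pow_one, hsplit V hV]
    exact mul_mem (aeval_mem_valuationSubring hV htV _) (mem_valuationSubring_of_monic (hpm _)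
      (fun j => hP _ j ▸ aeval_mem_valuationSubring hV htV _) (hp0 _))
  have hinf : ∀ V, IsConstVal K V → (t i₀)⁻¹ ∈ V → (∀ j, t j / t i₀ ∈ V) →
      (t i₀)⁻¹ ^ e * MvPolynomial.aeval t h ^ 1 / d.eqn V ∈ V := fun V hV hiV htV => by
    have ht0 : t i₀ ≠ 0 := ht.ne_zero i₀
    set y₀ : Fˣ := d ⟨V, hV⟩
    have hy₀ : y₀ ∈ Y := hfin.mem_toFinset.mpr (Set.mem_range_self (⟨V, hV⟩ : KVal K F))
    set e₁ := ∑ j ∈ Finset.range (p (y₀ : F)).natDegree, (P (y₀ : F) j).totalDegree
    set e₂ := ∑ y ∈ Y.erase y₀, (Q (y : F)).totalDegree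
    obtain ⟨r, hr⟩ : ∃ r, e = r + e₂ + e₁ := Nat.exists_eq_add_of_le' (by
      have h1 : e₁ ≤ ∑ y ∈ Y, ∑ j ∈ Finset.range (p (y : F)).natDegree, (P (y : F) j).totalDegree :=
        Finset.single_le_sum (f := fun y : Fˣ => ∑ j ∈ Finset.range (p (y : F)).natDegree,
          (P (y : F) j).totalDegree) (fun _ _ => Nat.zero_le _) hy₀
      have h2 : e₂ ≤ ∑ y ∈ Y, (Q (y : F)).totalDegree :=
        Finset.sum_le_sum_of_subset (Finset.erase_subset _ _)
      omega : e₂ + e₁ ≤ e) |>.imp fun r hr => by omega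
    rw [pow_one, mul_div_assoc, hsplit V hV, hr,
      show (t i₀)⁻¹ ^ (r + e₂ + e₁) * (MvPolynomial.aeval t (∏ y ∈ Y.erase y₀, Q (y : F)) *
        (MvPolynomial.aeval t (Q (y₀ : F)) * (y₀ : F)⁻¹)) = (t i₀)⁻¹ ^ r *
        ((t i₀)⁻¹ ^ e₂ * MvPolynomial.aeval t (∏ y ∈ Y.erase y₀, Q (y : F))) *
        ((t i₀)⁻¹ ^ e₁ * (MvPolynomial.aeval t (Q (y₀ : F)) * (y₀ : F)⁻¹)) by ring]
    refine mul_mem (mul_mem (pow_mem hiV _) (inv_pow_mul_aeval_mem hV hiV htV
      (MvPolynomial.totalDegree_finsetProd _ _))) ?_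
    refine mem_valuationSubring_of_monic (p := (p (y₀ : F)).scaleRoots ((t i₀)⁻¹ ^ e₁))
      ((Polynomial.monic_scaleRoots_iff _).mpr (hpm _)) (fun j => ?_)
      (Polynomial.scaleRoots_eval₂_eq_zero (RingHom.id F) (hp0 _))
    rw [Polynomial.coeff_scaleRoots]
    rcases lt_trichotomy j (p (y₀ : F)).natDegree with hj | rfl | hj
    · rw [hP _ j, ← pow_mul, mul_comm]
      exact inv_pow_mul_aeval_mem hV hiV htV (le_trans
        (Finset.single_le_sum (f := fun j => (P (y₀ : F) j).totalDegree)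
          (fun _ _ => Nat.zero_le _) (Finset.mem_range.mpr hj))
        (Nat.le_mul_of_pos_right _ (Nat.sub_pos_of_lt hj)))
    · simp [(hpm _).coeff_natDegree]
    · simp [Polynomial.coeff_eq_zero_of_natDegree_lt hj]
  have hs0 : ∀ V, IsConstVal K V → d.eqn V ≠ 0 := fun V hV => by
    rw [d.eqn_apply hV]; exact Units.ne_zero _
  obtain ⟨C, hC⟩ := exists_finrank_poleSpace_le ht i₀ hs0 hh0 (c := 1) (e := e) hfinite hinf
  obtain ⟨s, hs, c', hc'⟩ := hbig (insert 1 (Finset.univ.image t))
  have hmem : ∀ x ∈ insert (1 : F) (Finset.univ.image t), s * x ∈ poleSpace K d.eqn (c' + 1) :=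
    fun x hx V hV => by
    rw [d.eqn_apply hV, pow_succ,
      show (d ⟨V, hV⟩ : F) ^ c' * (d ⟨V, hV⟩ : F) * (s * x) =
        s * x * (d ⟨V, hV⟩ : F) ^ c' * (d ⟨V, hV⟩ : F) by ring]
    exact mul_mem (hc' x hx ⟨V, hV⟩) (hd ⟨V, hV⟩)
  obtain ⟨A, hA⟩ := exists_pow_le_finrank_poleSpace ht (c := c' + 1) (Nat.succ_pos _)
    (fun V hV => Dv.eqn_mem hd hV) hs (by simpa using hmem 1 (Finset.mem_insert_self _ _))
    (fun j => hmem _ (Finset.mem_insert_of_mem (Finset.mem_image_of_mem _ (Finset.mem_univ j))))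
    fun m => (hC m).1
  exact ⟨C, A, fun m => ⟨(hC m).1, (hC m).2, hA m⟩⟩

/-- An endomorphism pulling a big effective divisor back to `m` times itself, up to multiples
and linear equivalence, has degree comparable with `m ^ g`. -/
theorem exists_degree_bound {g : ℕ} (hg : 0 < g) {t : Fin g → F} (ht : AlgebraicIndependent K t)
    [FiniteDimensional (IntermediateField.adjoin K (Set.range t)) F]
    [Algebra.IsSeparable (IntermediateField.adjoin K (Set.range t)) F]
    {d : Dv K F} (hd : Effective d) (hbig : Big d) (hfin : (Set.range d).Finite) :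
    ∃ C : ℕ, ∀ m : ℕ, 0 < m → ∀ σ : F →ₐ[K] F, FiniteDimensional σ.fieldRange F →
      Algebra.IsSeparable σ.fieldRange F →
      (∃ (N : ℕ) (h : Fˣ), 0 < N ∧ ∀ V : KVal K F,
        Units.map σ.toRingHom.toMonoidHom (d (KVal.along σ V)) ^ N / (h * d V ^ (m * N))
          ∈ V.units) →
      Module.finrank σ.fieldRange F ≤ C * m ^ g ∧ m ^ g ≤ C * Module.finrank σ.fieldRange F := by
  classical
  obtain ⟨C, A, hCA⟩ := exists_growth hg ht hd hbig hfin
  refine ⟨A * C * 4 ^ g, fun m hm σ hσfin hσsep ⟨N, h, hN, hrel⟩ => ?_⟩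
  set E := σ.fieldRange
  let e : F ≃ₐ[K] E := AlgEquiv.ofInjectiveField σ
  have he : ∀ a, ((e a : E) : F) = σ a := fun _ => rfl
  have hec : ∀ V : ValuationSubring E, IsConstVal K (V.comap e.toAlgHom.toRingHom) ↔
      IsConstVal K V := fun V => by
    refine forall_congr' fun c => ?_
    rw [ValuationSubring.mem_comap]
    simp
  let s₀ : ValuationSubring E → E := fun V => e (d.eqn (V.comap e.toAlgHom.toRingHom))
  -- transport of pole spaces to the image field
  have hmap : ∀ j, (poleSpace K d.eqn j).map e.toLinearMap = poleSpace K s₀ j := fun j => by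
    ext a
    constructor
    · rintro ⟨b, hb, rfl⟩ V hV
      have h1 := hb _ ((hec V).mpr hV)
      rw [ValuationSubring.mem_comap] at h1
      simpa [s₀] using h1
    · intro ha
      refine ⟨e.symm a, fun V hV => ?_, e.apply_symm_apply a⟩
      have hV' : IsConstVal K (V.comap e.symm.toAlgHom.toRingHom) := fun c => by
        rw [ValuationSubring.mem_comap]; simpa using hV c
      have h1 := ha _ hV'
      have heq : (V.comap e.symm.toAlgHom.toRingHom).comap e.toAlgHom.toRingHom = V := by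
        ext x; simp [ValuationSubring.mem_comap]
      rw [ValuationSubring.mem_comap] at h1
      simp only [s₀] at h1
      rw [heq] at h1
      simpa using h1
  have hrank : ∀ j, Module.finrank K (poleSpace K s₀ j) =
      Module.finrank K (poleSpace K d.eqn j) := fun j => by
    rw [← hmap j]
    exact ((poleSpace K d.eqn j).equivMapOfInjective e.toLinearMap e.injective).finrank_eq.symm
  have hfin₀ : ∀ j, FiniteDimensional K (poleSpace K s₀ j) := fun j => by
    have := (hCA j).1
    rw [← hmap j]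
    infer_instance
  have hs₀ : ∀ V, IsConstVal K V → s₀ V ∈ V := fun V hV => by
    have h1 := Dv.eqn_mem hd ((hec V).mpr hV)
    rwa [ValuationSubring.mem_comap] at h1
  have halong : ∀ V : KVal K F, pullEq F s₀ V.1 =
      ((Units.map σ.toRingHom.toMonoidHom (d (KVal.along σ V)) : Fˣ) : F) := fun V => by
    show ((e (d.eqn ((V.1.comap (algebraMap E F)).comap e.toAlgHom.toRingHom)) : E) : F) = _
    have heq : (V.1.comap (algebraMap E F)).comap e.toAlgHom.toRingHom = (KVal.along σ V).1 := by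
      ext x; simp only [ValuationSubring.mem_comap, KVal.along]; rfl
    rw [heq, d.eqn_apply (KVal.along σ V).2, he]
    rfl
  -- a basis with bounded poles
  set b₀ := Module.finBasis E F
  obtain ⟨s, hs, c, hc⟩ := hbig (Finset.univ.image b₀)
  have hsu : s * ((h : F) ^ c)⁻¹ ≠ 0 := mul_ne_zero hs (inv_ne_zero (pow_ne_zero _ h.ne_zero))
  let b : Module.Basis (Fin (Module.finrank E F)) E F :=
    b₀.map (LinearEquiv.ofBijective (LinearMap.mulLeft E (s * ((h : F) ^ c)⁻¹))
      ⟨mul_right_injective₀ hsu, fun a =>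
        ⟨(s * ((h : F) ^ c)⁻¹)⁻¹ * a, mul_inv_cancel_left₀ hsu a⟩⟩)
  have hb : ∀ i, ∃ c', b i ∈ poleSpace K (pullEq F s₀) c' := fun i => by
    refine ⟨N * c, fun V hV => ?_⟩
    let W : KVal K F := ⟨V, hV⟩
    obtain ⟨hu, -⟩ := KVal.mem_units_iff.mp (hrel W)
    rw [show b i = s * ((h : F) ^ c)⁻¹ * b₀ i from rfl, halong W]
    rw [Units.val_div_eq_div_val, Units.val_mul, Units.val_pow_eq_pow_val,
      Units.val_pow_eq_pow_val] at hu
    have h1 := hc (b₀ i) (Finset.mem_image_of_mem _ (Finset.mem_univ i)) W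
    rw [show ((Units.map σ.toRingHom.toMonoidHom (d (KVal.along σ W)) : Fˣ) : F) ^ (N * c) *
        (s * ((h : F) ^ c)⁻¹ * b₀ i) =
      (((Units.map σ.toRingHom.toMonoidHom (d (KVal.along σ W)) : Fˣ) : F) ^ N /
        ((h : F) * (d W : F) ^ (m * N))) ^ c * ((d W : F) ^ ((m * N - 1) * c) *
        (s * b₀ i * (d W : F) ^ c)) by
      have hmN : (m * N - 1) * c + c = m * N * c := by
        conv_rhs => rw [show m * N = (m * N - 1) + 1 from
          (Nat.sub_add_cancel (Nat.mul_pos hm hN)).symm, Nat.succ_mul]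
      rw [div_pow, mul_pow, ← pow_mul, ← pow_mul, ← hmN, pow_add]
      field_simp [h.ne_zero, (d W).ne_zero]]
    exact mul_mem (pow_mem hu _) (mul_mem (pow_mem (hd W) _) h1)
  obtain ⟨h₁, h₂⟩ := finrank_le_and_le_of_scaling (k := K) (F := E) (F' := F) (s := s₀)
    hfin₀ (fun j => (hrank j).symm ▸ (hCA j).2.1) (fun j => (hrank j).symm ▸ (hCA j).2.2)
    hs₀ b hb hm hN fun j => by
      rw [hrank]
      refine finrank_poleSpace_eq_of_principal (s := d.eqn) (t := pullEq F s₀) (h := (h : F))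
        h.ne_zero (a := N) (b := m * N) ?_ ?_ ?_ ?_
      · exact fun V hV => by rw [halong ⟨V, hV⟩]; exact Units.ne_zero _
      · intro V hV
        obtain ⟨-, hu⟩ := KVal.mem_units_iff.mp (hrel ⟨V, hV⟩)
        rw [inv_div, Units.val_div_eq_div_val, Units.val_mul, Units.val_pow_eq_pow_val,
          Units.val_pow_eq_pow_val] at hu
        rw [halong ⟨V, hV⟩, d.eqn_apply hV]
        exact hu
      · intro V hV
        obtain ⟨hu, -⟩ := KVal.mem_units_iff.mp (hrel ⟨V, hV⟩)
        rw [Units.val_div_eq_div_val, Units.val_mul, Units.val_pow_eq_pow_val,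
          Units.val_pow_eq_pow_val] at hu
        rw [halong ⟨V, hV⟩, d.eqn_apply hV]
        exact hu
      · exact fun V hV => by rw [d.eqn_apply hV]; exact Units.ne_zero _
  exact ⟨h₁, h₂⟩

end Fermat.Agent.Tors
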