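import Fermat.Agent.Tors.FunField

/-!
# The reduced divisor of codimension one points outside an affine open (`S26`)
-/

set_option autoImplicit false

noncomputable section

universe u

open CategoryTheory AlgebraicGeometry TopologicalSpace

namespace Fermat.Agent.Tors

variable {K : Type u} [Field K] {A : Scheme.{u}} [IsIntegral A]
  (f : A ⟶ Spec (CommRingCat.of K))

/-- A section over an open as a function. -/
def secFun (U : A.Opens) [Nonempty U] : Γ(A, U) →+* funField f := (A.germToFunctionField U).hom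

theorem toFun0_germ_eq {U : A.Opens} [Nonempty U] {x : A} (hx : x ∈ U) (s : Γ(A, U)) :
    toFun0 f x (A.presheaf.germ U x hx s) = secFun f U s :=
  toFun0_germ f hx s

/-- `a` is regular and vanishes at `p`. -/
def VanishAt (p : A) (a : funField f) : Prop :=
  ∃ s, s ∈ IsLocalRing.maximalIdeal (A.presheaf.stalk p) ∧ toFun0 f p s = a

theorem toFun0_vanishAt_iff {x p : A} (h : p ⤳ x) (s : A.presheaf.stalk x) :
    VanishAt f p (toFun0 f x s) ↔
      A.presheaf.stalkSpecializes h s ∈ IsLocalRing.maximalIdeal (A.presheaf.stalk p) := by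
  constructor
  · rintro ⟨t, ht, hts⟩
    rwa [toFun0_injective f p ((toFun0_stalkSpecializes f h s).trans hts.symm)]
  · exact fun hs => ⟨_, hs, toFun0_stalkSpecializes f h s⟩

/-- The prime ideal of a generalisation. -/
def primeOf {x p : A} (h : p ⤳ x) : Ideal (A.presheaf.stalk x) :=
  (IsLocalRing.maximalIdeal (A.presheaf.stalk p)).comap (A.presheaf.stalkSpecializes h).hom

instance isPrime_primeOf {x p : A} (h : p ⤳ x) : (primeOf h).IsPrime :=
  Ideal.IsPrime.comap _

omit [IsIntegral A] in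
theorem mem_primeOf {x p : A} (h : p ⤳ x) {s : A.presheaf.stalk x} :
    s ∈ primeOf h ↔
      A.presheaf.stalkSpecializes h s ∈ IsLocalRing.maximalIdeal (A.presheaf.stalk p) := Iff.rfl

omit [IsIntegral A] in
theorem fromSpecStalk_primeOf {x p : A} (h : p ⤳ x) :
    A.fromSpecStalk x ⟨primeOf h, inferInstance⟩ = p := by
  have h1 : Spec.map (A.presheaf.stalkSpecializes h) (IsLocalRing.closedPoint (A.presheaf.stalk p)) =
      (⟨primeOf h, inferInstance⟩ : PrimeSpectrum (A.presheaf.stalk x)) := rfl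
  rw [← h1]
  exact (congrArg (fun m : Spec (A.presheaf.stalk p) ⟶ A =>
    m (IsLocalRing.closedPoint (A.presheaf.stalk p)))
    (Scheme.SpecMap_stalkSpecializes_fromSpecStalk h)).trans Scheme.fromSpecStalk_closedPoint

omit [IsIntegral A] in
theorem exists_primeOf_eq {x : A} (P : Ideal (A.presheaf.stalk x)) [hP : P.IsPrime] :
    ∃ (q : A) (h : q ⤳ x), primeOf h = P := by
  set q := A.fromSpecStalk x ⟨P, hP⟩
  have h : q ⤳ x := by
    have : q ∈ Set.range (A.fromSpecStalk x) := ⟨_, rfl⟩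
    rwa [Scheme.range_fromSpecStalk] at this
  refine ⟨q, h, ?_⟩
  exact congrArg PrimeSpectrum.asIdeal
    ((A.fromSpecStalk x).isEmbedding.injective (fromSpecStalk_primeOf h))

/-- Functions regular at `p` are quotients of functions regular at a specialisation `x`. -/
theorem exists_mul_eq_of_mem_regAt {x p : A} (h : p ⤳ x) {a : funField f} (ha : a ∈ regAt f p) :
    ∃ s t : A.presheaf.stalk x, t ∉ primeOf h ∧ toFun0 f x t * a = toFun0 f x s := by
  obtain ⟨r, rfl⟩ := ha
  obtain ⟨_, ⟨V, hV, rfl⟩, hxV, -⟩ :=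
    A.isBasis_affineOpens.exists_subset_of_mem_open (Set.mem_univ x) isOpen_univ
  have hpV : p ∈ V := h.mem_open V.2 hxV
  let _ := TopCat.Presheaf.algebra_section_stalk A.presheaf (⟨p, hpV⟩ : V)
  have := hV.isLocalization_stalk ⟨p, hpV⟩
  obtain ⟨s, t, rfl⟩ := IsLocalization.exists_mk'_eq (hV.primeIdealOf ⟨p, hpV⟩).asIdeal.primeCompl r
  refine ⟨A.presheaf.germ V x hxV s, A.presheaf.germ V x hxV (t : Γ(A, V)), ?_, ?_⟩
  · intro ht
    rw [mem_primeOf, A.presheaf.germ_stalkSpecializes_apply] at ht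
    exact ht (IsLocalization.map_units (A.presheaf.stalk p) t)
  · rw [← toFun0_stalkSpecializes f h, ← toFun0_stalkSpecializes f h,
      A.presheaf.germ_stalkSpecializes_apply, A.presheaf.germ_stalkSpecializes_apply, ← map_mul]
    exact congrArg _ (IsLocalization.mk'_spec' (A.presheaf.stalk p) s t)

/-- A generator of the prime of `p` at `x`, or `1` if `p` does not pass through `x`. -/
def IsEqnAt (p x : A) (π : (funField f)ˣ) : Prop :=
  (π : funField f) ∈ regAt f x ∧ (p ⤳ x → VanishAt f p (π : funField f) ∧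
    ∀ a ∈ regAt f x, VanishAt f p a → a / (π : funField f) ∈ regAt f x) ∧
  (¬ p ⤳ x → π = 1)

variable [Smooth f] [IsAlgClosed K]

theorem exists_isEqnAt {p x : A} (hx : IsClosed {x}) (hp : p ≠ genericPoint A)
    (hmax : (IsLocalRing.maximalIdeal (A.presheaf.stalk p)).IsPrincipal) :
    ∃ π, IsEqnAt f p x π := by
  classical
  by_cases h : p ⤳ x
  swap
  · exact ⟨1, by simp [regAt], fun h' => absurd h' h, fun _ => rfl⟩
  obtain ⟨hdom, hufd⟩ := factorial_stalk f hx
  have := isNoetherianRing_stalk f p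
  set P := primeOf h with hP
  have hPbot : P ≠ ⊥ := fun h0 => hp <| by
    have h1 := fromSpecStalk_primeOf h
    have h2 : (⟨⊥, Ideal.isPrime_bot⟩ : PrimeSpectrum (A.presheaf.stalk x)) =
        ⟨primeOf ((genericPoint_spec A).specializes trivial), inferInstance⟩ := by
      refine PrimeSpectrum.ext (le_antisymm bot_le fun s hs => ?_)
      rw [mem_primeOf, IsLocalRing.maximalIdeal_eq_bot (R := A.functionField), Ideal.mem_bot] at hs
      exact toFun0_injective f x (hs.trans (map_zero _).symm)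
    have h3 : (⟨⊥, Ideal.isPrime_bot⟩ : PrimeSpectrum (A.presheaf.stalk x)) =
        ⟨primeOf h, inferInstance⟩ := PrimeSpectrum.ext (hP ▸ h0).symm
    rw [← h1, ← h3, h2, fromSpecStalk_primeOf]
  obtain ⟨π, hπP, hπ⟩ := Ideal.IsPrime.exists_mem_prime_of_ne_bot (isPrime_primeOf h) hPbot
  have hπ0 : toFun0 f x π ≠ 0 := (map_ne_zero_iff _ (toFun0_injective f x)).mpr hπ.ne_zero
  refine ⟨Units.mk0 _ hπ0, ⟨π, rfl⟩,
    fun _ => ⟨(toFun0_vanishAt_iff f h π).mpr hπP, ?_⟩, fun h' => absurd h h'⟩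
  rintro _ ⟨s, rfl⟩ hvan
  rw [toFun0_vanishAt_iff f h] at hvan
  suffices hdvd : π ∣ s by
    obtain ⟨r, rfl⟩ := hdvd
    exact ⟨r, by rw [Units.val_mk0, map_mul, mul_div_cancel_left₀ _ hπ0]⟩
  by_contra hns
  -- another prime in `P`
  obtain ⟨π', hπ'P, hπ', hnassoc⟩ : ∃ π', π' ∈ P ∧ Prime π' ∧ ¬ Associated π π' := by
    have hs0 : s ≠ 0 := fun h0 => hns (h0 ▸ dvd_zero π)
    obtain ⟨l, hl, hls⟩ := UniqueFactorizationMonoid.exists_prime_factors s hs0
    have hmem : l.prod ∈ P := by
      obtain ⟨u, hu⟩ := hls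
      exact ((isPrime_primeOf h).mem_or_mem (hu ▸ hvan)).resolve_right fun hu' =>
        (isPrime_primeOf h).ne_top (Ideal.eq_top_of_isUnit_mem _ hu' u.isUnit)
    obtain ⟨π', hπ'l, hπ'P⟩ := (isPrime_primeOf h).multiset_prod_mem_iff_exists_mem _ |>.mp hmem
    exact ⟨π', hπ'P, hl π' hπ'l, fun ha => hns (ha.dvd.trans
      ((Multiset.dvd_prod hπ'l).trans hls.dvd))⟩
  obtain ⟨ϖ, hϖ⟩ := hmax.principal
  have hne : ∀ t : A.presheaf.stalk x, t ≠ 0 → A.presheaf.stalkSpecializes h t ≠ 0 := fun t ht h0 =>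
    ht <| toFun0_injective f x (by rw [← toFun0_stalkSpecializes f h t, h0, map_zero, map_zero])
  have hval : ∀ t, t ∈ P → t ≠ 0 → ∃ i, 0 < i ∧
      Associated (A.presheaf.stalkSpecializes h t) (ϖ ^ i) := by
    intro t htP ht
    have hs := hne t ht
    have hfm : FiniteMultiplicity ϖ (A.presheaf.stalkSpecializes h t) := by
      refine FiniteMultiplicity.of_not_isUnit (fun hu => ?_) hs
      exact (IsLocalRing.maximalIdeal.isMaximal _).ne_top
        (by rw [hϖ]; exact Ideal.span_singleton_eq_top.mpr hu)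
    obtain ⟨c, hc, hcn⟩ := hfm.exists_eq_pow_mul_and_not_dvd
    have hcu : IsUnit c := by
      by_contra hnu
      exact hcn (Ideal.mem_span_singleton.mp (by
        rw [← Ideal.submodule_span_eq, ← hϖ]; exact hnu))
    refine ⟨multiplicity ϖ (A.presheaf.stalkSpecializes h t), Nat.pos_of_ne_zero fun h0 => ?_, ?_⟩
    · rw [h0, pow_zero, one_mul] at hc
      exact (mem_primeOf h).mp htP (hc ▸ hcu)
    · nth_rw 1 [hc]; exact associated_mul_unit_left _ _ hcu
  obtain ⟨i, hi, ha⟩ := hval π hπP hπ.ne_zero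
  obtain ⟨j, hj, hb⟩ := hval π' hπ'P hπ'.ne_zero
  -- `π ^ j / π' ^ i` is a unit at `p`
  obtain ⟨u, hu⟩ : Associated (A.presheaf.stalkSpecializes h (π' ^ i))
      (A.presheaf.stalkSpecializes h (π ^ j)) := by
    rw [map_pow, map_pow]
    refine (hb.pow_pow (n := i)).trans ?_
    rw [← pow_mul, mul_comm, pow_mul]
    exact (ha.pow_pow (n := j)).symm
  obtain ⟨a', t, ht, hat⟩ := exists_mul_eq_of_mem_regAt f h (a := toFun0 f p u) ⟨_, rfl⟩
  have key : π ^ j * t = π' ^ i * a' := toFun0_injective f x (by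
    rw [map_mul, map_mul, ← hat, ← toFun0_stalkSpecializes f h (π ^ j), ← hu, map_mul,
      toFun0_stalkSpecializes]
    ring)
  have hπt : π' ^ i ∣ t := by
    refine (hπ'.pow_dvd_of_dvd_mul_left i ?_ ⟨a', key⟩)
    exact fun hd => hnassoc (hπ'.associated_of_dvd hπ (hπ'.dvd_of_dvd_pow hd)).symm
  exact ht (P.mem_of_dvd ((dvd_pow_self π' hi.ne').trans hπt) hπ'P)

open Classical in
/-- The chosen generator. -/
def eqnAt (p x : A) : (funField f)ˣ :=
  if h : ∃ π, IsEqnAt f p x π then h.choose else 1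

theorem eqnAt_spec {p x : A} (hx : IsClosed {x}) (hp : p ≠ genericPoint A)
    (hmax : (IsLocalRing.maximalIdeal (A.presheaf.stalk p)).IsPrincipal) :
    IsEqnAt f p x (eqnAt f p x) := by
  have h := exists_isEqnAt f hx hp hmax
  rw [eqnAt, dif_pos h]
  exact h.choose_spec

/-- The chosen generators agree near a closed point. -/
theorem eventually_eqnAt_div {p x : A} (hx : IsClosed {x}) (hp : p ≠ genericPoint A)
    (hmax : (IsLocalRing.maximalIdeal (A.presheaf.stalk p)).IsPrincipal) :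
    ∃ W : A.Opens, x ∈ W ∧ ∀ b ∈ W, IsClosed {b} →
      eqnAt f p x / eqnAt f p b ∈ unitsAt f b := by
  classical
  by_cases h : p ⤳ x
  swap
  · refine ⟨⟨(closure {p})ᶜ, isClosed_closure.isOpen_compl⟩,
      fun h' => h (specializes_iff_mem_closure.mpr h'), fun b hb hbc => ?_⟩
    have hb' : ¬ p ⤳ b := fun h' => hb (specializes_iff_mem_closure.mp h')
    rw [(eqnAt_spec f hx hp hmax).2.2 h, (eqnAt_spec f hbc hp hmax).2.2 hb', div_one]
    exact one_mem _
  obtain ⟨hreg, hpass, -⟩ := eqnAt_spec f hx hp hmax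
  obtain ⟨hvan, hdiv⟩ := hpass h
  set π := eqnAt f p x
  obtain ⟨U₀, hxU₀, hU₀⟩ := eventually_mem_regAt f hreg
  obtain ⟨_, ⟨V, hV, rfl⟩, hxV, hVU⟩ :=
    A.isBasis_affineOpens.exists_subset_of_mem_open hxU₀ U₀.2
  have : IsLocallyNoetherian A := LocallyOfFiniteType.isLocallyNoetherian f
  have : IsNoetherianRing Γ(A, V) := IsLocallyNoetherian.component_noetherian ⟨V, hV⟩
  have hpV : p ∈ V := h.mem_open V.2 hxV
  have : Nonempty V := ⟨⟨x, hxV⟩⟩
  set PV := (IsLocalRing.maximalIdeal (A.presheaf.stalk p)).comap (A.presheaf.germ V p hpV).hom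
  obtain ⟨G, hG⟩ := PV.fg_of_isNoetherianRing
  have hGp : ∀ g ∈ G, A.presheaf.germ V p hpV g ∈ IsLocalRing.maximalIdeal (A.presheaf.stalk p) :=
    fun g hg => (show g ∈ PV from hG ▸ Ideal.subset_span hg)
  have hq : ∀ g ∈ G, ∃ W : A.Opens, x ∈ W ∧
      ∀ y ∈ W, secFun f V g / (π : funField f) ∈ regAt f y := fun g hg =>
    eventually_mem_regAt f (hdiv _ ⟨_, toFun0_germ_eq f hxV g⟩ ⟨_, hGp g hg, toFun0_germ_eq f hpV g⟩)
  choose W hxW hW using hq
  let W' : A.Opens := ⟨(V : Set A) ∩ ⋂ g : G, (W g.1 g.2 : Set A),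
    V.2.inter (isOpen_iInter_of_finite fun g => (W g.1 g.2).2)⟩
  refine ⟨W', ⟨hxV, Set.mem_iInter.mpr fun g => hxW g.1 g.2⟩, ?_⟩
  rintro b ⟨hbV, hbW⟩ hbc
  rw [Set.mem_iInter] at hbW
  obtain ⟨hbreg, hbpass, hbno⟩ := eqnAt_spec f hbc hp hmax
  obtain ⟨s, hs⟩ := hU₀ b (hVU hbV)
  -- the generators of the prime are multiples of `π` at `b`
  have hgen : ∀ v ∈ PV, A.presheaf.germ V b hbV v ∈ Ideal.span {s} := by
    intro v hv
    have hle : PV ≤ (Ideal.span {s}).comap (A.presheaf.germ V b hbV).hom := by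
      rw [← hG, Ideal.span_le]
      intro g hg
      obtain ⟨r, hr⟩ := hW g hg b (hbW ⟨g, hg⟩)
      refine Ideal.mem_span_singleton.mpr ⟨r, toFun0_injective f b ?_⟩
      rw [map_mul, hs, hr, toFun0_germ_eq, mul_div_cancel₀ _ π.ne_zero]
    exact hle hv
  by_cases hb : p ⤳ b
  · obtain ⟨hbvan, hbdiv⟩ := hbpass hb
    refine (mem_unitsAt_iff f).mpr ⟨?_, ?_⟩
    · rw [Units.val_div_eq_div_val]
      exact hbdiv _ ⟨s, hs⟩ hvan
    · rw [inv_div, Units.val_div_eq_div_val]
      obtain ⟨r, hr⟩ := hbreg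
      have hrP : r ∈ primeOf hb := (toFun0_vanishAt_iff f hb r).mp (hr ▸ hbvan)
      let _ := TopCat.Presheaf.algebra_section_stalk A.presheaf (⟨b, hbV⟩ : V)
      have := hV.isLocalization_stalk ⟨b, hbV⟩
      obtain ⟨v, t, rfl⟩ :=
        IsLocalization.exists_mk'_eq (hV.primeIdealOf ⟨b, hbV⟩).asIdeal.primeCompl r
      have hvt : IsLocalization.mk' (A.presheaf.stalk b) v t * A.presheaf.germ V b hbV (t : Γ(A, V)) =
          A.presheaf.germ V b hbV v := IsLocalization.mk'_spec (A.presheaf.stalk b) v t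
      have hv : v ∈ PV := by
        have h1 := (primeOf hb).mul_mem_right (A.presheaf.germ V b hbV (t : Γ(A, V))) hrP
        rw [hvt, mem_primeOf, A.presheaf.germ_stalkSpecializes_apply] at h1
        exact h1
      obtain ⟨tu, htu⟩ : IsUnit (A.presheaf.germ V b hbV (t : Γ(A, V))) :=
        IsLocalization.map_units (A.presheaf.stalk b) t
      obtain ⟨w, hw⟩ := Ideal.mem_span_singleton.mp (hgen v hv)
      refine ⟨w * (tu⁻¹ : (A.presheaf.stalk b)ˣ), ?_⟩
      rw [eq_div_iff π.ne_zero, ← hr, ← hs, ← map_mul]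
      congr 1
      rw [mul_right_comm, mul_comm w s, ← hw, ← hvt, ← htu, Units.mul_inv_cancel_right]
  · rw [hbno hb, div_one]
    have hnot : ¬ PV ≤ (IsLocalRing.maximalIdeal (A.presheaf.stalk b)).comap
        (A.presheaf.germ V b hbV).hom := fun hle => hb <| by
      have h1 : hV.primeIdealOf ⟨p, hpV⟩ ⤳ hV.primeIdealOf ⟨b, hbV⟩ := by
        rw [← PrimeSpectrum.le_iff_specializes]
        show (hV.primeIdealOf ⟨p, hpV⟩).asIdeal ≤ (hV.primeIdealOf ⟨b, hbV⟩).asIdeal
        refine le_trans (le_of_eq ?_) (le_trans hle (le_of_eq ?_))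
        · let _ := TopCat.Presheaf.algebra_section_stalk A.presheaf (⟨p, hpV⟩ : V)
          have := hV.isLocalization_stalk ⟨p, hpV⟩
          exact (IsLocalization.AtPrime.under_maximalIdeal (A.presheaf.stalk p) _).symm
        · let _ := TopCat.Presheaf.algebra_section_stalk A.presheaf (⟨b, hbV⟩ : V)
          have := hV.isLocalization_stalk ⟨b, hbV⟩
          exact IsLocalization.AtPrime.under_maximalIdeal (A.presheaf.stalk b) _
      have h2 := h1.map hV.fromSpec.continuous
      rwa [hV.fromSpec_primeIdealOf, hV.fromSpec_primeIdealOf] at h2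
    obtain ⟨v, hv, hvb⟩ := SetLike.not_le_iff_exists.mp hnot
    obtain ⟨w, hw⟩ := Ideal.mem_span_singleton.mp (hgen v hv)
    have hsu : IsUnit s := by
      by_contra hns
      exact hvb (by rw [Ideal.mem_comap, hw]; exact Ideal.mul_mem_right _ _ hns)
    exact ⟨hsu.unit, Units.ext hs⟩

include f in
/-- A point with principal prime is the only point outside `U` between it and the generic
point. -/
theorem eq_of_primeOf_eq_span {a q p : A} (ha : IsClosed {a}) (hqa : q ⤳ a)
    {π : A.presheaf.stalk a} (hπ : Prime π) (hq : primeOf hqa = Ideal.span {π}) (hpq : p ⤳ q)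
    (hp : p ≠ genericPoint A) : p = q := by
  obtain ⟨hdom, hufd⟩ := factorial_stalk f ha
  have hle : primeOf (hpq.trans hqa) ≤ Ideal.span {π} := by
    rw [← hq]
    intro w hw
    rw [mem_primeOf] at hw ⊢
    by_contra hnu
    have hun : IsUnit (A.presheaf.stalkSpecializes hqa w) := of_not_not hnu
    refine hw ?_
    rw [show A.presheaf.stalkSpecializes (hpq.trans hqa) w =
      A.presheaf.stalkSpecializes hpq (A.presheaf.stalkSpecializes hqa w) from
      congrFun (congrArg DFunLike.coe (congrArg CommRingCat.Hom.hom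
        (A.presheaf.stalkSpecializes_comp hpq hqa).symm)) w]
    exact hun.map _
  have hπmem : π ∈ primeOf (hpq.trans hqa) := by
    by_cases hb : primeOf (hpq.trans hqa) = ⊥
    · exfalso
      refine hp ?_
      have h2 : primeOf (x := a) (p := genericPoint A) ((genericPoint_spec A).specializes trivial) = ⊥ := by
        refine le_antisymm (fun w hw => ?_) bot_le
        rw [mem_primeOf, IsLocalRing.maximalIdeal_eq_bot (R := A.functionField),
          Ideal.mem_bot] at hw
        exact toFun0_injective f a (hw.trans (map_zero _).symm)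
      have h3 := fromSpecStalk_primeOf (hpq.trans hqa)
      rw [show (⟨primeOf (hpq.trans hqa), inferInstance⟩ :
        PrimeSpectrum (A.presheaf.stalk a)) =
        ⟨primeOf (x := a) (p := genericPoint A) ((genericPoint_spec A).specializes trivial), inferInstance⟩
        from PrimeSpectrum.ext (hb.trans h2.symm), fromSpecStalk_primeOf] at h3
      exact h3.symm
    · obtain ⟨w, hw, hwp⟩ := Ideal.IsPrime.exists_mem_prime_of_ne_bot (isPrime_primeOf _) hb
      obtain ⟨r, hr⟩ := Ideal.mem_span_singleton.mp (hle hw)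
      rcases hwp.irreducible.isUnit_or_isUnit hr with hu' | hu'
      · exact absurd hu' hπ.not_isUnit
      · rw [hr] at hw
        exact ((isPrime_primeOf _).mem_or_mem hw).resolve_right fun hh =>
          (isPrime_primeOf _).ne_top (Ideal.eq_top_of_isUnit_mem _ hh hu')
  have heqp : primeOf (hpq.trans hqa) = primeOf hqa := by
    rw [hq]
    exact le_antisymm hle (Ideal.span_le.mpr (Set.singleton_subset_iff.mpr hπmem))
  exact (fromSpecStalk_primeOf (hpq.trans hqa)).symm.trans
    ((congrArg _ (PrimeSpectrum.ext heqp)).trans (fromSpecStalk_primeOf hqa))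

/-- A function whose denominators only involve points outside `U` is made regular by a power of
anything vanishing at all of them. -/
theorem exists_pow_mul_mem_regAt {a : A} (ha : IsClosed {a}) {U : A.Opens} [Nonempty U]
    (s : Γ(A, U)) {P₀ : A.presheaf.stalk a}
    (hP₀ : ∀ (q : A) (hqa : q ⤳ a) (π : A.presheaf.stalk a), Prime π →
      primeOf hqa = Ideal.span {π} → q ∉ U →
      (IsLocalRing.maximalIdeal (A.presheaf.stalk q)).IsPrincipal → π ∣ P₀) :
    ∃ c : ℕ, secFun f U s * toFun0 f a P₀ ^ c ∈ regAt f a := by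
  classical
  obtain ⟨hdom, hufd⟩ := factorial_stalk f ha
  obtain ⟨n, d, hd0, hnd⟩ := IsFractionRing.div_surjective (A.presheaf.stalk a)
    (A.germToFunctionField U s)
  obtain ⟨n', d', e, hcop, rfl, rfl⟩ :=
    UniqueFactorizationMonoid.exists_reduced_factors' n d (nonZeroDivisors.ne_zero hd0)
  have hd0' : e * d' ≠ 0 := nonZeroDivisors.ne_zero hd0
  have he0 : e ≠ 0 := left_ne_zero_of_mul hd0'
  have hd'0 : d' ≠ 0 := right_ne_zero_of_mul hd0'
  set x₀ := secFun f U s with hx₀
  have hfrac : x₀ * toFun0 f a d' = toFun0 f a n' := by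
    have h0 : x₀ = toFun0 f a (e * n') / toFun0 f a (e * d') := hnd.symm
    have h1 : x₀ * toFun0 f a (e * d') = toFun0 f a (e * n') := by
      rw [h0]
      exact div_mul_cancel₀ _ ((map_ne_zero_iff _ (toFun0_injective f a)).mpr hd0')
    rw [map_mul, map_mul, mul_left_comm] at h1
    exact mul_left_cancel₀ ((map_ne_zero_iff _ (toFun0_injective f a)).mpr he0) h1
  obtain ⟨l, hl, u, hu⟩ := UniqueFactorizationMonoid.exists_prime_factors d' hd'0
  have hdiv : ∀ π ∈ l, π ∣ P₀ := by
    intro π hπl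
    have hπ := hl π hπl
    have hπd : π ∣ d' := (Multiset.dvd_prod hπl).trans ⟨u, hu.symm⟩
    obtain ⟨q, hqa, hq⟩ := exists_primeOf_eq (x := a) (Ideal.span {π})
      (hP := (Ideal.span_singleton_prime hπ.ne_zero).mpr hπ)
    refine hP₀ q hqa π hπ hq ?_ ?_
    · -- not regular at `q`
      intro hqU
      obtain ⟨r, t, ht, hrt⟩ := exists_mul_eq_of_mem_regAt f hqa (a := x₀)
        ⟨A.presheaf.germ U q hqU s, toFun0_germ_eq f hqU s⟩
      have heq : n' * t = d' * r := toFun0_injective f a (by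
        rw [map_mul, map_mul, ← hfrac, ← hrt]; ring)
      refine ht ?_
      rw [hq, Ideal.mem_span_singleton]
      refine (hπ.dvd_or_dvd (heq ▸ hπd.mul_right r)).resolve_left fun hn => ?_
      exact hπ.not_isUnit (hcop hn hπd)
    · refine ⟨⟨A.presheaf.stalkSpecializes hqa π, le_antisymm (fun w hw => ?_) ?_⟩⟩
      · obtain ⟨r, t, ht, hrt⟩ := exists_mul_eq_of_mem_regAt f hqa ⟨w, rfl⟩
        have htu : IsUnit (A.presheaf.stalkSpecializes hqa t) := by
          by_contra hh; exact ht ((mem_primeOf hqa).mpr hh)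
        have heq : A.presheaf.stalkSpecializes hqa t * w =
            A.presheaf.stalkSpecializes hqa r := toFun0_injective f q (by
          rw [map_mul, toFun0_stalkSpecializes, toFun0_stalkSpecializes, hrt])
        have hr : r ∈ primeOf hqa := by
          rw [mem_primeOf, ← heq]; exact Ideal.mul_mem_left _ _ hw
        rw [hq, Ideal.mem_span_singleton] at hr
        obtain ⟨r', rfl⟩ := hr
        refine Ideal.mem_span_singleton.mpr ((htu.dvd_mul_left).mp ?_)
        rw [heq, map_mul]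
        exact dvd_mul_right _ _
      · rw [Ideal.span_le, Set.singleton_subset_iff]
        exact (mem_primeOf hqa).mp (hq ▸ Ideal.mem_span_singleton_self π)
  refine ⟨Multiset.card l, ?_⟩
  obtain ⟨r, hr⟩ : l.prod ∣ P₀ ^ Multiset.card l := by
    rw [← Multiset.prod_replicate, ← Multiset.map_const']
    simpa using Multiset.prod_dvd_prod_of_dvd id (fun _ => P₀) hdiv
  refine ⟨n' * ↑u⁻¹ * r, ?_⟩
  rw [← map_pow, hr, map_mul, map_mul, ← hfrac, ← hu, map_mul, map_mul]
  have h1 : toFun0 f a (↑u : A.presheaf.stalk a) * toFun0 f a (↑u⁻¹ : A.presheaf.stalk a) = 1 := by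
    rw [← map_mul, Units.mul_inv, map_one]
  linear_combination (x₀ * toFun0 f a l.prod * toFun0 f a r) * h1

set_option maxHeartbeats 1000000 in
/-- A divisor with finitely many local equations, trivial on `U` and cutting the poles of the
functions regular on `U`. -/
theorem exists_divisor [CompactSpace A] {U : A.Opens} [Nonempty U] :
    ∃ z : A → (funField f)ˣ, (Set.range z).Finite ∧
      (∀ x, ∃ W : A.Opens, x ∈ W ∧ ∀ y ∈ W, z x / z y ∈ unitsAt f y) ∧
      (∀ x, (z x : funField f) ∈ regAt f x) ∧ (∀ y ∈ U, z y = 1) ∧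
      (∀ s : Γ(A, U), ∃ c : ℕ, ∀ x,
        secFun f U s * (z x : funField f) ^ c ∈ regAt f x) := by
  classical
  have : LocallyOfFiniteType f := inferInstance
  have : JacobsonSpace A := LocallyOfFiniteType.jacobsonSpace f
  have : IsLocallyNoetherian A := LocallyOfFiniteType.isLocallyNoetherian f
  have : IsNoetherian A := {}
  have : NoetherianSpace A := inferInstance
  have hηU : genericPoint A ∈ U := ((genericPoint_spec A).mem_open_set_iff U.2).mpr
    (by simpa using (inferInstance : Nonempty U))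
  -- the generic points of the complement of codimension one
  obtain ⟨T, hT, hTc, hTi, hTU⟩ :=
    NoetherianSpace.exists_finite_set_isClosed_irreducible (isClosed_compl_iff.mpr U.2)
  choose η hη using fun Z : T => QuasiSober.sober (hTi Z.1 Z.2) (hTc Z.1 Z.2)
  have := hT.to_subtype
  set Q : Finset A := (Set.range η).toFinite.toFinset.filter fun p =>
    p ∉ U ∧ (IsLocalRing.maximalIdeal (A.presheaf.stalk p)).IsPrincipal
  have hQ : ∀ p ∈ Q, p ∉ U ∧ p ≠ genericPoint A ∧
      (IsLocalRing.maximalIdeal (A.presheaf.stalk p)).IsPrincipal := fun p hp => by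
    obtain ⟨-, hpU, hpm⟩ := Finset.mem_filter.mp hp
    exact ⟨hpU, fun h => hpU (h ▸ hηU), hpm⟩
  let pre : A → (funField f)ˣ := fun x => ∏ p ∈ Q, eqnAt f p x
  have hpre_reg : ∀ x, IsClosed {x} → (pre x : funField f) ∈ regAt f x := fun x hx => by
    rw [Units.coe_prod]
    exact prod_mem fun p hp => (eqnAt_spec f hx (hQ p hp).2.1 (hQ p hp).2.2).1
  have hpre_U : ∀ x, IsClosed {x} → x ∈ U → pre x = 1 := fun x hx hxU =>
    Finset.prod_eq_one fun p hp => (eqnAt_spec f hx (hQ p hp).2.1 (hQ p hp).2.2).2.2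
      fun h => (hQ p hp).1 (h.mem_open U.2 hxU)
  have hnear : ∀ x, IsClosed {x} → ∃ W : A.Opens, x ∈ W ∧
      (∀ y ∈ W, (pre x : funField f) ∈ regAt f y) ∧
      ∀ b ∈ W, IsClosed {b} → pre x / pre b ∈ unitsAt f b := by
    intro x hx
    obtain ⟨W₀, hxW₀, hW₀⟩ := eventually_mem_regAt f (hpre_reg x hx)
    choose W hxW hW using fun p : Q => eventually_eqnAt_div f hx (hQ p.1 p.2).2.1 (hQ p.1 p.2).2.2
    refine ⟨⟨(W₀ : Set A) ∩ ⋂ p : Q, (W p : Set A),
      W₀.2.inter (isOpen_iInter_of_finite fun p => (W p).2)⟩,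
      ⟨hxW₀, Set.mem_iInter.mpr hxW⟩, fun y hy => hW₀ y hy.1, fun b hb hbc => ?_⟩
    rw [← Finset.prod_div_distrib]
    exact Subgroup.prod_mem _ fun p hp => hW ⟨p, hp⟩ b (Set.mem_iInter.mp hb.2 ⟨p, hp⟩) hbc
  choose W hxW hWreg hW using hnear
  have hcover : ∀ y : A, ∃ a, ∃ ha : IsClosed {a}, y ∈ W a ha := by
    intro y
    obtain ⟨a, hay, ha⟩ := nonempty_inter_closedPoints (Z := closure {y})
      ⟨y, subset_closure rfl⟩ isClosed_closure.isLocallyClosed
    exact ⟨a, ha, (specializes_iff_mem_closure.mpr hay).mem_open (W a ha).2 (hxW a ha)⟩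
  -- equality at closed points propagates
  have hprop : ∀ (a b : (funField f)ˣ) (O : A.Opens),
      (∀ c ∈ O, IsClosed {c} → a / b ∈ unitsAt f c) → ∀ y ∈ O, a / b ∈ unitsAt f y := by
    intro a b O hO y hy
    obtain ⟨c, ⟨hcy, hcO⟩, hc⟩ := nonempty_inter_closedPoints
      (Z := closure {y} ∩ (O : Set A)) ⟨y, subset_closure rfl, hy⟩
      (isClosed_closure.isLocallyClosed.inter O.2.isLocallyClosed)
    exact unitsAt_mono f (specializes_iff_mem_closure.mpr hcy) (hO c hcO hc)
  obtain ⟨I, hI⟩ := CompactSpace.isCompact_univ.elim_finite_subcover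
    (fun a : {a : A // IsClosed {a}} => (W a.1 a.2 : Set A)) (fun a => (W a.1 a.2).2)
    (fun y _ => Set.mem_iUnion.mpr ⟨⟨(hcover y).choose, (hcover y).choose_spec.choose⟩,
      (hcover y).choose_spec.choose_spec⟩)
  have hidx : ∀ y : A, ∃ a ∈ I, y ∈ W a.1 a.2 := fun y => by
    simpa [and_comm] using hI (Set.mem_univ y)
  choose idx hidxI hidx using hidx
  let z : A → (funField f)ˣ := fun y => if y ∈ U then 1 else pre (idx y).1
  -- at a closed point, `z` is associated to `pre`
  have hz : ∀ c, IsClosed {c} → z c / pre c ∈ unitsAt f c := fun c hc => by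
    by_cases hcU : c ∈ U
    · simp only [z, if_pos hcU, hpre_U c hc hcU, div_one]; exact one_mem _
    · simp only [z, if_neg hcU]; exact hW _ (idx c).2 c (hidx c) hc
  refine ⟨z, ?_, ?_, ?_, fun y hy => if_pos hy, ?_⟩
  · refine Set.Finite.subset ((I.image fun a => pre a.1) ∪ {1}).finite_toSet ?_
    rintro _ ⟨y, rfl⟩
    by_cases hy : y ∈ U
    · simp only [z, if_pos hy, Finset.coe_union, Finset.coe_singleton, Set.mem_union,
        Set.mem_singleton_iff, or_true]
    · simp only [z, if_neg hy, Finset.coe_union, Set.mem_union]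
      exact Or.inl (Finset.mem_coe.mpr (Finset.mem_image_of_mem _ (hidxI y)))
  · intro x
    obtain ⟨O, hxO, hO⟩ : ∃ O : A.Opens, x ∈ O ∧
        ∀ c ∈ O, IsClosed {c} → z x / pre c ∈ unitsAt f c := by
      by_cases hxU : x ∈ U
      · refine ⟨U, hxU, fun c hcU hc => ?_⟩
        simp only [z, if_pos hxU, hpre_U c hc hcU, div_one]; exact one_mem _
      · refine ⟨W _ (idx x).2, hidx x, fun c hc hcc => ?_⟩
        simp only [z, if_neg hxU]; exact hW _ (idx x).2 c hc hcc
    refine ⟨O, hxO, fun y hy => ?_⟩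
    obtain ⟨O', hyO', hO'⟩ : ∃ O' : A.Opens, y ∈ O' ∧
        ∀ c ∈ O', IsClosed {c} → z y / pre c ∈ unitsAt f c := by
      by_cases hyU : y ∈ U
      · refine ⟨U, hyU, fun c hcU hc => ?_⟩
        simp only [z, if_pos hyU, hpre_U c hc hcU, div_one]; exact one_mem _
      · refine ⟨W _ (idx y).2, hidx y, fun c hc hcc => ?_⟩
        simp only [z, if_neg hyU]; exact hW _ (idx y).2 c hc hcc
    refine hprop _ _ (O ⊓ O') (fun c hc hcc => ?_) y ⟨hy, hyO'⟩
    have := div_mem (hO c hc.1 hcc) (hO' c hc.2 hcc)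
    rwa [div_div_div_cancel_right] at this
  · intro x
    by_cases hxU : x ∈ U
    · simp only [z, if_pos hxU, Units.val_one]; exact one_mem _
    · simp only [z, if_neg hxU]; exact hWreg _ (idx x).2 x (hidx x)
  · intro s
    -- at a closed point
    have hat : ∀ a, IsClosed {a} → ∃ c : ℕ,
        secFun f U s * (pre a : funField f) ^ c ∈ regAt f a := by
      intro a ha
      obtain ⟨P₀, hP₀⟩ := hpre_reg a ha
      rw [← hP₀]
      refine exists_pow_mul_mem_regAt f ha s fun q hqa π hπ hq hqU hmax => ?_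
      have hqQ : q ∈ Q := by
        refine Finset.mem_filter.mpr ⟨?_, hqU, hmax⟩
        rw [Set.Finite.mem_toFinset]
        obtain ⟨Z, hZT, hqZ⟩ : ∃ Z ∈ T, q ∈ Z := Set.mem_sUnion.mp (hTU ▸ hqU)
        refine ⟨⟨Z, hZT⟩, eq_of_primeOf_eq_span f ha hqa hπ hq
          ((hη ⟨Z, hZT⟩).specializes hqZ) fun hgen => ?_⟩
        have h1 : η ⟨Z, hZT⟩ ∈ ⋃₀ T := Set.mem_sUnion.mpr ⟨Z, hZT, (hη ⟨Z, hZT⟩).mem⟩
        rw [← hTU] at h1
        exact h1 (hgen ▸ hηU)
      obtain ⟨hreg, hpass, -⟩ := eqnAt_spec f ha (hQ q hqQ).2.1 hmax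
      obtain ⟨r, hr⟩ := hreg
      have hπr : π ∣ r := by
        rw [← Ideal.mem_span_singleton, ← hq, mem_primeOf, ← toFun0_vanishAt_iff f hqa, hr]
        exact (hpass hqa).1
      obtain ⟨rest, hrest⟩ : ((∏ p ∈ Q.erase q, eqnAt f p a : (funField f)ˣ) : funField f) ∈
          regAt f a := by
        rw [Units.coe_prod]
        exact prod_mem fun p hp =>
          (eqnAt_spec f ha (hQ p (Finset.mem_of_mem_erase hp)).2.1
            (hQ p (Finset.mem_of_mem_erase hp)).2.2).1
      refine hπr.trans ⟨rest, toFun0_injective f a ?_⟩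
      rw [map_mul, hP₀, hr, hrest, ← Units.val_mul]
      exact congrArg Units.val (Finset.mul_prod_erase Q (fun p => eqnAt f p a) hqQ).symm
    choose ca hca using hat
    -- spread out and take a finite subcover
    have hopen : ∀ a (ha : IsClosed {a}), ∃ O : A.Opens, a ∈ O ∧ ∀ y ∈ O,
        secFun f U s * (pre a : funField f) ^ ca a ha ∈ regAt f y ∧
          y ∈ W a ha := fun a ha => by
      obtain ⟨O, haO, hO⟩ := eventually_mem_regAt f (hca a ha)
      exact ⟨O ⊓ W a ha, ⟨haO, hxW a ha⟩, fun y hy => ⟨hO y hy.1, hy.2⟩⟩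
    choose O haO hO using hopen
    obtain ⟨J, hJ⟩ := CompactSpace.isCompact_univ.elim_finite_subcover
      (fun a : {a : A // IsClosed {a}} => (O a.1 a.2 : Set A)) (fun a => (O a.1 a.2).2)
      (fun y _ => by
        obtain ⟨a, hay, ha⟩ := nonempty_inter_closedPoints (Z := closure {y})
          ⟨y, subset_closure rfl⟩ isClosed_closure.isLocallyClosed
        exact Set.mem_iUnion.mpr ⟨⟨a, ha⟩,
          (specializes_iff_mem_closure.mpr hay).mem_open (O a ha).2 (haO a ha)⟩)
    refine ⟨J.sup fun a => ca a.1 a.2, fun x => ?_⟩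
    obtain ⟨a, haJ, hxa⟩ : ∃ a ∈ J, x ∈ O a.1 a.2 := by simpa [and_comm] using hJ (Set.mem_univ x)
    obtain ⟨hreg, hxW'⟩ := hO a.1 a.2 x hxa
    -- the equations of `a` and of `x` agree at `x`
    have hunit : z x / pre a.1 ∈ unitsAt f x := by
      obtain ⟨O', hxO', hO'⟩ : ∃ O' : A.Opens, x ∈ O' ∧
          ∀ c ∈ O', IsClosed {c} → z x / pre c ∈ unitsAt f c := by
        by_cases hxU : x ∈ U
        · refine ⟨U, hxU, fun c hcU hc => ?_⟩
          simp only [z, if_pos hxU, hpre_U c hc hcU, div_one]; exact one_mem _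
        · refine ⟨W _ (idx x).2, hidx x, fun c hc hcc => ?_⟩
          simp only [z, if_neg hxU]; exact hW _ (idx x).2 c hc hcc
      refine hprop _ _ (O' ⊓ W a.1 a.2) (fun c hc hcc => ?_) x ⟨hxO', hxW'⟩
      have := div_mem (hO' c hc.1 hcc) (hW a.1 a.2 c hc.2 hcc)
      rwa [div_div_div_cancel_right] at this
    have hzx : (z x : funField f) ∈ regAt f x := by
      by_cases hxU : x ∈ U
      · simp only [z, if_pos hxU, Units.val_one]; exact one_mem _
      · simp only [z, if_neg hxU]; exact hWreg _ (idx x).2 x (hidx x)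
    have hle := Finset.le_sup (f := fun b : {a : A // IsClosed {a}} => ca b.1 b.2) haJ
    obtain ⟨e, he⟩ := Nat.exists_eq_add_of_le hle
    have hsplit : secFun f U s * (z x : funField f) ^
        J.sup (fun a => ca a.1 a.2) =
        secFun f U s * (pre a.1 : funField f) ^ ca a.1 a.2 *
          (((z x / pre a.1 : (funField f)ˣ) : funField f) ^ ca a.1 a.2 * (z x : funField f) ^ e) := by
      rw [he, pow_add, Units.val_div_eq_div_val, div_pow]
      field_simp [(pre a.1).ne_zero]
    rw [hsplit]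
    exact mul_mem hreg (mul_mem (pow_mem ((mem_unitsAt_iff f).mp hunit).1 _) (pow_mem hzx _))

end Fermat.Agent.Tors
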