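import Fermat.Agent.Tors.Basic
import Fermat.Agent.Tors.Divisor
import Fermat.Agent.Tors.Degree

/-!
# The class functor of a divisor on a proper group scheme (`S26`)
-/

set_option autoImplicit false

noncomputable section

universe u

open CategoryTheory AlgebraicGeometry TopologicalSpace NeronModelInfra GoodReductionJacobian

namespace Fermat.Agent.Tors

variable {K : Type u} [Field K] {A : Scheme.{u}} [IsIntegral A]

/-- Finitely many local equations of a divisor. -/
structure LocalEqns (f : A ⟶ Spec (CommRingCat.of K)) where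
  /-- the equation at a point -/
  z : A → (funField f)ˣ
  finite : (Set.range z).Finite
  near : ∀ x, ∃ W : A.Opens, x ∈ W ∧ ∀ y ∈ W, z x / z y ∈ unitsAt f y

namespace LocalEqns

variable {f : A ⟶ Spec (CommRingCat.of K)} (D : LocalEqns f)

theorem div_mem_unitsAt {x y : A} (h : y ⤳ x) : D.z x / D.z y ∈ unitsAt f y := by
  obtain ⟨W, hxW, hW⟩ := D.near x
  exact hW y (h.mem_open W.2 hxW)

theorem div_mem_unitsAt' {x y : A} (h : y ⤳ x) : D.z y / D.z x ∈ unitsAt f y := by
  rw [← inv_div]; exact inv_mem (D.div_mem_unitsAt h)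

end LocalEqns

variable {f : A ⟶ Spec (CommRingCat.of K)} {L : RelativeGroupLaw K f} [hc : Fact L.IsCommutative]

instance valuationRing_sub {F : Type u} [Field F] [Algebra K F] (V : KVal K F) :
    ValuationRing V.sub := inferInstanceAs (ValuationRing V.1)

instance isFractionRing_sub {F : Type u} [Field F] [Algebra K F] (V : KVal K F) :
    IsFractionRing V.sub F := inferInstanceAs (IsFractionRing V.1 F)

omit [IsIntegral A] in
theorem Pts.map_comp_of_eq {R S T : Type u} [CommRing R] [Algebra K R] [CommRing S] [Algebra K S]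
    [CommRing T] [Algebra K T] (φ : R →ₐ[K] S) (χ : S →ₐ[K] T) {ψ : R →ₐ[K] T}
    (h : χ.comp φ = ψ) (x : Pts f L R) : Pts.map χ (Pts.map φ x) = Pts.map ψ x := by
  rw [← h, Pts.map_comp]

omit [IsIntegral A] in
theorem centre_map_specializes {R S : Type u} [CommRing R] [Algebra K R] [IsLocalRing R]
    [CommRing S] [Algebra K S] [IsLocalRing S] (φ : R →ₐ[K] S) (x : Pts f L R) :
    ptCentre (Pts.map φ x).1 ⤳ ptCentre x.1 :=
  centre_comp_specializes x.1 φ.toRingHom

omit [IsIntegral A] in
theorem centre_map {R S : Type u} [CommRing R] [Algebra K R] [IsLocalRing R]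
    [CommRing S] [Algebra K S] [IsLocalRing S] (φ : R →ₐ[K] S) [IsLocalHom φ] (x : Pts f L R) :
    ptCentre (Pts.map φ x).1 = ptCentre x.1 :=
  haveI : IsLocalHom φ.toRingHom := ⟨fun a ha => IsLocalHom.map_nonunit (f := φ) a ha⟩
  centre_comp x.1 φ.toRingHom

theorem evalU_map {R S : Type u} [CommRing R] [Algebra K R] [IsLocalRing R]
    [CommRing S] [Algebra K S] [IsLocalRing S] (φ : R →ₐ[K] S) (x : Pts f L R)
    {a : (funField f)ˣ} (ha : a ∈ unitsAt f (ptCentre x.1)) :
    evalU f (Pts.map φ x).1 a = Units.map φ.toRingHom.toMonoidHom (evalU f x.1 a) :=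
  evalU_comp f x.1 φ.toRingHom ha

section Proper

variable [IsProper f]

omit [IsIntegral A] in
theorem bijective_map_sub_val {F : Type u} [Field F] [Algebra K F] (V : KVal K F) :
    Function.Bijective (Pts.map (f := f) (L := L) V.sub.val) := by
  have hv : ValuativeCriterion f := by
    have h : IsProper f := inferInstance
    rw [IsProper.eq_valuativeCriterion] at h
    exact h.1.1.1
  have halg : CommRingCat.ofHom (algebraMap V.sub F) = CommRingCat.ofHom V.sub.val.toRingHom := rfl
  constructor
  · intro x y hxy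
    let S : ValuativeCommSq f :=
      { R := V.sub, K := F, i₁ := (Pts.map V.sub.val x).1, i₂ := baseMap K V.sub
        commSq := ⟨by rw [(Pts.map V.sub.val x).2, halg, map_baseMap]⟩ }
    have := hv.uniqueness S
    have hl : ∀ w : Pts f L V.sub, Pts.map V.sub.val w = Pts.map V.sub.val x →
        Spec.map (CommRingCat.ofHom (algebraMap V.sub F)) ≫ w.1 = (Pts.map V.sub.val x).1 :=
      fun w hw => by rw [halg, ← Pts.map_val, hw]
    exact Subtype.ext (congrArg CommSq.LiftStruct.l (Subsingleton.elim
      (α := S.commSq.LiftStruct) ⟨x.1, hl x rfl, x.2⟩ ⟨y.1, hl y hxy.symm, y.2⟩))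
  · intro P
    let S : ValuativeCommSq f :=
      { R := V.sub, K := F, i₁ := P.1, i₂ := baseMap K V.sub
        commSq := ⟨by rw [P.2, halg, map_baseMap]⟩ }
    obtain ⟨⟨l⟩⟩ := hv.existence S
    refine ⟨(⟨l.l, l.fac_right⟩ : Pts f L V.sub), Subtype.ext ?_⟩
    rw [Pts.map_val, ← halg]
    exact l.fac_left

/-- The extension of a point to a valuation ring. -/
def Pts.toVal {F : Type u} [Field F] [Algebra K F] (P : Pts f L F) (V : KVal K F) :
    Pts f L V.sub :=
  (Equiv.ofBijective _ (bijective_map_sub_val V)).symm P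

omit [IsIntegral A] in
theorem Pts.map_toVal {F : Type u} [Field F] [Algebra K F] (P : Pts f L F) (V : KVal K F) :
    Pts.map V.sub.val (P.toVal V) = P :=
  (Equiv.ofBijective _ (bijective_map_sub_val V)).apply_symm_apply P

omit [IsIntegral A] in
theorem Pts.toVal_eq {F : Type u} [Field F] [Algebra K F] {P : Pts f L F} {V : KVal K F}
    {Q : Pts f L V.sub} (h : Pts.map V.sub.val Q = P) : P.toVal V = Q :=
  (bijective_map_sub_val V).1 ((P.map_toVal V).trans h.symm)

omit [IsIntegral A] in
theorem centre_specializes_toVal {F : Type u} [Field F] [Algebra K F] (P : Pts f L F)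
    (V : KVal K F) : ptCentre P.1 ⤳ ptCentre (P.toVal V).1 := by
  have := centre_map_specializes V.sub.val (P.toVal V)
  rwa [P.map_toVal V] at this

namespace LocalEqns

variable (D : LocalEqns f)

/-- The class of the divisor pulled back by a point. -/
def pullPt {F : Type u} [Field F] [Algebra K F] (P : Pts f L F) : Dv K F := fun V =>
  evalU f P.1 (D.z (ptCentre (P.toVal V).1) / D.z (ptCentre P.1))

theorem pullPt_zero {F : Type u} [Field F] [Algebra K F] : D.pullPt (0 : Pts f L F) = 1 := by
  funext V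
  have h1 : ((0 : Pts f L F).toVal V) = 0 := Pts.toVal_eq (map_zero _)
  have h2 : ∀ (R : Type u) [CommRing R] [Algebra K R],
      Pts.map (Algebra.ofId K R) (0 : Pts f L K) = 0 := fun R _ _ => map_zero _
  have hloc : IsLocalHom (Algebra.ofId K V.sub) :=
    ⟨fun a ha => Ne.isUnit fun h => by simp [h] at ha⟩
  have hloc' : IsLocalHom (Algebra.ofId K F) :=
    ⟨fun a ha => Ne.isUnit fun h => by simp [h] at ha⟩
  have hV : ptCentre ((0 : Pts f L F).toVal V).1 = ptCentre (0 : Pts f L K).1 := by
    rw [h1, ← h2 V.sub, centre_map]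
  have hP : ptCentre (0 : Pts f L F).1 = ptCentre (0 : Pts f L K).1 := by
    rw [← h2 F, centre_map]
  rw [pullPt, hV, hP, div_self', evalU_one]
  rfl

theorem pullPt_finite {F : Type u} [Field F] [Algebra K F] (P : Pts f L F) :
    (Set.range (D.pullPt P)).Finite := by
  refine (D.finite.image fun a => evalU f P.1 (a / D.z (ptCentre P.1))).subset ?_
  rintro _ ⟨V, rfl⟩
  exact ⟨_, ⟨_, rfl⟩, rfl⟩

theorem pullPt_local {F : Type u} [Field F] [Algebra K F] (S : Subalgebra K F) [IsLocalRing S]
    (P : Pts f L S) :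
    ∃ t : Fˣ, ∀ V : KVal K F, S ≤ V.sub → D.pullPt (Pts.map S.val P) V / t ∈ V.units := by
  set PF := Pts.map S.val P
  refine ⟨evalU f PF.1 (D.z (ptCentre P.1) / D.z (ptCentre PF.1)), fun V hV => ?_⟩
  let i : S →ₐ[K] V.sub := Subalgebra.inclusion hV
  have hi : PF.toVal V = Pts.map i P :=
    Pts.toVal_eq (Pts.map_comp_of_eq i V.sub.val (AlgHom.ext fun _ => rfl) P)
  set b := ptCentre (PF.toVal V).1
  have hba : b ⤳ ptCentre P.1 := by
    show ptCentre (PF.toVal V).1 ⤳ _
    rw [hi]; exact centre_map_specializes i P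
  have hpb : ptCentre PF.1 ⤳ b := centre_specializes_toVal PF V
  have hu : D.z b / D.z (ptCentre P.1) ∈ unitsAt f b := D.div_mem_unitsAt' hba
  rw [pullPt, ← evalU_div f PF.1 (D.div_mem_unitsAt hpb) (D.div_mem_unitsAt (hpb.trans hba)),
    div_div_div_cancel_right]
  have hev := evalU_map V.sub.val (PF.toVal V) hu
  rw [PF.map_toVal V] at hev
  rw [hev]
  refine KVal.mem_units_iff.mpr ⟨((evalU f (PF.toVal V).1 _ : V.subˣ) : V.sub).2, ?_⟩
  rw [← map_inv]
  exact ((((evalU f (PF.toVal V).1 _)⁻¹ : V.subˣ)) : V.sub).2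

theorem pullPt_spec {F F' : Type u} [Field F] [Algebra K F] [Field F'] [Algebra K F']
    (π : KPlace K F F') (P : Pts f L π.ring.sub) :
    π.Specialises (D.pullPt (Pts.map π.ring.sub.val P)) (D.pullPt (Pts.map π.res P)) := by
  intro V
  set PF := Pts.map π.ring.sub.val P with hPF
  set P' := Pts.map π.res P with hP'
  set C := π.comap V
  have hle : C.sub ≤ π.ring.sub := fun x hx => π.comap_le V hx
  let i : C.sub →ₐ[K] π.ring.sub := Subalgebra.inclusion hle
  let r : C.sub →ₐ[K] V.sub := (π.res.comp i).codRestrict V.sub fun x => by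
    obtain ⟨h, h'⟩ := π.mem_comap.mp x.2
    exact h'
  have hr : IsLocalHom r := ⟨fun x hx => by
    obtain ⟨y, hy⟩ := isUnit_iff_exists_inv.mp hx
    have hu : IsUnit (i x) := by
      refine (isUnit_map_iff π.res _).mp (isUnit_iff_exists_inv.mpr ⟨y, ?_⟩)
      exact congrArg Subtype.val hy
    obtain ⟨w, hw⟩ := isUnit_iff_exists_inv.mp hu
    refine isUnit_iff_exists_inv.mpr ⟨⟨(w : F), π.mem_comap.mpr ⟨w.2, ?_⟩⟩,
      Subtype.ext (congrArg Subtype.val hw :)⟩
    have h1 : π.res (i x) * π.res w = 1 := by rw [← map_mul, hw, map_one]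
    have h2 : π.res (i x) * (y : F') = 1 := congrArg Subtype.val hy
    have h3 : π.res (i x) ≠ 0 := left_ne_zero_of_mul_eq_one h1
    show π.res w ∈ V.1
    rw [mul_left_cancel₀ h3 (h1.trans h2.symm)]
    exact y.2⟩
  have hW : Pts.map i (PF.toVal C) = P := by
    refine (bijective_map_sub_val π.ring).1 ?_
    rw [Pts.map_comp_of_eq i π.ring.sub.val (ψ := C.sub.val) (AlgHom.ext fun _ => rfl),
      PF.map_toVal C]
  have hV : P'.toVal V = Pts.map r (PF.toVal C) := by
    refine Pts.toVal_eq ?_
    rw [Pts.map_comp_of_eq r V.sub.val (ψ := π.res.comp i) (AlgHom.ext fun _ => rfl),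
      Pts.map_comp, hW]
  set c := ptCentre (PF.toVal C).1
  set w := ptCentre P.1
  have hπ : IsLocalHom π.res := π.isLocalHom
  have hcP' : ptCentre (P'.toVal V).1 = c := by rw [hV, centre_map]
  have hwP' : ptCentre P'.1 = w := centre_map π.res P
  have hwc : w ⤳ c := by
    have := centre_map_specializes i (PF.toVal C)
    rwa [hW] at this
  have hPring : PF.toVal π.ring = P := Pts.toVal_eq rfl
  have hpw : ptCentre PF.1 ⤳ w := centre_map_specializes π.ring.sub.val P
  have hu : D.z c / D.z w ∈ unitsAt f w := D.div_mem_unitsAt hwc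
  refine ⟨evalU f P.1 (D.z c / D.z w), ?_, ?_⟩
  · rw [pullPt, pullPt, hPring,
      ← evalU_div f PF.1 (D.div_mem_unitsAt (hpw.trans hwc)) (D.div_mem_unitsAt hpw),
      div_div_div_cancel_right, evalU_map π.ring.sub.val P hu]
    rfl
  · rw [pullPt, hcP', hwP', evalU_map π.res P hu]
    rw [div_self']
    exact one_mem _

/-- The class functor of the divisor. -/
def classFunctor (L : RelativeGroupLaw K f) [Fact L.IsCommutative] : ClassFunctor K where
  Pt R _ _ := Pts f L R
  addCommGroup R _ _ := Pts.instAddCommGroup R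
  map φ := Pts.map φ
  map_id R _ _ P := Pts.map_id R P
  map_comp φ χ P := Pts.map_comp φ χ P
  bijective_map_val V := bijective_map_sub_val V
  q P := D.pullPt P
  q_zero := D.pullPt_zero
  q_finite P := D.pullPt_finite P
  q_local S _ P := D.pullPt_local S P
  q_spec π P := D.pullPt_spec π P

theorem pullPt_genPt (V : KVal K (funField f)) :
    D.pullPt (genPt f (L := L)) V =
      D.z (ptCentre ((genPt f (L := L)).toVal V).1) / D.z (genericPoint A) := by
  rw [pullPt, centre_genPt, evalU_genPt]

theorem mem_of_mem_regAt_centre_genPt {V : KVal K (funField f)} {a : funField f}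
    (ha : a ∈ regAt f (ptCentre ((genPt f (L := L)).toVal V).1)) : a ∈ V.1 := by
  set P := (genPt f (L := L)).toVal V
  obtain ⟨s, rfl⟩ := ha
  have h : ptCentre (genPt f (L := L)).1 ⤳ ptCentre P.1 := centre_specializes_toVal _ V
  have h1 : germAt (genPt f (L := L)).1 h = toFun0 f (ptCentre P.1) := by
    refine (germAt_unique _ _ ?_).symm
    show Spec.map (A.presheaf.stalkSpecializes
      (((genericPoint_spec A).specializes trivial : genericPoint A ⤳ ptCentre P.1))) ≫ _ = _
    rw [Scheme.SpecMap_stalkSpecializes_fromSpecStalk]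
    rfl
  have h2 : germAt (genPt f (L := L)).1 h =
      (V.sub.val.toRingHom).comp (germAt P.1 (specializes_refl _)) := by
    refine (germAt_unique _ _ ?_).symm
    rw [CommRingCat.ofHom_comp, Spec.map_comp, Category.assoc, SpecMap_germAt, ← Pts.map_val,
      Pts.map_toVal]
  rw [← h1, h2]
  exact (germAt P.1 (specializes_refl _) s).2

end LocalEqns

variable [Smooth f] [IsAlgClosed K]

/-- The local equations of the divisor outside a chosen affine open. -/
theorem exists_localEqns [CompactSpace A] :
    ∃ D : LocalEqns f, ∀ L : RelativeGroupLaw K f, ∀ _ : Fact L.IsCommutative,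
      Effective (D.pullPt (genPt f (L := L))) ∧ Big (D.pullPt (genPt f (L := L))) ∧
        (Set.range (D.pullPt (genPt f (L := L)))).Finite := by
  classical
  obtain ⟨_, ⟨U, hU, rfl⟩, hηU, -⟩ :=
    A.isBasis_affineOpens.exists_subset_of_mem_open (Set.mem_univ (genericPoint A)) isOpen_univ
  have : Nonempty U := ⟨⟨_, hηU⟩⟩
  obtain ⟨z, hfin, hnear, hreg, hU1, hpole⟩ := exists_divisor f (U := U)
  refine ⟨⟨z, hfin, hnear⟩, fun L hL => ?_⟩
  have hz : ∀ V : KVal K (funField f),
      (((LocalEqns.mk z hfin hnear).pullPt (genPt f (L := L)) V : (funField f)ˣ) : funField f) =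
        z (ptCentre ((genPt f (L := L)).toVal V).1) := fun V => by
    rw [LocalEqns.pullPt_genPt]
    show ((z _ / z _ : (funField f)ˣ) : funField f) = _
    rw [hU1 _ hηU, div_one]
  refine ⟨fun V => ?_, fun S => ?_, LocalEqns.pullPt_finite _ _⟩
  · rw [hz]; exact LocalEqns.mem_of_mem_regAt_centre_genPt (hreg _)
  · -- clear denominators, then kill the poles
    have := functionField_isFractionRing_of_isAffineOpen A U hU
    let _ : Algebra Γ(A, U) (funField f) := (secFun f U).toAlgebra
    have : IsFractionRing Γ(A, U) (funField f) :=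
      functionField_isFractionRing_of_isAffineOpen A U hU
    obtain ⟨b, hb⟩ := IsLocalization.exist_integer_multiples_of_finset
      (nonZeroDivisors Γ(A, U)) S
    choose c hc using hpole
    choose g hg using hb
    refine ⟨secFun f U b, ?_, ∑ x ∈ S.attach, c (g x.1 x.2), fun x hx V => ?_⟩
    · exact (map_ne_zero_iff _ (A.germToFunctionField_injective U)).mpr (nonZeroDivisors.ne_zero b.2)
    · have hgx : secFun f U (g x hx) = secFun f U b * x := by
        have := hg x hx
        rwa [Algebra.smul_def] at this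
      rw [hz, ← hgx]
      set a := ptCentre ((genPt f (L := L)).toVal V).1
      refine LocalEqns.mem_of_mem_regAt_centre_genPt (L := L) ?_
      obtain ⟨e, he⟩ := Nat.exists_eq_add_of_le (Finset.single_le_sum
        (f := fun y : {y // y ∈ S} => c (g y.1 y.2)) (fun _ _ => Nat.zero_le _)
        (Finset.mem_attach S ⟨x, hx⟩))
      rw [he, pow_add, ← mul_assoc]
      exact mul_mem (hc _ a) (pow_mem (hreg a) _)

end Proper

end Fermat.Agent.Tors
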