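import Fermat.Agent.Tors.EvalPlace

/-!
# Evaluation of a regular family with rigid generic fibre (`S26`)
-/

set_option autoImplicit false

noncomputable section

universe u

open AlgebraicCurve
open scoped TensorProduct

namespace Fermat.Agent.Tors

open TF

variable {K : Type u} [Field K] [IsAlgClosed K] {E M : Type u} [Field E] [Algebra K E]
  [Field M] [Algebra K M]

omit [IsAlgClosed K] in
/-- Membership in the units of a composite valuation. -/
theorem KPlace.map_res_mem_units {F F' : Type u} [Field F] [Algebra K F] [Field F'] [Algebra K F']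
    (π : KPlace K F F') {V : KVal K F'} (a : (π.ring.sub)ˣ) {b : Fˣ}
    (hab : ((a : π.ring.sub) : F) = (b : F)) (hb : b ∈ (π.comap V).units) :
    Units.map π.res.toMonoidHom a ∈ V.units := by
  have hai : (((a⁻¹ : (π.ring.sub)ˣ) : π.ring.sub) : F) = ((b⁻¹ : Fˣ) : F) := by
    rw [Units.val_inv_eq_inv_val, ← hab]
    refine eq_inv_of_mul_eq_one_left ?_
    rw [← MulMemClass.coe_mul, Units.inv_mul, OneMemClass.coe_one]
  obtain ⟨h1, h2⟩ := KVal.mem_units_iff.mp hb
  obtain ⟨_, h1⟩ := π.mem_comap.mp h1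
  obtain ⟨_, h2⟩ := π.mem_comap.mp h2
  refine KVal.mem_units_iff.mpr ⟨?_, ?_⟩
  · convert h1 using 1
    exact congrArg π.res (Subtype.ext hab)
  · rw [← map_inv]
    convert h2 using 1
    exact congrArg π.res (Subtype.ext hai)

section Descend

variable [FF.IsFunctionField K E] {d : Dv K (TF K E M)}

omit [FF.IsFunctionField K E] in
theorem mem_units_inr {P : KVal K (TF K E M)} (hM : ∀ c, inr K E M c ∈ P.1) (c : Mˣ) :
    Units.map (inr K E M).toMonoidHom c ∈ P.units :=
  KVal.mem_units_iff.mpr ⟨hM _, hM _⟩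

/-- A regular family with trivial generic fibre is constant over every valuation of `M`. -/
theorem exists_const_of_generic (hd : Regular d) (h : (TF K E M)ˣ)
    (hh : ∀ P : KVal K (TF K E M), (∀ c, inr K E M c ∈ P.1) → d P / h ∈ P.units)
    (u : KVal K M) :
    ∃ c : Mˣ, ∀ V : KVal K (TF K E M), V.comapHom (inr K E M) = u →
      d V / (h * Units.map (inr K E M).toMonoidHom c) ∈ V.units := by
  let π := KPlace.ofRing u
  set W := (gauss E π).ring
  obtain ⟨c, x, y, hx, hy, hxy⟩ :=
    exists_scale_field (π := π) ((d W / h : (TF K E M)ˣ) : TF K E M) (Units.ne_zero _)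
  set cT := Units.map (inr K E M).toMonoidHom c
  refine ⟨c, fun V hV => ?_⟩
  let d₁ : Dv K (TF K E M) := d / fun _ => h * cT
  have hd₁ : Regular d₁ := hd.div (regular_const _)
  have hu : ∀ e : M, e ∈ π.ring.1 ↔ inr K E M e ∈ V.1 := fun e => by
    show e ∈ u.1 ↔ _
    rw [← hV]
    exact Iff.rfl
  have hgen : ∀ P : KVal K (TF K E M), (∀ e, inr K E M e ∈ P.1) → d₁ P ∈ P.units := fun P hP => by
    show d P / (h * cT) ∈ _
    rw [← div_div]
    exact div_mem (hh P hP) (mem_units_inr hP c)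
  have hW : d₁ W ∈ W.units := by
    have hc : (cT : TF K E M) ≠ 0 := cT.ne_zero
    have hval : ((d₁ W : (TF K E M)ˣ) : TF K E M) * intMap E π y = intMap E π x := by
      show ((d W / (h * cT) : (TF K E M)ˣ) : TF K E M) * _ = _
      rw [← div_div, Units.val_div_eq_div_val, div_mul_eq_mul_div, hxy, div_eq_iff hc, mul_comm]
      rfl
    refine KVal.mem_units_iff.mpr ⟨mem_gauss.mpr ⟨x, y, hy, hval⟩, mem_gauss.mpr ⟨y, x, hx, ?_⟩⟩
    rw [Units.val_inv_eq_inv_val, ← hval, inv_mul_cancel_left₀ (Units.ne_zero _)]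
  have key : ∀ e : Dv K (TF K E M), Regular e →
      (∀ P : KVal K (TF K E M), (∀ a, inr K E M a ∈ P.1) → e P ∈ P.units) → e W ∈ W.units →
      ((e V : _ˣ) : TF K E M) ∈ V.1 := fun e he he1 he2 => by
    obtain ⟨t, ht, ht'⟩ := exists_mem_centre he V π hu
      (fun P hP => (KVal.mem_units_iff.mp (he1 P hP)).1) (KVal.mem_units_iff.mp he2).1
    have h1 := mul_mem (centre_le V ht) (KVal.mem_units_iff.mp (ht' V (centre_le V))).1
    rwa [← Units.val_mul, mul_div_cancel] at h1
  exact KVal.mem_units_iff.mpr ⟨key d₁ hd₁ hgen hW,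
    key d₁⁻¹ hd₁.inv (fun P hP => inv_mem (hgen P hP)) (inv_mem hW)⟩

omit [FF.IsFunctionField K E] in
/-- Specialisation at a section of the projection to `M`. -/
theorem exists_res_mul (Q : KPlace K (TF K E M) M) (hQ : ∀ c, inr K E M c ∈ Q.ring.1)
    (hQ' : ∀ c, Q.res ⟨inr K E M c, hQ c⟩ = c) {e : Dv K M} (hQe : Q.Specialises d e)
    (h : (TF K E M)ˣ) (hh : d Q.ring / h ∈ Q.ring.units) :
    ∃ R : Mˣ, ∀ (u : KVal K M) (c : Mˣ), (∀ V : KVal K (TF K E M), V.comapHom (inr K E M) = u →
      d V / (h * Units.map (inr K E M).toMonoidHom c) ∈ V.units) → R * e u / c ∈ u.units := by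
  obtain ⟨h1, h2⟩ := KVal.mem_units_iff.mp hh
  let r : (Q.ring.sub)ˣ := ⟨⟨_, h1⟩, ⟨_, h2⟩, Subtype.ext (by simp), Subtype.ext (by simp)⟩
  refine ⟨Units.map Q.res.toMonoidHom r, fun u c hc => ?_⟩
  let cQ : (Q.ring.sub)ˣ :=
    Units.map ((inr K E M).codRestrict Q.ring.sub hQ).toMonoidHom c
  have hcQ : Units.map Q.res.toMonoidHom cQ = c := Units.ext (hQ' c)
  have hV : (Q.comap u).comapHom (inr K E M) = u := by
    refine Subtype.ext (SetLike.ext fun a => ?_)
    rw [KVal.mem_comapHom, Q.mem_comap]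
    exact ⟨fun ⟨_, h'⟩ => by rwa [hQ'] at h', fun h' => ⟨hQ a, by rwa [hQ']⟩⟩
  obtain ⟨a, ha, ha'⟩ := hQe u
  have hb : ((a * r / cQ : (Q.ring.sub)ˣ) : Q.ring.sub).1 =
      ((d (Q.comap u) / (h * Units.map (inr K E M).toMonoidHom c) : (TF K E M)ˣ) : TF K E M) := by
    rw [← div_div, ← div_mul_div_cancel (d (Q.comap u)) (d Q.ring) h, div_eq_mul_inv,
      div_eq_mul_inv _ (Units.map _ c), ← map_inv, ← map_inv, Units.val_mul, Units.val_mul,
      Units.val_mul, Units.val_mul, ← ha]
    rfl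
  have h3 := Q.map_res_mem_units _ hb (hc _ hV)
  rw [map_div, map_mul, hcQ] at h3
  have := div_mem h3 ha'
  rwa [show Units.map Q.res.toMonoidHom a * Units.map Q.res.toMonoidHom r / c /
      (Units.map Q.res.toMonoidHom a / e u) = Units.map Q.res.toMonoidHom r * e u / c by
    apply Additive.ofMul.injective
    simp only [ofMul_div, ofMul_mul]
    abel] at this

variable [IsAlgClosed M]

/-- A regular family which is principal on the generic fibre and trivial at one rational point
is principal at every point of the curve. -/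
theorem mem_principal_of_eval (hd : Regular d)
    (hgen : ∃ h : (TF K E M)ˣ, ∀ P : KVal K (TF K E M), (∀ c, inr K E M c ∈ P.1) →
      d P / h ∈ P.units)
    (v : Place K E) (h₀ : (overPlace M v).Specialises d 1) (ι : E →ₐ[K] M) {e : Dv K M}
    (h₁ : (evalPlace ι).Specialises d e) : e ∈ principal K M := by
  obtain ⟨h, hh⟩ := hgen
  obtain ⟨R₀, hR₀⟩ := exists_res_mul (overPlace M v) (inr_mem_overPlace v) (overPlace_res_inr v)
    h₀ h (hh _ (inr_mem_overPlace v))
  obtain ⟨R₁, hR₁⟩ := exists_res_mul (evalPlace ι) (inr_mem_evalPlace ι) (evalPlace_res_inr ι)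
    h₁ h (hh _ (inr_mem_evalPlace ι))
  refine ⟨R₀ / R₁, fun u => ?_⟩
  obtain ⟨c, hc⟩ := exists_const_of_generic hd h hh u
  have := div_mem (hR₁ u c hc) (hR₀ u c hc)
  rwa [Pi.one_apply, mul_one, div_div_div_cancel_right,
    show R₁ * e u / R₀ = e u / (R₀ / R₁) by rw [div_div_eq_mul_div, mul_comm]] at this

end Descend

namespace ClassFunctor

variable (Φ : ClassFunctor K)

omit [IsAlgClosed K] in
theorem cube_zero_fst {F : Type u} [Field F] [Algebra K F] (a b : Φ.Pt F) :
    Φ.cube 0 a b = 1 := by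
  simp [cube, bil, Φ.q_zero]

variable [FF.IsFunctionField K E] [IsAlgClosed M]

/-- The cube class at a point of a curve through the origin, from rigidity on the generic fibre. -/
theorem cube_mem_principal_of (ψ : Φ.Pt E) (v : Place K E)
    (hψ : Φ.red (placeEval K v) ψ = 0) (ι : E →ₐ[K] M) (a b : Φ.Pt M)
    (hgen : ∃ h : (TF K E M)ˣ, ∀ P : KVal K (TF K E M), (∀ c, inr K E M c ∈ P.1) →
      Φ.cube (Φ.map (inl K E M) ψ) (Φ.map (inr K E M) a) (Φ.map (inr K E M) b) P / h ∈ P.units) :
    Φ.cube (Φ.map ι ψ) a b ∈ principal K M := by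
  refine mem_principal_of_eval (regular_cube Φ ψ a b) hgen v ?_ ι (e := _) ?_
  · have h := Φ.specialises_cube (overPlace M v) (Φ.map (inl K E M) ψ) (Φ.map (inr K E M) a)
      (Φ.map (inr K E M) b)
    have hr : ∀ a : Φ.Pt M, Φ.red (overPlace M v) (Φ.map (inr K E M) a) = a := fun a => by
      rw [Φ.red_map_of_factor (overPlace M v) (inr K E M) (AlgHom.id K M) (inr_mem_overPlace v)
        (overPlace_res_inr v), Φ.map_id]
    have hl : Φ.red (overPlace M v) (Φ.map (inl K E M) ψ) = 0 := by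
      rw [Φ.red_map_hom (placeEval K v) (overPlace M v) (inl K E M) (Algebra.ofId K M)
        (fun r => (res_eq_eval (overPlace M v) (inl K E M) v (overPlace_comap v) r).1)
        (fun r => (res_eq_eval (overPlace M v) (inl K E M) v (overPlace_comap v) r).2), hψ,
        map_zero]
    rwa [hl, hr, hr, cube_zero_fst] at h
  · have h := Φ.specialises_cube (evalPlace ι) (Φ.map (inl K E M) ψ) (Φ.map (inr K E M) a)
      (Φ.map (inr K E M) b)
    have hr : ∀ a : Φ.Pt M, Φ.red (evalPlace ι) (Φ.map (inr K E M) a) = a := fun a => by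
      rw [Φ.red_map_of_factor (evalPlace ι) (inr K E M) (AlgHom.id K M) (inr_mem_evalPlace ι)
        (evalPlace_res_inr ι), Φ.map_id]
    rwa [Φ.red_map_of_factor (evalPlace ι) (inl K E M) ι (inl_mem_evalPlace ι)
      (evalPlace_res_inl ι), hr, hr] at h

end ClassFunctor

end Fermat.Agent.Tors
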