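import Fermat.Agent.Tors.Regular
import Fermat.Agent.FiniteFlat.CurveLemmas
import Fermat.Agent.Jac.Geometry.Functions

/-!
# Places of a function field and of its constant extensions (`S26`)
-/

set_option autoImplicit false

noncomputable section

universe u

open AlgebraicCurve
open scoped TensorProduct

namespace Fermat.Agent.Tors

section General

variable {K : Type u} [Field K] {k : Type u} [Field k] [Algebra K k] {F : Type u} [Field F]
  [Algebra k F] [Algebra K F] [IsScalarTower K k F]

variable (K) in
/-- The valuation ring of a place. -/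
def kvalOf (v : Place k F) : KVal K F :=
  ⟨v.toValuationSubring, fun c => by
    rw [IsScalarTower.algebraMap_apply K k F]; exact v.algebraMap_mem' _⟩

theorem kvalOf_ne_top (v : Place k F) : (kvalOf K v).1 ≠ ⊤ := v.ne_top'

/-- The place of a valuation subring. -/
def placeAt [FF.IsFunctionField k F] (P : KVal K F) (hk : ∀ c : k, algebraMap k F c ∈ P.1)
    (hne : P.1 ≠ ⊤) : Place k F := FF.placeOfValuationSubring P.1 hk hne

theorem kvalOf_placeAt [FF.IsFunctionField k F] (P : KVal K F)
    (hk : ∀ c : k, algebraMap k F c ∈ P.1) (hne : P.1 ≠ ⊤) :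
    kvalOf K (placeAt P hk hne) = P := rfl

/-- Units of the valuation ring of a place. -/
theorem mem_units_kvalOf (v : Place k F) (a : Fˣ) :
    a ∈ (kvalOf K v).units ↔ v.ord (a : F) = 0 := by
  rw [KVal.mem_units_iff]
  show (a : F) ∈ v.toValuationSubring ∧ _ ∈ v.toValuationSubring ↔ _
  rw [FF.mem_iff_ord v a.ne_zero, FF.mem_iff_ord v (Units.ne_zero _), Units.val_inv_eq_inv_val,
    v.ord_inv]
  omega

theorem mem_kvalOf (v : Place k F) {a : F} (ha : a ≠ 0) :
    a ∈ (kvalOf K v).1 ↔ 0 ≤ v.ord a := FF.mem_iff_ord v ha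

/-- A unit of the value at a place is a unit at the place. -/
theorem KPlace.mem_units_comap {F' : Type u} [Field F'] [Algebra K F'] (π : KPlace K F F')
    {V : KVal K F'} {a : Fˣ} (h1 : (a : F) ∈ π.ring.1) (b : F'ˣ)
    (hb : (b : F') = π.res ⟨a, h1⟩) (hu : b ∈ V.units) : a ∈ (π.comap V).units := by
  obtain ⟨hu1, hu2⟩ := KVal.mem_units_iff.mp hu
  have hunit : IsUnit (⟨(a : F), h1⟩ : π.ring.sub) :=
    (isUnit_map_iff π.res _).mp (hb ▸ b.isUnit)
  obtain ⟨c, hc⟩ := isUnit_iff_exists_inv.mp hunit
  have hc' : (c : F) = ((a⁻¹ : Fˣ) : F) := by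
    rw [Units.val_inv_eq_inv_val]
    exact eq_inv_of_mul_eq_one_right (congrArg Subtype.val hc)
  refine KVal.mem_units_iff.mpr ⟨π.mem_comap.mpr ⟨h1, hb ▸ hu1⟩, ?_⟩
  rw [← hc']
  refine π.mem_comap.mpr ⟨c.2, ?_⟩
  rwa [show π.res ⟨(c : F), c.2⟩ = ((b⁻¹ : F'ˣ) : F') by
    rw [Units.val_inv_eq_inv_val, hb]
    exact eq_inv_of_mul_eq_one_right (by rw [← map_mul, hc, map_one])]

variable [IsAlgClosed k] [FF.IsFunctionField k F]

/-- The residue field of a place over an algebraically closed field. -/
def residueEquiv (v : Place k F) : k ≃+* v.ResidueField :=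
  RingEquiv.ofBijective (algebraMap k v.ResidueField)
    (haveI := FF.finite_residueField v
     IsAlgClosed.algebraMap_bijective_of_isIntegral (k := k) (K := v.ResidueField))

variable (K) in
/-- A place over an algebraically closed field, with its evaluation. -/
def placeEval (v : Place k F) : KPlace K F k :=
  { ring := kvalOf K v
    res :=
      { toRingHom := ((residueEquiv v).symm : v.ResidueField →+* k).comp
          (IsLocalRing.residue v.toValuationSubring)
        commutes' := fun c => by
          show (residueEquiv v).symm _ = algebraMap K k c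
          rw [RingEquiv.symm_apply_eq]
          show _ = algebraMap k v.ResidueField (algebraMap K k c)
          rw [IsScalarTower.algebraMap_apply k v.toValuationSubring v.ResidueField,
            IsLocalRing.ResidueField.algebraMap_eq]
          exact congrArg _ (Subtype.ext (IsScalarTower.algebraMap_apply K k F c)) }
    isLocalHom := ⟨fun a ha => by
      have h1 : IsUnit (IsLocalRing.residue v.toValuationSubring a) :=
        (isUnit_map_iff (residueEquiv v).symm _).mp ha
      exact (isUnit_map_iff (IsLocalRing.residue v.toValuationSubring) _).mp h1⟩ }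

theorem placeEval_algebraMap (v : Place k F) (c : k) :
    (placeEval K v).res ⟨algebraMap k F c, v.algebraMap_mem' c⟩ = c := by
  show (residueEquiv v).symm _ = c
  rw [RingEquiv.symm_apply_eq]
  rfl

end General

variable {K : Type u} [Field K] [IsAlgClosed K] {E : Type u} [Field E] [Algebra K E]
  [FF.IsFunctionField K E] {M : Type u} [Field M] [Algebra K M]

open TF

attribute [local instance 50] TF.rightAlgebra

/-- On the valuation ring of a place of `E`, every place with the same trace evaluates. -/
theorem res_eq_eval {F F' : Type u} [Field F] [Algebra K F] [Field F'] [Algebra K F']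
    (ρ : KPlace K F F') (ι : E →ₐ[K] F) (v : Place K E)
    (hv : ρ.ring.comapHom ι = kvalOf K v) (r : (placeEval K v).ring.sub) :
    ∃ h : ι (r : E) ∈ ρ.ring.1,
      ρ.res ⟨ι (r : E), h⟩ = algebraMap K F' ((placeEval K v).res r) := by
  have hmem : ∀ x ∈ (kvalOf K v).1, ι x ∈ ρ.ring.1 := fun x hx => by
    rw [← hv] at hx; exact hx
  refine ⟨hmem _ r.2, ?_⟩
  set c := (placeEval K v).res r
  have hd : (placeEval K v).res (r - algebraMap K _ c) = 0 := by
    rw [map_sub, AlgHom.commutes]; exact sub_self c
  set s := r - algebraMap K (placeEval K v).ring.sub c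
  have hs : ρ.res ⟨ι (s : E), hmem _ s.2⟩ = 0 := by
    by_contra hne
    obtain ⟨b, hb⟩ := isUnit_iff_exists_inv.mp ((isUnit_map_iff ρ.res _).mp (Ne.isUnit hne))
    have hb' : ι (s : E) * (b : F) = 1 := congrArg Subtype.val hb
    have hs0 : (s : E) ≠ 0 := fun h => by simp [h] at hb'
    have hbE' : (s : E)⁻¹ ∈ (ρ.ring.comapHom ι).1 := by
      rw [KVal.mem_comapHom, map_inv₀, ← eq_inv_of_mul_eq_one_right hb']
      exact b.2
    have hbE : (s : E)⁻¹ ∈ (placeEval K v).ring.1 := by
      rw [hv] at hbE'
      exact hbE'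
    have h2 := congrArg (placeEval K v).res
      (show s * (⟨(s : E)⁻¹, hbE⟩ : (placeEval K v).ring.sub) = 1 from
        Subtype.ext (mul_inv_cancel₀ hs0))
    rw [map_mul, map_one, hd, zero_mul] at h2
    exact zero_ne_one h2
  have heq : (⟨ι (r : E), hmem _ r.2⟩ : ρ.ring.sub) =
      ⟨ι (s : E), hmem _ s.2⟩ + algebraMap K _ c := Subtype.ext (by
    show ι (r : E) = ι (s : E) + algebraMap K F c
    rw [← AlgHom.commutes ι c, ← map_add]
    simp [s])
  rw [heq, map_add, AlgHom.commutes, hs, zero_add]

variable (M) in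
/-- The constant field extension of a place of `E`. -/
def overGauss (v : Place K E) : KPlace K (TF K E M) (TF K M K) :=
  (KPlace.ofAlgHom (swap K M E)).comp (gauss M (placeEval K v))

variable (M) in
/-- The constant field extension of a place of `E`, with values in `M`. -/
def overPlace (v : Place K E) : KPlace K (TF K E M) M :=
  (overGauss M v).comp
    (KPlace.ofAlgHom (TF.lift (AlgHom.id K M) (Algebra.ofId K M) (by
      rw [show Algebra.TensorProduct.productMap (AlgHom.id K M) (Algebra.ofId K M) =
          (Algebra.TensorProduct.rid K K M).toAlgHom from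
        Algebra.TensorProduct.ext' fun c a => by simp [Algebra.smul_def, mul_comm]]
      exact (Algebra.TensorProduct.rid K K M).injective)))

theorem mem_overPlace {v : Place K E} {z : TF K E M} :
    z ∈ (overPlace M v).ring.1 ↔ swap K M E z ∈ (gauss M (placeEval K v)).ring.1 := by
  constructor
  · intro h
    obtain ⟨h1, _⟩ := ((overGauss M v).mem_comap).mp h
    obtain ⟨_, h2⟩ := ((KPlace.ofAlgHom (swap K M E)).mem_comap).mp h1
    exact h2
  · intro h
    exact ((overGauss M v).mem_comap).mpr
      ⟨((KPlace.ofAlgHom (swap K M E)).mem_comap).mpr ⟨ValuationSubring.mem_top _, h⟩,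
        ValuationSubring.mem_top _⟩

theorem inr_mem_overPlace (v : Place K E) (c : M) :
    inr K E M c ∈ (overPlace M v).ring.1 := by
  rw [mem_overPlace, swap_inr]
  exact Tors.inl_mem c

theorem overPlace_res_inr (v : Place K E) (c : M) :
    (overPlace M v).res ⟨inr K E M c, inr_mem_overPlace v c⟩ = c := by
  refine (congrArg (fun z => (KPlace.ofAlgHom _).res z) (Subtype.ext ?_)).trans
    (?_ : (KPlace.ofAlgHom (TF.lift (AlgHom.id K M) (Algebra.ofId K M) _)).res
      ⟨inl K M K c, ValuationSubring.mem_top _⟩ = c)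
  · exact (congrArg (fun y => (gauss M (placeEval K v)).res y)
      (Subtype.ext (swap_inr c))).trans (gauss_res_inl (π := placeEval K v) c)
  · rw [KPlace.ofAlgHom_res, inl_apply, TF.lift_mk, Algebra.TensorProduct.productMap_apply_tmul,
      map_one, mul_one, AlgHom.id_apply]

theorem overPlace_comap (v : Place K E) :
    (overPlace M v).ring.comapHom (inl K E M) = kvalOf K v := by
  refine Subtype.ext (SetLike.ext fun r => ?_)
  rw [KVal.mem_comapHom, mem_overPlace, swap_inl]
  exact inr_mem_iff

variable [IsAlgClosed M]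

/-- The valuation rings over a place of `E` containing `M` coincide. -/
theorem eq_overPlace (v : Place K E) (P : KVal K (TF K E M)) (hM : ∀ c, inr K E M c ∈ P.1)
    (hv : P.comapHom (inl K E M) = kvalOf K v) : P = (overPlace M v).ring := by
  have hne : P.1 ≠ ⊤ := fun h => v.ne_top' (by
    refine SetLike.ext fun r => ⟨fun _ => ValuationSubring.mem_top r, fun _ => ?_⟩
    have : r ∈ (P.comapHom (inl K E M)).1 := by
      rw [KVal.mem_comapHom, h]; exact ValuationSubring.mem_top _
    rwa [hv] at this)
  haveI := TF.isFunctionField (E := E) (K := K) M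
  let ρ := placeEval K (placeAt P hM hne)
  have hρM : ∀ c : M, ρ.res ⟨inr K E M c, hM c⟩ = c := placeEval_algebraMap (placeAt P hM hne)
  let W := (overPlace M v).ring
  have hMW : ∀ c, inr K E M c ∈ W.1 := inr_mem_overPlace v
  have hWne : W.1 ≠ ⊤ := fun h => v.ne_top' (by
    refine SetLike.ext fun r => ⟨fun _ => ValuationSubring.mem_top r, fun _ => ?_⟩
    have : r ∈ (W.comapHom (inl K E M)).1 := by
      rw [KVal.mem_comapHom, h]; exact ValuationSubring.mem_top _
    rwa [overPlace_comap] at this)
  have hle : W.1 ≤ P.1 := fun z hz => by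
    obtain ⟨x, y, hy, hxy⟩ := mem_gauss.mp (mem_overPlace.mp hz)
    have hlin : ∀ x : M ⊗[K] (placeEval K v).ring.sub,
        ∃ h : swap K E M (intMap M (placeEval K v) x) ∈ P.1,
          ρ.res ⟨_, h⟩ = Algebra.TensorProduct.rid K K M
            (Algebra.TensorProduct.map (AlgHom.id K M) (placeEval K v).res x) := by
      intro x
      induction x with
      | zero =>
        refine ⟨by rw [map_zero, map_zero]; exact zero_mem _, ?_⟩
        conv_rhs => rw [map_zero, map_zero]
        exact (congrArg ρ.res (Subtype.ext (by simp))).trans (map_zero ρ.res)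
      | add a b ha hb =>
        obtain ⟨ha, ha'⟩ := ha
        obtain ⟨hb, hb'⟩ := hb
        refine ⟨by rw [map_add, map_add]; exact add_mem ha hb, ?_⟩
        conv_rhs => rw [map_add, map_add, ← ha', ← hb', ← map_add ρ.res]
        exact congrArg ρ.res (Subtype.ext (by simp))
      | tmul c r =>
        obtain ⟨hr, hr'⟩ := res_eq_eval ρ (inl K E M) v hv r
        have heq : swap K E M (intMap M (placeEval K v) (c ⊗ₜ r)) =
            inr K E M c * inl K E M (r : E) := by
          rw [intMap_tmul, map_mul, swap_inl, swap_inr]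
        refine ⟨heq ▸ mul_mem (hM c) hr, ?_⟩
        rw [show (⟨_, _⟩ : ρ.ring.sub) = ⟨_, hM c⟩ * ⟨_, hr⟩ from Subtype.ext heq, map_mul, hρM,
          hr']
        simp [Algebra.smul_def, mul_comm]
    obtain ⟨hx, -⟩ := hlin x
    obtain ⟨hy', hy''⟩ := hlin y
    have hres : ρ.res ⟨_, hy'⟩ ≠ 0 := by
      rw [hy'']
      intro h
      refine hy ?_
      rw [resMap, AlgHom.comp_apply, (map_eq_zero_iff _
        (Algebra.TensorProduct.rid K K M).injective).mp h, map_zero]
    obtain ⟨b, hb⟩ := isUnit_iff_exists_inv.mp ((isUnit_map_iff ρ.res _).mp (Ne.isUnit hres))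
    have hb' : swap K E M (intMap M (placeEval K v) y) * (b : TF K E M) = 1 :=
      congrArg Subtype.val hb
    have h1 := congrArg (swap K E M) hxy
    rw [map_mul, swap_swap] at h1
    rw [show z = swap K E M (intMap M (placeEval K v) x) * b by
      rw [← h1, mul_assoc, hb', mul_one]]
    exact mul_mem hx b.2
  have := congrArg Place.toValuationSubring
    (FF.eq_of_le (v := placeAt W hMW hWne) (w := placeAt P hM hne) hle)
  exact Subtype.ext this.symm

variable (M) in
/-- The place of `TF K E M` above a place of `E`. -/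
def liftPlace (v : Place K E) : Place M (TF K E M) :=
  haveI := TF.isFunctionField (E := E) (K := K) M
  placeAt (overPlace M v).ring (inr_mem_overPlace v) fun h => v.ne_top' (by
    refine SetLike.ext fun r => ⟨fun _ => ValuationSubring.mem_top r, fun _ => ?_⟩
    have : r ∈ ((overPlace M v).ring.comapHom (inl K E M)).1 := by
      rw [KVal.mem_comapHom, h]; exact ValuationSubring.mem_top _
    rwa [overPlace_comap] at this)

theorem kvalOf_liftPlace (v : Place K E) : kvalOf K (liftPlace M v) = (overPlace M v).ring := rfl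

theorem liftPlace_injective : Function.Injective (liftPlace (K := K) (E := E) M) := fun v w h => by
  have h1 := congrArg (fun x => (kvalOf K x).comapHom (inl K E M)) h
  simp only [kvalOf_liftPlace, overPlace_comap] at h1
  exact Place.ext (congrArg Subtype.val h1)

/-- The extension of a place is unramified. -/
theorem ord_liftPlace (v : Place K E) (r : E) :
    (liftPlace M v).ord (inl K E M r) = v.ord r := by
  classical
  set P := liftPlace M v
  obtain ⟨ϖ, hϖ⟩ := IsDiscreteValuationRing.exists_irreducible v.toValuationSubring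
  have hiff : ∀ s : E, s ≠ 0 → (0 ≤ P.ord (inl K E M s) ↔ 0 ≤ v.ord s) := fun s hs => by
    rw [← mem_kvalOf (K := K) P ((_root_.map_ne_zero _).mpr hs), ← mem_kvalOf (K := K) v hs,
      ← overPlace_comap (M := M) v]
    rfl
  have hϖ0 : (ϖ : E) ≠ 0 := fun h => hϖ.ne_zero (Subtype.ext h)
  have hpos : 1 ≤ P.ord (inl K E M (ϖ : E)) := by
    have h1 := (hiff _ hϖ0).mpr (by rw [v.ord_coe_irreducible hϖ]; norm_num)
    by_contra h2
    have h3 := (hiff _ (inv_ne_zero hϖ0)).mp (by rw [map_inv₀, P.ord_inv]; omega)
    rw [v.ord_inv, v.ord_coe_irreducible hϖ] at h3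
    omega
  obtain ⟨z, hz0, hz⟩ := FF.exists_ord_eq P 1
  have hzW : z ∈ (overPlace M v).ring.1 := (mem_kvalOf (K := K) P hz0).mpr (by omega)
  obtain ⟨x, y, hy, hxy⟩ := mem_gauss.mp (mem_overPlace.mp hzW)
  have hne : intMap M (placeEval K v) y ≠ 0 := intMap_ne_zero hy
  have h1 := congrArg (swap K E M) hxy
  rw [map_mul, swap_swap] at h1
  have hmemI : ∀ w, swap K E M (intMap M (placeEval K v) w) ∈ (overPlace M v).ring.1 := fun w => by
    rw [mem_overPlace, swap_swap]; exact intMap_mem w
  have hy0 : P.ord (swap K E M (intMap M (placeEval K v) y)) = 0 := by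
    have hne' := (_root_.map_ne_zero (swap K E M)).mpr hne
    refine le_antisymm ?_ ((mem_kvalOf (K := K) P hne').mp (hmemI y))
    have h2 : (swap K E M (intMap M (placeEval K v) y))⁻¹ ∈ (overPlace M v).ring.1 := by
      rw [mem_overPlace, map_inv₀, swap_swap]
      exact mem_gauss.mpr ⟨1, y, hy, by rw [map_one, inv_mul_cancel₀ hne]⟩
    have := (mem_kvalOf (K := K) P (inv_ne_zero hne')).mp h2
    rw [P.ord_inv] at this
    omega
  have hx0 : resMap M (placeEval K v) x = 0 := by
    by_contra hx
    have h2 : z⁻¹ ∈ (overPlace M v).ring.1 := by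
      rw [mem_overPlace, map_inv₀]
      refine mem_gauss.mpr ⟨y, x, hx, ?_⟩
      rw [← hxy, inv_mul_cancel_left₀ ((_root_.map_ne_zero _).mpr hz0)]
    have := (mem_kvalOf (K := K) P (inv_ne_zero hz0)).mp h2
    rw [P.ord_inv] at this
    omega
  let ϖ' : (placeEval K v).ring.sub := ⟨ϖ, ϖ.2⟩
  obtain ⟨x', hx'⟩ : ∃ x', x = ((1 : M) ⊗ₜ[K] ϖ') * x' := by
    let b := Module.Basis.ofVectorSpace K M
    have hx1 := mk_injective (hx0.trans (map_zero (mk K M K)).symm)
    have hres : ∀ i, (placeEval K v).res (coords b _ x i) = 0 := fun i => by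
      rw [← coords_map]
      exact (congrArg (fun z => coords b K z i) hx1).trans (by simp)
    have hdvd : ∀ i, ∃ s : (placeEval K v).ring.sub, coords b _ x i = ϖ' * s := fun i => by
      have hnu : ¬ IsUnit (show v.toValuationSubring from coords b _ x i) := fun hu =>
        (IsUnit.map (placeEval K v).res hu).ne_zero (hres i)
      have := hϖ.maximalIdeal_eq ▸ (IsLocalRing.mem_maximalIdeal _).mpr hnu
      obtain ⟨s, hs⟩ := Ideal.mem_span_singleton.mp this
      exact ⟨s, hs⟩
    choose s hs using hdvd
    refine ⟨(coords b _).symm (Finsupp.onFinset (coords b _ x).support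
      (fun i => if coords b _ x i = 0 then 0 else s i) fun i hi => by
        simp only [Finsupp.mem_support_iff]; intro h; simp [h] at hi), ?_⟩
    refine (coords b _).injective (Finsupp.ext fun i => ?_)
    rw [one_tmul_mul_coords, LinearEquiv.apply_symm_apply, Finsupp.onFinset_apply]
    split
    next h => rw [h, mul_zero]
    next => exact hs i
  have h3 : z * swap K E M (intMap M (placeEval K v) y) =
      inl K E M (ϖ : E) * swap K E M (intMap M (placeEval K v) x') := by
    rw [h1, hx', map_mul, map_mul, intMap_tmul, map_one, one_mul, swap_inr]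
  have hx'0 : swap K E M (intMap M (placeEval K v) x') ≠ 0 := fun h => by
    rw [h, mul_zero] at h3
    exact mul_ne_zero hz0 ((_root_.map_ne_zero _).mpr hne) h3
  have h4 := congrArg P.ord h3
  rw [P.ord_mul hz0 ((_root_.map_ne_zero _).mpr hne),
    P.ord_mul ((_root_.map_ne_zero _).mpr hϖ0) hx'0, hz, hy0] at h4
  have h5 := (mem_kvalOf (K := K) P hx'0).mp (hmemI x')
  have hone : P.ord (inl K E M (ϖ : E)) = 1 := by omega
  rcases eq_or_ne r 0 with rfl | hr
  · simp
  obtain ⟨w, hw⟩ := v.exists_unit_mul_zpow hr hϖ
  have hw0 : P.ord (inl K E M ((w : v.toValuationSubring) : E)) = 0 := by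
    have hne' : ((w : v.toValuationSubring) : E) ≠ 0 :=
      fun h => w.ne_zero (Subtype.ext h)
    have h6 := (hiff _ hne').mpr (by rw [v.ord_coe_unit])
    have h7 := (hiff _ (inv_ne_zero hne')).mpr (by rw [v.ord_inv, v.ord_coe_unit]; norm_num)
    rw [map_inv₀, P.ord_inv] at h7
    omega
  conv_lhs => rw [hw]
  rw [map_mul, map_zpow₀, P.ord_mul ((_root_.map_ne_zero _).mpr fun h => w.ne_zero (Subtype.ext h))
    (zpow_ne_zero _ ((_root_.map_ne_zero _).mpr hϖ0)), P.ord_zpow, hone, hw0]
  ring

/-- A valuation ring over `M` whose trace on `E` is a place is the extension of that place. -/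
theorem eq_liftPlace (P : Place M (TF K E M)) (v : Place K E)
    (hv : (kvalOf K P).comapHom (inl K E M) = kvalOf K v) : P = liftPlace M v :=
  Place.ext (congrArg Subtype.val (eq_overPlace v (kvalOf K P) P.algebraMap_mem' hv))

section DivFamily

open Classical in
/-- Local equations of a divisor on `E`. -/
def divFamily (D : Divisor K E) : Dv K E := fun R =>
  if h : R.1 = ⊤ then 1
  else Units.mk0 (FF.exists_uniformizer (placeAt R R.2 h)).choose
    (FF.exists_uniformizer (placeAt R R.2 h)).choose_spec.1 ^ D (placeAt R R.2 h)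

theorem divFamily_top (D : Divisor K E) {R : KVal K E} (h : R.1 = ⊤) : divFamily D R = 1 :=
  dif_pos h

theorem ord_divFamily (D : Divisor K E) (v : Place K E) :
    v.ord ((divFamily D (kvalOf K v) : Eˣ) : E) = D v := by
  rw [divFamily, dif_neg (kvalOf_ne_top (K := K) v), Units.val_zpow_eq_zpow_val, v.ord_zpow,
    Units.val_mk0]
  have h : placeAt (kvalOf K v) (kvalOf K v).2 (kvalOf_ne_top (K := K) v) = v := rfl
  rw [show v.ord (FF.exists_uniformizer (placeAt (kvalOf K v) (kvalOf K v).2
      (kvalOf_ne_top (K := K) v))).choose = 1 from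
    (FF.exists_uniformizer (placeAt (kvalOf K v) (kvalOf K v).2
      (kvalOf_ne_top (K := K) v))).choose_spec.2, h, mul_one]

theorem compatible_divFamily (D : Divisor K E) : Compatible (divFamily D) := fun R R' h => by
  by_cases h' : R'.1 = ⊤
  · refine KVal.mem_units_iff.mpr ⟨?_, ?_⟩ <;> rw [h'] <;> exact ValuationSubring.mem_top _
  · have hR : R.1 ≠ ⊤ := fun h0 => h' (top_le_iff.mp (h0 ▸ h))
    have : R = R' := Subtype.ext (congrArg Place.toValuationSubring
      (FF.eq_of_le (v := placeAt R R.2 hR) (w := placeAt R' R'.2 h') h))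
    subst this
    simp

theorem ord_pullE_divFamily (D : Divisor K E) (v : Place K E) :
    (liftPlace M v).ord ((pullE M (divFamily D) (kvalOf K (liftPlace M v)) : _ˣ) : TF K E M) =
      D v := by
  show (liftPlace M v).ord (inl K E M _) = _
  rw [ord_liftPlace, kvalOf_liftPlace, overPlace_comap, ord_divFamily]

end DivFamily

section RiemannRoch

/-- A rational linear system of dimension one stays so after extension of the constants. -/
theorem eq_inr_of_mem (D : Divisor K E) (hD : FF.ell K D ≤ 1) (hD0 : 0 ≤ D) {s : TF K E M}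
    (hs : ∀ P : KVal K (TF K E M), (∀ c, inr K E M c ∈ P.1) →
      s * ((pullE M (divFamily D) P : _ˣ) : TF K E M) ∈ P.1) :
    ∃ c : M, s = inr K E M c := by
  classical
  obtain ⟨a, ha⟩ := TF.mem_range_of_forall_mem M (z := s) fun P hP => by
    have hM : ∀ c, inr K E M c ∈ P.1 := fun c => hP _
    have htop : (P.comapHom (inl K E M)).1 = ⊤ :=
      SetLike.ext fun r => ⟨fun _ => ValuationSubring.mem_top r, fun _ => hP _⟩
    have h1 := hs P hM
    rwa [pullE, divFamily_top D htop, map_one, Units.val_one, mul_one] at h1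
  let b := Module.Basis.ofVectorSpace K M
  set y := Algebra.TensorProduct.comm K E M a
  have hL : ∀ i, coords b E y i ∈ riemannRochSpace D := fun i => by
    refine FF.mem_riemannRochSpace'.mpr fun v => ?_
    have h1 := hs _ (inr_mem_overPlace v)
    rw [pullE, overPlace_comap, mem_overPlace, map_mul, ← show mk K E M a = s from ha, swap_mk,
      Units.coe_map] at h1
    change mk K M E y * swap K M E (inl K E M ((divFamily D (kvalOf K v) : Eˣ) : E)) ∈ _ at h1
    rw [swap_inl, inr_apply, ← map_mul, mul_comm y] at h1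
    set t := ((divFamily D (kvalOf K v) : Eˣ) : E)
    let b₁ := Algebra.TensorProduct.map (Subalgebra.topEquiv (R := K) (A := M)).symm.toAlgHom
      (AlgHom.id K E) ((1 ⊗ₜ t) * y)
    have hb₁ : Algebra.TensorProduct.map (⊤ : Subalgebra K M).val (AlgHom.id K E) b₁ =
        (1 ⊗ₜ t) * y := by
      simp only [b₁]
      induction (1 : M) ⊗ₜ[K] t * y with
      | zero => simp
      | add p q hp hq => simp [map_add, hp, hq]
      | tmul p q => simp
    obtain ⟨b', hb'⟩ := exists_integral_of_mem_gauss (π := placeEval K v) ⊤ b₁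
      (by rw [hb₁]; exact h1)
    rw [← hb', ← map_map_comm] at hb₁
    have h2 : t * coords b E y i ∈ (kvalOf K v).1 := by
      rw [← one_tmul_mul_coords, ← hb₁, coords_map]
      exact (coords b (placeEval K v).ring.sub (Algebra.TensorProduct.map (⊤ : Subalgebra K M).val
        (AlgHom.id K (placeEval K v).ring.sub) b') i).2
    refine (FF.mem_ordGe v).mpr ?_
    rcases eq_or_ne (coords b E y i) 0 with h | h
    · exact Or.inl h
    · refine Or.inr ?_
      have h3 := (mem_kvalOf (K := K) v (mul_ne_zero (Units.ne_zero _) h)).mp h2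
      rw [v.ord_mul (Units.ne_zero _) h, ord_divFamily] at h3
      omega
  have hconst : ∀ i, ∃ k : K, coords b E y i = algebraMap K E k := fun i => by
    have h1 : Module.finrank K (riemannRochSpace D) ≤ 1 := by unfold FF.ell at hD; omega
    have hone : (1 : E) ∈ riemannRochSpace D := by
      simpa using FF.algebraMap_mem_riemannRochSpace hD0 (1 : K)
    have hne : (⟨1, hone⟩ : riemannRochSpace D) ≠ 0 := fun h => one_ne_zero (congrArg Subtype.val h)
    have h3 : Module.finrank K (riemannRochSpace D) = 1 :=
      le_antisymm h1 (Module.finrank_pos_iff_exists_ne_zero.mpr ⟨_, hne⟩)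
    obtain ⟨k, hk⟩ := (finrank_eq_one_iff_of_nonzero' _ hne).mp h3 ⟨_, hL i⟩
    exact ⟨k, by rw [Algebra.algebraMap_eq_smul_one]; exact (congrArg Subtype.val hk).symm⟩
  choose k hk using hconst
  let z : M ⊗[K] K := (coords b K).symm (Finsupp.onFinset (coords b E y).support k fun i hi => by
    rw [Finsupp.mem_support_iff]
    intro h0
    rw [hk i, map_eq_zero] at h0
    exact hi h0)
  have hz : Algebra.TensorProduct.map (AlgHom.id K M) (Algebra.ofId K E) z = y :=
    (coords b E).injective (Finsupp.ext fun i => by
      rw [coords_map, LinearEquiv.apply_symm_apply, Finsupp.onFinset_apply, hk i]; rfl)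
  have hy : ∃ c : M, y = c ⊗ₜ 1 := by
    refine ⟨Algebra.TensorProduct.rid K K M z, ?_⟩
    rw [← hz]
    clear_value z
    clear hz
    induction z with
    | zero => simp
    | add p q hp hq => rw [map_add, map_add, hp, hq, TensorProduct.add_tmul]
    | tmul p q => simp [Algebra.ofId_apply, Algebra.algebraMap_eq_smul_one, TensorProduct.smul_tmul']
  obtain ⟨c, hc⟩ := hy
  refine ⟨c, ?_⟩
  rw [← ha, inr_apply]
  refine congrArg (mk K E M) ((Algebra.TensorProduct.comm K E M).injective ?_)
  show y = _
  rw [hc]; simp

/-- Riemann's inequality on the extended field, with the genus of `E`. -/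
theorem exists_effective (D : Divisor M (TF K E M))
    (hdeg : (genusFF K E : ℤ) ≤ Divisor.degree D) :
    ∃ f : TF K E M, f ≠ 0 ∧ ∀ v : Place M (TF K E M), 0 ≤ D v + v.ord f := by
  classical
  haveI := TF.isFunctionField (E := E) (K := K) M
  obtain ⟨v₀⟩ := FF.exists_place (K := K) (F := E)
  obtain ⟨c, -, hc⟩ := FiniteFlat.exists_threshold (K := K) (F := E)
  obtain ⟨c', -, hc'⟩ := FiniteFlat.exists_threshold (K := M) (F := TF K E M)
  let m : ℤ := max (max c c') 0
  let D₀ : Divisor K E := Finsupp.single v₀ m
  let D₁ : Divisor M (TF K E M) := Finsupp.single (liftPlace M v₀) m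
  have hd₀ : Divisor.degree D₀ = m := FiniteFlat.degree_single_one v₀ m
  have hd₁ : Divisor.degree D₁ = m := FiniteFlat.degree_single_one _ m
  have hle : FF.ell K D₀ ≤ FF.ell M D₁ := by
    let b := Module.finBasis K (riemannRochSpace D₀)
    have hmem : ∀ i, inl K E M (b i : E) ∈ riemannRochSpace D₁ := fun i => by
      refine FF.mem_riemannRochSpace'.mpr fun P => (FF.mem_ordGe P).mpr ?_
      rcases eq_or_ne (b i : E) 0 with h | h
      · exact Or.inl (by rw [h, map_zero])
      refine Or.inr ?_
      have hb := FF.mem_riemannRochSpace'.mp (b i).2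
      by_cases htop : ((kvalOf K P).comapHom (inl K E M)).1 = ⊤
      · have hP0 : D₁ P = 0 := by
          refine Finsupp.single_eq_of_ne fun hP => v₀.ne_top' ?_
          rw [hP, kvalOf_liftPlace, overPlace_comap] at htop
          exact htop
        rw [hP0, neg_zero]
        refine (mem_kvalOf (K := K) P ((_root_.map_ne_zero _).mpr h)).mp ?_
        exact htop.ge (ValuationSubring.mem_top _)
      · have hP : P = liftPlace M (placeAt ((kvalOf K P).comapHom (inl K E M))
            ((kvalOf K P).comapHom (inl K E M)).2 htop) := eq_liftPlace P _ rfl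
        set w := placeAt ((kvalOf K P).comapHom (inl K E M))
          ((kvalOf K P).comapHom (inl K E M)).2 htop
        rw [hP, ord_liftPlace, show D₁ (liftPlace M w) = D₀ w by
          simp only [D₁, D₀, Finsupp.single_apply, liftPlace_injective.eq_iff]]
        exact FF.le_ord_of_mem_ordGe w h (hb w)
    let f : Fin _ → riemannRochSpace D₁ := fun i => ⟨_, hmem i⟩
    have hli : LinearIndependent M f := by
      rw [Fintype.linearIndependent_iff]
      intro g hg i
      have h1 : mk K E M (∑ j, (b j : E) ⊗ₜ g j) = 0 := by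
        rw [map_sum, show (0 : TF K E M) = ((∑ j, g j • f j : riemannRochSpace D₁) : TF K E M)
          by rw [hg]; rfl, Submodule.coe_sum]
        refine Finset.sum_congr rfl fun j _ => ?_
        rw [mk_tmul, SetLike.val_smul, Algebra.smul_def, mul_comm]
        rfl
      have h2 := mk_injective (h1.trans (map_zero _).symm)
      have hb : LinearIndependent K fun j => (b j : E) :=
        b.linearIndependent.map' (riemannRochSpace D₀).subtype (Submodule.ker_subtype _)
      let B := Module.Basis.ofVectorSpace K M
      have h3 : ∀ k, ∑ j, B.repr (g j) k • (b j : E) = 0 := fun k => by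
        have := congrArg ((TensorProduct.rid K E).toLinearMap.comp ((B.coord k).lTensor E)) h2
        simpa only [map_sum, map_zero, LinearMap.comp_apply, LinearMap.lTensor_tmul,
          LinearEquiv.coe_coe, TensorProduct.rid_tmul, Module.Basis.coord_apply] using this
      exact B.repr.injective (Finsupp.ext fun k => by
        rw [map_zero, Finsupp.zero_apply]
        exact Fintype.linearIndependent_iff.mp hb _ (h3 k) i)
    have := hli.fintype_card_le_finrank
    rw [Fintype.card_fin] at this
    unfold FF.ell
    exact_mod_cast this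
  have hg : (genusFF M (TF K E M) : ℤ) ≤ genusFF K E := by
    have e1 := hc D₀ (by rw [hd₀]; omega)
    have e2 := hc' D₁ (by rw [hd₁]; omega)
    omega
  have h1 := FF.riemann_inequality D
  rw [FF.ell_zero] at h1
  obtain ⟨f, hf, hf'⟩ := FF.exists_ne_zero_of_ell_pos (D := D) (by omega)
  refine ⟨f, hf, fun v => ?_⟩
  simpa using Finsupp.le_def.mp hf' v

end RiemannRoch

end Fermat.Agent.Tors
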