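import Fermat.Agent.Tors.Assembly

/-!
# Quadraticity from the theorem of the cube (`S26`)
-/

set_option autoImplicit false

noncomputable section

universe u

namespace Fermat.Agent.Tors

/-- A function with vanishing third difference has quadratic symmetrisation. -/
theorem symm_pow_of_cube {G H : Type*} [AddCommGroup G] [CommGroup H] (h : G → H) (h0 : h 0 = 1)
    (x : G) (hcube : ∀ a b c : ℤ, h ((a + b + c) • x) * h (a • x) * h (b • x) * h (c • x) =
      h ((a + b) • x) * h ((a + c) • x) * h ((b + c) • x)) (m : ℕ) :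
    h (m • x) * h (-(m • x)) = (h x * h (-x)) ^ (m ^ 2) := by
  let φ : ℤ → H := fun a => h (a • x) * h ((-a) • x)
  have key : ∀ a : ℤ, φ (a + 1) * φ (a - 1) = φ a ^ 2 * φ 1 ^ 2 := fun a => by
    have h1 := hcube a 1 (-1)
    have h2 := hcube (-a) 1 (-1)
    rw [add_neg_cancel_right, add_neg_cancel, zero_smul, h0, mul_one] at h1 h2
    show h ((a + 1) • x) * h ((-(a + 1)) • x) * (h ((a - 1) • x) * h ((-(a - 1)) • x)) = _
    rw [show -(a + 1) = -a + -1 by ring, show -(a - 1) = -a + 1 by ring,
      show a - 1 = a + -1 by ring]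
    calc h ((a + 1) • x) * h ((-a + -1) • x) * (h ((a + -1) • x) * h ((-a + 1) • x))
        = (h ((a + 1) • x) * h ((a + -1) • x)) * (h ((-a + 1) • x) * h ((-a + -1) • x)) := by
          ac_rfl
      _ = _ := by
          rw [← h1, ← h2]
          simp only [φ, pow_two]
          ac_rfl
  have hφ : ∀ k : ℕ, φ k = φ 1 ^ k ^ 2 := fun k => by
    induction k using Nat.strong_induction_on with
    | _ k ih =>
      match k with
      | 0 => simp [φ, h0]
      | 1 => simp
      | k + 2 =>
        have h1 := key ((k : ℤ) + 1)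
        rw [show ((k : ℤ) + 1 + 1) = ((k + 2 : ℕ) : ℤ) by push_cast; ring,
          show ((k : ℤ) + 1 - 1) = ((k : ℕ) : ℤ) by ring,
          show ((k : ℤ) + 1) = ((k + 1 : ℕ) : ℤ) by push_cast; ring, ih k (by omega),
          ih (k + 1) (by omega), ← pow_mul, ← pow_add] at h1
        rw [show (k + 1) ^ 2 * 2 + 2 = (k + 2) ^ 2 + k ^ 2 by ring, pow_add (φ 1) ((k + 2) ^ 2)] at h1
        exact mul_right_cancel h1
  simpa [φ, neg_smul, natCast_zsmul] using hφ m

namespace ClassFunctor

variable {K : Type u} [Field K] (Φ : ClassFunctor K)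

/-- Quadraticity at a point from the theorem of the cube on its multiples. -/
theorem isQuadraticAt_of_cube {F : Type u} [Field F] [Algebra K F] (η : Φ.Pt F)
    (hcube : ∀ a b c : ℤ,
      Φ.cube (a • Φ.map (IsScalarTower.toAlgHom K F (AlgebraicClosure F)) η)
          (b • Φ.map (IsScalarTower.toAlgHom K F (AlgebraicClosure F)) η)
          (c • Φ.map (IsScalarTower.toAlgHom K F (AlgebraicClosure F)) η) ∈
        principal K (AlgebraicClosure F)) :
    Φ.IsQuadraticAt η := by
  intro m
  set Ω := AlgebraicClosure F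
  set x := Φ.map (IsScalarTower.toAlgHom K F Ω) η
  rw [← QuotientGroup.eq_one_iff]
  show Dv.cls K Ω _ = 1
  rw [map_div, map_pow, map_mul, map_mul, div_eq_one]
  refine symm_pow_of_cube (fun y => Dv.cls K Ω (Φ.q y))
    (show Dv.cls K Ω (Φ.q 0) = 1 by rw [Φ.q_zero, map_one]) x (fun a b c => ?_) m
  have h := (QuotientGroup.eq_one_iff _).mpr (hcube a b c)
  change Dv.cls K Ω _ = 1 at h
  simp only [cube, bil, map_div, map_mul, ← add_smul, div_eq_one] at h
  rw [← div_eq_one]
  rw [← div_eq_one] at h
  refine Eq.trans ?_ h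
  apply Additive.ofMul.injective
  simp only [ofMul_div, ofMul_mul]
  abel

end ClassFunctor

end Fermat.Agent.Tors
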