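import Fermat.Agent.Tors.GermCurves
import Fermat.Agent.Tors.CurvePlaces
import Fermat.Agent.Tors.Parallelogram

/-!
# Quadraticity from the theorem of the cube on curves, by specialisation to the diagonal (`S26`)
-/

set_option autoImplicit false

noncomputable section

universe u

open CategoryTheory AlgebraicGeometry NeronModelInfra GoodReductionJacobian AlgebraicCurve
open scoped TensorProduct

namespace Fermat.Agent.Tors

variable {K : Type u} [Field K]

/-- The theorem of the cube for one point on a curve and two points specialising to zero. -/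
def CubeVanishing [IsAlgClosed K] (Φ : ClassFunctor K) : Prop :=
  ∀ (E M L' : Type u) [Field E] [Algebra K E] [Field M] [Algebra K M] [Field L'] [Algebra K L']
    [FF.IsFunctionField K E] [IsAlgClosed M] [IsAlgClosed L'] (ι₀ : L' →ₐ[K] M)
    (πb : KPlace K L' K) (πa : KPlace K M L'),
    (∀ c, ∃ h, πa.res ⟨ι₀ c, h⟩ = c) → ∀ (x₀ : Place K E) (ψ : Φ.Pt E),
    Φ.red (placeEval K x₀) ψ = 0 → ∀ (a : Φ.Pt M) (b : Φ.Pt L'),
    Φ.red πa a = 0 → Φ.red πb b = 0 → ∀ ι : E →ₐ[K] M,
      Φ.cube (Φ.map ι ψ) a (Φ.map ι₀ b) ∈ principal K M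

variable {g : ℕ}

variable (K g) in
/-- Coefficientwise extension of power series. -/
def coeffMap (Ω : Type u) [Field Ω] [Algebra K Ω] :
    MvPowerSeries (Fin g) K →ₐ[K] MvPowerSeries (Fin g) Ω :=
  { MvPowerSeries.map (algebraMap K Ω) with
    commutes' := fun r => by
      show MvPowerSeries.map (algebraMap K Ω) (algebraMap K (MvPowerSeries (Fin g) K) r) = _
      rw [MvPowerSeries.algebraMap_apply, MvPowerSeries.map_C, MvPowerSeries.algebraMap_apply]
      rfl }

theorem productMap_coeffMap_injective (Ω : Type u) [Field Ω] [Algebra K Ω] :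
    Function.Injective (Algebra.TensorProduct.productMap
      (IsScalarTower.toAlgHom K Ω (MvPowerSeries (Fin g) Ω)) (coeffMap K g Ω)) := by
  classical
  let e := Module.Free.chooseBasis K Ω
  refine (injective_iff_map_eq_zero _).mpr fun x hx => ?_
  apply (coords e (MvPowerSeries (Fin g) K)).injective
  rw [map_zero]
  have hx' : ∀ y : Ω ⊗[K] MvPowerSeries (Fin g) K, ∀ d : Fin g →₀ ℕ,
      MvPowerSeries.coeff d (Algebra.TensorProduct.productMap
        (IsScalarTower.toAlgHom K Ω (MvPowerSeries (Fin g) Ω)) (coeffMap K g Ω) y) =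
      Finsupp.linearCombination K e
        ((coords e (MvPowerSeries (Fin g) K) y).mapRange (MvPowerSeries.coeff d) (map_zero _)) := by
    intro y d
    induction y with
    | zero => simp
    | tmul c s =>
      have h : (coords e (MvPowerSeries (Fin g) K) (c ⊗ₜ s)).mapRange (MvPowerSeries.coeff d)
          (map_zero _) = MvPowerSeries.coeff d s • e.repr c := by
        ext i
        simp [coords, mul_comm]
      rw [h, map_smul, e.linearCombination_repr, Algebra.TensorProduct.productMap_apply_tmul]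
      show MvPowerSeries.coeff d (algebraMap Ω (MvPowerSeries (Fin g) Ω) c *
        MvPowerSeries.map (algebraMap K Ω) s) = _
      rw [MvPowerSeries.algebraMap_apply, MvPowerSeries.coeff_C_mul, MvPowerSeries.coeff_map,
        Algebra.smul_def, mul_comm]
      rfl
    | add y z hy hz =>
      rw [map_add, map_add, map_add, hy, hz, ← map_add, Finsupp.mapRange_add (map_add _)]
  refine Finsupp.ext fun i => MvPowerSeries.ext fun d => ?_
  have h := hx' x d
  rw [hx, map_zero] at h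
  have h2 := congrArg (fun v => v i) (e.linearIndependent.finsuppLinearCombination_injective
    (h.symm.trans (map_zero _).symm))
  simpa using h2

/-- Doubling the variables: two places of one field, constant and diagonal. -/
theorem exists_double (Ω : Type u) [Field Ω] [Algebra K Ω] [IsAlgClosed Ω]
    (q : MvPowerSeries (Fin g) K →ₐ[K] Ω) :
    ∃ (M : Type u) (_ : Field M) (_ : Algebra K M) (_ : IsAlgClosed M) (ι₀ : Ω →ₐ[K] M)
      (ιY : MvPowerSeries (Fin g) K →ₐ[K] M) (πa πD : KPlace K M Ω),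
      (∀ c, ∃ h, πa.res ⟨ι₀ c, h⟩ = c) ∧ (∀ c, ∃ h, πD.res ⟨ι₀ c, h⟩ = c) ∧
      (∀ s, ∃ h, πa.res ⟨ιY s, h⟩ = (Algebra.ofId K Ω).comp (germConstant K g) s) ∧
      (∀ s, ∃ h, πD.res ⟨ιY s, h⟩ = q s) := by
  let S' := MvPowerSeries (Fin g) Ω
  let M := AlgebraicClosure (FractionRing S')
  let j : S' →ₐ[K] M := IsScalarTower.toAlgHom K S' M
  have hj : Function.Injective j := by
    show Function.Injective (algebraMap S' M)
    rw [IsScalarTower.algebraMap_eq S' (FractionRing S') M, RingHom.coe_comp]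
    exact (algebraMap (FractionRing S') M).injective.comp (IsFractionRing.injective S' _)
  let t : Ω ⊗[K] MvPowerSeries (Fin g) K →ₐ[K] M := j.comp
    (Algebra.TensorProduct.productMap (IsScalarTower.toAlgHom K Ω S') (coeffMap K g Ω))
  have ht : Function.Injective t := hj.comp (productMap_coeffMap_injective Ω)
  have hex : ∀ r : MvPowerSeries (Fin g) K →ₐ[K] Ω, ∃ π : KPlace K M Ω,
      ∀ x, ∃ h, π.res ⟨t x, h⟩ = Algebra.TensorProduct.productMap (AlgHom.id K Ω) r x := by
    intro r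
    obtain ⟨π, hle, hπ⟩ := exists_kplace (F' := Ω) t.range
      ((Algebra.TensorProduct.productMap (AlgHom.id K Ω) r).comp
        (AlgEquiv.ofInjective t ht).symm.toAlgHom)
    refine ⟨π, fun x => ⟨hle ⟨x, rfl⟩, ?_⟩⟩
    refine (congr($hπ ⟨t x, ⟨x, rfl⟩⟩)).trans ?_
    show Algebra.TensorProduct.productMap (AlgHom.id K Ω) r
      ((AlgEquiv.ofInjective t ht).symm _) = _
    congr 1
    rw [AlgEquiv.symm_apply_eq]
    rfl
  obtain ⟨πa, ha⟩ := hex ((Algebra.ofId K Ω).comp (germConstant K g))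
  obtain ⟨πD, hD⟩ := hex q
  let ι₀ : Ω →ₐ[K] M := t.comp Algebra.TensorProduct.includeLeft
  let ιY : MvPowerSeries (Fin g) K →ₐ[K] M := t.comp Algebra.TensorProduct.includeRight
  refine ⟨M, inferInstance, inferInstance, inferInstance, ι₀, ιY, πa, πD, ?_, ?_, ?_, ?_⟩
  all_goals intro x
  · obtain ⟨h, hx⟩ := ha (x ⊗ₜ 1)
    exact ⟨h, hx.trans (by simp)⟩
  · obtain ⟨h, hx⟩ := hD (x ⊗ₜ 1)
    exact ⟨h, hx.trans (by simp)⟩
  · obtain ⟨h, hx⟩ := ha (1 ⊗ₜ x)
    exact ⟨h, hx.trans (by simp)⟩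
  · obtain ⟨h, hx⟩ := hD (1 ⊗ₜ x)
    exact ⟨h, hx.trans (by simp)⟩

namespace ClassFunctor

variable (Φ : ClassFunctor K) {F : Type u} [Field F] [Algebra K F]

theorem cube_zero_fst (Q R : Φ.Pt F) : Φ.cube 0 Q R = 1 := by
  simp [cube, bil, Φ.q_zero]

theorem cube_cocycle (P P' Q R : Φ.Pt F) :
    Φ.cube (P + P') Q R * Φ.cube P P' R = Φ.cube P (P' + Q) R * Φ.cube P' Q R := by
  apply Additive.ofMul.injective
  simp only [cube, ofMul_mul, ofMul_div, add_assoc]
  abel

variable (N : AddSubgroup (Φ.Pt F))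

/-- Points whose cube classes with the points of a subgroup vanish. -/
def cubeNull : AddSubgroup (Φ.Pt F) where
  carrier := {P | P ∈ N ∧ ∀ Q ∈ N, ∀ R ∈ N, Φ.cube P Q R ∈ principal K F}
  zero_mem' := ⟨N.zero_mem, fun Q _ R _ => by rw [cube_zero_fst]; exact one_mem _⟩
  add_mem' := fun {P P'} hP hP' => ⟨N.add_mem hP.1 hP'.1, fun Q hQ R hR => by
    have h := mul_mem (hP.2 _ (N.add_mem hP'.1 hQ) R hR) (hP'.2 Q hQ R hR)
    rw [← cube_cocycle] at h
    have := div_mem h (hP.2 _ hP'.1 R hR)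
    rwa [mul_div_cancel_right] at this⟩
  neg_mem' := fun {P} hP => ⟨N.neg_mem hP.1, fun Q hQ R hR => by
    have h := mul_mem (one_mem (principal K F)) (hP.2 _ (N.neg_mem hP.1) R hR)
    nth_rewrite 1 [← Φ.cube_zero_fst Q R] at h
    rw [← add_neg_cancel P, cube_cocycle] at h
    have := div_mem h (hP.2 _ (N.add_mem (N.neg_mem hP.1) hQ) R hR)
    rwa [mul_div_cancel_left] at this⟩

/-- Points in the power series neighbourhood of the origin. -/
def nearSub (q : MvPowerSeries (Fin g) K →ₐ[K] F) : AddSubgroup (Φ.Pt F) :=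
  (Φ.map (germConstant K g)).ker.map (Φ.map q)

theorem mem_nearSub {q : MvPowerSeries (Fin g) K →ₐ[K] F} {P : Φ.Pt F} :
    P ∈ Φ.nearSub q ↔ ∃ Q, Φ.map (germConstant K g) Q = 0 ∧ Φ.map q Q = P := Iff.rfl

variable [IsAlgClosed K] [IsAlgClosed F]

/-- The cube class of a curve point and two points near the origin vanishes. -/
theorem cube_mem_principal_of_curve (hcube : CubeVanishing Φ)
    (q : MvPowerSeries (Fin g) K →ₐ[K] F) (hq : Function.Injective q) (E : IntermediateField K F)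
    [FF.IsFunctionField K E] (ψ : Φ.Pt E) (hψ : Φ.map E.val ψ ∈ Φ.nearSub q) {v w : Φ.Pt F}
    (hv : v ∈ Φ.nearSub q) (hw : w ∈ Φ.nearSub q) :
    Φ.cube (Φ.map E.val ψ) v w ∈ principal K F := by
  obtain ⟨Qu, hQu, hu⟩ := hψ
  obtain ⟨Qv, hQv, rfl⟩ := hv
  obtain ⟨Qw, hQw, rfl⟩ := hw
  obtain ⟨πb, hle, hπb⟩ := exists_kplace (F' := K) q.range
    ((germConstant K g).comp (AlgEquiv.ofInjective q hq).symm.toAlgHom)
  have hπq : ∀ s, πb.res ⟨q s, hle ⟨s, rfl⟩⟩ = germConstant K g s := fun s => by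
    refine (congr($hπb ⟨q s, ⟨s, rfl⟩⟩)).trans ?_
    show germConstant K g ((AlgEquiv.ofInjective q hq).symm _) = _
    congr 1
    rw [AlgEquiv.symm_apply_eq]
    rfl
  have hredq : ∀ Q, Φ.map (germConstant K g) Q = 0 → Φ.red πb (Φ.map q Q) = 0 := fun Q hQ => by
    rw [Φ.red_map_of_factor πb q (germConstant K g) (fun s => hle ⟨s, rfl⟩) hπq Q, hQ]
  obtain ⟨M, _, _, _, ι₀, ιY, πa, πD, ha₀, hD₀, haY, hDY⟩ := exists_double F q
  -- the base point of the curve
  let πE : KPlace K E K := (KPlace.ofAlgHom E.val).comp πb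
  have hne : πE.ring.1 ≠ ⊤ := fun htop => by
    obtain ⟨x, hx, -⟩ := (inferInstance : FF.IsFunctionField K E).exists_finite
    let r : E →ₐ[K] K :=
      { toFun := fun z => πE.res ⟨z, (show z ∈ πE.ring.1 by rw [htop]; exact ValuationSubring.mem_top z)⟩
        map_one' := map_one πE.res
        map_zero' := map_zero πE.res
        map_mul' := fun a b => map_mul πE.res ⟨a, _⟩ ⟨b, _⟩
        map_add' := fun a b => map_add πE.res ⟨a, _⟩ ⟨b, _⟩
        commutes' := fun c => πE.res.commutes c }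
    refine hx ?_
    have h1 : r (x - algebraMap K E (r x)) = 0 := by rw [map_sub, r.commutes]; exact sub_self _
    rw [map_eq_zero, sub_eq_zero] at h1
    rw [h1]
    exact isAlgebraic_algebraMap _
  let x₀ : Place K E := placeAt πE.ring πE.ring.2 hne
  have hx₀ : Φ.red (placeEval K x₀) ψ = 0 := by
    have hv' : πE.ring.comapHom (AlgHom.id K E) = kvalOf K x₀ := by
      rw [kvalOf_placeAt]
      exact Subtype.ext (SetLike.ext fun _ => Iff.rfl)
    have h := Φ.red_map_hom (placeEval K x₀) πE (AlgHom.id K E) (AlgHom.id K K)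
      (fun r => (res_eq_eval πE (AlgHom.id K E) x₀ hv' r).1)
      (fun r => (res_eq_eval πE (AlgHom.id K E) x₀ hv' r).2) ψ
    rw [Φ.map_id, Φ.map_id] at h
    rw [← h, Φ.red_comp, red_ofAlgHom, ← hu, hredq Qu hQu]
  have hreda : Φ.red πa (Φ.map ιY Qv) = 0 := by
    rw [Φ.red_map_of_factor πa ιY _ (fun s => (haY s).1) (fun s => (haY s).2) Qv, Φ.map_comp,
      show Φ.map (germConstant K g) Qv = 0 from hQv, map_zero]
  have h := hcube E M F ι₀ πb πa ha₀ x₀ ψ hx₀ (Φ.map ιY Qv) (Φ.map q Qw) hreda (hredq Qw hQw)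
    (ι₀.comp E.val)
  have hred₀ : ∀ P, Φ.red πD (Φ.map ι₀ P) = P := fun P => by
    rw [Φ.red_map_of_factor πD ι₀ (AlgHom.id K F) (fun c => (hD₀ c).1) (fun c => (hD₀ c).2) P,
      Φ.map_id]
  have h2 := (Φ.specialises_cube πD _ _ _).mem_principal h
  rwa [Φ.map_comp, hred₀, hred₀,
    Φ.red_map_of_factor πD ιY q (fun s => (hDY s).1) (fun s => (hDY s).2) Qv] at h2

/-- Multiples of a sum of curve points have vanishing cube classes. -/
theorem cube_zsmul_sum_mem_principal (hcube : CubeVanishing Φ)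
    (q : MvPowerSeries (Fin g) K →ₐ[K] F) (hq : Function.Injective q)
    (E : Fin g → IntermediateField K F) (hE : ∀ i, FF.IsFunctionField K (E i))
    (ψ : ∀ i, Φ.Pt (E i)) (hψ : ∀ i, Φ.map (E i).val (ψ i) ∈ Φ.nearSub q) (a b c : ℤ) :
    Φ.cube (a • ∑ i, Φ.map (E i).val (ψ i)) (b • ∑ i, Φ.map (E i).val (ψ i))
      (c • ∑ i, Φ.map (E i).val (ψ i)) ∈ principal K F := by
  have hN : (∑ i, Φ.map (E i).val (ψ i)) ∈ Φ.cubeNull (Φ.nearSub q) :=
    sum_mem fun i _ => ⟨hψ i, fun Q hQ R hR =>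
      have := hE i
      Φ.cube_mem_principal_of_curve hcube q hq (E i) (ψ i) (hψ i) hQ hR⟩
  exact (zsmul_mem hN a).2 _ (zsmul_mem hN.1 b) _ (zsmul_mem hN.1 c)

/-- Quadraticity at a point which a field embedding makes a sum of curve points. -/
theorem isQuadraticAt_of_curves (hcube : CubeVanishing Φ) {F₀ : Type u} [Field F₀] [Algebra K F₀]
    (η : Φ.Pt F₀) (q : MvPowerSeries (Fin g) K →ₐ[K] F) (hq : Function.Injective q)
    (E : Fin g → IntermediateField K F) (hE : ∀ i, FF.IsFunctionField K (E i))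
    (ψ : ∀ i, Φ.Pt (E i)) (hψ : ∀ i, Φ.map (E i).val (ψ i) ∈ Φ.nearSub q) (ιη : F₀ →ₐ[K] F)
    (hη : Φ.map ιη η = ∑ i, Φ.map (E i).val (ψ i)) : Φ.IsQuadraticAt η := by
  refine Φ.isQuadraticAt_of_cube η fun a b c => ?_
  let κ : F₀ →ₐ[K] AlgebraicClosure F₀ := IsScalarTower.toAlgHom K F₀ (AlgebraicClosure F₀)
  have hinj : Function.Injective ιη := ιη.toRingHom.injective
  obtain ⟨π, hle, hπ⟩ := exists_kplace (F' := AlgebraicClosure F₀) ιη.range
    (κ.comp (AlgEquiv.ofInjective ιη hinj).symm.toAlgHom)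
  have hπη : ∀ s, π.res ⟨ιη s, hle ⟨s, rfl⟩⟩ = κ s := fun s => by
    refine (congr($hπ ⟨ιη s, ⟨s, rfl⟩⟩)).trans ?_
    show κ ((AlgEquiv.ofInjective ιη hinj).symm _) = _
    congr 1
    rw [AlgEquiv.symm_apply_eq]
    rfl
  have hred := Φ.red_map_of_factor π ιη κ (fun s => hle ⟨s, rfl⟩) hπη η
  have h := Φ.cube_zsmul_sum_mem_principal hcube q hq E hE ψ hψ a b c
  rw [← hη] at h
  have h2 := (Φ.specialises_cube π _ _ _).mem_principal h
  rwa [map_zsmul, map_zsmul, map_zsmul, hred] at h2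

end ClassFunctor

/-- Quadraticity at the generic point of an abelian variety from the theorem of the cube. -/
theorem isQuadraticAt_of_cubeVanishing [IsAlgClosed K] {A : Scheme.{u}} [IsIntegral A]
    {f : A ⟶ Spec (CommRingCat.of K)} [IsProper f] {L : RelativeGroupLaw K f}
    [Fact L.IsCommutative] (C : Chart L g) (D : LocalEqns f)
    (hcube : CubeVanishing (D.classFunctor L)) :
    (D.classFunctor L).IsQuadraticAt (genPt f (L := L)) := by
  obtain ⟨E, ψ, Q, ιη, hE, hQ, hψ, hη⟩ := exists_curves C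
  exact (D.classFunctor L).isQuadraticAt_of_curves hcube (genPt f (L := L)) (toGermField K g)
    toGermField_injective E hE ψ (fun i => ⟨Q i, hQ i, (hψ i).symm⟩) ιη hη

end Fermat.Agent.Tors
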