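import Fermat.Agent.Tors.CubeEval
import Fermat.Agent.Tors.Diagonal

/-!
# The theorem of the cube from rigidity on the generic fibre (`S26`)
-/

set_option autoImplicit false

noncomputable section

universe u

open CategoryTheory AlgebraicGeometry NeronModelInfra GoodReductionJacobian AlgebraicCurve

namespace Fermat.Agent.Tors

open TF

/-- The cube class of a curve and two points specialising to zero is principal on the generic
fibre. -/
def GenericRigidity {K : Type u} [Field K] [IsAlgClosed K] (Φ : ClassFunctor K) : Prop :=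
  ∀ (E M L' : Type u) [Field E] [Algebra K E] [Field M] [Algebra K M] [Field L'] [Algebra K L']
    [FF.IsFunctionField K E] [IsAlgClosed M] [IsAlgClosed L'] (ι₀ : L' →ₐ[K] M)
    (πb : KPlace K L' K) (πa : KPlace K M L'),
    (∀ c, ∃ h, πa.res ⟨ι₀ c, h⟩ = c) → ∀ (x₀ : Place K E) (ψ : Φ.Pt E),
    Φ.red (placeEval K x₀) ψ = 0 → ∀ (a : Φ.Pt M) (b : Φ.Pt L'),
    Φ.red πa a = 0 → Φ.red πb b = 0 →
      ∃ h : (TF K E M)ˣ, ∀ P : KVal K (TF K E M), (∀ c, inr K E M c ∈ P.1) →
        Φ.cube (Φ.map (inl K E M) ψ) (Φ.map (inr K E M) a) (Φ.map (inr K E M) (Φ.map ι₀ b)) P / h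
          ∈ P.units

theorem cubeVanishing_of_rigidity {K : Type u} [Field K] [IsAlgClosed K] {Φ : ClassFunctor K}
    (h : GenericRigidity Φ) : CubeVanishing Φ :=
  fun E M L' _ _ _ _ _ _ _ _ _ ι₀ πb πa hι x₀ ψ hψ a b ha hb ι =>
    Φ.cube_mem_principal_of ψ x₀ hψ ι a (Φ.map ι₀ b)
      (h E M L' ι₀ πb πa hι x₀ ψ hψ a b ha hb)

/-- The count of torsion points of an abelian variety from rigidity. -/
theorem natCard_isTorsionPoint_eq_pow_of_rigidity (K : Type u) [Field K] [IsAlgClosed K]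
    {A : Scheme.{u}} (f : A ⟶ Spec (CommRingCat.of K)) (L : RelativeGroupLaw K f)
    (hc : L.IsCommutative) (hA : AbelianSchemePropertyBundle K f) (g : ℕ)
    [SmoothOfRelativeDimension g f] (n : ℕ) (hn : (n : K) ≠ 0)
    (hrig : ∀ Φ : ClassFunctor K, GenericRigidity Φ) :
    Nat.card {x : SchemeHomOver (𝟙 (Spec (CommRingCat.of K))) f //
        L.IsTorsionPoint (𝟙 (Spec (CommRingCat.of K))) n x} = n ^ (2 * g) := by
  refine natCard_isTorsionPoint_eq_pow K f L hc hA g n hn fun D => ?_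
  obtain ⟨C⟩ := exists_chart (f := f) (L := L) (g := g)
  exact isQuadraticAt_of_cubeVanishing C D (cubeVanishing_of_rigidity (hrig _))

end Fermat.Agent.Tors
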