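import Fermat.Agent.Tors.TField
import Fermat.Agent.FF.RiemannRoch
import Mathlib.FieldTheory.SeparablyGenerated
import Mathlib.RingTheory.Trace.Basic
import Mathlib.RingTheory.Discriminant
import Mathlib.RingTheory.Polynomial.ScaleRoots
import Mathlib.RingTheory.Polynomial.UniqueFactorization
import Mathlib.LinearAlgebra.Matrix.NonsingularInverse

/-!
# Constant extensions of a function field of one variable (`S26`)

For a function field `E/K` and a field `M`, `E ⊗ M` is integrally closed in `TF K E M`, and
`TF K E M` is a function field over `M`.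
-/

set_option autoImplicit false

noncomputable section

universe u

open Polynomial IntermediateField
open scoped TensorProduct

namespace Fermat.Agent.Tors

variable {K : Type u} [Field K] [IsAlgClosed K] {E : Type u} [Field E] [Algebra K E]
  [FF.IsFunctionField K E] (M : Type u) [Field M] [Algebra K M]

/-- A function field over an algebraically closed field is separably generated. -/
theorem exists_separating : ∃ x : E, Transcendental K x ∧ FiniteDimensional K⟮x⟯ E ∧
    Algebra.IsSeparable K⟮x⟯ E := by
  have := FF.essFiniteType (K := K) (F := E)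
  obtain ⟨s, hs, hsep⟩ := exists_isTranscendenceBasis_and_isSeparable_of_perfectField K E
  obtain ⟨y, hy, hfin⟩ := ‹FF.IsFunctionField K E›.exists_finite
  have hyb : IsTranscendenceBasis K (fun _ : Unit => y) := by
    refine isTranscendenceBasis_iff_algebraicIndependent_isAlgebraic.mpr
      ⟨algebraicIndependent_unique_type_iff.mpr hy, ?_⟩
    rw [Set.range_const]
    have : Algebra.IsAlgebraic K⟮y⟯ E := Algebra.IsAlgebraic.of_finite _ _
    exact (IntermediateField.isAlgebraic_adjoin_iff_top (F := K) (E := E) (S := E)).mp this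
  have h1 := hyb.lift_cardinalMk_eq_trdeg
  have h2 := hs.lift_cardinalMk_eq_trdeg
  simp only [Cardinal.mk_fintype, Fintype.card_unit, Fintype.card_coe, Cardinal.lift_natCast,
    Cardinal.lift_one, Nat.cast_one] at h1 h2
  rw [Cardinal.lift_uzero] at h1
  rw [Cardinal.lift_id, ← h1] at h2
  have hcard : s.card = 1 := by exact_mod_cast h2
  obtain ⟨x, rfl⟩ := Finset.card_eq_one.mp hcard
  rw [Finset.coe_singleton] at hsep
  have hx : Transcendental K x := hs.1.transcendental ⟨x, Finset.mem_singleton_self x⟩
  exact ⟨x, hx, FF.finiteDimensional_adjoin hx, hsep⟩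

namespace TF

/-- `TF K E M` as an algebra over `M`. -/
@[reducible] def rightAlgebra : Algebra M (TF K E M) := (inr K E M).toRingHom.toAlgebra

attribute [local instance] rightAlgebra

instance isScalarTower_right : IsScalarTower K M (TF K E M) :=
  IsScalarTower.of_algebraMap_eq fun c => ((inr K E M).commutes c).symm

theorem transcendental_inl {x : E} (hx : Transcendental K x) :
    Transcendental M (inl K E M x) := by
  classical
  rw [transcendental_iff]
  intro p hp
  let e := Module.Basis.ofVectorSpace K M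
  have h1 : ∑ i ∈ p.support, ((x ^ i : E) ⊗ₜ[K] p.coeff i) = 0 := mk_injective (by
    rw [map_sum, map_zero, ← hp, aeval_eq_sum_range]
    rw [← Finset.sum_subset (s₁ := p.support) (s₂ := Finset.range (p.natDegree + 1))
      (fun i hi => Finset.mem_range.mpr (Nat.lt_succ_of_le (le_natDegree_of_mem_supp i hi)))
      (fun i _ hi => by simp [notMem_support_iff.mp hi])]
    refine Finset.sum_congr rfl fun i _ => ?_
    rw [mk_tmul, map_pow, Algebra.smul_def, mul_comm]
    rfl)
  refine Polynomial.ext fun i => e.repr.injective (Finsupp.ext fun j => ?_)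
  rw [coeff_zero, map_zero, Finsupp.zero_apply]
  by_contra hne
  have hi : i ∈ p.support := mem_support_iff.mpr fun h => hne (by simp [h])
  let φ : E ⊗[K] M →ₗ[K] E :=
    (TensorProduct.rid K E).toLinearMap.comp ((e.coord j).lTensor E)
  have h2 := congrArg φ h1
  simp only [map_sum, map_zero, φ, LinearMap.comp_apply, LinearMap.lTensor_tmul,
    LinearEquiv.coe_coe, TensorProduct.rid_tmul, Module.Basis.coord_apply] at h2
  let q : K[X] := ∑ i ∈ p.support, C (e.repr (p.coeff i) j) * X ^ i
  have hq : q = 0 := transcendental_iff.mp hx q (by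
    rw [← h2, map_sum]
    exact Finset.sum_congr rfl fun i _ => by simp [Algebra.smul_def])
  refine hne ?_
  have := congrArg (Polynomial.coeff · i) hq
  simpa [q, hi, finsetSum_coeff] using this

variable (K E) in
theorem mk_range_isIntegrallyClosedIn_aux {x : E} (hx : Transcendental K x)
    [FiniteDimensional K⟮x⟯ E] [Algebra.IsSeparable K⟮x⟯ E] :
    (FiniteDimensional M⟮inl K E M x⟯ (TF K E M)) ∧
      ∀ z : TF K E M, IsIntegral (mk K E M).range z → z ∈ (mk K E M).range := by
  classical
  set Y := inl K E M x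
  have hY : Transcendental M Y := transcendental_inl M hx
  set L0 := M⟮Y⟯
  have hxmem : ∀ p : K[X], inl K E M (aeval x p) ∈ L0 := fun p => by
    rw [← aeval_algHom_apply]
    induction p using Polynomial.induction_on' with
    | add p q hp hq => rw [map_add]; exact add_mem hp hq
    | monomial n a =>
      rw [aeval_monomial, IsScalarTower.algebraMap_apply K M (TF K E M)]
      exact mul_mem (L0.algebraMap_mem _) (pow_mem (mem_adjoin_simple_self M Y) n)
  -- finiteness and separability over `M(Y)`
  let σ : K⟮x⟯ →+* L0 := ((inl K E M).comp (K⟮x⟯).val).toRingHom.codRestrict L0 fun a => by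
    obtain ⟨r, s, hrs⟩ := mem_adjoin_simple_iff (F := K) (a : E) |>.mp a.2
    show inl K E M (a : E) ∈ L0
    rw [hrs, map_div₀]
    exact div_mem (hxmem r) (hxmem s)
  have hsep : ∀ e : E, IsSeparable L0 (inl K E M e) := fun e => by
    have h1 : ((minpoly K⟮x⟯ e).map σ).Separable :=
      Polynomial.Separable.map (Algebra.IsSeparable.isSeparable K⟮x⟯ e)
    refine h1.of_dvd (minpoly.dvd L0 _ ?_)
    rw [aeval_def, eval₂_map, show (algebraMap L0 (TF K E M)).comp σ =
      (inl K E M).toRingHom.comp (algebraMap K⟮x⟯ E) from rfl]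
    show eval₂ ((inl K E M).toRingHom.comp (algebraMap K⟮x⟯ E)) ((inl K E M).toRingHom e) _ = 0
    rw [← hom_eval₂, ← aeval_def, minpoly.aeval, map_zero]
  let s := Set.range (inl K E M)
  have htop : IntermediateField.adjoin L0 s = ⊤ := eq_top_iff.mpr fun z _ => by
    obtain ⟨a, b, -, rfl⟩ := exists_mk_div z
    suffices ∀ a, mk K E M a ∈ IntermediateField.adjoin L0 s from div_mem (this a) (this b)
    intro a
    induction a with
    | zero => rw [map_zero]; exact zero_mem _
    | add a b ha hb => rw [map_add]; exact add_mem ha hb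
    | tmul e c =>
      rw [mk_tmul]
      exact mul_mem (IntermediateField.subset_adjoin L0 s ⟨e, rfl⟩)
        ((IntermediateField.adjoin L0 s).algebraMap_mem ⟨inr K E M c, L0.algebraMap_mem c⟩)
  obtain ⟨n, θ⟩ := (⟨_, Module.finBasis K⟮x⟯ E⟩ : Σ n, Module.Basis (Fin n) K⟮x⟯ E)
  have hspan : Submodule.span L0 s = ⊤ := by
    have halg : ∀ z ∈ s, IsAlgebraic L0 z := by
      rintro _ ⟨e, rfl⟩
      exact (hsep e).isIntegral.isAlgebraic
    have h1 := IntermediateField.adjoin_toSubalgebra_of_isAlgebraic halg
    rw [htop, IntermediateField.top_toSubalgebra] at h1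
    have h2 : Subalgebra.toSubmodule (Algebra.adjoin L0 s) = Submodule.span L0 s := by
      rw [Algebra.adjoin_eq_span]
      congr 1
      exact le_antisymm (Submonoid.closure_le (S := MonoidHom.mrange (inl K E M).toRingHom.toMonoidHom) |>.mpr
        (by rintro _ ⟨e, rfl⟩; exact ⟨e, rfl⟩)) Submonoid.subset_closure
    rw [← h2, ← h1, Algebra.top_toSubmodule]
  have hspan' : Submodule.span L0 (Set.range fun i => inl K E M (θ i)) = ⊤ :=
    eq_top_iff.mpr (hspan.ge.trans (Submodule.span_le.mpr (by
      rintro _ ⟨e, rfl⟩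
      rw [← θ.sum_repr e, map_sum]
      refine Submodule.sum_mem _ fun i _ => ?_
      rw [IntermediateField.smul_def, smul_eq_mul, map_mul]
      exact Submodule.smul_mem _ (σ (θ.repr e i)) (Submodule.subset_span ⟨i, rfl⟩))))
  have hfin : FiniteDimensional L0 (TF K E M) := Module.Finite.of_fg_top (R := L0) (by
    rw [← hspan']; exact Submodule.fg_span (Set.finite_range _))
  refine ⟨hfin, ?_⟩
  have hsepT : Algebra.IsSeparable L0 (TF K E M) := by
    have h1 : Algebra.IsSeparable L0 (IntermediateField.adjoin L0 s) :=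
      (isSeparable_adjoin_iff_isSeparable L0 (TF K E M)).mpr (by rintro _ ⟨e, rfl⟩; exact hsep e)
    rw [htop] at h1
    exact Algebra.IsSeparable.of_algHom L0 _
      (IntermediateField.topEquiv (F := L0) (E := TF K E M)).symm.toAlgHom
  -- the basis
  obtain ⟨b, hbsub, hb, hbli⟩ := exists_linearIndependent L0 (Set.range fun i => inl K E M (θ i))
  have hbfin : b.Finite := (Set.finite_range _).subset hbsub
  let B : Module.Basis b L0 (TF K E M) := Module.Basis.mk hbli (by
    rw [Subtype.range_coe, hb, hspan'])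
  have : Fintype b := hbfin.fintype
  have hBmem : ∀ i : b, ∃ e, B i = inl K E M e := fun i => by
    obtain ⟨j, hj⟩ := hbsub i.2
    exact ⟨θ j, by rw [Module.Basis.mk_apply]; exact hj.symm⟩
  -- polynomial rings
  let _ : Algebra M[X] L0 := (aeval (AdjoinSimple.gen M Y)).toRingHom.toAlgebra
  let _ : Algebra M[X] (TF K E M) := (aeval Y).toRingHom.toAlgebra
  have hgen : ∀ p : M[X], ((aeval (AdjoinSimple.gen M Y) p : L0) : TF K E M) = aeval Y p :=
    fun p => (aeval_algHom_apply L0.val _ p).symm
  have : IsScalarTower M[X] L0 (TF K E M) := IsScalarTower.of_algebraMap_eq fun p => (hgen p).symm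
  have hinj : Function.Injective (algebraMap M[X] L0) := fun p q hpq =>
    transcendental_iff_injective.mp hY ((hgen p).symm.trans
      ((congrArg Subtype.val hpq).trans (hgen q)))
  have : FaithfulSMul M[X] L0 := (faithfulSMul_iff_algebraMap_injective _ _).mpr hinj
  have : IsFractionRing M[X] L0 := .of_field _ _ fun a => by
    obtain ⟨r, s, hrs⟩ := mem_adjoin_simple_iff (F := M) (a : TF K E M) |>.mp a.2
    exact ⟨r, s, Subtype.ext (hrs.trans (by
      rw [← hgen r, ← hgen s]; rfl))⟩
  let φ : K[X] →+* M[X] := mapRingHom (algebraMap K M)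
  have hφ : ∀ q : K[X], inl K E M (aeval x q) = aeval Y (φ q) := fun q => by
    rw [← aeval_algHom_apply, coe_mapRingHom, aeval_map_algebraMap]
  have hIC : ∀ w : L0, IsIntegral M[X] w → ∃ p : M[X], (w : TF K E M) = aeval Y p := fun w hw => by
    obtain ⟨p, hp⟩ := IsIntegrallyClosed.isIntegral_iff.mp hw
    exact ⟨p, by rw [← hp]; exact hgen p⟩
  have hpolymem : ∀ p : M[X], aeval Y p ∈ (mk K E M).range := fun p => by
    induction p using Polynomial.induction_on' with
    | add p q hp hq => rw [map_add]; exact add_mem hp hq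
    | monomial n a =>
      rw [aeval_monomial, ← map_pow]
      exact mul_mem ⟨1 ⊗ₜ a, rfl⟩ ⟨(x ^ n) ⊗ₜ 1, rfl⟩
  have hmultE : ∀ e : E, ∃ q : K[X], q ≠ 0 ∧ ∃ P : K[X][X], P.Monic ∧
      eval₂ (aeval x).toRingHom (aeval x q * e) P = 0 := fun e => by
    let _ : Algebra K[X] E := (aeval x).toRingHom.toAlgebra
    have halg : IsAlgebraic K[X] e := by
      let _ : Algebra K[X] K⟮x⟯ := (aeval (AdjoinSimple.gen K x)).toRingHom.toAlgebra
      have hg : ∀ p : K[X], ((aeval (AdjoinSimple.gen K x) p : K⟮x⟯) : E) = aeval x p :=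
        fun p => (aeval_algHom_apply (K⟮x⟯).val _ p).symm
      have : IsScalarTower K[X] K⟮x⟯ E := IsScalarTower.of_algebraMap_eq fun p => (hg p).symm
      have : FaithfulSMul K[X] K⟮x⟯ := (faithfulSMul_iff_algebraMap_injective _ _).mpr
        fun p q hpq => transcendental_iff_injective.mp hx
          ((hg p).symm.trans ((congrArg Subtype.val hpq).trans (hg q)))
      have : IsFractionRing K[X] K⟮x⟯ := .of_field _ _ fun a => by
        obtain ⟨r, s, hrs⟩ := mem_adjoin_simple_iff (F := K) (a : E) |>.mp a.2
        exact ⟨r, s, Subtype.ext (hrs.trans (by rw [← hg r, ← hg s]; rfl))⟩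
      exact (IsFractionRing.isAlgebraic_iff K[X] K⟮x⟯ E).mpr (Algebra.IsAlgebraic.isAlgebraic e)
    obtain ⟨q, hq, hint⟩ := halg.exists_integral_multiple
    rw [Algebra.smul_def] at hint
    exact ⟨q, hq, hint⟩
  let _ : Algebra K[X] (TF K E M) := ((aeval Y).toRingHom.comp φ).toAlgebra
  let _ : Algebra K[X] L0 :=
    (((aeval (AdjoinSimple.gen M Y)).toRingHom).comp φ).toAlgebra
  let _ : Algebra K[X] M[X] := φ.toAlgebra
  have : IsScalarTower K[X] L0 (TF K E M) :=
    IsScalarTower.of_algebraMap_eq fun q => (hgen (φ q)).symm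
  have : IsScalarTower K[X] M[X] L0 := IsScalarTower.of_algebraMap_eq fun _ => rfl
  have : IsScalarTower K[X] M[X] (TF K E M) := IsScalarTower.of_algebraMap_eq fun _ => rfl
  have hcomp : (algebraMap K[X] (TF K E M)) = (inl K E M).toRingHom.comp (aeval x).toRingHom :=
    RingHom.ext fun q => (hφ q).symm
  have hmult : ∀ e : E, ∃ q : K[X], q ≠ 0 ∧ IsIntegral K[X] (inl K E M (aeval x q * e)) :=
    fun e => by
      obtain ⟨q, hq, P, hP, hPe⟩ := hmultE e
      refine ⟨q, hq, P, hP, ?_⟩
      rw [hcomp]
      show eval₂ _ ((inl K E M).toRingHom _) P = 0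
      rw [← hom_eval₂, hPe, map_zero]
  -- traces of elements of `E`
  let tr : TF K E M → TF K E M := fun z => (Algebra.trace L0 (TF K E M) z : TF K E M)
  have htr : ∀ e : E, ∃ q : K[X], q ≠ 0 ∧ IsIntegral K[X] (inl K E M (aeval x q) * inl K E M e) ∧
      IsIntegral K[X] (inl K E M (aeval x q) * tr (inl K E M e)) ∧
      ∃ p : M[X], inl K E M (aeval x q) * tr (inl K E M e) = aeval Y p := fun e => by
    obtain ⟨q, hq, hint⟩ := hmult e
    have h1 : IsIntegral K[X] (inl K E M (aeval x q) * inl K E M e) := by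
      rw [← map_mul]; exact hint
    have h2 : IsIntegral K[X] (Algebra.trace L0 (TF K E M)
        (inl K E M (aeval x q) * inl K E M e)) := Algebra.isIntegral_trace h1
    have h3 : (Algebra.trace L0 (TF K E M) (inl K E M (aeval x q) * inl K E M e) : TF K E M) =
        inl K E M (aeval x q) * tr (inl K E M e) := by
      rw [show inl K E M (aeval x q) * inl K E M e = (⟨_, hxmem q⟩ : L0) • inl K E M e from rfl,
        map_smul]
      rfl
    refine ⟨q, hq, h1, h3 ▸ h2.map (IsScalarTower.toAlgHom K[X] L0 (TF K E M)), ?_⟩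
    obtain ⟨p, hp⟩ := hIC _ (h2.tower_top (A := M[X]))
    exact ⟨p, h3 ▸ hp⟩
  let _ : Algebra E (TF K E M) := (inl K E M).toRingHom.toAlgebra
  have hrange : ∀ e : E, inl K E M e ∈ (mk K E M).range := fun e => ⟨e ⊗ₜ 1, rfl⟩
  have hne : ∀ q : K[X], q ≠ 0 → aeval x q ≠ 0 := fun q hq h => hq (transcendental_iff.mp hx q h)
  have hG : ∀ i j : b, tr (B i * B j) ∈ (mk K E M).range ∧ IsIntegral E (tr (B i * B j)) :=
    fun i j => by
      obtain ⟨ei, hei⟩ := hBmem i
      obtain ⟨ej, hej⟩ := hBmem j
      rw [hei, hej, ← map_mul]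
      obtain ⟨q, hq, -, hint, p, hp⟩ := htr (ei * ej)
      have h0 : inl K E M (aeval x q) ≠ 0 := (_root_.map_ne_zero _).mpr (hne q hq)
      have heq : tr (inl K E M (ei * ej)) =
          inl K E M (aeval x q)⁻¹ * (inl K E M (aeval x q) * tr (inl K E M (ei * ej))) := by
        rw [map_inv₀, inv_mul_cancel_left₀ h0]
      rw [heq]
      refine ⟨mul_mem (hrange _) (hp ▸ hpolymem p), isIntegral_algebraMap.mul ?_⟩
      obtain ⟨P, hP, hP0⟩ := hint
      refine ⟨P.map (aeval x).toRingHom, hP.map _, ?_⟩
      rw [eval₂_map]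
      rw [hcomp] at hP0
      exact hP0
  intro z hz
  obtain ⟨p, hpm, hp⟩ := hz
  -- clear denominators
  let C' := integralClosure M[X] (TF K E M)
  have hclear : ∀ a : E ⊗[K] M, ∃ q : K[X], q ≠ 0 ∧ inl K E M (aeval x q) * mk K E M a ∈ C' := by
    intro a
    induction a with
    | zero => exact ⟨1, one_ne_zero, by rw [map_zero, mul_zero]; exact zero_mem _⟩
    | add a b ha hb =>
      obtain ⟨q, hq, h⟩ := ha
      obtain ⟨r, hr, h'⟩ := hb
      refine ⟨q * r, mul_ne_zero hq hr, ?_⟩
      have hpol : ∀ s : K[X], inl K E M (aeval x s) ∈ C' := fun s => by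
        rw [hφ]; exact C'.algebraMap_mem (φ s)
      rw [map_mul, map_mul, map_add, show inl K E M (aeval x q) * inl K E M (aeval x r) *
        (mk K E M a + mk K E M b) = inl K E M (aeval x r) * (inl K E M (aeval x q) * mk K E M a) +
        inl K E M (aeval x q) * (inl K E M (aeval x r) * mk K E M b) by ring]
      exact add_mem (mul_mem (hpol r) h) (mul_mem (hpol q) h')
    | tmul e c =>
      obtain ⟨q, hq, h⟩ := hmult e
      refine ⟨q, hq, ?_⟩
      rw [mk_tmul, ← mul_assoc, ← map_mul]
      refine mul_mem h.tower_top ?_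
      show IsIntegral M[X] (inr K E M c)
      have : inr K E M c = algebraMap M[X] (TF K E M) (Polynomial.C c) := by
        show _ = aeval Y (Polynomial.C c)
        rw [aeval_C]; rfl
      rw [this]; exact isIntegral_algebraMap
  choose qf hqf hqfmem using fun i => (hclear (p.coeff i).2.choose)
  let Q : K[X] := ∏ i ∈ p.support, qf i
  have hQ : Q ≠ 0 := Finset.prod_ne_zero_iff.mpr fun i _ => hqf i
  set QY := inl K E M (aeval x Q)
  have hQY : QY ∈ C' := by show inl K E M _ ∈ C'; rw [hφ]; exact C'.algebraMap_mem (φ Q)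
  have hcoef : ∀ i ∈ p.support, QY * (p.coeff i : TF K E M) ∈ C' := fun i hi => by
    have h1 := hqfmem i
    rw [show mk K E M (p.coeff i).2.choose = (p.coeff i : TF K E M) from
      (p.coeff i).2.choose_spec] at h1
    show inl K E M (aeval x (∏ k ∈ p.support, qf k)) * _ ∈ C'
    rw [← Finset.prod_erase_mul _ _ hi, map_mul, map_mul, mul_assoc]
    refine mul_mem ?_ h1
    rw [hφ]; exact C'.algebraMap_mem (φ _)
  have hQz : IsIntegral M[X] (QY * z) := by
    refine isIntegral_trans (A := C') _ ?_
    have h1 : aeval (QY * z) ((p.map (mk K E M).range.val.toRingHom).scaleRoots QY) = 0 :=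
      scaleRoots_aeval_eq_zero (R := TF K E M) (A := TF K E M) (by
        rw [aeval_def, eval₂_map]; exact hp)
    set p' := (p.map (mk K E M).range.val.toRingHom).scaleRoots QY
    have hm : p'.Monic := (Polynomial.monic_scaleRoots_iff _).mpr (hpm.map _)
    have hd : (p.map (mk K E M).range.val.toRingHom).natDegree = p.natDegree :=
      natDegree_map_eq_of_injective Subtype.val_injective p
    have hmem : ∀ i, p'.coeff i ∈ C' := fun i => by
      rw [coeff_scaleRoots, hd, coeff_map]
      by_cases hi : i ∈ p.support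
      · rcases Nat.eq_zero_or_pos (p.natDegree - i) with h | h
        · have : i = p.natDegree := le_antisymm (le_natDegree_of_mem_supp i hi) (by omega)
          rw [h, pow_zero, mul_one, this, ← leadingCoeff, hpm.leadingCoeff, map_one]
          exact one_mem _
        · obtain ⟨k, hk⟩ := Nat.exists_eq_succ_of_ne_zero h.ne'
          rw [hk, pow_succ', ← mul_assoc, mul_comm _ QY]
          exact mul_mem (hcoef i hi) (pow_mem hQY k)
      · rw [notMem_support_iff.mp hi, map_zero, zero_mul]; exact zero_mem _
    refine ⟨p'.toSubring C'.toSubring fun a ha => ?_, ?_, ?_⟩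
    · obtain ⟨i, -, rfl⟩ := mem_coeffs_iff.mp ha
      exact hmem i
    · exact (monic_toSubring _ _ _).mpr hm
    · show eval₂ C'.toSubring.subtype _ _ = 0
      rw [← eval_map, map_toSubring]
      exact h1
  -- coordinates through the trace form
  let G : Matrix b b (TF K E M) := fun i j => tr (B i * B j)
  let R' := (mk K E M).range
  let c : b → TF K E M := fun i => (B.repr (QY * z) i : TF K E M)
  have hv : ∀ j, G.mulVec c j ∈ R' := fun j => by
    have h1 : G.mulVec c j = tr (QY * z * B j) := by
      show ∑ i, tr (B j * B i) * (B.repr (QY * z) i : TF K E M) = _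
      conv_rhs => rw [← B.sum_repr (QY * z)]
      show _ = ((Algebra.trace L0 (TF K E M) ((∑ i, _) * B j) : L0) : TF K E M)
      rw [Finset.sum_mul, map_sum, IntermediateField.coe_sum]
      refine Finset.sum_congr rfl fun i _ => ?_
      rw [smul_mul_assoc, map_smul, smul_eq_mul, mul_comm (B i) (B j)]
      push_cast
      rw [mul_comm]
    rw [h1]
    obtain ⟨ej, hej⟩ := hBmem j
    obtain ⟨q, hq, hint⟩ := hmult ej
    have h2 : IsIntegral M[X] (QY * z * (inl K E M (aeval x q) * B j)) := by
      rw [hej, ← map_mul]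
      exact hQz.mul hint.tower_top
    obtain ⟨pp, hpp⟩ := hIC _ (Algebra.isIntegral_trace h2)
    have h3 : (Algebra.trace L0 (TF K E M) (QY * z * (inl K E M (aeval x q) * B j)) : TF K E M) =
        inl K E M (aeval x q) * tr (QY * z * B j) := by
      rw [show QY * z * (inl K E M (aeval x q) * B j) =
        (⟨_, hxmem q⟩ : L0) • (QY * z * B j) by
          rw [IntermediateField.smul_def, smul_eq_mul]; ring, map_smul]
      rfl
    rw [h3] at hpp
    have h0 : inl K E M (aeval x q) ≠ 0 := (_root_.map_ne_zero _).mpr (hne q hq)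
    rw [show tr (QY * z * B j) = inl K E M (aeval x q)⁻¹ * (inl K E M (aeval x q) *
      tr (QY * z * B j)) by rw [map_inv₀, inv_mul_cancel_left₀ h0], hpp]
    exact mul_mem (hrange _) (hpolymem pp)
  have hdet0 : G.det ≠ 0 := by
    have h1 : (Algebra.traceMatrix L0 B).det ≠ 0 := by
      rw [← Algebra.discr_def]
      exact Algebra.discr_not_zero_of_basis L0 B
    have h2 : G = (algebraMap L0 (TF K E M)).mapMatrix (Algebra.traceMatrix L0 B) := by
      ext i j; rfl
    rw [h2, ← RingHom.map_det]
    exact (_root_.map_ne_zero _).mpr h1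
  have hdet : G.det ∈ R' := by
    rw [Matrix.det_apply]
    exact sum_mem fun π _ => zsmul_mem (prod_mem fun i _ => (hG _ _).1) _
  have hdetint : IsIntegral E G.det := by
    rw [Matrix.det_apply]
    exact IsIntegral.sum _ fun π _ => IsIntegral.zsmul
      (IsIntegral.prod _ fun i _ => (hG _ _).2) _
  let RE : Subalgebra E (TF K E M) := { R'.toSubsemiring with algebraMap_mem' := hrange }
  have hinv : (G.det)⁻¹ ∈ R' :=
    RE.inv_mem_of_algebraic (x := ⟨G.det, hdet⟩) hdetint.isAlgebraic
  have hadj : ∀ i j, G.adjugate i j ∈ R' := fun i j => by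
    rw [Matrix.adjugate_apply, Matrix.det_apply]
    refine sum_mem fun π _ => zsmul_mem (prod_mem fun k _ => ?_) _
    rw [Matrix.updateRow_apply]
    split
    · rw [Pi.single_apply]; split <;> simp [one_mem, zero_mem]
    · exact (hG _ _).1
  have hc : ∀ i, c i ∈ R' := fun i => by
    have h1 : G.det • c = G.adjugate.mulVec (G.mulVec c) := by
      rw [Matrix.mulVec_mulVec, Matrix.adjugate_mul, Matrix.smul_mulVec, Matrix.one_mulVec]
    have h2 := congrFun h1 i
    rw [Pi.smul_apply, smul_eq_mul] at h2
    rw [← inv_mul_cancel_left₀ hdet0 (c i), h2]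
    exact mul_mem hinv (sum_mem fun j _ => mul_mem (hadj i j) (hv j))
  have hQz' : QY * z ∈ R' := by
    rw [← B.sum_repr (QY * z)]
    refine sum_mem fun i _ => ?_
    obtain ⟨e, he⟩ := hBmem i
    rw [IntermediateField.smul_def, smul_eq_mul, he]
    exact mul_mem (hc i) (hrange e)
  have h0 : QY ≠ 0 := (_root_.map_ne_zero _).mpr (hne Q hQ)
  rw [show z = inl K E M (aeval x Q)⁻¹ * (QY * z) by rw [map_inv₀, inv_mul_cancel_left₀ h0]]
  exact mul_mem (hrange _) hQz'

/-- `E ⊗ M` is integrally closed in `TF K E M`. -/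
instance mk_range_isIntegrallyClosedIn :
    IsIntegrallyClosedIn (mk K E M).range.toSubring (TF K E M) := by
  obtain ⟨x, hx, hfin, hsep⟩ := exists_separating (K := K) (E := E)
  exact Subring.isIntegrallyClosedIn_iff.mpr fun {z} hz =>
    (mk_range_isIntegrallyClosedIn_aux K E M hx).2 z hz

/-- An element in every valuation ring containing `E ⊗ M` is in `E ⊗ M`. -/
theorem mem_range_of_forall_mem {z : TF K E M}
    (h : ∀ P : KVal K (TF K E M), (∀ a, mk K E M a ∈ P.1) → z ∈ P.1) :
    z ∈ (mk K E M).range := by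
  by_contra hz
  obtain ⟨V, hV, hzV⟩ := Subring.exists_le_valuationSubring_of_isIntegrallyClosedIn
    (R := (mk K E M).range.toSubring) (x := z) hz
  exact hzV (h ⟨V, fun c => hV ((mk K E M).range.algebraMap_mem c)⟩ fun a => hV ⟨a, rfl⟩)

/-- `TF K E M` is a function field over `M`. -/
theorem isFunctionField : FF.IsFunctionField M (TF K E M) := by
  obtain ⟨x, hx, hfin, hsep⟩ := exists_separating (K := K) (E := E)
  have := (mk_range_isIntegrallyClosedIn_aux K E M hx).1
  exact FF.isFunctionField_of_finite (transcendental_inl M hx)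

end TF

end Fermat.Agent.Tors
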