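import Fermat.Agent.Tors.CurvePlaces

/-!
# The place of a constant extension given by a point of the curve (`S26`)
-/

set_option autoImplicit false

noncomputable section

universe u

open scoped TensorProduct

namespace Fermat.Agent.Tors

open TF

variable {K : Type u} [Field K] [IsAlgClosed K] {E M : Type u} [Field E] [Algebra K E]
  [Field M] [Algebra K M] [IsAlgClosed M]

/-- Evaluation of `E ⊗ M` at a point with values in `M` extends to a place. -/
theorem exists_evalPlace (ι : E →ₐ[K] M) :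
    ∃ Q : KPlace K (TF K E M) M, ∀ a : E ⊗[K] M, ∃ h : mk K E M a ∈ Q.ring.1,
      Q.res ⟨mk K E M a, h⟩ = Algebra.TensorProduct.productMap ι (AlgHom.id K M) a := by
  let e := AlgEquiv.ofInjective (mk K E M) mk_injective
  obtain ⟨Q, hle, hQ⟩ := exists_kplace (F' := M) (mk K E M).range
    ((Algebra.TensorProduct.productMap ι (AlgHom.id K M)).comp e.symm.toAlgHom)
  refine ⟨Q, fun a => ⟨hle ⟨a, rfl⟩, ?_⟩⟩
  have h := DFunLike.congr_fun hQ (e a)
  rw [AlgHom.comp_apply, AlgHom.comp_apply, AlgEquiv.coe_toAlgHom, AlgEquiv.symm_apply_apply] at h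
  exact h

/-- A point, as a place of the constant extension. -/
def evalPlace (ι : E →ₐ[K] M) : KPlace K (TF K E M) M := (exists_evalPlace ι).choose

theorem inl_mem_evalPlace (ι : E →ₐ[K] M) (e : E) :
    inl K E M e ∈ (evalPlace ι).ring.1 := ((exists_evalPlace ι).choose_spec (e ⊗ₜ 1)).1

theorem inr_mem_evalPlace (ι : E →ₐ[K] M) (c : M) :
    inr K E M c ∈ (evalPlace ι).ring.1 := ((exists_evalPlace ι).choose_spec (1 ⊗ₜ c)).1

theorem evalPlace_res_inl (ι : E →ₐ[K] M) (e : E) :
    (evalPlace ι).res ⟨inl K E M e, inl_mem_evalPlace ι e⟩ = ι e :=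
  (((exists_evalPlace ι).choose_spec (e ⊗ₜ 1)).2).trans (by simp)

theorem evalPlace_res_inr (ι : E →ₐ[K] M) (c : M) :
    (evalPlace ι).res ⟨inr K E M c, inr_mem_evalPlace ι c⟩ = c :=
  (((exists_evalPlace ι).choose_spec (1 ⊗ₜ c)).2).trans (by simp)

theorem evalPlace_comap (ι : E →ₐ[K] M) :
    ((evalPlace ι).ring.comapHom (inl K E M)).1 = ⊤ :=
  SetLike.ext fun e => ⟨fun _ => ValuationSubring.mem_top _, fun _ => inl_mem_evalPlace ι e⟩

end Fermat.Agent.Tors
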