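import Fermat.Agent.Tors.Isogeny
import Fermat.Agent.FF.Structure

/-!
# Curves through the origin whose sum is generic (`S26`)
-/

set_option autoImplicit false

noncomputable section

universe u

open CategoryTheory AlgebraicGeometry NeronModelInfra GoodReductionJacobian IsLocalRing

namespace Fermat.Agent.Tors

variable {K : Type u} [Field K] {A : Scheme.{u}} [IsIntegral A]
  {f : A ⟶ Spec (CommRingCat.of K)} {L : RelativeGroupLaw K f} [hc : Fact L.IsCommutative] {g : ℕ}

variable (K g) in
/-- An algebraically closed field containing the power series in `g` variables. -/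
abbrev GermField : Type u := AlgebraicClosure (FractionRing (MvPowerSeries (Fin g) K))

variable (K g) in
/-- Power series inside their algebraically closed field. -/
def toGermField : MvPowerSeries (Fin g) K →ₐ[K] GermField K g :=
  IsScalarTower.toAlgHom K (MvPowerSeries (Fin g) K) _

theorem toGermField_injective : Function.Injective (toGermField K g) := by
  show Function.Injective (algebraMap (MvPowerSeries (Fin g) K) (GermField K g))
  rw [IsScalarTower.algebraMap_eq _ (FractionRing (MvPowerSeries (Fin g) K))]
  rw [RingHom.coe_comp]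
  exact (algebraMap (FractionRing (MvPowerSeries (Fin g) K)) (GermField K g)).injective.comp
    (IsFractionRing.injective (MvPowerSeries (Fin g) K) (FractionRing (MvPowerSeries (Fin g) K)))

variable (K g) in
/-- Evaluation of a power series at the closed point. -/
def germConstant : MvPowerSeries (Fin g) K →ₐ[K] K :=
  { MvPowerSeries.constantCoeff with
    commutes' := fun r => by
      show MvPowerSeries.constantCoeff (algebraMap K (MvPowerSeries (Fin g) K) r) = _
      rw [MvPowerSeries.algebraMap_apply, MvPowerSeries.constantCoeff_C] }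

/-- A field generated by one transcendental coordinate and an étale chart is a function field. -/
theorem isFunctionField_of_etale {B : Type u} [CommRing B] [Algebra K B] {t : Fin g → B}
    (ht : (MvPolynomial.aeval (R := K) t).toRingHom.Etale) {E : Type u} [Field E] [Algebra K E]
    {x : E} (hx : Transcendental K x) (i : Fin g) (a : B →ₐ[K] E)
    (ha : ∀ j, a (t j) = if j = i then x else 0)
    (hgen : ∀ T : Subfield E, x ∈ T → Set.range (algebraMap K E) ⊆ T → Set.range a ⊆ T → T = ⊤) :
    FF.IsFunctionField K E := by
  obtain ⟨hfin, -⟩ := finite_and_isSeparable ht (Q := IntermediateField.adjoin K {x}) (F := E)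
    (fun j => if j = i then ⟨x, IntermediateField.subset_adjoin K _ rfl⟩ else 0) a
    (fun j => by
      rw [ha]
      split_ifs <;> simp)
    fun T hT hT' => hgen T (hT ⟨⟨x, IntermediateField.subset_adjoin K _ rfl⟩, rfl⟩)
      (by
        rintro _ ⟨r, rfl⟩
        exact hT ⟨algebraMap K _ r,
          (IsScalarTower.algebraMap_apply K (IntermediateField.adjoin K {x}) E r).symm⟩) hT'
  exact ⟨⟨x, hx, hfin⟩⟩

namespace Chart

omit [IsIntegral A]

variable (C : Chart L g)

/-- The curve cut out by all coordinates but one, with its parametrisation at the origin. -/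
theorem exists_curve {Ω : Type u} [Field Ω] [Algebra K Ω] (q : MvPowerSeries (Fin g) K →ₐ[K] Ω)
    (hq : Function.Injective q) (i : Fin g) :
    ∃ (a : C.B →ₐ[K] MvPowerSeries (Fin g) K) (E : IntermediateField K Ω),
      (∀ j, a (C.t j) = if j = i then MvPowerSeries.X i else 0) ∧
      (∀ x, a x - C.origin' _ x ∈ maximalIdeal (MvPowerSeries (Fin g) K)) ∧
      (∀ x, q (a x) ∈ E) ∧ FF.IsFunctionField K E := by
  classical
  let S := MvPowerSeries (Fin g) K
  obtain ⟨a, ha, ha'⟩ := C.exists_germ (s := fun j => if j = i then MvPowerSeries.X i else 0)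
    fun j => by
      split_ifs
      exacts [X_mem_maximalIdeal i, zero_mem _]
  let E : IntermediateField K Ω :=
    IntermediateField.adjoin K (insert (q (MvPowerSeries.X i)) (Set.range fun x => q (a x)))
  have haE : ∀ x, q (a x) ∈ E := fun x =>
    IntermediateField.subset_adjoin K _ (Set.mem_insert_of_mem _ ⟨x, rfl⟩)
  refine ⟨a, E, ha, ha', haE, ?_⟩
  let x : E := ⟨q (MvPowerSeries.X i), IntermediateField.subset_adjoin K _ (Set.mem_insert _ _)⟩
  let aE : C.B →ₐ[K] E := (q.comp a).codRestrict E.toSubalgebra haE
  have hX : AlgebraicIndependent K (MvPowerSeries.X : Fin g → S) :=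
    algebraicIndependent_iff_injective_aeval.mpr
      (aeval_injective_of_tangent (s := MvPowerSeries.X) (c := 1) one_ne_zero fun j => by
        rw [one_smul, sub_self]
        exact zero_mem _)
  have hai : AlgebraicIndependent K (q ∘ (MvPowerSeries.X : Fin g → S)) := hX.map' hq
  have hx : Transcendental K x := fun h => hai.transcendental i (IsAlgebraic.algHom E.val h)
  refine isFunctionField_of_etale C.etale hx i aE (fun j => Subtype.ext ?_) fun T hT hK hT' =>
    top_unique fun y hy0 => ?_
  · show q (a (C.t j)) = _
    rw [ha]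
    split_ifs
    · rfl
    · exact map_zero q
  clear hy0
  obtain ⟨y, hy⟩ := y
  induction hy using IntermediateField.adjoin_induction with
  | mem z hz =>
    rcases hz with rfl | ⟨b, rfl⟩
    · exact hT
    · exact hT' ⟨b, rfl⟩
  | algebraMap r => exact hK ⟨r, rfl⟩
  | add z w hz hw h1 h2 => exact T.add_mem h1 h2
  | inv z hz h1 => exact T.inv_mem h1
  | mul z w hz hw h1 h2 => exact T.mul_mem h1 h2

end Chart

/-- Curves through the origin whose sum is generic. -/
theorem exists_curves (C : Chart L g) :
    ∃ (E : Fin g → IntermediateField K (GermField K g)) (ψ : ∀ i, Pts f L (E i))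
      (Q : Fin g → Pts f L (MvPowerSeries (Fin g) K))
      (ιη : funField f →ₐ[K] GermField K g),
      (∀ i, FF.IsFunctionField K (E i)) ∧
      (∀ i, Pts.map (germConstant K g) (Q i) = 0) ∧
      (∀ i, Pts.map (E i).val (ψ i) = Pts.map (toGermField K g) (Q i)) ∧
      Pts.map ιη (genPt f) = ∑ i, Pts.map (E i).val (ψ i) := by
  classical
  choose a E ha ha' haE hFF using
    fun i => C.exists_curve (toGermField K g) toGermField_injective i
  refine ⟨E, fun i => Pts.map (((toGermField K g).comp (a i)).codRestrict (E i).toSubalgebra
    (haE i)) C.ι, fun i => Pts.map (a i) C.ι, ?_⟩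
  have hψ : ∀ i, Pts.map (E i).val (Pts.map (((toGermField K g).comp (a i)).codRestrict
      (E i).toSubalgebra (haE i)) C.ι) = Pts.map (toGermField K g) (Pts.map (a i) C.ι) := fun i => by
    rw [← Pts.map_comp, ← Pts.map_comp]
    rfl
  have hlin := Chart.near_sum (maximalIdeal_le_jacobson ⊥) Finset.univ
    fun i (_ : i ∈ Finset.univ) => Chart.HasLin.of_hom (C := C) (ha' i)
  obtain ⟨b, hb, hbP⟩ := C.exists_iota_of_hasLin (c := 1) one_ne_zero
    (P := ∑ i, Pts.map (a i) C.ι) (by
      convert hlin using 2
      funext j
      simp [Finset.sum_apply, ha])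
  obtain ⟨ιη, hι⟩ := exists_funField_hom (Pts.map ((toGermField K g).comp b) C.ι)
    (centre_map_of_injective C (toGermField_injective.comp hb))
  refine ⟨ιη, hFF, fun i => ?_, hψ, ?_⟩
  · rw [← Pts.map_comp, ← C.map_origin]
    refine congrArg (fun z => Pts.map z C.ι) (AlgHom.ext fun x => ?_)
    have h0 : MvPowerSeries.constantCoeff (a i x - C.origin' _ x) = 0 :=
      constantCoeff_eq_zero_of_mem_maximalIdeal (ha' i x)
    rw [map_sub, sub_eq_zero] at h0
    exact h0.trans ((germConstant K g).commutes (C.origin x))
  · rw [hι, Pts.map_comp, hbP, map_sum]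
    exact Finset.sum_congr rfl fun i _ => (hψ i).symm

end Fermat.Agent.Tors
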