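import Mathlib.Algebra.Category.Ring.Basic
import Fermat.Prelude.Def_GoodReductionJacobian_RelativeGroupLawKernel

/-!
# Points of a commutative relative group law with values in algebras (`S26`)
-/

set_option autoImplicit false

noncomputable section

universe u

open CategoryTheory AlgebraicGeometry NeronModelInfra GoodReductionJacobian

namespace Fermat.Agent.Tors

variable {K : Type u} [Field K] {A : Scheme.{u}} (f : A ⟶ Spec (CommRingCat.of K))

/-- The structure map of an algebra, geometrically. -/
abbrev baseMap (K : Type u) [Field K] (R : Type u) [CommRing R] [Algebra K R] :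
    Spec (CommRingCat.of R) ⟶ Spec (CommRingCat.of K) :=
  Spec.map (CommRingCat.ofHom (algebraMap K R))

theorem map_baseMap {R S : Type u} [CommRing R] [Algebra K R] [CommRing S] [Algebra K S]
    (φ : R →ₐ[K] S) : Spec.map (CommRingCat.ofHom φ.toRingHom) ≫ baseMap K R = baseMap K S := by
  rw [← Spec.map_comp, ← CommRingCat.ofHom_comp]
  exact congrArg (fun g => Spec.map (CommRingCat.ofHom g)) φ.comp_algebraMap

/-- The points of `A` with values in `R`, written additively. -/
def Pts (_L : RelativeGroupLaw K f) (R : Type u) [CommRing R] [Algebra K R] : Type u :=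
  SchemeHomOver (baseMap K R) f

variable {f} {L : RelativeGroupLaw K f} [hc : Fact L.IsCommutative]

instance Pts.instAddCommGroup (R : Type u) [CommRing R] [Algebra K R] :
    AddCommGroup (Pts f L R) where
  add := L.mul (baseMap K R)
  zero := L.one (baseMap K R)
  neg := L.inv (baseMap K R)
  add_assoc := L.mul_assoc _
  zero_add := L.one_mul _
  add_zero := L.mul_one _
  neg_add_cancel := L.inv_mul_cancel _
  add_comm := hc.out _
  nsmul := fun n x => L.nsmul _ n x
  nsmul_zero := fun _ => rfl
  nsmul_succ := fun _ _ => rfl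
  zsmul := @zsmulRec _ ⟨L.one (baseMap K R)⟩ ⟨L.mul (baseMap K R)⟩ ⟨L.inv (baseMap K R)⟩
    (fun n x => L.nsmul (baseMap K R) n x)

theorem Pts.nsmul_eq {R : Type u} [CommRing R] [Algebra K R] (n : ℕ) (x : Pts f L R) :
    n • x = L.nsmul (baseMap K R) n x := rfl

/-- The induced map on points. -/
def Pts.map {R S : Type u} [CommRing R] [Algebra K R] [CommRing S] [Algebra K S]
    (φ : R →ₐ[K] S) : Pts f L R →+ Pts f L S :=
  AddMonoidHom.mk' (fun x => schemeHomOverComp (Spec.map (CommRingCat.ofHom φ.toRingHom))
    (map_baseMap φ) x) fun x y => L.mul_natural _ _ _ (map_baseMap φ) x y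

theorem Pts.map_val {R S : Type u} [CommRing R] [Algebra K R] [CommRing S] [Algebra K S]
    (φ : R →ₐ[K] S) (x : Pts f L R) :
    (Pts.map φ x).1 = Spec.map (CommRingCat.ofHom φ.toRingHom) ≫ x.1 := rfl

theorem Pts.map_id (R : Type u) [CommRing R] [Algebra K R] (x : Pts f L R) :
    Pts.map (AlgHom.id K R) x = x := by
  refine Subtype.ext ?_
  rw [Pts.map_val]
  exact (congrArg (· ≫ x.1) (Spec.map_id _)).trans (Category.id_comp _)

theorem Pts.map_comp {R S T : Type u} [CommRing R] [Algebra K R] [CommRing S] [Algebra K S]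
    [CommRing T] [Algebra K T] (φ : R →ₐ[K] S) (χ : S →ₐ[K] T) (x : Pts f L R) :
    Pts.map (χ.comp φ) x = Pts.map χ (Pts.map φ x) := by
  refine Subtype.ext ?_
  simp only [Pts.map_val, ← Category.assoc, ← Spec.map_comp, ← CommRingCat.ofHom_comp]
  rfl

end Fermat.Agent.Tors
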