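import Fermat.Agent.Tors.PowerSeriesUFD

/-!
# Local rings of smooth varieties at rational points are factorial

A formally smooth Noetherian local `k`-algebra with residue field `k` has a power series ring
as completion; factoriality descends along the faithfully flat completion map.
-/

noncomputable section

namespace Fermat.Agent.Tors

open IsLocalRing

/-- Factoriality descends along faithfully flat maps from a Noetherian local domain. -/
theorem uniqueFactorizationMonoid_of_faithfullyFlat (R S : Type*) [CommRing R] [IsDomain R]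
    [IsLocalRing R] [IsNoetherianRing R] [CommRing S] [IsDomain S] [IsLocalRing S] [UniqueFactorizationMonoid S]
    [Algebra R S] [Module.FaithfullyFlat R S] : UniqueFactorizationMonoid R := by
  classical
  refine { irreducible_iff_prime := fun {p} => ⟨fun hp => ?_, Prime.irreducible⟩ }
  refine ⟨hp.ne_zero, hp.not_isUnit, fun a b hab => ?_⟩
  set f := algebraMap R S with hf
  have hinj : Function.Injective f := FaithfulSMul.algebraMap_injective R S
  have hdvd : ∀ x y : R, f x ∣ f y → x ∣ y := fun x y h => by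
    rw [← Ideal.mem_span_singleton, ← Ideal.comap_map_eq_self_of_faithfullyFlat (B := S)
      (Ideal.span {x}), Ideal.mem_comap, Ideal.map_span, Set.image_singleton,
      Ideal.mem_span_singleton]
    exact h
  by_cases hpa : p ∣ a
  · exact .inl hpa
  refine .inr ?_
  have ha : a ≠ 0 := fun h => hpa (h ▸ dvd_zero p)
  let J : Ideal R :=
    { carrier := {x | p ∣ a * x}
      add_mem' := fun {x y} hx hy => by
        show p ∣ a * (x + y)
        rw [mul_add]; exact dvd_add hx hy
      zero_mem' := by simp
      smul_mem' := fun c x hx => by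
        show p ∣ a * (c * x)
        rw [mul_left_comm]; exact Dvd.dvd.mul_left hx c }
  have hJ : ∀ y : S, f p ∣ f a * y → y ∈ J.map f := by
    rintro y ⟨z, hz⟩
    obtain ⟨n, c, w, hw, hc⟩ := Module.Flat.isTrivialRelation_of_sum_smul_eq_zero (R := R) (M := S)
      (f := ![a, -p]) (x := ![y, z]) (by
        simp [Fin.sum_univ_two, Algebra.smul_def]
        rw [← hf, hz]; ring)
    rw [show y = ∑ j, c 0 j • w j by simpa using hw 0]
    refine Ideal.sum_mem _ fun j _ => ?_
    rw [Algebra.smul_def]
    refine Ideal.mul_mem_right _ _ (Ideal.mem_map_of_mem _ ⟨c 1 j, ?_⟩)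
    have := hc j
    simp [Fin.sum_univ_two] at this
    linear_combination this
  have hJmem : ∀ y : S, y ∈ J.map f → f p ∣ f a * y := by
    intro y hy
    refine Submodule.span_induction ?_ (by simp) ?_ ?_ hy
    · rintro _ ⟨x, hx, rfl⟩
      rw [← map_mul]; exact map_dvd f hx
    · intro u v _ _ hu hv; rw [mul_add]; exact dvd_add hu hv
    · intro r u _ hu; rw [smul_eq_mul, mul_left_comm]; exact Dvd.dvd.mul_left hu r
  obtain ⟨a', p', d, hcop, hgcd1, hgcd2⟩ :=
    UniqueFactorizationMonoid.exists_reduced_factors (f a) ((map_ne_zero_iff f hinj).mpr ha) (f p)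
  have hd0 : d ≠ 0 := fun h => by
    rw [h, zero_mul] at hgcd1
    exact ha (hinj (by rw [← hgcd1, map_zero]))
  have hcolon : J.map f = Ideal.span {p'} := by
    ext y
    rw [Ideal.mem_span_singleton]
    constructor
    · intro hy
      have h := hJmem y hy
      rw [← hgcd1, ← hgcd2, mul_assoc, mul_dvd_mul_iff_left hd0] at h
      exact hcop.symm.dvd_of_dvd_mul_left h
    · intro hy
      apply hJ
      rw [← hgcd1, ← hgcd2, mul_assoc]
      exact mul_dvd_mul_left _ (Dvd.dvd.mul_left hy _)
  have hp'0 : p' ≠ 0 := fun h => hp.ne_zero (hinj (by rw [← hgcd2, h, mul_zero, map_zero]))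
  obtain ⟨j, hj, hunit⟩ : ∃ j ∈ J, Associated (f j) p' := by
    by_contra hcon
    push Not at hcon
    have hle : J.map f ≤ Ideal.span {p'} * maximalIdeal S := by
      rw [Ideal.map_le_iff_le_comap]
      intro x hx
      obtain ⟨e, he⟩ : p' ∣ f x := by
        rw [← Ideal.mem_span_singleton, ← hcolon]; exact Ideal.mem_map_of_mem f hx
      rw [Ideal.mem_comap, he]
      refine Ideal.mul_mem_mul (Ideal.mem_span_singleton_self p') ?_
      intro heu
      exact hcon x hx (by rw [he]; exact associated_mul_unit_left _ _ heu)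
    have hmem : p' ∈ Ideal.span {p'} * maximalIdeal S :=
      hle (hcolon ▸ Ideal.mem_span_singleton_self p')
    rw [Ideal.mem_span_singleton_mul] at hmem
    obtain ⟨z, hz, hzp⟩ := hmem
    obtain rfl : z = 1 := mul_left_cancel₀ hp'0 (by rw [hzp, mul_one])
    exact hz isUnit_one
  have hJeq : ∀ x ∈ J, j ∣ x := fun x hx => hdvd _ _ <| hunit.dvd.trans <| by
    rw [← Ideal.mem_span_singleton, ← hcolon]; exact Ideal.mem_map_of_mem f hx
  obtain ⟨u, hu⟩ := hJeq p (dvd_mul_left p a)
  rcases hp.isUnit_or_isUnit hu with hju | huu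
  · exact absurd ((IsUnit.dvd_mul_right hju).mp hj) hpa
  · rw [hu]
    exact (associated_mul_unit_left j u huu).dvd.trans (hJeq b hab)

variable {k : Type*} [Field k]

theorem isAdicComplete_pow_two {P : Type*} [CommRing P] (M : Ideal P) [IsAdicComplete M P] :
    IsAdicComplete (M ^ 2) P where
  haus' x hx := IsHausdorff.haus (I := M) inferInstance x fun n => by
    have h := hx n
    rw [SModEq.zero, smul_eq_mul, Ideal.mul_top] at h ⊢
    rw [← pow_mul] at h
    exact Ideal.pow_le_pow_right (by omega) h
  prec' f hf := by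
    obtain ⟨L, hL⟩ := IsPrecomplete.prec (I := M) (M := P) inferInstance (f := f) (fun {m n} hmn => by
      have h := hf hmn
      rw [SModEq.sub_mem, smul_eq_mul, Ideal.mul_top] at h ⊢
      rw [← pow_mul] at h
      exact Ideal.pow_le_pow_right (by omega) h)
    refine ⟨L, fun n => ?_⟩
    have h1 := hf (Nat.le_mul_of_pos_left n two_pos)
    have h2 := hL (2 * n)
    rw [SModEq.sub_mem, smul_eq_mul, Ideal.mul_top] at h1 h2 ⊢
    rw [← pow_mul] at h1 ⊢
    rw [← sub_add_sub_cancel (f n) (f (2 * n)) L]
    exact add_mem h1 h2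

/-- Endomorphisms of power series rings tangent to the identity are bijective. -/
theorem bijective_of_sub_X_mem_sq {N : ℕ}
    (θ : MvPowerSeries (Fin N) k →ₐ[k] MvPowerSeries (Fin N) k)
    (hθ : ∀ i, θ (.X i) - .X i ∈ maximalIdeal (MvPowerSeries (Fin N) k) ^ 2) :
    Function.Bijective θ := by
  set P := MvPowerSeries (Fin N) k
  set M := maximalIdeal P with hM
  have hspan : M = Ideal.span (Set.range (MvPowerSeries.X : Fin N → P)) :=
    maximalIdeal_mvPowerSeries_eq_span
  have hmap : M.map θ.toRingHom = M := by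
    rw [hspan, Ideal.map_span, ← Set.range_comp]
    set T := Ideal.span (Set.range (θ.toRingHom ∘ MvPowerSeries.X)) with hT
    rw [← hspan]
    refine le_antisymm (Ideal.span_le.mpr ?_) ?_
    · rintro _ ⟨i, rfl⟩
      have h2 : θ (.X i) - .X i ∈ M := Ideal.pow_le_self two_ne_zero (hθ i)
      have h1 : (MvPowerSeries.X i : P) ∈ M := hspan ▸ Ideal.subset_span ⟨i, rfl⟩
      simpa using add_mem h2 h1
    · refine Submodule.le_of_le_smul_of_le_jacobson_bot (IsNoetherian.noetherian M)
        (maximalIdeal_le_jacobson ⊥) ?_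
      rw [smul_eq_mul, ← pow_two]
      conv_lhs => rw [hspan]
      refine Ideal.span_le.mpr ?_
      rintro _ ⟨i, rfl⟩
      rw [show MvPowerSeries.X i = θ (.X i) - (θ (.X i) - .X i) by ring]
      exact sub_mem (Submodule.mem_sup_left (Ideal.subset_span ⟨i, rfl⟩))
        (Submodule.mem_sup_right (hθ i))
  have hsurj : Function.Surjective θ.toRingHom := by
    have : IsHausdorff (M.map θ.toRingHom) P := by rw [hmap]; infer_instance
    refine surjective_of_mk_map_comp_surjective (I := M) _ fun y => ?_
    obtain ⟨y, rfl⟩ := Ideal.Quotient.mk_surjective y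
    refine ⟨MvPowerSeries.C (MvPowerSeries.constantCoeff y), ?_⟩
    rw [RingHom.comp_apply, Ideal.Quotient.eq, hmap, MvPowerSeries.c_eq_algebraMap,
      AlgHom.toRingHom_eq_coe, RingHom.coe_coe, AlgHom.commutes, ← MvPowerSeries.c_eq_algebraMap,
      hspan]
    exact mem_span_range_X_of_constantCoeff_eq_zero (by simp)
  refine ⟨?_, hsurj⟩
  -- a surjective endomorphism of a Noetherian ring is injective
  let κ : ℕ →o Ideal P := ⟨fun n => RingHom.ker (θ.toRingHom ^ n), monotone_nat_of_le_succ
    fun n x hx => by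
      rw [RingHom.mem_ker] at hx ⊢
      rw [pow_succ', RingHom.coe_mul, Function.comp_apply, hx, map_zero]⟩
  obtain ⟨n, hn⟩ := monotone_stabilizes_iff_noetherian.mpr inferInstance κ
  rw [injective_iff_map_eq_zero]
  intro x hx
  obtain ⟨y, rfl⟩ : ∃ y, (θ.toRingHom ^ n) y = x := by
    have : Function.Surjective ⇑(θ.toRingHom ^ n) := by
      rw [RingHom.coe_pow]; exact hsurj.iterate n
    exact this x
  have : y ∈ κ (n + 1) := by
    show y ∈ RingHom.ker (θ.toRingHom ^ (n + 1))
    rw [RingHom.mem_ker, pow_succ', RingHom.coe_mul, Function.comp_apply]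
    exact hx
  rw [← hn (n + 1) (Nat.le_succ n)] at this
  exact this

variable (k) (R : Type*) [CommRing R] [IsLocalRing R] [IsNoetherianRing R] [Algebra k R]
  [Algebra.FormallySmooth k R]

theorem exists_completion_equiv_mvPowerSeries
    (hres : Function.Surjective (algebraMap k (ResidueField R))) :
    ∃ N : ℕ, Nonempty (MvPowerSeries (Fin N) k ≃+* AdicCompletion (maximalIdeal R) R) := by
  classical
  set m := maximalIdeal R with hm
  have : FiniteDimensional (ResidueField R) (CotangentSpace R) := inferInstance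
  set N := Module.finrank (ResidueField R) (CotangentSpace R)
  set b := Module.finBasis (ResidueField R) (CotangentSpace R)
  choose t ht using fun i => m.toCotangent_surjective (b i)
  have hspan : m = Ideal.span (Set.range fun i => (t i : R)) := by
    have h1 := (CotangentSpace.span_image_eq_top_iff (s := Set.range t)).mp (by
      rw [← Set.range_comp]
      rw [show (m.toCotangent ∘ t) = b from funext ht]
      exact b.span_eq)
    have h2 := congr_arg (Submodule.map m.subtype) h1
    rw [Submodule.map_span, Submodule.map_top, Submodule.range_subtype, ← Set.range_comp] at h2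
    exact h2.symm
  let I := MvPolynomial.idealOfVars (Fin N) k
  let q : MvPolynomial (Fin N) k →ₐ[k] R := MvPolynomial.aeval fun i => (t i : R)
  have hqI : I.map q.toRingHom = m := by
    rw [hspan]
    show (Ideal.span (Set.range MvPolynomial.X)).map _ = _
    rw [Ideal.map_span, ← Set.range_comp]
    simp [Function.comp_def, q]; rfl
  have hqn : ∀ n, ∀ p ∈ I ^ n, q p ∈ m ^ n := fun n p hp => by
    rw [← hqI, ← Ideal.map_pow]; exact Ideal.mem_map_of_mem _ hp
  let M := maximalIdeal (MvPowerSeries (Fin N) k)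
  have hXM : ∀ i, (MvPowerSeries.X i : MvPowerSeries (Fin N) k) ∈ M := fun i => by
    show _ ∈ maximalIdeal _
    rw [maximalIdeal_mvPowerSeries_eq_span]
    exact Ideal.subset_span ⟨i, rfl⟩
  let co : MvPolynomial (Fin N) k →ₐ[k] MvPowerSeries (Fin N) k :=
    MvPolynomial.aeval MvPowerSeries.X
  have hcoI : ∀ n, ∀ p ∈ I ^ n, co p ∈ M ^ n := fun n p hp => by
    have hle : I.map co.toRingHom ≤ M := by
      show (Ideal.span (Set.range MvPolynomial.X)).map _ ≤ _
      rw [Ideal.map_span, Ideal.span_le]
      rintro _ ⟨_, ⟨i, rfl⟩, rfl⟩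
      simpa [co] using hXM i
    exact Ideal.pow_right_mono hle n (by rw [← Ideal.map_pow]; exact Ideal.mem_map_of_mem _ hp)
  -- the kernel of `k[X] → R/m²` is `I²`
  have hker : ∀ p, q p ∈ m ^ 2 → p ∈ I ^ 2 := by
    intro p hp
    set lin : MvPolynomial (Fin N) k := MvPolynomial.C (p.coeff 0) +
      ∑ i, MvPolynomial.C (p.coeff (Finsupp.single i 1)) * MvPolynomial.X i with hlin
    have hdiff : p - lin ∈ I ^ 2 := by
      rw [MvPolynomial.mem_pow_idealOfVars_iff']
      intro x hx
      rcases Nat.lt_succ_iff.mp hx |> Nat.le_one_iff_eq_zero_or_eq_one.mp with h0 | h1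
      · rw [Finsupp.degree_eq_zero_iff] at h0
        subst h0
        simp [hlin, MvPolynomial.coeff_sum]
      · obtain ⟨i, rfl⟩ : ∃ i, x = Finsupp.single i 1 := by
          obtain ⟨i, hi⟩ : ∃ i, x i ≠ 0 := by
            by_contra h; push Not at h
            rw [show x = 0 from Finsupp.ext h] at h1
            simp at h1
          refine ⟨i, Finsupp.ext fun j => ?_⟩
          have hsum : ∑ l, x l = 1 := by rw [← h1, Finsupp.degree_eq_sum]
          rw [← Finset.add_sum_erase _ _ (Finset.mem_univ i)] at hsum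
          rcases eq_or_ne i j with rfl | hij
          · simp; omega
          · have := Finset.single_le_sum (f := fun l => x l) (fun _ _ => Nat.zero_le _)
              (Finset.mem_erase.mpr ⟨hij.symm, Finset.mem_univ j⟩)
            simp [hij]; omega
        simp [hlin, MvPolynomial.coeff_sum, MvPolynomial.coeff_X, MvPolynomial.coeff_C_mul,
          Finsupp.single_eq_single_iff, MvPolynomial.coeff_C]
        intro h
        simp [eq_comm] at h
    have hq : q lin ∈ m ^ 2 := by
      have := hqn 2 _ hdiff
      rw [map_sub] at this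
      simpa using sub_mem hp this
    have hc0 : p.coeff 0 = 0 := by
      by_contra hne
      have hmem : q lin ∈ m := Ideal.pow_le_self two_ne_zero hq
      rw [hlin, map_add] at hmem
      have hs : q (∑ i, MvPolynomial.C (p.coeff (Finsupp.single i 1)) * MvPolynomial.X i) ∈ m := by
        rw [map_sum]
        exact Ideal.sum_mem _ fun i _ => by simpa [q] using Ideal.mul_mem_left _ _ (t i).2
      have h1 : q (MvPolynomial.C (p.coeff 0)) ∈ m := (Submodule.add_mem_iff_left _ hs).mp hmem
      exact h1 ((isUnit_iff_ne_zero.mpr hne).map (q.toRingHom.comp MvPolynomial.C))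
    have hs : ∑ i, algebraMap k R (p.coeff (Finsupp.single i 1)) * (t i : R) ∈ m ^ 2 := by
      simpa [hlin, hc0, q] using hq
    have hsum : ∑ i, (algebraMap k (ResidueField R) (p.coeff (Finsupp.single i 1))) • b i = 0 := by
      have heq : ∑ i, algebraMap k R (p.coeff (Finsupp.single i 1)) • t i ∈
          LinearMap.ker m.toCotangent := by
        rw [LinearMap.mem_ker, Ideal.toCotangent_eq_zero]
        simpa only [Submodule.coe_sum, Submodule.coe_smul, smul_eq_mul] using hs
      rw [LinearMap.mem_ker, map_sum] at heq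
      refine Eq.trans (Finset.sum_congr rfl fun i _ => ?_) heq
      rw [map_smul, ht, IsScalarTower.algebraMap_apply k R (ResidueField R), algebraMap_smul]
    have hz : ∀ i, p.coeff (Finsupp.single i 1) = 0 := fun i =>
      (algebraMap k (ResidueField R)).injective
        (by rw [Fintype.linearIndependent_iff.mp b.linearIndependent _ hsum i, map_zero])
    have : lin = 0 := by simp [hlin, hc0, hz]
    rwa [this, sub_zero] at hdiff
  have hsurj2 : ∀ r : R, ∃ p, r - q p ∈ m ^ 2 := by
    have hone : ∀ r : R, ∃ c : k, r - algebraMap k R c ∈ m := fun r => by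
      obtain ⟨c, hc⟩ := hres (residue R r)
      refine ⟨c, Ideal.Quotient.eq.mp ?_⟩
      exact hc.symm
    intro r
    obtain ⟨c, hc⟩ := hone r
    rw [hspan, Ideal.mem_span_range_iff_exists_fun] at hc
    obtain ⟨a, ha⟩ := hc
    choose e he using fun i => hone (a i)
    refine ⟨MvPolynomial.C c + ∑ i, MvPolynomial.C (e i) * MvPolynomial.X i, ?_⟩
    have : r - q (MvPolynomial.C c + ∑ i, MvPolynomial.C (e i) * MvPolynomial.X i) =
        ∑ i, (a i - algebraMap k R (e i)) * (t i : R) := by
      simp [q, sub_mul, Finset.sum_sub_distrib, ha]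
      ring
    rw [this, pow_two]
    exact Ideal.sum_mem _ fun i _ => Ideal.mul_mem_mul (he i) (t i).2
  -- invert `k[X]/I² → R/m²`
  let g : (MvPolynomial (Fin N) k ⧸ I ^ 2) →ₐ[k] R ⧸ m ^ 2 :=
    Ideal.Quotient.liftₐ _ ((Ideal.Quotient.mkₐ k _).comp q) fun p hp => by
      simpa [Ideal.Quotient.eq_zero_iff_mem] using hqn 2 p hp
  have hg : Function.Bijective g := by
    refine ⟨(injective_iff_map_eq_zero g).mpr fun x hx => ?_, fun y => ?_⟩
    · obtain ⟨p, rfl⟩ := Ideal.Quotient.mk_surjective x
      rw [Ideal.Quotient.eq_zero_iff_mem]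
      exact hker p (Ideal.Quotient.eq_zero_iff_mem.mp hx)
    · obtain ⟨r, rfl⟩ := Ideal.Quotient.mk_surjective y
      obtain ⟨p, hp⟩ := hsurj2 r
      exact ⟨Ideal.Quotient.mk _ p, (Ideal.Quotient.eq.mpr hp).symm⟩
  let ge := AlgEquiv.ofBijective g hg
  let f0 : R →ₐ[k] MvPowerSeries (Fin N) k ⧸ M ^ 2 :=
    (Ideal.Quotient.liftₐ (I ^ 2) ((Ideal.Quotient.mkₐ k _).comp co) fun p hp => by
      simpa [Ideal.Quotient.eq_zero_iff_mem] using hcoI 2 p hp).comp
      (ge.symm.toAlgHom.comp (Ideal.Quotient.mkₐ k (m ^ 2)))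
  have := isAdicComplete_pow_two M
  obtain ⟨φ, hφ⟩ := Algebra.FormallySmooth.exists_mkₐ_comp_eq_of_isAdicComplete f0
  have hφt : ∀ i, φ (t i) - MvPowerSeries.X i ∈ M ^ 2 := fun i => by
    refine Ideal.Quotient.eq.mp ?_
    have h1 := DFunLike.congr_fun hφ (t i : R)
    have h2 : ge.symm (Ideal.Quotient.mk _ (t i : R)) = Ideal.Quotient.mk _ (MvPolynomial.X i) := by
      rw [AlgEquiv.symm_apply_eq]
      show _ = Ideal.Quotient.mk _ (q (MvPolynomial.X i))
      simp [q]
    simp only [AlgHom.comp_apply, Ideal.Quotient.mkₐ_eq_mk, f0, AlgEquiv.coe_toAlgHom, h2] at h1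
    rw [h1]
    show Ideal.Quotient.mk _ (co (MvPolynomial.X i)) = _
    simp [co]
  have hφm : ∀ n, ∀ r ∈ m ^ n, φ r ∈ M ^ n := by
    have hle : m.map φ.toRingHom ≤ M := by
      rw [hspan, Ideal.map_span, Ideal.span_le]
      rintro _ ⟨_, ⟨i, rfl⟩, rfl⟩
      simpa using add_mem (Ideal.pow_le_self two_ne_zero (hφt i)) (hXM i)
    exact fun n r hr =>
      Ideal.pow_right_mono hle n (by rw [← Ideal.map_pow]; exact Ideal.mem_map_of_mem _ hr)
  set S := AdicCompletion m R
  -- the two maps
  let ψn : (n : ℕ) → MvPowerSeries (Fin N) k →ₐ[k] R ⧸ m ^ n := fun n =>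
    (Ideal.Quotient.liftₐ (I ^ n) ((Ideal.Quotient.mkₐ k _).comp q) fun p hp => by
      simpa [Ideal.Quotient.eq_zero_iff_mem] using hqn n p hp).comp
      ((MvPowerSeries.truncTotalAlgHom (Fin N) k n).restrictScalars k)
  let ψ : MvPowerSeries (Fin N) k →ₐ[k] S := AdicCompletion.liftAlgHom m ψn fun {a c} hac =>
    AlgHom.ext fun x => by
      show Ideal.Quotient.mk _ (q (x.truncTotal c)) = Ideal.Quotient.mk _ (q (x.truncTotal a))
      rw [Ideal.Quotient.eq, ← map_sub]
      exact hqn a _ (MvPowerSeries.truncTotal_sub_truncTotal_mem_pow_idealOfVars hac le_rfl x)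
  have hψX : ∀ i, ψ (.X i) = algebraMap R S (t i : R) := fun i => by
    refine AdicCompletion.ext_evalₐ fun n => ?_
    have h1 : AdicCompletion.evalₐ m n (ψ (.X i)) = ψn n (.X i) :=
      AdicCompletion.evalₐ_liftRingHom m (fun n => (ψn n).toRingHom)
        (fun {a c} hac => RingHom.ext fun x => by
          show Ideal.Quotient.mk _ (q (x.truncTotal c)) = Ideal.Quotient.mk _ (q (x.truncTotal a))
          rw [Ideal.Quotient.eq, ← map_sub]
          exact hqn a _ (MvPowerSeries.truncTotal_sub_truncTotal_mem_pow_idealOfVars hac le_rfl x))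
        n _
    rw [h1, AlgHom.commutes]
    show Ideal.Quotient.mk _ (q ((MvPowerSeries.X i : MvPowerSeries (Fin N) k).truncTotal n)) = _
    rw [Ideal.Quotient.algebraMap_eq, Ideal.Quotient.eq,
      show (t i : R) = q (MvPolynomial.X i) by simp [q], ← map_sub]
    refine hqn n _ ((MvPolynomial.mem_pow_idealOfVars_iff' ..).mpr fun x hx => ?_)
    rw [MvPolynomial.coeff_sub, MvPowerSeries.coeff_truncTotal _ hx, ← MvPolynomial.coe_X,
      MvPolynomial.coeff_coe, sub_self]
  let φn : (n : ℕ) → S →ₐ[k] MvPowerSeries (Fin N) k ⧸ M ^ n := fun n =>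
    (Ideal.Quotient.liftₐ (m ^ n) ((Ideal.Quotient.mkₐ k _).comp φ) fun r hr => by
      simpa [Ideal.Quotient.eq_zero_iff_mem] using hφm n r hr).comp
      ((AdicCompletion.evalₐ m n).restrictScalars k)
  let φh : S →ₐ[k] MvPowerSeries (Fin N) k := IsAdicComplete.liftAlgHom M φn fun {a c} hac =>
    AlgHom.ext fun x => by
      obtain ⟨x, rfl⟩ := AdicCompletion.mk_surjective m R x
      simp only [φn, AlgHom.comp_apply, AlgHom.restrictScalars_apply, AdicCompletion.evalₐ_mk]
      show Ideal.Quotient.mk _ (φ _) = Ideal.Quotient.mk _ (φ _)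
      rw [Ideal.Quotient.eq, ← map_sub]
      refine hφm a _ ?_
      have := x.2 hac
      rw [SModEq.sub_mem, smul_eq_mul, Ideal.mul_top] at this
      rw [← neg_sub]
      exact neg_mem this
  have hφh : ∀ r, φh (algebraMap R S r) = φ r := fun r => by
    refine IsHausdorff.eq_iff_smodEq (I := M).mpr fun n => ?_
    rw [SModEq.sub_mem, smul_eq_mul, Ideal.mul_top, ← Ideal.Quotient.eq]
    show Ideal.Quotient.mk _ (φh _) = _
    rw [IsAdicComplete.mk_liftAlgHom]
    simp only [φn, AlgHom.comp_apply, AlgHom.restrictScalars_apply, AlgHom.commutes]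
    rfl
  have hθ := bijective_of_sub_X_mem_sq (φh.comp ψ) fun i => by
    rw [AlgHom.comp_apply, hψX, hφh]; exact hφt i
  have hψmap : M.map ψ.toRingHom = maximalIdeal S := by
    show (maximalIdeal _).map _ = _
    have h1 : (Ideal.span (Set.range fun i => (t i : R))).map (algebraMap R S) = maximalIdeal S := by
      rw [← hspan]; exact AdicCompletion.maximalIdeal_eq_map.symm
    rw [maximalIdeal_mvPowerSeries_eq_span, ← h1, Ideal.map_span, Ideal.map_span, ← Set.range_comp,
      ← Set.range_comp]
    congr 2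
    funext i
    exact hψX i
  have hψs : Function.Surjective ψ.toRingHom := by
    have : IsHausdorff (M.map ψ.toRingHom) S := by rw [hψmap]; infer_instance
    refine surjective_of_mk_map_comp_surjective (I := M) _ fun y => ?_
    obtain ⟨y, rfl⟩ := Ideal.Quotient.mk_surjective y
    obtain ⟨r, hr⟩ := Ideal.Quotient.mk_surjective (AdicCompletion.evalOneₐ m y)
    obtain ⟨c, hc⟩ := hres (residue R r)
    refine ⟨MvPowerSeries.C c, ?_⟩
    have hmS : maximalIdeal S = RingHom.ker (AdicCompletion.evalOneₐ m).toRingHom :=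
      AdicCompletion.maximalIdeal_eq_map.trans
        (AdicCompletion.ker_evalOneₐ_eq_map m m.fg_of_isNoetherianRing).symm
    rw [RingHom.comp_apply, Ideal.Quotient.eq, hψmap, hmS, RingHom.mem_ker,
      map_sub, sub_eq_zero, MvPowerSeries.c_eq_algebraMap]
    show AdicCompletion.evalOneₐ m (ψ (algebraMap k _ c)) = AdicCompletion.evalOneₐ m y
    rw [AlgHom.commutes, ← hr, IsScalarTower.algebraMap_apply k R S, AlgHom.commutes]
    exact hc
  refine ⟨N, ⟨RingEquiv.ofBijective ψ.toRingHom ⟨?_, hψs⟩⟩⟩
  exact Function.Injective.of_comp (f := φh) hθ.1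

theorem isDomain_and_uniqueFactorizationMonoid_of_formallySmooth [Infinite k]
    (hres : Function.Surjective (algebraMap k (ResidueField R))) :
    IsDomain R ∧ UniqueFactorizationMonoid R := by
  obtain ⟨N, ⟨e⟩⟩ := exists_completion_equiv_mvPowerSeries k R hres
  set S := AdicCompletion (maximalIdeal R) R
  have hu : UniqueFactorizationMonoid (MvPowerSeries (Fin N) k) :=
    uniqueFactorizationMonoid_mvPowerSeries_fin k N
  have : IsDomain (MvPowerSeries (Fin N) k) := NoZeroDivisors.to_isDomain _
  have : IsDomain S := e.toMulEquiv.symm.isDomain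
  have : UniqueFactorizationMonoid S := e.toMulEquiv.uniqueFactorizationMonoid hu
  have : Module.FaithfullyFlat R S := Module.FaithfullyFlat.of_flat_of_isLocalHom
  have : IsDomain R := Function.Injective.isDomain (algebraMap R S)
    (FaithfulSMul.algebraMap_injective R S)
  exact ⟨this, uniqueFactorizationMonoid_of_faithfullyFlat R S⟩

theorem uniqueFactorizationMonoid_of_formallySmooth [Infinite k] [IsDomain R]
    (hres : Function.Surjective (algebraMap k (ResidueField R))) :
    UniqueFactorizationMonoid R :=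
  (isDomain_and_uniqueFactorizationMonoid_of_formallySmooth k R hres).2

end Fermat.Agent.Tors
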