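import Mathlib
import Fermat.Agent.Tors.Points
import Fermat.Agent.Tors.SmoothFactorial

/-!
# The local algebra at the origin of a group scheme (`S26`)

An étale chart at the origin, infinitesimal additivity of the group law, and germs of points.
-/

set_option autoImplicit false

noncomputable section

universe u

open CategoryTheory AlgebraicGeometry NeronModelInfra GoodReductionJacobian

namespace Fermat.Agent.Tors

variable {K : Type u} [Field K] {A : Scheme.{u}} {f : A ⟶ Spec (CommRingCat.of K)}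

/-- An affine neighbourhood of the origin with étale coordinates vanishing at the origin. -/
structure Chart (L : RelativeGroupLaw K f) [Fact L.IsCommutative] (g : ℕ) where
  /-- the coordinate ring -/
  B : Type u
  [commRing : CommRing B]
  [algebra : Algebra K B]
  [isDomain : IsDomain B]
  /-- the inclusion -/
  ι : Pts f L B
  isOpenImmersion : IsOpenImmersion ι.1
  /-- evaluation at the origin -/
  origin : B →ₐ[K] K
  map_origin : Pts.map origin ι = 0
  /-- the coordinates -/
  t : Fin g → B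
  origin_t : ∀ i, origin (t i) = 0
  etale : (MvPolynomial.aeval (R := K) t).toRingHom.Etale

attribute [instance] Chart.commRing Chart.algebra Chart.isDomain Chart.isOpenImmersion

variable {L : RelativeGroupLaw K f} [hc : Fact L.IsCommutative] {g : ℕ}

theorem baseMap_self : baseMap K K = 𝟙 (Spec (CommRingCat.of K)) := Spec.map_id _

/-- Injective algebra maps between fields or into fields separate points. -/
theorem Pts.map_injective [IsSeparated f] {R S : Type u} [CommRing R] [IsReduced R] [Algebra K R]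
    [CommRing S] [Algebra K S] (φ : R →ₐ[K] S) (hφ : Function.Injective φ) :
    Function.Injective (Pts.map (f := f) (L := L) φ) := by
  intro P Q h
  have : IsDominant (Spec.map (CommRingCat.ofHom φ.toRingHom)) := by
    constructor
    show DenseRange (PrimeSpectrum.comap φ.toRingHom)
    rw [PrimeSpectrum.denseRange_comap_iff_ker_le_nilRadical,
      (RingHom.injective_iff_ker_eq_bot φ.toRingHom).mp hφ]
    exact bot_le
  exact Subtype.ext (ext_of_isDominant_of_isSeparated f (P.2.trans Q.2.symm) _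
    (congrArg Subtype.val h))

/-- The coordinates and the augmentation determine a morphism into a square zero extension. -/
theorem ext_of_sq_zero {B : Type u} [CommRing B] [Algebra K B] {t : Fin g → B}
    (ht : (MvPolynomial.aeval (R := K) t).toRingHom.Etale) {R : Type u} [CommRing R] [Algebra K R]
    {N : Ideal R} (hN : IsNilpotent N) {a b : B →ₐ[K] R} (h : ∀ x, a x - b x ∈ N)
    (hab : ∀ i, a (t i) = b (t i)) : a = b := by
  let P := MvPolynomial (Fin g) K
  let φ : P →ₐ[K] B := MvPolynomial.aeval t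
  let : Algebra P B := φ.toRingHom.toAlgebra
  have : Algebra.Etale P B := ht
  let : Algebra P R := (a.comp φ).toRingHom.toAlgebra
  have hb : b.comp φ = a.comp φ := MvPolynomial.algHom_ext fun i => by simp [φ, hab]
  let a' : B →ₐ[P] R := { a.toRingHom with commutes' := fun p => rfl }
  let b' : B →ₐ[P] R := { b.toRingHom with commutes' := fun p => congr($hb p) }
  have := Algebra.FormallyUnramified.lift_unique N hN a' b'
    (AlgHom.ext fun x => Ideal.Quotient.eq.mpr (h x))
  exact AlgHom.ext fun x => congr($this x)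

/-- The coordinates and the augmentation determine a morphism into a separated ring. -/
theorem ext_of_iInf_pow {B : Type u} [CommRing B] [Algebra K B] {t : Fin g → B}
    (ht : (MvPolynomial.aeval (R := K) t).toRingHom.Etale) {R : Type u} [CommRing R] [Algebra K R]
    {N : Ideal R} (hN : ⨅ i, N ^ i = ⊥) {a b : B →ₐ[K] R} (h : ∀ x, a x - b x ∈ N)
    (hab : ∀ i, a (t i) = b (t i)) : a = b := by
  let P := MvPolynomial (Fin g) K
  let φ : P →ₐ[K] B := MvPolynomial.aeval t
  let : Algebra P B := φ.toRingHom.toAlgebra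
  have : Algebra.Etale P B := ht
  let : Algebra P R := (a.comp φ).toRingHom.toAlgebra
  have hb : b.comp φ = a.comp φ := MvPolynomial.algHom_ext fun i => by simp [φ, hab]
  let a' : B →ₐ[P] R := { a.toRingHom with commutes' := fun p => rfl }
  let b' : B →ₐ[P] R := { b.toRingHom with commutes' := fun p => congr($hb p) }
  have := Algebra.FormallyUnramified.ext_of_iInf N hN (g₁ := a') (g₂ := b')
    (fun x => Ideal.Quotient.eq.mpr (h x))
  exact AlgHom.ext fun x => congr($this x)

namespace Chart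

variable (C : Chart L g)

/-- The augmentation at the origin with values in an algebra. -/
def origin' (R : Type u) [CommRing R] [Algebra K R] : C.B →ₐ[K] R :=
  (Algebra.ofId K R).comp C.origin

@[simp] theorem origin'_t (R : Type u) [CommRing R] [Algebra K R] (i : Fin g) :
    C.origin' R (C.t i) = 0 := by simp [origin', C.origin_t]

theorem map_origin' (R : Type u) [CommRing R] [Algebra K R] :
    Pts.map (C.origin' R) C.ι = 0 := by
  rw [origin', Pts.map_comp, C.map_origin, map_zero]

variable {R : Type u} [CommRing R] [Algebra K R]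

theorem exists_of_range_subset {P : Pts f L R} (h : Set.range P.1 ⊆ Set.range C.ι.1) :
    ∃ a : C.B →ₐ[K] R, Pts.map a C.ι = P := by
  let l := IsOpenImmersion.lift C.ι.1 P.1 h
  have hl : l ≫ C.ι.1 = P.1 := IsOpenImmersion.lift_fac _ _ _
  have hb : l ≫ baseMap K C.B = baseMap K R := by
    rw [← C.ι.2, ← Category.assoc, hl, P.2]
  rw [← Spec.map_preimage l] at hb
  rw [← Spec.map_comp] at hb
  refine ⟨⟨(Spec.preimage l).hom, fun c => ?_⟩, Subtype.ext ?_⟩
  · exact congr(($(Spec.map_injective hb)).hom c)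
  · show Spec.map (CommRingCat.ofHom (Spec.preimage l).hom) ≫ C.ι.1 = P.1
    rw [CommRingCat.ofHom_hom, Spec.map_preimage, hl]

theorem hom_ext {a b : C.B →ₐ[K] R} (h : Pts.map a C.ι = Pts.map b C.ι) : a = b := by
  have h1 := congrArg Subtype.val h
  rw [Pts.map_val, Pts.map_val, cancel_mono] at h1
  exact AlgHom.ext fun x => congr(($(Spec.map_injective h1)).hom x)

theorem exists_of_zero_mod {P : Pts f L R} {J : Ideal R} (hJ : J ≤ Ideal.jacobson ⊥)
    (h : Pts.map (Ideal.Quotient.mkₐ K J) P = 0) :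
    ∃ a : C.B →ₐ[K] R, Pts.map a C.ι = P ∧ ∀ x, a x - C.origin' R x ∈ J := by
  have hr : Set.range P.1 ⊆ Set.range C.ι.1 := by
    rintro _ ⟨p, rfl⟩
    obtain ⟨m, hm, hpm⟩ := Ideal.exists_le_maximal p.asIdeal p.isPrime.ne_top
    have hJm : J ≤ m := hJ.trans (sInf_le ⟨bot_le, hm⟩)
    have hspec : p ⤳ (⟨m, hm.isPrime⟩ : PrimeSpectrum R) :=
      (PrimeSpectrum.le_iff_specializes _ _).mp hpm
    refine (IsOpenImmersion.isOpen_range C.ι.1).stableUnderGeneralization
      (hspec.map P.1.continuous) ?_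
    obtain ⟨q, hq⟩ : (⟨m, hm.isPrime⟩ : PrimeSpectrum R) ∈
        Set.range (PrimeSpectrum.comap (Ideal.Quotient.mk J)) := by
      rw [range_comap_of_surjective _ _ Ideal.Quotient.mk_surjective,
        Ideal.mk_ker]
      exact hJm
    have h0 := congrArg Subtype.val (h.trans (C.map_origin' (R ⧸ J)).symm)
    rw [Pts.map_val, Pts.map_val] at h0
    have := congr($h0 q)
    rw [← hq]
    exact ⟨_, this.symm⟩
  obtain ⟨a, ha⟩ := C.exists_of_range_subset hr
  refine ⟨a, ha, fun x => Ideal.Quotient.eq.mp ?_⟩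
  have : (Ideal.Quotient.mkₐ K J).comp a = C.origin' (R ⧸ J) :=
    C.hom_ext (by rw [Pts.map_comp, ha, h, C.map_origin'])
  exact congr($this x)

end Chart

theorem exists_chart [IsAlgClosed K] [IsIntegral A] [SmoothOfRelativeDimension g f] :
    Nonempty (Chart L g) := by
  let e : Pts f L K := 0
  let x : A := e.1 (IsLocalRing.closedPoint K)
  obtain ⟨U, hU, V, hV, hxV, hle, hsm⟩ :=
    SmoothOfRelativeDimension.exists_isStandardSmoothOfRelativeDimension (n := g) (f := f) x
  obtain rfl : U = ⊤ := by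
    ext y
    simp only [TopologicalSpace.Opens.coe_top, Set.mem_univ, iff_true]
    exact (Subsingleton.elim (α := PrimeSpectrum K) y (f x)) ▸ hle hxV
  let ψ : CommRingCat.of K ⟶ Γ(A, V) :=
    (Scheme.ΓSpecIso (CommRingCat.of K)).inv ≫ f.appLE ⊤ V hle
  have hψ : hV.fromSpec ≫ f = Spec.map ψ := by
    rw [← IsAffineOpen.SpecMap_appLE_fromSpec f (isAffineOpen_top _) hV hle, IsAffineOpen.fromSpec_top,
      Scheme.isoSpec_Spec_inv, Spec.map_comp]
  have hsm' : ψ.hom.IsStandardSmoothOfRelativeDimension g :=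
    (RingHom.isStandardSmoothOfRelativeDimension_respectsIso (n := g)).2 _
      (Scheme.ΓSpecIso (CommRingCat.of K)).symm.commRingCatIsoToRingEquiv hsm
  let : Algebra K Γ(A, V) := ψ.hom.toAlgebra
  have : Algebra.IsStandardSmoothOfRelativeDimension g K Γ(A, V) := hsm'
  obtain ⟨θ, hθ⟩ :=
    Algebra.IsStandardSmoothOfRelativeDimension.exists_etale_mvPolynomial (n := g) K Γ(A, V)
  let ι : Pts f L Γ(A, V) := ⟨hV.fromSpec, hψ⟩
  have : IsOpenImmersion ι.1 := hV.isOpenImmersion_fromSpec
  have hsub : Set.range e.1 ⊆ Set.range ι.1 := by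
    rintro _ ⟨y, rfl⟩
    show _ ∈ Set.range hV.fromSpec
    rw [hV.range_fromSpec, Subsingleton.elim (α := PrimeSpectrum K) y (IsLocalRing.closedPoint K)]
    exact hxV
  let l := IsOpenImmersion.lift ι.1 e.1 hsub
  have hl : l ≫ ι.1 = e.1 := IsOpenImmersion.lift_fac _ _ _
  have hb : Spec.map (Spec.preimage l) ≫ baseMap K Γ(A, V) = baseMap K K := by
    rw [Spec.map_preimage, ← ι.2, ← Category.assoc, hl, e.2]
  rw [← Spec.map_comp] at hb
  let o : Γ(A, V) →ₐ[K] K :=
    ⟨(Spec.preimage l).hom, fun c => congr(($(Spec.map_injective hb)).hom c)⟩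
  have ho : Pts.map o ι = 0 := Subtype.ext (by
    show Spec.map (CommRingCat.ofHom (Spec.preimage l).hom) ≫ ι.1 = e.1
    rw [CommRingCat.ofHom_hom, Spec.map_preimage, hl])
  have : Nonempty V := ⟨⟨x, hxV⟩⟩
  have : IsDomain Γ(A, V) := IsIntegral.component_integral V
  let c : Fin g → K := fun i => o (θ (MvPolynomial.X i))
  let t : Fin g → Γ(A, V) := fun i => θ (MvPolynomial.X i) - algebraMap K _ (c i)
  let σ : MvPolynomial (Fin g) K ≃ₐ[K] MvPolynomial (Fin g) K := AlgEquiv.ofAlgHom
    (MvPolynomial.aeval fun i => MvPolynomial.X i - MvPolynomial.C (c i))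
    (MvPolynomial.aeval fun i => MvPolynomial.X i + MvPolynomial.C (c i))
    (MvPolynomial.algHom_ext fun i => by simp)
    (MvPolynomial.algHom_ext fun i => by simp)
  have hot : ∀ i, o (t i) = 0 := fun i => by simp [t, c]
  refine ⟨⟨Γ(A, V), ι, ‹_›, o, ho, t, hot, ?_⟩⟩
  have hcomp : MvPolynomial.aeval t = θ.comp σ.toAlgHom :=
    MvPolynomial.algHom_ext fun i => by
      simp [σ, t, ← MvPolynomial.algebraMap_eq]
  rw [hcomp]
  exact RingHom.Etale.stableUnderComposition _ _
    (RingHom.Etale.of_bijective σ.bijective) hθ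

namespace Chart

variable (C : Chart L g) {R : Type u} [CommRing R] [Algebra K R]

theorem exists_lift {N : Ideal R} [IsAdicComplete N R] {s : Fin g → R} (hs : ∀ i, s i ∈ N) :
    ∃ a : C.B →ₐ[K] R, (∀ i, a (C.t i) = s i) ∧ ∀ x, a x - C.origin' R x ∈ N := by
  let P := MvPolynomial (Fin g) K
  let φ : P →ₐ[K] C.B := MvPolynomial.aeval C.t
  let : Algebra P C.B := φ.toRingHom.toAlgebra
  have : Algebra.Etale P C.B := C.etale
  let ψ : P →ₐ[K] R := MvPolynomial.aeval s
  let : Algebra P R := ψ.toRingHom.toAlgebra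
  have h0 : ((Ideal.Quotient.mkₐ K N).comp (C.origin' R)).comp φ =
      (Ideal.Quotient.mkₐ K N).comp ψ := MvPolynomial.algHom_ext fun i => by
    simp [φ, ψ, Ideal.Quotient.eq_zero_iff_mem.mpr (hs i)]
  let f0 : C.B →ₐ[P] R ⧸ N :=
    { ((Ideal.Quotient.mkₐ K N).comp (C.origin' R)).toRingHom with
      commutes' := fun p => congr($h0 p) }
  obtain ⟨b, hb⟩ := Algebra.FormallySmooth.exists_mkₐ_comp_eq_of_isAdicComplete f0
  refine ⟨{ b.toRingHom with commutes' := fun k => ?_ }, fun i => ?_, fun x => ?_⟩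
  · have := b.commutes (MvPolynomial.C k)
    simpa [RingHom.algebraMap_toAlgebra, φ, ψ] using this
  · have := b.commutes (MvPolynomial.X i)
    change b (φ (MvPolynomial.X i)) = ψ (MvPolynomial.X i) at this
    rw [show φ (MvPolynomial.X i) = C.t i from MvPolynomial.aeval_X _ _,
      show ψ (MvPolynomial.X i) = s i from MvPolynomial.aeval_X _ _] at this
    exact this
  · exact Ideal.Quotient.eq.mp congr($hb x)

end Chart

theorem isAdicComplete_of_mul_self {R : Type u} [CommRing R] {N : Ideal R} (hN : N ^ 2 = ⊥) :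
    IsAdicComplete N R where
  haus' x hx := by
    have h := hx 2
    simpa [SModEq.zero, hN] using h
  prec' f hf := ⟨f 2, fun n => by
    rcases le_total n 2 with h | h
    · exact hf h
    · have h2 := hf h
      rw [SModEq.sub_mem, hN] at h2
      rw [SModEq.sub_mem]
      have h3 : f 2 - f n = 0 := by simpa using h2
      rw [show f n - f 2 = 0 by rw [← neg_sub, h3, neg_zero]]
      exact zero_mem _⟩

variable (K g) in
/-- The universal pair of tangent vectors. -/
abbrev BiDual : Type u := TrivSqZeroExt K (Fin g ⊕ Fin g → K)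

namespace Chart

variable (C : Chart L g) {R : Type u} [CommRing R] [Algebra K R]

/-- A point near the origin, with given linear part. -/
def HasLin (J : Ideal R) (P : Pts f L R) (v : Fin g → R) : Prop :=
  ∃ a : C.B →ₐ[K] R, Pts.map a C.ι = P ∧ (∀ x, a x - C.origin' R x ∈ J) ∧
    ∀ i, a (C.t i) - v i ∈ J ^ 2

variable {C}

theorem mem_of_near {a : C.B →ₐ[K] R} {J : Ideal R} (h : ∀ x, a x - C.origin' R x ∈ J) (i : Fin g) :
    a (C.t i) ∈ J := by simpa using h (C.t i)

theorem HasLin.of_hom {a : C.B →ₐ[K] R} {J : Ideal R} (h : ∀ x, a x - C.origin' R x ∈ J) :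
    C.HasLin J (Pts.map a C.ι) fun i => a (C.t i) := ⟨a, rfl, h, fun i => by simp⟩

theorem HasLin.zero (J : Ideal R) : C.HasLin J 0 0 :=
  ⟨C.origin' R, C.map_origin' R, fun x => by simp, fun i => by simp⟩

theorem HasLin.map_mk_eq_zero {J : Ideal R} {P : Pts f L R} {v : Fin g → R}
    (h : C.HasLin J P v) : Pts.map (Ideal.Quotient.mkₐ K J) P = 0 := by
  obtain ⟨a, rfl, ha, -⟩ := h
  rw [← Pts.map_comp, ← C.map_origin' (R ⧸ J)]
  exact congrArg (fun z => Pts.map z C.ι) (AlgHom.ext fun x => Ideal.Quotient.eq.mpr (ha x))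

theorem exists_lift_of_sq_zero {N : Ideal R} (hN : N ^ 2 = ⊥) {s : Fin g → R}
    (hs : ∀ i, s i ∈ N) :
    ∃ a : C.B →ₐ[K] R, (∀ i, a (C.t i) = s i) ∧ ∀ x, a x - C.origin' R x ∈ N :=
  have := isAdicComplete_of_mul_self hN
  C.exists_lift hs

end Chart

/-- Basis of the universal pair of tangent vectors. -/
def biBasis (j : Fin g ⊕ Fin g) : BiDual K g := TrivSqZeroExt.inr (Pi.single j 1)

variable (K g) in
/-- The ideal of the universal pair of tangent vectors. -/
def biIdeal : Ideal (BiDual K g) :=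
  RingHom.ker (TrivSqZeroExt.fstHom K K (Fin g ⊕ Fin g → K)).toRingHom

theorem mem_biIdeal {z : BiDual K g} : z ∈ biIdeal K g ↔ z.fst = 0 := Iff.rfl

theorem biBasis_mem (j : Fin g ⊕ Fin g) : biBasis j ∈ biIdeal K g := by
  simp [mem_biIdeal, biBasis]

theorem biIdeal_pow_two : biIdeal K g ^ 2 = ⊥ := by
  rw [pow_two, eq_bot_iff, Ideal.mul_le]
  intro x hx y hy
  rw [mem_biIdeal] at hx hy
  rw [Submodule.mem_bot]
  refine TrivSqZeroExt.ext ?_ ?_
  · rw [TrivSqZeroExt.fst_mul, hx, zero_mul]; rfl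
  · rw [TrivSqZeroExt.snd_mul, hx, hy]; simp

variable {R : Type u} [CommRing R] [Algebra K R]

/-- Evaluation of the universal pair. -/
def biEval {N : Ideal R} (hN : N ^ 2 = ⊥) (u : Fin g ⊕ Fin g → R) (hu : ∀ j, u j ∈ N) :
    BiDual K g →ₐ[K] R :=
  TrivSqZeroExt.liftEquivOfComm ⟨Fintype.linearCombination K u, fun x y => by
    have hmem : ∀ z, Fintype.linearCombination K u z ∈ N := fun z => by
      rw [Fintype.linearCombination_apply]
      exact Submodule.sum_mem _ fun j _ => Submodule.smul_of_tower_mem _ _ (hu j)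
    have := Ideal.mul_mem_mul (hmem x) (hmem y)
    rw [← pow_two, hN] at this
    simpa using this⟩

theorem biEval_apply {N : Ideal R} (hN : N ^ 2 = ⊥) {u : Fin g ⊕ Fin g → R} (hu : ∀ j, u j ∈ N)
    {z : BiDual K g} (hz : z.fst = 0) : biEval hN u hu z = ∑ j, z.snd j • u j := by
  rw [show z = TrivSqZeroExt.inr z.snd from TrivSqZeroExt.ext (by simp [hz]) (by simp)]
  simp [biEval, Fintype.linearCombination_apply]

theorem biEval_biBasis {N : Ideal R} (hN : N ^ 2 = ⊥) {u : Fin g ⊕ Fin g → R} (hu : ∀ j, u j ∈ N)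
    (j : Fin g ⊕ Fin g) : biEval hN u hu (biBasis j : BiDual K g) = u j := by
  rw [biEval_apply hN hu (by simp [biBasis])]
  simp [biBasis, Pi.single_apply]

namespace Chart

variable {C : Chart L g}

theorem biEval_comp {N : Ideal R} (hN : N ^ 2 = ⊥) {u : Fin g ⊕ Fin g → R} (hu : ∀ j, u j ∈ N)
    {q : C.B →ₐ[K] BiDual K g} (hq : ∀ x, q x - C.origin' _ x ∈ biIdeal K g) {a : C.B →ₐ[K] R}
    (ha : ∀ x, a x - C.origin' R x ∈ N) (h : ∀ i, biEval hN u hu (q (C.t i)) = a (C.t i)) :
    (biEval hN u hu).comp q = a :=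
  ext_of_sq_zero C.etale (N := N) ⟨2, hN⟩ (fun x => by
    have h1 : biEval hN u hu (q x - C.origin' _ x) ∈ N := by
      rw [biEval_apply hN hu (hq x)]
      exact Submodule.sum_mem _ fun j _ => Submodule.smul_of_tower_mem _ _ (hu j)
    rw [map_sub, show biEval hN u hu (C.origin' _ x) = C.origin' R x from
      (biEval hN u hu).commutes _] at h1
    simpa using sub_mem h1 (ha x)) h

/-- The sum of two points which are congruent to the origin modulo a square zero ideal. -/
theorem add_of_sq_zero {N : Ideal R} (hN : N ^ 2 = ⊥) {a b c : C.B →ₐ[K] R}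
    (ha : ∀ x, a x - C.origin' R x ∈ N) (hb : ∀ x, b x - C.origin' R x ∈ N)
    (hab : Pts.map a C.ι + Pts.map b C.ι = Pts.map c C.ι) (i : Fin g) :
    c (C.t i) = a (C.t i) + b (C.t i) := by
  classical
  have hM2 := biIdeal_pow_two (K := K) (g := g)
  obtain ⟨al, hal, hal'⟩ :=
    C.exists_lift_of_sq_zero hM2 fun i => biBasis_mem (K := K) (g := g) (.inl i)
  obtain ⟨ar, har, har'⟩ :=
    C.exists_lift_of_sq_zero hM2 fun i => biBasis_mem (K := K) (g := g) (.inr i)
  obtain ⟨w, hw, hw'⟩ := C.exists_of_zero_mod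
    (P := Pts.map al C.ι + Pts.map ar C.ι) (J := biIdeal K g)
    (by
      intro x hx
      refine Ideal.mem_jacobson_bot.mpr fun y => ?_
      have : (x * y) ^ 2 = 0 := by
        rw [pow_two, ← Submodule.mem_bot (R := BiDual K g), ← hM2, pow_two]
        exact Ideal.mul_mem_mul (Ideal.mul_mem_right y _ hx) (Ideal.mul_mem_right y _ hx)
      exact IsNilpotent.isUnit_add_one ⟨2, this⟩)
    (by rw [map_add, (HasLin.of_hom hal').map_mk_eq_zero, (HasLin.of_hom har').map_mk_eq_zero,
      add_zero])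
  have hsplit : ∀ {R : Type u} [CommRing R] [Algebra K R] {N : Ideal R} (hN : N ^ 2 = ⊥)
      {u : Fin g ⊕ Fin g → R} (hu : ∀ j, u j ∈ N) {a b : C.B →ₐ[K] R},
      (∀ x, a x - C.origin' R x ∈ N) → (∀ x, b x - C.origin' R x ∈ N) →
      (∀ i, a (C.t i) = u (.inl i)) → (∀ i, b (C.t i) = u (.inr i)) →
      Pts.map ((biEval hN u hu).comp w) C.ι = Pts.map a C.ι + Pts.map b C.ι := by
    intro R _ _ N hN u hu a b ha hb hat hbt
    rw [Pts.map_comp, hw, map_add, ← Pts.map_comp, ← Pts.map_comp,
      biEval_comp hN hu hal' ha (fun i => by rw [hal, biEval_biBasis, hat]),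
      biEval_comp hN hu har' hb (fun i => by rw [har, biEval_biBasis, hbt])]
  have hw_t : w (C.t i) = biBasis (.inl i) + biBasis (.inr i) := by
    have hfst : (w (C.t i)).fst = 0 := mem_biIdeal.mp (mem_of_near hw' i)
    have h1 : biEval hM2 (Sum.elim (fun i => biBasis (.inl i)) fun _ => 0)
        (by rintro (j | j); exacts [biBasis_mem _, zero_mem _]) (w (C.t i)) = biBasis (.inl i) := by
      have := hsplit hM2 (u := Sum.elim (fun i => biBasis (.inl i)) fun _ => 0)
        (by rintro (j | j); exacts [biBasis_mem _, zero_mem _]) (b := C.origin' _) hal'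
        (fun x => by simp) hal (fun j => origin'_t C _ j)
      rw [C.map_origin', add_zero] at this
      exact congr($(C.hom_ext this) (C.t i)).trans (hal i)
    have h2 : biEval hM2 (Sum.elim (fun _ => 0) fun i => biBasis (.inr i))
        (by rintro (j | j); exacts [zero_mem _, biBasis_mem _]) (w (C.t i)) = biBasis (.inr i) := by
      have := hsplit hM2 (u := Sum.elim (fun _ => 0) fun i => biBasis (.inr i))
        (by rintro (j | j); exacts [zero_mem _, biBasis_mem _]) (a := C.origin' _)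
        (fun x => by simp) har' (fun j => origin'_t C _ j) har
      rw [C.map_origin', zero_add] at this
      exact congr($(C.hom_ext this) (C.t i)).trans (har i)
    rw [← h1, ← h2, biEval_apply hM2 _ hfst, biEval_apply hM2 _ hfst]
    refine TrivSqZeroExt.ext (by simp [hfst, biBasis, TrivSqZeroExt.fst_sum]) ?_
    funext j
    rcases j with j | j <;>
      simp [Fintype.sum_sum_type, TrivSqZeroExt.snd_sum, biBasis, Pi.single_apply]
  have hu : ∀ j, Sum.elim (fun i => a (C.t i)) (fun i => b (C.t i)) j ∈ N := by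
    rintro (j | j)
    exacts [mem_of_near ha j, mem_of_near hb j]
  have hc' : (biEval hN _ hu).comp w = c := C.hom_ext (by
    rw [hsplit hN hu ha hb (fun _ => rfl) (fun _ => rfl), hab])
  rw [← hc', AlgHom.comp_apply, hw_t, map_add, biEval_biBasis, biEval_biBasis]
  rfl

theorem near_add {J : Ideal R} (hJ : J ≤ Ideal.jacobson ⊥) {P Q : Pts f L R} {v w : Fin g → R}
    (hP : C.HasLin J P v) (hQ : C.HasLin J Q w) : C.HasLin J (P + Q) (v + w) := by
  obtain ⟨a, rfl, ha, hav⟩ := hP
  obtain ⟨b, rfl, hb, hbw⟩ := hQ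
  obtain ⟨c, hc, hc'⟩ := C.exists_of_zero_mod hJ
    (show Pts.map (Ideal.Quotient.mkₐ K J) (Pts.map a C.ι + Pts.map b C.ι) = 0 by
      rw [map_add, (HasLin.of_hom ha).map_mk_eq_zero, (HasLin.of_hom hb).map_mk_eq_zero, add_zero])
  let q : R →ₐ[K] R ⧸ J ^ 2 := Ideal.Quotient.mkₐ K _
  have hN : (J.map q) ^ 2 = ⊥ := by rw [← Ideal.map_pow]; exact Ideal.map_quotient_self _
  have hmem : ∀ {a : C.B →ₐ[K] R}, (∀ x, a x - C.origin' R x ∈ J) →
      ∀ x, q.comp a x - C.origin' (R ⧸ J ^ 2) x ∈ J.map q := fun {a} ha x => by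
    rw [show C.origin' (R ⧸ J ^ 2) x = q (C.origin' R x) from (q.commutes _).symm,
      AlgHom.comp_apply, ← map_sub]
    exact Ideal.mem_map_of_mem _ (ha x)
  refine ⟨c, hc, hc', fun i => ?_⟩
  have := add_of_sq_zero hN (hmem ha) (hmem hb) (c := q.comp c)
    (by rw [Pts.map_comp, Pts.map_comp, Pts.map_comp, ← map_add, hc]) i
  have hsum : c (C.t i) - (a (C.t i) + b (C.t i)) ∈ J ^ 2 :=
    Ideal.Quotient.eq.mp (this.trans (map_add q _ _).symm)
  have := add_mem hsum (add_mem (hav i) (hbw i))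
  rw [Pi.add_apply]
  convert this using 1
  ring

theorem near_nsmul {J : Ideal R} (hJ : J ≤ Ideal.jacobson ⊥) {P : Pts f L R} {v : Fin g → R}
    (hP : C.HasLin J P v) (n : ℕ) : C.HasLin J (n • P) (n • v) := by
  induction n with
  | zero => rw [zero_nsmul, zero_nsmul]; exact HasLin.zero J
  | succ n ih => rw [succ_nsmul, succ_nsmul]; exact near_add hJ ih hP

theorem near_sum {J : Ideal R} (hJ : J ≤ Ideal.jacobson ⊥) {ι' : Type*} (s : Finset ι')
    {P : ι' → Pts f L R} {v : ι' → Fin g → R} (hP : ∀ j ∈ s, C.HasLin J (P j) (v j)) :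
    C.HasLin J (∑ j ∈ s, P j) (∑ j ∈ s, v j) := by
  classical
  induction s using Finset.induction with
  | empty => simpa using HasLin.zero J
  | @insert j s hj ih =>
    rw [Finset.sum_insert hj, Finset.sum_insert hj]
    exact near_add hJ (hP j (Finset.mem_insert_self j s))
      (ih fun k hk => hP k (Finset.mem_insert_of_mem hk))

theorem HasLin.map {S : Type u} [CommRing S] [Algebra K S] (φ : R →ₐ[K] S) {J : Ideal R}
    {J' : Ideal S} (hJ : J.map φ ≤ J') {P : Pts f L R} {v : Fin g → R} (h : C.HasLin J P v) :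
    C.HasLin J' (Pts.map φ P) (φ ∘ v) := by
  obtain ⟨a, rfl, ha, hav⟩ := h
  refine ⟨φ.comp a, Pts.map_comp _ _ _, fun x => hJ ?_, fun i => ?_⟩
  · rw [show C.origin' S x = φ (C.origin' R x) from (φ.commutes _).symm, AlgHom.comp_apply,
      ← map_sub]
    exact Ideal.mem_map_of_mem _ (ha x)
  · have := Ideal.mem_map_of_mem φ (hav i)
    rw [Ideal.map_pow, map_sub] at this
    exact Ideal.pow_right_mono hJ 2 this

theorem HasLin.sub_mem {J : Ideal R} {v w : Fin g → R} {P : Pts f L R} (h : C.HasLin J P v)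
    (h' : C.HasLin J P w) (i : Fin g) : v i - w i ∈ J ^ 2 := by
  obtain ⟨a, rfl, -, hav⟩ := h
  obtain ⟨b, hb, -, hbw⟩ := h'
  rw [C.hom_ext hb] at hbw
  simpa using _root_.sub_mem (hbw i) (hav i)

theorem natCast_mul_mem {J : Ideal R} (hJ : J ≤ Ideal.jacobson ⊥) {a : C.B →ₐ[K] R}
    (ha : ∀ x, a x - C.origin' R x ∈ J) {n : ℕ} (hn : n • Pts.map a C.ι = 0) (i : Fin g) :
    (n : R) * a (C.t i) ∈ J ^ 2 := by
  have h := near_nsmul hJ (HasLin.of_hom ha) n
  rw [hn] at h
  simpa using h.sub_mem (HasLin.zero J) i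

theorem mem_pow_two_of_natCast_mul {n : ℕ} (hn : (n : K) ≠ 0) {J : Ideal R} {x : R}
    (h : (n : R) * x ∈ J ^ 2) : x ∈ J ^ 2 := by
  have := (J ^ 2).mul_mem_left (algebraMap K R (n : K)⁻¹) h
  rwa [← mul_assoc, show (n : R) = algebraMap K R (n : K) from (map_natCast _ n).symm, ← map_mul,
    inv_mul_cancel₀ hn, map_one, one_mul] at this

/-- A point which is infinitesimally close to zero and killed by `n` is zero. -/
theorem eq_zero_of_sq_zero (C : Chart L g) {N : Ideal R} (hN : N ^ 2 = ⊥) {P : Pts f L R} {n : ℕ}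
    (hn : (n : K) ≠ 0) (hP : Pts.map (Ideal.Quotient.mkₐ K N) P = 0) (h : n • P = 0) : P = 0 := by
  have hJ : N ≤ Ideal.jacobson ⊥ := fun x hx => Ideal.mem_jacobson_bot.mpr fun y => by
    have : (x * y) ^ 2 = 0 := by
      rw [pow_two, ← Submodule.mem_bot (R := R), ← hN, pow_two]
      exact Ideal.mul_mem_mul (Ideal.mul_mem_right y _ hx) (Ideal.mul_mem_right y _ hx)
    exact IsNilpotent.isUnit_add_one ⟨2, this⟩
  obtain ⟨a, rfl, ha⟩ := C.exists_of_zero_mod hJ hP
  have h0 : ∀ i, a (C.t i) = 0 := fun i => by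
    have := mem_pow_two_of_natCast_mul hn (natCast_mul_mem hJ ha h i)
    rwa [hN, Submodule.mem_bot] at this
  rw [ext_of_sq_zero C.etale ⟨2, hN⟩ ha (fun i => by simp [h0]), C.map_origin']

/-- A point over a Noetherian local ring which reduces to zero and is killed by `n` is zero. -/
theorem eq_zero_of_nsmul (C : Chart L g) [IsLocalRing R] [IsNoetherianRing R] (ε : R →ₐ[K] K)
    {P : Pts f L R} {n : ℕ} (hn : (n : K) ≠ 0) (hP : Pts.map ε P = 0) (h : n • P = 0) : P = 0 := by
  let m := IsLocalRing.maximalIdeal R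
  have hm : ∀ x, x - algebraMap K R (ε x) ∈ m := fun x hu =>
    (IsUnit.map ε hu).ne_zero (by simp)
  have hP' : Pts.map (Ideal.Quotient.mkₐ K m) P = 0 := by
    have : Ideal.Quotient.mkₐ K m = (Algebra.ofId K (R ⧸ m)).comp ε :=
      AlgHom.ext fun x => Ideal.Quotient.eq.mpr (hm x)
    rw [this, Pts.map_comp, hP, map_zero]
  obtain ⟨a, rfl, ha⟩ := C.exists_of_zero_mod (IsLocalRing.maximalIdeal_le_jacobson ⊥) hP'
  -- the ideal of the coordinates
  let I := Ideal.span (Set.range fun i => a (C.t i))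
  have hIm : I ≤ m := Ideal.span_le.mpr (by rintro _ ⟨i, rfl⟩; exact mem_of_near ha i)
  have haI : ∀ x, a x - C.origin' R x ∈ I := fun x => by
    have := ext_of_iInf_pow C.etale (N := m.map (Ideal.Quotient.mk I))
      (a := (Ideal.Quotient.mkₐ K I).comp a) (b := C.origin' (R ⧸ I)) ?_
      (fun x => by
        rw [show C.origin' (R ⧸ I) x = Ideal.Quotient.mk I (C.origin' R x) from rfl,
          AlgHom.comp_apply, Ideal.Quotient.mkₐ_eq_mk, ← map_sub]
        exact Ideal.mem_map_of_mem _ (ha x))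
      (fun i => by
        rw [origin'_t, AlgHom.comp_apply]
        exact Ideal.Quotient.eq_zero_iff_mem.mpr (Ideal.subset_span ⟨i, rfl⟩))
    · exact Ideal.Quotient.eq.mp congr($this x)
    have : Nontrivial (R ⧸ I) :=
      Ideal.Quotient.nontrivial_iff.mpr fun e =>
        (IsLocalRing.maximalIdeal.isMaximal R).ne_top (top_unique (e ▸ hIm))
    have : IsLocalRing (R ⧸ I) := .of_surjective' _ Ideal.Quotient.mk_surjective
    exact Ideal.iInf_pow_eq_bot_of_isLocalRing _ fun e =>
      (IsLocalRing.maximalIdeal.isMaximal R).ne_top (top_unique (by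
        rw [← Ideal.comap_top (f := Ideal.Quotient.mk I), ← e,
          Ideal.comap_map_of_surjective _ Ideal.Quotient.mk_surjective, sup_le_iff,
          ← RingHom.ker_eq_comap_bot, Ideal.mk_ker]
        exact ⟨le_rfl, hIm⟩))
  have hI : I ≤ I ^ 2 := Ideal.span_le.mpr (by
    rintro _ ⟨i, rfl⟩
    exact mem_pow_two_of_natCast_mul hn
      (natCast_mul_mem (hIm.trans (IsLocalRing.maximalIdeal_le_jacobson ⊥)) haI h i))
  have hI0 : I = ⊥ := Submodule.eq_bot_of_le_smul_of_le_jacobson_bot I I (IsNoetherian.noetherian I)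
    (by rw [smul_eq_mul, ← pow_two]; exact hI) (hIm.trans (IsLocalRing.maximalIdeal_le_jacobson ⊥))
  have : a = C.origin' R := AlgHom.ext fun x => by
    simpa [hI0, sub_eq_zero] using haI x
  rw [this, C.map_origin']

end Chart

end Fermat.Agent.Tors
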