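import Fermat.Agent.Tors.Germs

/-!
# Power series germs at the origin and curves through it (`S26`)
-/

set_option autoImplicit false

noncomputable section

universe u

open CategoryTheory AlgebraicGeometry NeronModelInfra GoodReductionJacobian IsLocalRing

namespace Fermat.Agent.Tors

variable {K : Type u} [Field K] {A : Scheme.{u}} {f : A ⟶ Spec (CommRingCat.of K)}
  {L : RelativeGroupLaw K f} [hc : Fact L.IsCommutative] {g : ℕ}

instance isDomain_mvPowerSeries : IsDomain (MvPowerSeries (Fin g) K) :=
  NoZeroDivisors.to_isDomain _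

theorem X_mem_maximalIdeal (i : Fin g) :
    (MvPowerSeries.X i : MvPowerSeries (Fin g) K) ∈ maximalIdeal (MvPowerSeries (Fin g) K) := by
  rw [maximalIdeal_mvPowerSeries_eq_span]
  exact Ideal.subset_span ⟨i, rfl⟩

theorem constantCoeff_eq_zero_of_mem_maximalIdeal {x : MvPowerSeries (Fin g) K}
    (h : x ∈ maximalIdeal (MvPowerSeries (Fin g) K)) : MvPowerSeries.constantCoeff x = 0 := by
  by_contra hne
  exact h (MvPowerSeries.isUnit_iff_constantCoeff.mpr (Ne.isUnit hne))

/-- Series tangent to a nonzero multiple of the coordinates are algebraically independent. -/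
theorem aeval_injective_of_tangent {s : Fin g → MvPowerSeries (Fin g) K} {c : K} (hc0 : c ≠ 0)
    (hs : ∀ i, s i - c • MvPowerSeries.X i ∈ maximalIdeal (MvPowerSeries (Fin g) K) ^ 2) :
    Function.Injective (MvPolynomial.aeval (R := K) s) := by
  let M := maximalIdeal (MvPowerSeries (Fin g) K)
  have hsM : ∀ i, c⁻¹ • s i ∈ M := fun i => Submodule.smul_of_tower_mem M _ (by
    rw [← sub_add_cancel (s i) (c • MvPowerSeries.X i)]
    exact add_mem (Ideal.pow_le_self two_ne_zero (hs i))
      (Submodule.smul_of_tower_mem M _ (X_mem_maximalIdeal i)))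
  have hsub : MvPowerSeries.HasSubst fun i => c⁻¹ • s i :=
    MvPowerSeries.hasSubst_of_constantCoeff_zero fun i =>
      constantCoeff_eq_zero_of_mem_maximalIdeal (hsM i)
  have hθ := bijective_of_sub_X_mem_sq (MvPowerSeries.substAlgHom hsub) fun i => by
    rw [MvPowerSeries.substAlgHom_X]
    have := Submodule.smul_of_tower_mem (M ^ 2) c⁻¹ (hs i)
    rwa [smul_sub, inv_smul_smul₀ hc0] at this
  let co : MvPolynomial (Fin g) K →ₐ[K] MvPowerSeries (Fin g) K :=
    MvPolynomial.coeToMvPowerSeries.algHom K
  let sc : MvPolynomial (Fin g) K →ₐ[K] MvPolynomial (Fin g) K :=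
    MvPolynomial.aeval fun i => c • MvPolynomial.X i
  have h1 : MvPolynomial.aeval s = ((MvPowerSeries.substAlgHom hsub).comp co).comp sc := by
    refine MvPolynomial.algHom_ext fun i => ?_
    simp only [sc, co, AlgHom.comp_apply, MvPolynomial.aeval_X, map_smul,
      MvPolynomial.coeToMvPowerSeries.algHom_apply, MvPolynomial.coe_X, MvPowerSeries.map_X,
      MvPowerSeries.substAlgHom_X, smul_inv_smul₀ hc0]
  have h2 : Function.Injective sc := by
    refine Function.LeftInverse.injective
      (g := MvPolynomial.aeval (R := K) fun i => c⁻¹ • (MvPolynomial.X i : MvPolynomial (Fin g) K))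
      fun p => ?_
    have : (MvPolynomial.aeval fun i => c⁻¹ • (MvPolynomial.X i : MvPolynomial (Fin g) K)).comp sc
        = AlgHom.id K _ := MvPolynomial.algHom_ext fun i => by
      simp [sc, map_smul, smul_smul, hc0]
    exact congr($this p)
  have h3 : Function.Injective co := fun p q h => by
    simpa [co, MvPolynomial.coeToMvPowerSeries.algHom_apply] using h
  rw [h1]
  exact hθ.1.comp (h3.comp h2)

/-- Fields generated by étale coordinates are finite and separable over the coordinates. -/
theorem finite_and_isSeparable {B : Type u} [CommRing B] [Algebra K B] {t : Fin g → B}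
    (ht : (MvPolynomial.aeval (R := K) t).toRingHom.Etale) {Q F : Type u} [Field Q] [Field F]
    [Algebra K Q] [Algebra Q F] [Algebra K F] [IsScalarTower K Q F] (s : Fin g → Q)
    (a : B →ₐ[K] F) (ha : ∀ i, a (t i) = algebraMap Q F (s i))
    (hgen : ∀ S : Subfield F, Set.range (algebraMap Q F) ⊆ S → Set.range a ⊆ S → S = ⊤) :
    FiniteDimensional Q F ∧ Algebra.IsSeparable Q F := by
  let P := MvPolynomial (Fin g) K
  let φ : P →ₐ[K] B := MvPolynomial.aeval t
  let : Algebra P B := φ.toRingHom.toAlgebra
  have : Algebra.Etale P B := ht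
  let ψ : P →ₐ[K] Q := MvPolynomial.aeval s
  let : Algebra P Q := ψ.toRingHom.toAlgebra
  let : Algebra P F := ((IsScalarTower.toAlgHom K Q F).comp ψ).toRingHom.toAlgebra
  have : IsScalarTower P Q F := IsScalarTower.of_algebraMap_eq fun _ => rfl
  have hcomp : a.comp φ = (IsScalarTower.toAlgHom K Q F).comp ψ :=
    MvPolynomial.algHom_ext fun i => by simp [φ, ψ, ha]
  let a' : B →ₐ[P] F := { a.toRingHom with commutes' := fun p => congr($hcomp p) }
  let T := TensorProduct P Q B
  let m : T →ₐ[Q] F := Algebra.TensorProduct.lift (Algebra.ofId Q F) a' fun _ _ => Commute.all _ _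
  have : Module.Finite Q T := Algebra.FormallyUnramified.finite_of_free Q T
  have : Module.Finite Q m.range := Module.Finite.of_surjective m.rangeRestrict.toLinearMap
    m.rangeRestrict_surjective
  have : Algebra.IsIntegral Q m.range := Algebra.IsIntegral.of_finite Q _
  have hfield : IsField m.range :=
    isField_of_isIntegral_of_isField' (R := Q) (Field.toIsField Q)
  let S : Subfield F :=
    { m.range.toSubring with
      inv_mem' := fun x hx => by
        by_cases h : x = 0
        · rw [h, inv_zero]; exact m.range.zero_mem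
        obtain ⟨y, hy⟩ := hfield.mul_inv_cancel (a := (⟨x, hx⟩ : m.range))
          (fun e => h congr(($e).1))
        have : x * y = 1 := congr(($hy).1)
        rw [inv_eq_of_mul_eq_one_right this]
        exact y.2 }
  have hS := hgen S (by rintro _ ⟨x, rfl⟩; exact m.range.algebraMap_mem x)
    (by rintro _ ⟨x, rfl⟩; exact ⟨1 ⊗ₜ x, (Algebra.TensorProduct.lift_tmul _ _ _ _ _).trans (by simp [a'])⟩)
  have hm : Function.Surjective m := fun x => by
    have : x ∈ S := hS ▸ Subfield.mem_top x
    exact this
  have hfin : FiniteDimensional Q F := Module.Finite.of_surjective m.toLinearMap hm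
  have : Algebra.FormallyUnramified Q F := Algebra.FormallyUnramified.of_surjective m hm
  exact ⟨hfin, (Algebra.FormallyUnramified.iff_isSeparable (K := Q) F).mp this⟩

namespace Chart

variable (C : Chart L g)

/-- Morphisms from the chart to power series with prescribed values at the coordinates. -/
theorem exists_germ {s : Fin g → MvPowerSeries (Fin g) K}
    (hs : ∀ i, s i ∈ maximalIdeal (MvPowerSeries (Fin g) K)) :
    ∃ a : C.B →ₐ[K] MvPowerSeries (Fin g) K, (∀ i, a (C.t i) = s i) ∧
      ∀ x, a x - C.origin' _ x ∈ maximalIdeal (MvPowerSeries (Fin g) K) :=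
  C.exists_lift hs

theorem aeval_t_injective : Function.Injective (MvPolynomial.aeval (R := K) C.t) := by
  obtain ⟨a, ha, -⟩ := C.exists_germ X_mem_maximalIdeal
  refine Function.Injective.of_comp (f := a) ?_
  rw [← AlgHom.coe_comp, MvPolynomial.comp_aeval, show (fun i => a (C.t i)) = _ from funext ha]
  exact aeval_injective_of_tangent one_ne_zero fun i => by simp

section FractionField

variable {F : Type u} [Field F] [Algebra C.B F] [IsFractionRing C.B F] [Algebra K F]
  [IsScalarTower K C.B F]

/-- The coordinates in the function field are algebraically independent. -/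
theorem algebraicIndependent_t :
    AlgebraicIndependent K fun i => algebraMap C.B F (C.t i) :=
  AlgebraicIndependent.map' (f := IsScalarTower.toAlgHom K C.B F) C.aeval_t_injective
    (IsFractionRing.injective C.B F)

/-- The function field is finite separable over the field of the coordinates. -/
theorem finite_and_isSeparable_t :
    FiniteDimensional (IntermediateField.adjoin K (Set.range fun i => algebraMap C.B F (C.t i))) F ∧
      Algebra.IsSeparable
        (IntermediateField.adjoin K (Set.range fun i => algebraMap C.B F (C.t i))) F := by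
  refine finite_and_isSeparable C.etale
    (fun i => ⟨_, IntermediateField.subset_adjoin K _ ⟨i, rfl⟩⟩)
    (IsScalarTower.toAlgHom K C.B F) (fun i => rfl) fun S _ hS => ?_
  refine top_unique fun x _ => ?_
  obtain ⟨b, c, -, rfl⟩ := IsFractionRing.div_surjective (A := C.B) x
  exact S.div_mem (hS ⟨b, rfl⟩) (hS ⟨c, rfl⟩)

end FractionField

/-- A morphism of the chart with algebraically independent coordinates is injective. -/
theorem injective_of_aeval_injective {R : Type u} [CommRing R] [Algebra K R] {a : C.B →ₐ[K] R}
    (h : Function.Injective (MvPolynomial.aeval (R := K) fun i => a (C.t i))) :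
    Function.Injective a := by
  let F := FractionRing C.B
  let P := MvPolynomial (Fin g) K
  let φ : P →ₐ[K] C.B := MvPolynomial.aeval C.t
  let : Algebra P C.B := φ.toRingHom.toAlgebra
  have : IsScalarTower K P C.B := IsScalarTower.of_algebraMap_eq fun c => (φ.commutes c).symm
  have hinj : Function.Injective (algebraMap P F) := by
    rw [IsScalarTower.algebraMap_eq P C.B F]
    exact (IsFractionRing.injective C.B F).comp C.aeval_t_injective
  have : IsScalarTower K P F := IsScalarTower.of_algebraMap_eq fun c => by
    rw [IsScalarTower.algebraMap_apply P C.B F, ← IsScalarTower.algebraMap_apply K P C.B,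
      ← IsScalarTower.algebraMap_apply K C.B F]
  have : FaithfulSMul P F := (faithfulSMul_iff_algebraMap_injective P F).mpr hinj
  let Q := FractionRing P
  let : Algebra Q F := FractionRing.liftAlgebra P F
  have : IsScalarTower P Q F := inferInstance
  have : IsScalarTower K Q F := IsScalarTower.of_algebraMap_eq fun c => by
    rw [IsScalarTower.algebraMap_apply K P Q, ← IsScalarTower.algebraMap_apply P Q F,
      ← IsScalarTower.algebraMap_apply K P F]
  obtain ⟨hfin, -⟩ := finite_and_isSeparable C.etale (Q := Q) (F := F)
    (fun i => algebraMap P Q (MvPolynomial.X i)) (IsScalarTower.toAlgHom K C.B F)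
    (fun i => by
      rw [← IsScalarTower.algebraMap_apply P Q F, IsScalarTower.algebraMap_apply P C.B F]
      show algebraMap C.B F (C.t i) = algebraMap C.B F (φ (MvPolynomial.X i))
      rw [show φ (MvPolynomial.X i) = C.t i from MvPolynomial.aeval_X _ _])
    fun S _ hS => top_unique fun x _ => by
      obtain ⟨b, c, -, rfl⟩ := IsFractionRing.div_surjective (A := C.B) x
      exact S.div_mem (hS ⟨b, rfl⟩) (hS ⟨c, rfl⟩)
  refine (injective_iff_map_eq_zero a).mpr fun b hb => ?_
  by_contra hb0
  have halg : IsAlgebraic P b := by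
    rw [← isAlgebraic_algebraMap_iff (IsFractionRing.injective C.B F),
      IsFractionRing.isAlgebraic_iff P Q F]
    exact Algebra.IsAlgebraic.isAlgebraic _
  obtain ⟨p, hp0, hp⟩ :=
    halg.exists_nonzero_coeff_and_aeval_eq_zero (mem_nonZeroDivisors_of_ne_zero hb0)
  apply hp0
  have := congrArg a hp
  rw [← Polynomial.X_mul_divX_add p, map_add, map_mul, Polynomial.aeval_X, Polynomial.aeval_C,
    map_add, map_mul, hb, zero_mul, zero_add, map_zero] at this
  refine h ?_
  rw [map_zero, ← MvPolynomial.comp_aeval]
  exact this

/-- Germs tangent to a nonzero multiple of the coordinates are generic. -/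
theorem injective_of_tangent {a : C.B →ₐ[K] MvPowerSeries (Fin g) K} {c : K} (hc0 : c ≠ 0)
    (ha : ∀ i, a (C.t i) - c • MvPowerSeries.X i ∈ maximalIdeal (MvPowerSeries (Fin g) K) ^ 2) :
    Function.Injective a :=
  C.injective_of_aeval_injective (aeval_injective_of_tangent hc0 ha)

/-- A near point tangent to a nonzero multiple of the coordinates is generic. -/
theorem exists_iota_of_hasLin {P : Pts f L (MvPowerSeries (Fin g) K)} {c : K} (hc0 : c ≠ 0)
    (hP : C.HasLin (maximalIdeal (MvPowerSeries (Fin g) K)) P fun i => c • MvPowerSeries.X i) :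
    ∃ a : C.B →ₐ[K] MvPowerSeries (Fin g) K, Function.Injective a ∧ Pts.map a C.ι = P := by
  obtain ⟨a, rfl, -, ha⟩ := hP
  exact ⟨a, C.injective_of_tangent hc0 ha, rfl⟩

end Chart

end Fermat.Agent.Tors
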