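import Mathlib

/-!
# Spaces of functions with bounded poles, measured by valuation subrings

A divisor is given by a choice `s V` of a local equation at every valuation subring `V` of the
function field containing the constants.
-/

noncomputable section

namespace Fermat.Agent.Tors

open scoped BigOperators

variable (k : Type*) [Field k] {F : Type*} [Field F] [Algebra k F]

/-- A valuation subring containing the constants. -/
def IsConstVal (V : ValuationSubring F) : Prop := ∀ c : k, algebraMap k F c ∈ V

/-- Functions with poles bounded by `m` times the divisor with local equations `s`. -/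
def poleSpace (s : ValuationSubring F → F) (m : ℕ) : Submodule k F where
  carrier := {f | ∀ V, IsConstVal k V → s V ^ m * f ∈ V}
  add_mem' := fun {f g} hf hg V hV => by
    rw [mul_add]; exact add_mem (hf V hV) (hg V hV)
  zero_mem' := fun V _ => by simp
  smul_mem' := fun c f hf V hV => by
    show s V ^ m * (c • f) ∈ V
    rw [Algebra.smul_def, mul_left_comm]
    exact mul_mem (hV c) (hf V hV)

variable {k}

theorem mem_poleSpace {s : ValuationSubring F → F} {m : ℕ} {f : F} :
    f ∈ poleSpace k s m ↔ ∀ V, IsConstVal k V → s V ^ m * f ∈ V := Iff.rfl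

theorem mul_mem_poleSpace {s : ValuationSubring F → F} {a b : ℕ} {f g : F}
    (hf : f ∈ poleSpace k s a) (hg : g ∈ poleSpace k s b) : f * g ∈ poleSpace k s (a + b) :=
  fun V hV => by
    rw [show s V ^ (a + b) * (f * g) = (s V ^ a * f) * (s V ^ b * g) by ring]
    exact mul_mem (hf V hV) (hg V hV)

theorem poleSpace_mono {s : ValuationSubring F → F} (hs : ∀ V, IsConstVal k V → s V ∈ V)
    {a b : ℕ} (h : a ≤ b) : poleSpace k s a ≤ poleSpace k s b := fun f hf V hV => by
  rw [← Nat.sub_add_cancel h, pow_add, mul_assoc]
  exact mul_mem (pow_mem (hs V hV) _) (hf V hV)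

theorem one_mem_poleSpace {s : ValuationSubring F → F} (hs : ∀ V, IsConstVal k V → s V ∈ V)
    (m : ℕ) : (1 : F) ∈ poleSpace k s m := fun V hV => by
  rw [mul_one]; exact pow_mem (hs V hV) _

theorem pow_mem_poleSpace {s : ValuationSubring F → F} {a : ℕ} {f : F}
    (hf : f ∈ poleSpace k s a) : ∀ n, f ^ n ∈ poleSpace k s (n * a)
  | 0 => fun V _ => by simp
  | n + 1 => by
    rw [pow_succ, Nat.succ_mul]
    exact mul_mem_poleSpace (pow_mem_poleSpace hf n) hf

/-- An element lying in all valuation subrings over `A` is integral over `A`. -/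
theorem isIntegral_of_forall_mem_valuationSubring {A : Type*} [CommRing A] [Algebra A F] {z : F}
    (h : ∀ V : ValuationSubring F, (∀ a, algebraMap A F a ∈ V) → z ∈ V) : IsIntegral A z := by
  by_contra hz
  obtain ⟨V, hV, hzV⟩ := Subring.exists_le_valuationSubring_of_isIntegrallyClosedIn
    (R := (integralClosure A F).toSubring) (x := z) hz
  exact hzV (h V fun a => hV ((integralClosure A F).algebraMap_mem a))

/-- Integral elements over a ring contained in a valuation subring lie in it. -/
theorem mem_valuationSubring_of_isIntegral {A : Type*} [CommRing A] [Algebra A F] {z : F}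
    {V : ValuationSubring F} (hV : ∀ a, algebraMap A F a ∈ V) (hz : IsIntegral A z) : z ∈ V := by
  let φ : A →+* V := (algebraMap A F).codRestrict V.toSubring hV
  let : Algebra A V := φ.toAlgebra
  have : IsScalarTower A V F := IsScalarTower.of_algebraMap_eq fun _ => rfl
  obtain ⟨y, hy⟩ := IsIntegrallyClosed.isIntegral_iff.mp (hz.tower_top (A := V))
  exact hy ▸ y.2

section Pullback

open Polynomial in
/-- An element lying in all valuation subrings of `F'` lying exactly over `V₀` is integral
over `V₀`. -/
theorem isIntegral_of_forall_comap_eq {F' : Type*} [Field F'] [Algebra F F']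
    (V₀ : ValuationSubring F) {z : F'}
    (h : ∀ V : ValuationSubring F', V.comap (algebraMap F F') = V₀ → z ∈ V) :
    IsIntegral V₀ z := by
  by_contra hz
  have hz0 : z ≠ 0 := fun h => hz (h ▸ isIntegral_zero)
  let := invertibleOfNonzero hz0
  set B := Algebra.adjoin V₀ {z⁻¹}
  let zinv : B := ⟨z⁻¹, Algebra.subset_adjoin rfl⟩
  set I : Ideal B := (IsLocalRing.maximalIdeal V₀).map (algebraMap V₀ B) ⊔ Ideal.span {zinv}
  have hI : I ≠ ⊤ := fun eq => hz <| by
    obtain ⟨p, hp, hpz⟩ := Algebra.exists_aeval_invOf_eq_zero_of_idealMap_adjoin_sup_span_eq_top z⁻¹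
      (IsLocalRing.maximalIdeal V₀) (IsLocalRing.maximalIdeal.isMaximal V₀).ne_top eq
    have hu : IsUnit p.leadingCoeff := of_not_not fun hnu =>
      (IsLocalRing.maximalIdeal.isMaximal V₀).ne_top ((Ideal.eq_top_iff_one _).mpr (by
        simpa using sub_mem (show p.leadingCoeff ∈ IsLocalRing.maximalIdeal V₀ from hnu) hp))
    exact ⟨.C (hu.unit⁻¹ : V₀ˣ).1 * p, by simp [Monic], by
      rw [← aeval_def]; simp only [invOf_eq_inv, inv_inv] at hpz; simp [hpz]⟩
  obtain ⟨V, hBV, hIV⟩ :=
    Ideal.image_subset_nonunits_valuationSubring (A := B.toSubring) I hI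
  have hnon : ∀ b : B, b ∈ I → (b : F') ∈ V.nonunits := fun b hb => hIV ⟨b, hb, rfl⟩
  have hle : ∀ a : V₀, algebraMap F F' a ∈ V := fun a => hBV (B.algebraMap_mem a)
  refine ((V.inv_mem_nonunits_iff.mp (hnon zinv
    (Ideal.mem_sup_right (Ideal.mem_span_singleton_self _)))).resolve_left hz0) (h V ?_)
  ext a
  rw [ValuationSubring.mem_comap]
  refine ⟨fun ha => ?_, fun ha => hle ⟨a, ha⟩⟩
  rcases V₀.mem_or_inv_mem a with h1 | h1
  · exact h1
  by_contra hna
  have hm : (⟨a⁻¹, h1⟩ : V₀) ∈ IsLocalRing.maximalIdeal V₀ := by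
    intro hu
    obtain ⟨u, hu⟩ := isUnit_iff_exists_inv.mp hu
    have ha0 : a ≠ 0 := fun h => hna (h ▸ V₀.zero_mem)
    have : (u : F) = a := by
      have h2 := congrArg Subtype.val hu
      simp only [MulMemClass.coe_mul, OneMemClass.coe_one] at h2
      field_simp at h2
      exact h2
    exact hna (this ▸ u.2)
  have hn := hnon (algebraMap V₀ B ⟨a⁻¹, h1⟩) (Ideal.mem_sup_left (Ideal.mem_map_of_mem _ hm))
  rw [show ((algebraMap V₀ B ⟨a⁻¹, h1⟩ : B) : F') = (algebraMap F F' a)⁻¹ by
    rw [← map_inv₀]; rfl, ValuationSubring.inv_mem_nonunits_iff] at hn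
  rcases hn with h0 | h0
  · exact hna (((map_eq_zero _).mp h0) ▸ V₀.zero_mem)
  · exact h0 ha

variable {F' : Type*} [Field F'] [Algebra F F'] [Algebra k F'] [IsScalarTower k F F']

variable (F') in
/-- The pulled back local equations along a field extension. -/
def pullEq (s : ValuationSubring F → F) : ValuationSubring F' → F' := fun V =>
  algebraMap F F' (s (V.comap (algebraMap F F')))

theorem IsConstVal.comap {V : ValuationSubring F'} (hV : IsConstVal k V) :
    IsConstVal k (V.comap (algebraMap F F')) := fun c => by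
  rw [ValuationSubring.mem_comap, ← IsScalarTower.algebraMap_apply]; exact hV c

theorem algebraMap_mem_poleSpace_pullEq {s : ValuationSubring F → F} {m : ℕ} {f : F}
    (hf : f ∈ poleSpace k s m) : algebraMap F F' f ∈ poleSpace k (pullEq F' s) m := fun V hV => by
  have := hf _ hV.comap
  rwa [ValuationSubring.mem_comap, map_mul, map_pow] at this

theorem trace_mem_poleSpace [FiniteDimensional F F'] {s : ValuationSubring F → F} {m : ℕ}
    {f : F'} (hf : f ∈ poleSpace k (pullEq F' s) m) :
    Algebra.trace F F' f ∈ poleSpace k s m := by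
  intro V₀ hV₀
  rw [← smul_eq_mul, ← map_smul, Algebra.smul_def, map_pow]
  have hint : IsIntegral V₀ (algebraMap F F' (s V₀) ^ m * f) := by
    refine isIntegral_of_forall_comap_eq V₀ fun V hV => ?_
    have hVc : IsConstVal k V := fun c => by
      have : algebraMap k F c ∈ V.comap (algebraMap F F') := hV ▸ hV₀ c
      rwa [ValuationSubring.mem_comap, ← IsScalarTower.algebraMap_apply] at this
    simpa only [pullEq, hV] using hf V hVc
  obtain ⟨y, hy⟩ := IsIntegrallyClosed.isIntegral_iff.mp (Algebra.isIntegral_trace (L := F) hint)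
  exact hy ▸ y.2

variable [FiniteDimensional F F'] {ι : Type*} [Fintype ι] (b : Module.Basis ι F F')

theorem card_mul_finrank_le {s : ValuationSubring F → F} {m c : ℕ}
    (hb : ∀ i, b i ∈ poleSpace k (pullEq F' s) c)
    [FiniteDimensional k (poleSpace k (pullEq F' s) (m + c))] :
    Fintype.card ι * Module.finrank k (poleSpace k s m) ≤
      Module.finrank k (poleSpace k (pullEq F' s) (m + c)) := by
  let T : (ι → poleSpace k s m) →ₗ[k] poleSpace k (pullEq F' s) (m + c) :=
    { toFun := fun v => ⟨∑ i, algebraMap F F' (v i) * b i, sum_mem fun i _ =>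
        mul_mem_poleSpace (algebraMap_mem_poleSpace_pullEq (v i).2) (hb i)⟩
      map_add' := fun v w => Subtype.ext (by simp [add_mul, Finset.sum_add_distrib])
      map_smul' := fun c v => Subtype.ext (by
        simp [Finset.mul_sum, Algebra.smul_def, mul_assoc, ← IsScalarTower.algebraMap_apply]) }
  have hT : Function.Injective T := by
    intro v w hvw
    have h := congrArg Subtype.val hvw
    simp only [T, LinearMap.coe_mk, AddHom.coe_mk, ← Algebra.smul_def] at h
    funext i
    refine Subtype.ext ?_
    have := congrArg (fun z => b.repr z i) h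
    simpa only [b.repr_sum_self] using this
  have hfin : FiniteDimensional k (poleSpace k s m) := by
    rcases isEmpty_or_nonempty ι with hi | ⟨⟨i⟩⟩
    · exact absurd (Module.finrank_eq_card_basis b)
        (by simp [Fintype.card_eq_zero, (Module.finrank_pos (R := F) (M := F')).ne'])
    · classical
      exact FiniteDimensional.of_injective (T.comp (LinearMap.single k (fun _ => poleSpace k s m) i))
        (hT.comp fun x y hxy => by simpa using congrFun hxy i)
  have := LinearMap.finrank_le_finrank_of_injective hT
  rwa [Module.finrank_pi_fintype, Finset.sum_const, Finset.card_univ, smul_eq_mul] at this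

/-- The trace coordinates of a function with bounded poles. -/
def traceCoords {s : ValuationSubring F → F} {m c : ℕ}
    (hb : ∀ i, b i ∈ poleSpace k (pullEq F' s) c) :
    poleSpace k (pullEq F' s) m →ₗ[k] (ι → poleSpace k s (m + c)) where
  toFun f i := ⟨Algebra.trace F F' (f.1 * b i),
    trace_mem_poleSpace (mul_mem_poleSpace f.2 (hb i))⟩
  map_add' f g := funext fun i => Subtype.ext (by simp [add_mul])
  map_smul' a f := funext fun i => Subtype.ext (by
    show Algebra.trace F F' ((a • f.1) * b i) = a • Algebra.trace F F' (f.1 * b i)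
    rw [smul_mul_assoc, ← IsScalarTower.algebraMap_smul F a (f.1 * b i), map_smul,
      IsScalarTower.algebraMap_smul])

theorem traceCoords_injective [Algebra.IsSeparable F F'] {s : ValuationSubring F → F} {m c : ℕ}
    (hb : ∀ i, b i ∈ poleSpace k (pullEq F' s) c) :
    Function.Injective (traceCoords (m := m) b hb) := by
  intro f g hfg
  refine Subtype.ext (sub_eq_zero.mp ((traceForm_nondegenerate F F').1 _ fun y => ?_))
  have hz : Algebra.traceForm F F' (f.1 - g.1) = 0 := b.ext fun i => by
    have := congrArg (fun v => (v i).1) hfg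
    simpa [traceCoords, Algebra.traceForm_apply, sub_mul, sub_eq_zero] using this
  simp [hz]

theorem finiteDimensional_poleSpace_pullEq [Algebra.IsSeparable F F']
    {s : ValuationSubring F → F} {m c : ℕ} (hb : ∀ i, b i ∈ poleSpace k (pullEq F' s) c)
    [FiniteDimensional k (poleSpace k s (m + c))] :
    FiniteDimensional k (poleSpace k (pullEq F' s) m) :=
  FiniteDimensional.of_injective _ (traceCoords_injective b hb)

theorem finrank_le_card_mul [Algebra.IsSeparable F F'] {s : ValuationSubring F → F} {m c : ℕ}
    (hb : ∀ i, b i ∈ poleSpace k (pullEq F' s) c)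
    [FiniteDimensional k (poleSpace k s (m + c))] :
    Module.finrank k (poleSpace k (pullEq F' s) m) ≤
      Fintype.card ι * Module.finrank k (poleSpace k s (m + c)) := by
  have := LinearMap.finrank_le_finrank_of_injective (traceCoords_injective (m := m) b hb)
  rwa [Module.finrank_pi_fintype, Finset.sum_const, Finset.card_univ, smul_eq_mul] at this

end Pullback

/-- Multiplication by `h ^ m` between two divisors differing by the divisor of `h`. -/
theorem finrank_poleSpace_eq_of_principal {s t : ValuationSubring F → F} {h : F} (hh : h ≠ 0)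
    {a b m : ℕ} (ht : ∀ V, IsConstVal k V → t V ≠ 0)
    (h₁ : ∀ V, IsConstVal k V → h * s V ^ b / t V ^ a ∈ V)
    (h₂ : ∀ V, IsConstVal k V → t V ^ a / (h * s V ^ b) ∈ V)
    (hs : ∀ V, IsConstVal k V → s V ≠ 0) :
    Module.finrank k (poleSpace k t (a * m)) = Module.finrank k (poleSpace k s (b * m)) := by
  refine LinearEquiv.finrank_eq
    { toFun := fun f => ⟨h ^ m * f, fun V hV => ?_⟩
      invFun := fun f => ⟨(h ^ m)⁻¹ * f, fun V hV => ?_⟩
      map_add' := fun f g => Subtype.ext (by simp [mul_add])
      map_smul' := fun c f => Subtype.ext (by simp)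
      left_inv := fun f => Subtype.ext (by simp [pow_ne_zero m hh])
      right_inv := fun f => Subtype.ext (by simp [pow_ne_zero m hh]) }
  · rw [show s V ^ (b * m) * (h ^ m * f.1) =
        (h * s V ^ b / t V ^ a) ^ m * (t V ^ (a * m) * f.1) by
      rw [div_pow, mul_pow, ← pow_mul, ← pow_mul]
      field_simp [pow_ne_zero (a * m) (ht V hV)]]
    exact mul_mem (pow_mem (h₁ V hV) _) (f.2 V hV)
  · rw [show t V ^ (a * m) * ((h ^ m)⁻¹ * f.1) =
        (t V ^ a / (h * s V ^ b)) ^ m * (s V ^ (b * m) * f.1) by
      rw [div_pow, mul_pow, ← pow_mul, ← pow_mul]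
      field_simp [pow_ne_zero (b * m) (hs V hV), pow_ne_zero m hh]]
    exact mul_mem (pow_mem (h₂ V hV) _) (f.2 V hV)

end Fermat.Agent.Tors
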