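import Fermat.Agent.Tors.GrowthBasic

/-!
# Polynomial bounds of exact order `g` for the dimension of pole spaces
-/

noncomputable section

namespace Fermat.Agent.Tors

open MvPolynomial

variable {k : Type*} [Field k] {F : Type*} [Field F] [Algebra k F]

/-- If `y` is a non-unit wherever `σ` is, a power of `y` is divisible by `σ`. -/
theorem exists_pow_div_mem {B : Subring F} {σ y : F} (hσ : σ ∈ B) (hy : y ∈ B) (hσ0 : σ ≠ 0)
    (h : ∀ V : ValuationSubring F, B ≤ V.toSubring → σ ∈ V.nonunits → y ∈ V.nonunits) :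
    ∃ c : ℕ, y ^ c / σ ∈ B := by
  rcases eq_or_ne y 0 with rfl | hy0
  · exact ⟨1, by simp⟩
  let A : Subring F := Subring.closure ((B : Set F) ∪ {y⁻¹})
  let sA : A := ⟨σ, Subring.subset_closure (Or.inl hσ)⟩
  have hI : Ideal.span {sA} = ⊤ := by
    by_contra hne
    obtain ⟨V, hAV, hV⟩ := Ideal.image_subset_nonunits_valuationSubring (Ideal.span {sA}) hne
    have hBV : B ≤ V.toSubring := fun a ha => hAV (Subring.subset_closure (Or.inl ha))
    have hn := h V hBV (hV ⟨sA, Ideal.mem_span_singleton_self _, rfl⟩)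
    have hyi : y⁻¹ ∈ V := hAV (Subring.subset_closure (Or.inr rfl))
    rw [← inv_inv y, ValuationSubring.inv_mem_nonunits_iff] at hn
    exact (hn.resolve_left (inv_ne_zero hy0)) hyi
  obtain ⟨w, hw⟩ := Ideal.mem_span_singleton'.mp (hI ▸ Submodule.mem_top : (1 : A) ∈ _)
  have hA : ∀ a ∈ A, ∃ c : ℕ, a * y ^ c ∈ B := by
    intro a ha
    induction ha using Subring.closure_induction with
    | mem a ha =>
      rcases ha with ha | rfl
      · exact ⟨0, by simpa using ha⟩
      · exact ⟨1, by simp [hy0]⟩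
    | zero => exact ⟨0, by simp⟩
    | one => exact ⟨0, by simp⟩
    | neg a _ ha =>
      obtain ⟨c, hc⟩ := ha
      exact ⟨c, by rw [neg_mul]; exact neg_mem hc⟩
    | add a b _ _ ha hb =>
      obtain ⟨c, hc⟩ := ha
      obtain ⟨d, hd⟩ := hb
      refine ⟨c + d, ?_⟩
      rw [show (a + b) * y ^ (c + d) = a * y ^ c * y ^ d + b * y ^ d * y ^ c by ring]
      exact add_mem (mul_mem hc (pow_mem hy _)) (mul_mem hd (pow_mem hy _))
    | mul a b _ _ ha hb =>
      obtain ⟨c, hc⟩ := ha
      obtain ⟨d, hd⟩ := hb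
      refine ⟨c + d, ?_⟩
      rw [show a * b * y ^ (c + d) = (a * y ^ c) * (b * y ^ d) by ring]
      exact mul_mem hc hd
  obtain ⟨c, hc⟩ := hA w w.2
  refine ⟨c, ?_⟩
  have h1 : (w : F) * σ = 1 := congrArg Subtype.val hw
  rwa [show y ^ c / σ = (w : F) * y ^ c by
    rw [eq_div_iff_mul_eq hσ0 |>.mpr h1]; ring]

/-- Roots of monic polynomials with coefficients in a valuation subring lie in it. -/
theorem mem_valuationSubring_of_monic {V : ValuationSubring F} {p : Polynomial F} {z : F}
    (hp : p.Monic) (hc : ∀ j, p.coeff j ∈ V) (hz : p.eval z = 0) : z ∈ V := by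
  have hl : p ∈ Polynomial.lifts (algebraMap V F) :=
    (Polynomial.lifts_iff_coeff_lifts p).mpr fun j => ⟨⟨_, hc j⟩, rfl⟩
  obtain ⟨q, hq, -, hqm⟩ := Polynomial.lifts_and_degree_eq_and_monic hl hp
  refine mem_valuationSubring_of_isIntegral (A := V) (fun a => a.2) ⟨q, hqm, ?_⟩
  rw [← Polynomial.eval_map, hq]
  exact hz

variable {g : ℕ} {x : Fin g → F} {i₀ : Fin g}

theorem aeval_mem_valuationSubring {V : ValuationSubring F} (hV : IsConstVal k V)
    (hx : ∀ j, x j ∈ V) (P : MvPolynomial (Fin g) k) : aeval x P ∈ V := by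
  induction P using MvPolynomial.induction_on with
  | C c => simpa using hV c
  | add p q hp hq => rw [map_add]; exact add_mem hp hq
  | mul_X p j hp => rw [map_mul, aeval_X]; exact mul_mem hp (hx j)

theorem inv_pow_mul_aeval_mem {V : ValuationSubring F} (hV : IsConstVal k V)
    (hi : (x i₀)⁻¹ ∈ V) (hx : ∀ j, x j / x i₀ ∈ V) {P : MvPolynomial (Fin g) k} {N : ℕ}
    (hP : P.totalDegree ≤ N) : (x i₀)⁻¹ ^ N * aeval x P ∈ V := by
  rw [P.as_sum, map_sum, Finset.mul_sum]
  refine sum_mem fun d hd => ?_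
  rw [aeval_monomial]
  have hdN : d.sum (fun _ e => e) ≤ N := (le_totalDegree hd).trans hP
  have hid : (x i₀)⁻¹ ^ N * (algebraMap k F (P.coeff d) * d.prod fun j e => x j ^ e) =
      algebraMap k F (P.coeff d) * ((x i₀)⁻¹ ^ (N - d.sum fun _ e => e) *
        d.prod fun j e => (x j / x i₀) ^ e) := by
    have h1 : (d.prod fun j e => (x j / x i₀) ^ e) =
        (d.prod fun j e => x j ^ e) * (x i₀)⁻¹ ^ (d.sum fun _ e => e) := by
      simp only [Finsupp.prod, Finsupp.sum, div_eq_mul_inv, mul_pow, Finset.prod_mul_distrib,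
        Finset.prod_pow_eq_pow_sum]
    rw [h1]
    conv_lhs => rw [← Nat.sub_add_cancel hdN, pow_add]
    ring
  rw [hid]
  exact mul_mem (hV _) (mul_mem (pow_mem hi _) (prod_mem fun j _ => pow_mem (hx j) _))

theorem pow_mul_eq_aeval_of_mem_adjoin (hx0 : x i₀ ≠ 0) {a : F}
    (ha : a ∈ Algebra.adjoin k ({(x i₀)⁻¹} ∪ Set.range fun j => x j / x i₀)) :
    ∃ (e : ℕ) (H : MvPolynomial (Fin g) k),
      H.totalDegree ≤ e ∧ a * x i₀ ^ e = aeval x H := by
  induction ha using Algebra.adjoin_induction with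
  | mem a ha =>
    rcases ha with rfl | ⟨j, rfl⟩
    · exact ⟨1, 1, by simp, by simp [hx0]⟩
    · exact ⟨1, X j, by simp, by simp [hx0]⟩
  | algebraMap c => exact ⟨0, C c, by simp, by simp⟩
  | add a b _ _ ha hb =>
    obtain ⟨e, H, he, hH⟩ := ha
    obtain ⟨e', H', he', hH'⟩ := hb
    refine ⟨e + e', H * X i₀ ^ e' + H' * X i₀ ^ e, ?_, ?_⟩
    · refine (totalDegree_add _ _).trans (max_le ?_ ?_) <;>
      · refine (totalDegree_mul _ _).trans ?_
        rw [totalDegree_X_pow]
        omega
    · simp only [map_add, map_mul, map_pow, aeval_X, ← hH, ← hH']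
      ring
  | mul a b _ _ ha hb =>
    obtain ⟨e, H, he, hH⟩ := ha
    obtain ⟨e', H', he', hH'⟩ := hb
    refine ⟨e + e', H * H', (totalDegree_mul _ _).trans (by omega), ?_⟩
    rw [map_mul, ← hH, ← hH']
    ring

/-- The chart at infinity detects the degree. -/
theorem totalDegree_le_of_forall_mem (hx : AlgebraicIndependent k x) {P : MvPolynomial (Fin g) k}
    {N : ℕ} (h : ∀ V : ValuationSubring F, IsConstVal k V → (x i₀)⁻¹ ∈ V →
      (∀ j, x j / x i₀ ∈ V) → (x i₀)⁻¹ ^ N * aeval x P ∈ V) : P.totalDegree ≤ N := by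
  classical
  have hx0 : x i₀ ≠ 0 := hx.ne_zero i₀
  set R₀ := Algebra.adjoin k ({(x i₀)⁻¹} ∪ Set.range fun j => x j / x i₀) with hR₀
  have hint : IsIntegral R₀ ((x i₀)⁻¹ ^ N * aeval x P) :=
    isIntegral_of_forall_mem_valuationSubring fun V hV =>
      h V (fun c => hV ⟨_, R₀.algebraMap_mem c⟩)
        (hV ⟨_, Algebra.subset_adjoin (Or.inl rfl)⟩)
        fun j => hV ⟨_, Algebra.subset_adjoin (Or.inr ⟨j, rfl⟩)⟩
  obtain ⟨q, hqm, hq⟩ := hint
  set r := q.natDegree
  choose e H he hH using fun j : ℕ => pow_mul_eq_aeval_of_mem_adjoin hx0 (q.coeff j).2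
  set E := ∑ j ∈ Finset.range r, e j
  have heE : ∀ j ∈ Finset.range r, e j ≤ E := fun j hj =>
    Finset.single_le_sum (fun _ _ => Nat.zero_le _) hj
  by_contra hlt
  push Not at hlt
  have hr : 0 < r := by
    by_contra hr0
    rw [hqm.natDegree_eq_zero.mp (show q.natDegree = 0 by omega)] at hq
    simp at hq
  have hP0 : P ≠ 0 := fun h0 => by simp [h0] at hlt
  set S := ∑ j ∈ Finset.range r, H j * X i₀ ^ (E - e j) * (P ^ j * X i₀ ^ (N * (r - j)))
  have hrel : P ^ r * X i₀ ^ E + S = 0 := by
    refine hx ?_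
    rw [map_zero]
    simp only [S, map_add, map_sum, map_mul, map_pow, aeval_X]
    rw [← Polynomial.aeval_def, hqm.as_sum, map_add, map_sum] at hq
    simp only [map_mul, map_pow, Polynomial.aeval_X, Polynomial.aeval_C] at hq
    have h0 : x i₀ ^ (N * r + E) * ((((x i₀)⁻¹ ^ N * aeval x P) ^ r) + ∑ j ∈ Finset.range r,
        ((q.coeff j : R₀) : F) * ((x i₀)⁻¹ ^ N * aeval x P) ^ j) = 0 := by
      rw [show (((x i₀)⁻¹ ^ N * aeval x P) ^ r) + ∑ j ∈ Finset.range r,
        ((q.coeff j : R₀) : F) * ((x i₀)⁻¹ ^ N * aeval x P) ^ j = 0 from hq, mul_zero]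
    rw [← h0, mul_add, Finset.mul_sum]
    refine congrArg₂ (· + ·) ?_ (Finset.sum_congr rfl fun j hj => ?_)
    · rw [mul_pow, ← pow_mul, inv_pow, pow_add]
      field_simp
    · have hjr : j < r := Finset.mem_range.mp hj
      have hsplit : x i₀ ^ (N * r + E) =
          x i₀ ^ (N * (r - j)) * x i₀ ^ (N * j) * (x i₀ ^ (E - e j) * x i₀ ^ e j) := by
        rw [← pow_add, ← pow_add, ← pow_add, ← Nat.mul_add, Nat.sub_add_cancel hjr.le,
          Nat.sub_add_cancel (heE j hj)]
      rw [← hH j, hsplit, mul_pow, ← pow_mul, inv_pow]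
      field_simp
  have hpowdeg : ∀ n, (P ^ n).totalDegree = n * P.totalDegree := fun n => by
    induction n with
    | zero => simp
    | succ n ih =>
      rw [pow_succ, totalDegree_mul_of_isDomain (pow_ne_zero _ hP0) hP0, ih, Nat.succ_mul]
  have hlhs : (P ^ r * X i₀ ^ E).totalDegree = r * P.totalDegree + E := by
    rw [totalDegree_mul_of_isDomain (pow_ne_zero _ hP0) (pow_ne_zero _ (X_ne_zero i₀)),
      totalDegree_X_pow]
    congr 1
    exact hpowdeg r
  have hrhs : S.totalDegree < r * P.totalDegree + E := by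
    have hpos : (⊥ : ℕ) < r * P.totalDegree + E := by
      rw [Nat.bot_eq_zero]; exact Nat.add_pos_left (Nat.mul_pos hr (by omega)) _
    refine lt_of_le_of_lt (totalDegree_finsetSum _ _) ((Finset.sup_lt_iff hpos).mpr
      fun j hj => ?_)
    have hjr : j < r := Finset.mem_range.mp hj
    have hEj := heE j hj
    have h1 := he j
    have h2 := totalDegree_pow P j
    calc _ ≤ ((H j).totalDegree + (E - e j)) + (j * P.totalDegree + N * (r - j)) := by
          refine (totalDegree_mul _ _).trans (add_le_add ?_ ?_)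
          · exact (totalDegree_mul _ _).trans (by rw [totalDegree_X_pow])
          · exact (totalDegree_mul _ _).trans (by rw [totalDegree_X_pow]; omega)
      _ < _ := by
          have h3 : N * (r - j) < P.totalDegree * (r - j) :=
            Nat.mul_lt_mul_of_pos_right hlt (by omega)
          have h4 : j * P.totalDegree + P.totalDegree * (r - j) = r * P.totalDegree := by
            rw [mul_comm P.totalDegree, ← add_mul, Nat.add_sub_cancel' hjr.le]
          omega
  rw [eq_neg_of_add_eq_zero_left hrel, totalDegree_neg] at hlhs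
  omega

/-- Algebraic elements become integral over the polynomial subring after scaling. -/
theorem exists_mul_isRoot_aeval (z : F)
    [FiniteDimensional (IntermediateField.adjoin k (Set.range x)) F] :
    ∃ (Q : MvPolynomial (Fin g) k) (p : Polynomial F), aeval x Q ≠ 0 ∧ p.Monic ∧
      (∀ j, ∃ P : MvPolynomial (Fin g) k, p.coeff j = aeval x P) ∧
      p.eval (aeval x Q * z) = 0 := by
  classical
  set K₀ := IntermediateField.adjoin k (Set.range x)
  set m := minpoly K₀ z
  have hm : m.Monic := minpoly.monic (IsIntegral.of_finite K₀ z)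
  have hfrac : ∀ j : ℕ, ∃ r s : MvPolynomial (Fin g) k,
      aeval x s ≠ 0 ∧ (m.coeff j : F) = aeval x r / aeval x s := fun j => by
    obtain ⟨r, s, hrs⟩ := (IntermediateField.mem_adjoin_range_iff k x _).mp (m.coeff j).2
    by_cases hs : aeval x s = 0
    · exact ⟨0, 1, by simp, by simp [hrs, hs]⟩
    · exact ⟨r, s, hs, hrs⟩
  choose num den hden hnd using hfrac
  set n := m.natDegree
  set Q := ∏ j ∈ Finset.range n, den j with hQ
  refine ⟨Q, (m.map (algebraMap K₀ F)).scaleRoots (aeval x Q), ?_, ?_, fun j => ?_, ?_⟩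
  · rw [hQ, map_prod]; exact Finset.prod_ne_zero_iff.mpr fun j _ => hden j
  · rw [Polynomial.monic_scaleRoots_iff]; exact hm.map _
  · rw [Polynomial.coeff_scaleRoots, Polynomial.coeff_map, hm.natDegree_map]
    rcases lt_trichotomy j n with hj | rfl | hj
    · refine ⟨num j * (∏ i ∈ (Finset.range n).erase j, den i) * Q ^ (n - j - 1), ?_⟩
      show (m.coeff j : F) * _ = _
      have hQe : aeval x Q = aeval x (den j) * aeval x (∏ i ∈ (Finset.range n).erase j, den i) := by
        rw [← map_mul, hQ, Finset.mul_prod_erase _ _ (Finset.mem_range.mpr hj)]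
      rw [hnd, map_mul, map_mul, map_pow, show n - j = (n - j - 1) + 1 by omega, pow_succ, hQe]
      have := hden j
      field_simp
      simp
    · exact ⟨1, by simp [n, hm.coeff_natDegree]⟩
    · exact ⟨0, by simp [Polynomial.coeff_eq_zero_of_natDegree_lt (show m.natDegree < j from hj)]⟩
  · refine Polynomial.scaleRoots_eval₂_eq_zero (RingHom.id F) ?_
    rw [Polynomial.eval₂_map]
    exact minpoly.aeval K₀ z

variable {s : ValuationSubring F → F}

/-- Upper bound of order `g`. -/
theorem exists_finrank_poleSpace_le (hx : AlgebraicIndependent k x) (i₀ : Fin g)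
    [FiniteDimensional (IntermediateField.adjoin k (Set.range x)) F]
    [Algebra.IsSeparable (IntermediateField.adjoin k (Set.range x)) F]
    (hs0 : ∀ V, IsConstVal k V → s V ≠ 0) {h : MvPolynomial (Fin g) k} (hh : aeval x h ≠ 0)
    {c e : ℕ} (hfin : ∀ V, IsConstVal k V → (∀ j, x j ∈ V) → aeval x h ^ c / s V ∈ V)
    (hinf : ∀ V, IsConstVal k V → (x i₀)⁻¹ ∈ V → (∀ j, x j / x i₀ ∈ V) →
      (x i₀)⁻¹ ^ e * aeval x h ^ c / s V ∈ V) :
    ∃ C : ℕ, ∀ m, FiniteDimensional k (poleSpace k s m) ∧
      Module.finrank k (poleSpace k s m) ≤ C * (m + 1) ^ g := by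
  classical
  set K₀ := IntermediateField.adjoin k (Set.range x) with hK₀
  have hx0 : x i₀ ≠ 0 := hx.ne_zero i₀
  set d := Module.finrank K₀ F
  set b₀ := Module.finBasis K₀ F
  choose Q p hQ hpm hpc hp0 using fun i => exists_mul_isRoot_aeval (k := k) (x := x) (b₀ i)
  have hQK : ∀ i, aeval x (Q i) ∈ K₀ := fun i =>
    IntermediateField.algebra_adjoin_le_adjoin k _ (by
      rw [Algebra.adjoin_range_eq_range_aeval]; exact ⟨Q i, rfl⟩)
  let b : Module.Basis (Fin d) K₀ F := b₀.unitsSMul fun i =>
    Units.mk0 (⟨_, hQK i⟩ : K₀) (fun h0 => hQ i (congrArg Subtype.val h0))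
  have hb : ∀ i, b i = aeval x (Q i) * b₀ i := fun i => by
    simp [b, Module.Basis.unitsSMul_apply, Units.smul_def, IntermediateField.smul_def]
  choose P hP using hpc
  set e₁ := ∑ i, ∑ j ∈ Finset.range ((p i).natDegree), (P i j).totalDegree with he₁
  -- integrality properties of the basis
  have hbfin : ∀ V, IsConstVal k V → (∀ j, x j ∈ V) → ∀ i, b i ∈ V := fun V hV hxV i =>
    mem_valuationSubring_of_monic (hpm i)
      (fun j => hP i j ▸ aeval_mem_valuationSubring hV hxV _) (hb i ▸ hp0 i)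
  have hbinf : ∀ V, IsConstVal k V → (x i₀)⁻¹ ∈ V → (∀ j, x j / x i₀ ∈ V) →
      ∀ i, (x i₀)⁻¹ ^ e₁ * b i ∈ V := fun V hV hiV hxV i => by
    refine mem_valuationSubring_of_monic (p := (p i).scaleRoots ((x i₀)⁻¹ ^ e₁))
      ((Polynomial.monic_scaleRoots_iff _).mpr (hpm i)) (fun j => ?_)
      (Polynomial.scaleRoots_eval₂_eq_zero (RingHom.id F) (hb i ▸ hp0 i))
    rw [Polynomial.coeff_scaleRoots]
    rcases lt_trichotomy j (p i).natDegree with hj | rfl | hj
    · rw [hP i j, ← pow_mul, mul_comm]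
      refine inv_pow_mul_aeval_mem hV hiV hxV (le_trans ?_ (Nat.le_mul_of_pos_right _
        (Nat.sub_pos_of_lt hj)))
      exact (Finset.single_le_sum (fun _ _ => Nat.zero_le _) (Finset.mem_range.mpr hj)).trans
        (Finset.single_le_sum (f := fun i => ∑ j ∈ Finset.range ((p i).natDegree),
          (P i j).totalDegree) (fun _ _ => Nat.zero_le _) (Finset.mem_univ i))
    · simp [(hpm i).coeff_natDegree]
    · simp [Polynomial.coeff_eq_zero_of_natDegree_lt hj]
  refine ⟨d * (e + e₁ + 1) ^ g, fun m => ?_⟩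
  set N := e * m + e₁ with hN
  set W : Submodule k F := (restrictDegree (Fin g) k N).map (aeval x).toLinearMap
  have htr : ∀ f ∈ poleSpace k s m, ∀ i,
      (Algebra.trace K₀ F (aeval x h ^ (c * m) * f * b i) : F) ∈ W := by
    intro f hf i
    set z := aeval x h ^ (c * m) * f * b i with hz
    have hzfin : ∀ V, IsConstVal k V → (∀ j, x j ∈ V) → z ∈ V := fun V hV hxV => by
      rw [hz, pow_mul, show (aeval x h ^ c) ^ m * f * b i =
        (aeval x h ^ c / s V) ^ m * (s V ^ m * f) * b i by
          rw [div_pow]; field_simp [pow_ne_zero m (hs0 V hV)]]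
      exact mul_mem (mul_mem (pow_mem (hfin V hV hxV) _) (hf V hV)) (hbfin V hV hxV i)
    have hzinf : ∀ V, IsConstVal k V → (x i₀)⁻¹ ∈ V → (∀ j, x j / x i₀ ∈ V) →
        (x i₀)⁻¹ ^ N * z ∈ V := fun V hV hiV hxV => by
      rw [show (x i₀)⁻¹ ^ N * z = ((x i₀)⁻¹ ^ e * aeval x h ^ c / s V) ^ m * (s V ^ m * f) *
          ((x i₀)⁻¹ ^ e₁ * b i) by
        rw [hz, hN, pow_add, div_pow, mul_pow, ← pow_mul, ← pow_mul]
        field_simp [pow_ne_zero m (hs0 V hV)]]
      exact mul_mem (mul_mem (pow_mem (hinf V hV hiV hxV) _) (hf V hV)) (hbinf V hV hiV hxV i)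
    set y := Algebra.trace K₀ F z
    have hyV : ∀ V₀ : ValuationSubring K₀, (∀ c : k, algebraMap k K₀ c ∈ V₀) → ∀ u : K₀,
        (∀ V : ValuationSubring F, V.comap (algebraMap K₀ F) = V₀ → IsConstVal k V →
          (u : F) * z ∈ V) → u * y ∈ V₀ := fun V₀ hk u hu => by
      have hint : IsIntegral V₀ ((u : F) * z) := isIntegral_of_forall_comap_eq V₀ fun V hV =>
        hu V hV fun c => by
          have h1 : algebraMap k K₀ c ∈ V.comap (algebraMap K₀ F) := hV ▸ hk c
          exact h1
      obtain ⟨w, hw⟩ :=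
        IsIntegrallyClosed.isIntegral_iff.mp (Algebra.isIntegral_trace (L := K₀) hint)
      have : Algebra.trace K₀ F ((u : F) * z) = u * y := by
        rw [show (u : F) * z = u • z from rfl, map_smul, smul_eq_mul]
      rw [← this, ← hw]
      exact w.2
    -- `y` is a polynomial
    obtain ⟨Py, hPy⟩ : ∃ Py, aeval x Py = (y : F) := by
      set ψ := hx.aevalEquivField.symm
      let A := MvPolynomial (Fin g) k
      let φ : A →+* K₀ := hx.aevalEquivField.toRingEquiv.toRingHom.comp
        (algebraMap A (FractionRing A))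
      let : Algebra A K₀ := φ.toAlgebra
      have hint : IsIntegral A y := isIntegral_of_forall_mem_valuationSubring fun V₀ hV₀ => by
        have hk : ∀ c : k, algebraMap k K₀ c ∈ V₀ := fun c => by
          convert hV₀ (C c) using 1
          refine Subtype.ext ?_
          rw [show algebraMap A K₀ (C c) = hx.aevalEquivField (algebraMap A (FractionRing A) (C c))
            from rfl, AlgebraicIndependent.aevalEquivField_algebraMap_apply_coe, aeval_C]
          rfl
        simpa using hyV V₀ hk 1 fun V hV hVk => by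
          refine (one_mul z).symm ▸ hzfin V hVk fun j => ?_
          have h1 : algebraMap A K₀ (X j) ∈ V.comap (algebraMap K₀ F) := hV ▸ hV₀ (X j)
          have h2 : algebraMap K₀ F (algebraMap A K₀ (X j)) = x j := by
            show ((hx.aevalEquivField (algebraMap A (FractionRing A) (X j)) : K₀) : F) = x j
            rw [AlgebraicIndependent.aevalEquivField_algebraMap_apply_coe, aeval_X]
          rw [ValuationSubring.mem_comap, h2] at h1
          exact h1
      obtain ⟨q, hqm, hq⟩ := hint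
      have hq' : IsIntegral A (ψ y) := ⟨q, hqm, by
        have h2 := congrArg ψ hq
        rw [map_zero] at h2
        rw [← h2, ← AlgEquiv.coe_toAlgHom, ← AlgHom.coe_toRingHom, Polynomial.hom_eval₂]
        congr 1
        ext a <;> simp [ψ, φ, RingHom.algebraMap_toAlgebra] <;> rfl⟩
      obtain ⟨Py, hPy⟩ := IsIntegrallyClosed.isIntegral_iff.mp hq'
      refine ⟨Py, ?_⟩
      rw [← AlgebraicIndependent.aevalEquivField_algebraMap_apply_coe hx, hPy]
      simp [ψ]
    refine ⟨Py, restrictTotalDegree_le_restrictDegree _ _ N ((mem_restrictTotalDegree _ _ _).mpr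
      (totalDegree_le_of_forall_mem (i₀ := i₀) hx fun V hV hiV hxV => ?_)), hPy⟩
    have hiK : (x i₀)⁻¹ ^ N ∈ K₀ :=
      pow_mem (inv_mem (IntermediateField.subset_adjoin k _ (Set.mem_range_self i₀))) N
    have h1 := hyV (V.comap (algebraMap K₀ F)) (fun c => hV c) ⟨_, hiK⟩ fun W hW hWk => by
      refine hzinf W hWk ?_ fun j => ?_
      · have h2 : (⟨_, inv_mem (IntermediateField.subset_adjoin k _ (Set.mem_range_self i₀))⟩ : K₀) ∈
          W.comap (algebraMap K₀ F) := hW ▸ hiV
        exact h2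
      · have h2 : (⟨_, div_mem (IntermediateField.subset_adjoin k _ (Set.mem_range_self j))
          (IntermediateField.subset_adjoin k _ (Set.mem_range_self i₀))⟩ : K₀) ∈
          W.comap (algebraMap K₀ F) := hW ▸ hxV j
        exact h2
    rw [hPy]
    exact h1
  let T : poleSpace k s m →ₗ[k] (Fin d → W) :=
    { toFun := fun f i => ⟨_, htr f.1 f.2 i⟩
      map_add' := fun f f' => funext fun i => Subtype.ext (by simp [mul_add, add_mul])
      map_smul' := fun a f => funext fun i => Subtype.ext (by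
        show ((Algebra.trace K₀ F (aeval x h ^ (c * m) * (a • f.1) * b i) : K₀) : F) =
          a • ((Algebra.trace K₀ F (aeval x h ^ (c * m) * f.1 * b i) : K₀) : F)
        rw [mul_smul_comm, smul_mul_assoc, ← IsScalarTower.algebraMap_smul K₀ a, map_smul,
          IsScalarTower.algebraMap_smul]
        rfl) }
  have hT : Function.Injective T := by
    intro f f' hff'
    have hz : Algebra.traceForm K₀ F (aeval x h ^ (c * m) * (f.1 - f'.1)) = 0 := b.ext fun i => by
      have h1 := congrArg (fun v => (v i).1) hff'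
      simp only [T, LinearMap.coe_mk, AddHom.coe_mk] at h1
      simp [Algebra.traceForm_apply, mul_sub, Subtype.ext h1]
    have h2 := (traceForm_nondegenerate K₀ F).1 _ fun y => by rw [hz]; rfl
    rw [mul_eq_zero, sub_eq_zero] at h2
    exact Subtype.ext (h2.resolve_left (pow_ne_zero _ hh))
  have hfinT : FiniteDimensional k (poleSpace k s m) := FiniteDimensional.of_injective T hT
  refine ⟨hfinT, ?_⟩
  have hW : Module.finrank k W ≤ (N + 1) ^ g := by
    refine (Submodule.finrank_map_le _ _).trans ?_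
    have : Finite {n : Fin g →₀ ℕ | ∀ i, n i ≤ N} :=
      ((Set.Finite.pi' fun _ ↦ Set.finite_le_nat _).preimage DFunLike.coe_injective.injOn).to_subtype
    show Module.finrank k (restrictSupport k {n : Fin g →₀ ℕ | ∀ i, n i ≤ N}) ≤ _
    rw [Module.finrank_eq_nat_card_basis (basisRestrictSupport k _)]
    refine (Nat.card_le_card_of_injective
      (fun n : {n : Fin g →₀ ℕ | ∀ i, n i ≤ N} => fun i =>
        (⟨n.1 i, Nat.lt_succ_of_le (n.2 i)⟩ : Fin (N + 1))) fun n n' h => Subtype.ext
          (Finsupp.ext fun i => congrArg Fin.val (congrFun h i))).trans ?_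
    simp
  have h1 := LinearMap.finrank_le_finrank_of_injective hT
  rw [Module.finrank_pi_fintype, Finset.sum_const, Finset.card_univ, Fintype.card_fin,
    smul_eq_mul] at h1
  refine h1.trans ((Nat.mul_le_mul_left d hW).trans ?_)
  rw [mul_assoc, ← mul_pow]
  refine Nat.mul_le_mul_left _ (Nat.pow_le_pow_left ?_ g)
  simp only [hN]
  ring_nf
  omega

/-- Lower bound of order `g`. -/
theorem exists_pow_le_finrank_poleSpace (hx : AlgebraicIndependent k x) {c : ℕ} (hc : 0 < c)
    (hs : ∀ V, IsConstVal k V → s V ∈ V) {u : F} (hu : u ≠ 0) (huc : u ∈ poleSpace k s c)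
    (hxc : ∀ j, u * x j ∈ poleSpace k s c)
    (hfin : ∀ m, FiniteDimensional k (poleSpace k s m)) :
    ∃ A : ℕ, ∀ m, m ^ g ≤ A * Module.finrank k (poleSpace k s m) := by
  classical
  rcases g.eq_zero_or_pos with rfl | hg
  · refine ⟨1, fun m => ?_⟩
    rw [pow_zero, one_mul]
    have : Nontrivial (poleSpace k s m) := ⟨⟨⟨1, one_mem_poleSpace hs m⟩, 0, fun h =>
      one_ne_zero (congrArg Subtype.val h)⟩⟩
    exact Module.finrank_pos
  refine ⟨(g * c) ^ g, fun m => ?_⟩
  set j := m / (g * c)
  have hgc : 0 < g * c := Nat.mul_pos hg hc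
  let mon : (Fin g → Fin (j + 1)) → poleSpace k s m := fun d =>
    ⟨u ^ (g * j) * ∏ i, x i ^ (d i : ℕ), by
      have hsplit : u ^ (g * j) * ∏ i, x i ^ (d i : ℕ) =
          ∏ i, ((u * x i) ^ (d i : ℕ) * u ^ (j - (d i : ℕ))) := by
        rw [mul_comm g j, pow_mul, ← Fin.prod_const g (u ^ j), ← Finset.prod_mul_distrib]
        refine Finset.prod_congr rfl fun i _ => ?_
        rw [mul_pow, mul_right_comm, ← pow_add, Nat.add_sub_cancel' (Fin.is_le (d i))]
      rw [hsplit]
      refine poleSpace_mono hs (a := ∑ _i : Fin g, j * c) ?_ ?_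
      · calc ∑ _i : Fin g, j * c = j * (g * c) := by simp; ring
          _ ≤ m := Nat.div_mul_le_self m _
      · induction (Finset.univ : Finset (Fin g)) using Finset.induction_on with
        | empty => simpa using one_mem_poleSpace (k := k) hs 0
        | insert i t hi ih =>
          rw [Finset.prod_insert hi, Finset.sum_insert hi]
          refine mul_mem_poleSpace ?_ ih
          have h2 := mul_mem_poleSpace (pow_mem_poleSpace (hxc i) (d i : ℕ))
            (pow_mem_poleSpace huc (j - (d i : ℕ)))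
          rwa [← add_mul, Nat.add_sub_cancel' (Fin.is_le (d i))] at h2⟩
  have hli : LinearIndependent k mon := by
    refine LinearIndependent.of_comp (poleSpace k s m).subtype ?_
    have h1 : LinearIndependent k fun d : Fin g → Fin (j + 1) =>
        (monomial (Finsupp.equivFunOnFinite.symm fun i => (d i : ℕ)) (1 : k)) :=
      (basisMonomials (Fin g) k).linearIndependent.comp _ fun d d' h => funext fun i =>
        Fin.ext (congrFun (Finsupp.equivFunOnFinite.symm.injective h) i)
    have h2 := h1.map' ((LinearMap.mulLeft k (u ^ (g * j))).comp (aeval x).toLinearMap)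
      (LinearMap.ker_eq_bot.mpr ((mul_right_injective₀ (pow_ne_zero _ hu)).comp hx))
    rw [show (poleSpace k s m).subtype ∘ mon =
        ((LinearMap.mulLeft k (u ^ (g * j))).comp (aeval x).toLinearMap) ∘ fun d =>
          (monomial (Finsupp.equivFunOnFinite.symm fun i => (d i : ℕ)) (1 : k)) from
        funext fun d => by simp [mon, aeval_monomial, Finsupp.prod_fintype]]
    exact h2
  have hm : m < (j + 1) * (g * c) := by
    have := Nat.lt_div_mul_add (a := m) hgc
    rw [add_mul, one_mul]
    exact this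
  have := hfin m
  calc m ^ g ≤ ((j + 1) * (g * c)) ^ g := Nat.pow_le_pow_left hm.le g
    _ = (g * c) ^ g * Fintype.card (Fin g → Fin (j + 1)) := by simp [mul_pow]; ring
    _ ≤ _ := Nat.mul_le_mul_left _ hli.fintype_card_le_finrank

end Fermat.Agent.Tors
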