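import Fermat.Agent.Tors.Basic
import Mathlib.RingTheory.Valuation.LocalSubring
import Mathlib.FieldTheory.IsAlgClosed.Basic
import Mathlib.RingTheory.Polynomial.Basic
import Mathlib.Algebra.Algebra.Subalgebra.Directed

/-!
# Places: extension, composition, functoriality of reduction (`S26`)
-/

set_option autoImplicit false

noncomputable section

universe u

open Polynomial

namespace Fermat.Agent.Tors

variable {K : Type u} [Field K] {F F' F'' : Type u} [Field F] [Algebra K F] [Field F']
  [Algebra K F'] [Field F''] [Algebra K F'']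

namespace KVal

/-- The pullback of a valuation subring along a homomorphism. -/
def comapHom (ι : F →ₐ[K] F') (V : KVal K F') : KVal K F :=
  ⟨V.1.comap ι.toRingHom, fun c => by
    show ι (algebraMap K F c) ∈ V.1
    rw [AlgHom.commutes]; exact V.2 c⟩

theorem mem_comapHom {ι : F →ₐ[K] F'} {V : KVal K F'} {x : F} :
    x ∈ (V.comapHom ι).1 ↔ ι x ∈ V.1 := Iff.rfl

end KVal

namespace KPlace

/-- An embedding, as a place. -/
def ofAlgHom (ι : F →ₐ[K] F') : KPlace K F F' where
  ring := KVal.triv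
  res := ι.comp KVal.triv.sub.val
  isLocalHom := ⟨fun a ha => by
    have ha0 : (a : F) ≠ 0 := fun h => by
      rw [show a = 0 from Subtype.ext h, map_zero] at ha
      exact not_isUnit_zero ha
    exact IsUnit.of_mul_eq_one ⟨(a : F)⁻¹, ValuationSubring.mem_top _⟩
      (Subtype.ext (mul_inv_cancel₀ ha0))⟩

theorem ofAlgHom_res (ι : F →ₐ[K] F') (x : (ofAlgHom ι).ring.sub) :
    (ofAlgHom ι).res x = ι (x : F) := rfl

theorem comap_ofAlgHom (ι : F →ₐ[K] F') (V : KVal K F') :
    (ofAlgHom ι).comap V = V.comapHom ι := by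
  apply Subtype.ext
  ext x
  rw [KVal.mem_comapHom]
  exact ⟨fun h => ((ofAlgHom ι).mem_comap.mp h).2,
    fun h => (ofAlgHom ι).mem_comap.mpr ⟨ValuationSubring.mem_top _, h⟩⟩

/-- A valuation subring with its quotient map. -/
def ofRing (u : KVal K F) : KPlace K F (IsLocalRing.ResidueField u.sub) where
  ring := u
  res := IsScalarTower.toAlgHom K u.sub (IsLocalRing.ResidueField u.sub)
  isLocalHom := ⟨fun a ha => by
    by_contra h
    exact ha.ne_zero ((IsLocalRing.residue_eq_zero_iff a).mpr h)⟩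

variable (π : KPlace K F F') (π' : KPlace K F' F'')

theorem res_mem_of_mem_comap {V : KVal K F'} {x : F} (h : x ∈ (π.comap V).1) :
    π.res ⟨x, π.comap_le V h⟩ ∈ V.1 := (π.mem_comap.mp h).2

/-- The composite place. -/
def comp : KPlace K F F'' where
  ring := π.comap π'.ring
  res :=
    { toFun := fun x => π'.res ⟨π.res ⟨(x : F), π.comap_le _ x.2⟩, π.res_mem_of_mem_comap x.2⟩
      map_one' := by
        exact (congrArg π'.res (Subtype.ext (map_one π.res))).trans (map_one π'.res)
      map_mul' := fun x y => by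
        exact (congrArg π'.res (Subtype.ext (map_mul π.res ⟨(x : F), π.comap_le _ x.2⟩
          ⟨(y : F), π.comap_le _ y.2⟩))).trans (map_mul π'.res _ _)
      map_zero' := by
        exact (congrArg π'.res (Subtype.ext (map_zero π.res))).trans (map_zero π'.res)
      map_add' := fun x y => by
        exact (congrArg π'.res (Subtype.ext (map_add π.res ⟨(x : F), π.comap_le _ x.2⟩
          ⟨(y : F), π.comap_le _ y.2⟩))).trans (map_add π'.res _ _)
      commutes' := fun c => by
        exact (congrArg π'.res (Subtype.ext (AlgHom.commutes π.res c))).trans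
          (AlgHom.commutes π'.res c) }
  isLocalHom := ⟨fun a ha => by
    have h1 : IsUnit (⟨π.res ⟨(a : F), π.comap_le _ a.2⟩, π.res_mem_of_mem_comap a.2⟩ :
        π'.ring.sub) := (isUnit_map_iff π'.res _).mp ha
    have h2 : IsUnit (⟨(a : F), π.comap_le _ a.2⟩ : π.ring.sub) :=
      (isUnit_map_iff π.res _).mp (h1.map π'.ring.sub.val)
    obtain ⟨b, hb⟩ := isUnit_iff_exists_inv.mp h2
    obtain ⟨c, hc⟩ := isUnit_iff_exists_inv.mp h1
    refine IsUnit.of_mul_eq_one ⟨(b : F), π.mem_comap.mpr ⟨b.2, ?_⟩⟩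
      (Subtype.ext (show (a : F) * (b : F) = 1 from congrArg Subtype.val hb))
    rw [show π.res ⟨(b : F), b.2⟩ = (c : F') from left_inv_eq_right_inv (a := π.res ⟨(a : F),
      π.comap_le _ a.2⟩) (by rw [mul_comm, ← map_mul, hb, map_one]) (congrArg Subtype.val hc)]
    exact c.2⟩

theorem comp_res (x : (π.comp π').ring.sub) :
    (π.comp π').res x =
      π'.res ⟨π.res ⟨(x : F), π.comap_le _ x.2⟩, π.res_mem_of_mem_comap x.2⟩ := rfl

end KPlace

section Extend

/-- Homomorphisms on subalgebras into a field, extending a given one. -/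
private structure Partial (S : Subalgebra K F) (φ : S →ₐ[K] F') where
  T : Subalgebra K F
  le : S ≤ T
  ψ : T →ₐ[K] F'
  eq : ψ.comp (Subalgebra.inclusion le) = φ

variable {S : Subalgebra K F} {φ : S →ₐ[K] F'}

private instance : Preorder (Partial S φ) where
  le a b := ∃ h : a.T ≤ b.T, b.ψ.comp (Subalgebra.inclusion h) = a.ψ
  le_refl a := ⟨le_rfl, AlgHom.ext fun _ => rfl⟩
  le_trans a b c := fun ⟨h, hh⟩ ⟨h', hh'⟩ => ⟨h.trans h', AlgHom.ext fun x => by
    rw [← hh, ← hh']; rfl⟩

private theorem exists_max : ∃ a : Partial S φ, IsMax a := by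
  have : Nonempty (Partial S φ) := ⟨⟨S, le_rfl, φ, AlgHom.ext fun _ => rfl⟩⟩
  refine zorn_le_nonempty fun c hc hne => ?_
  have : Nonempty c := hne.to_subtype
  have hdir : Directed (· ≤ ·) (fun a : c => a.1.T) := fun a b => by
    rcases hc.total a.2 b.2 with h | h
    · exact ⟨b, h.1, le_rfl⟩
    · exact ⟨a, le_rfl, h.1⟩
  have hcompat : ∀ (a b : c) (h : a.1.T ≤ b.1.T),
      a.1.ψ = b.1.ψ.comp (Subalgebra.inclusion h) := fun a b h => by
    rcases hc.total a.2 b.2 with ⟨_, h'⟩ | ⟨h1, h'⟩
    · exact h'.symm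
    · refine AlgHom.ext fun x => ?_
      rw [← h']
      rfl
  let ψ := Subalgebra.iSupLift (fun a : c => a.1.T) hdir (fun a => a.1.ψ) hcompat _ le_rfl
  obtain ⟨a₀⟩ := ‹Nonempty c›
  refine ⟨⟨⨆ a : c, a.1.T, a₀.1.le.trans (le_iSup (fun a : c => a.1.T) a₀), ψ, ?_⟩,
    fun a ha => ⟨le_iSup (fun a : c => a.1.T) ⟨a, ha⟩, ?_⟩⟩
  · have h := Subalgebra.iSupLift_comp_inclusion (K := fun a : c => a.1.T) (dir := hdir) (f := fun a : c => a.1.ψ)
      (hf := hcompat) (hT := le_rfl) (i := a₀) (le_iSup (fun a : c => a.1.T) a₀)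
    refine AlgHom.ext fun x => ?_
    exact (DFunLike.congr_fun h (Subalgebra.inclusion a₀.1.le x)).trans
      (DFunLike.congr_fun a₀.1.eq x)
  · exact Subalgebra.iSupLift_comp_inclusion (K := fun a : c => a.1.T) (dir := hdir) (f := fun a : c => a.1.ψ)
      (hf := hcompat) (hT := le_rfl) (i := ⟨a, ha⟩) (le_iSup (fun a : c => a.1.T) ⟨a, ha⟩)

/-- Chevalley's extension theorem with values in an algebraically closed field. -/
theorem exists_kplace [IsAlgClosed F'] (S : Subalgebra K F) (φ : S →ₐ[K] F') :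
    ∃ π : KPlace K F F', ∃ h : S ≤ π.ring.sub, π.res.comp (Subalgebra.inclusion h) = φ := by
  classical
  obtain ⟨⟨T, hle, ψ, hψ⟩, hmax⟩ := exists_max (S := S) (φ := φ)
  -- elements of nonzero value are units
  have hunit : ∀ t : T, ψ t ≠ 0 → (t : F)⁻¹ ∈ T := fun t ht => by
    let T' : Subalgebra K F :=
      { carrier := {z | ∃ x y : T, ψ y ≠ 0 ∧ z * y = x}
        mul_mem' := by
          rintro a b ⟨x, y, hy, h⟩ ⟨x', y', hy', h'⟩
          exact ⟨x * x', y * y', by simp [hy, hy'], by push_cast; rw [← h, ← h']; ring⟩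
        add_mem' := by
          rintro a b ⟨x, y, hy, h⟩ ⟨x', y', hy', h'⟩
          exact ⟨x * y' + x' * y, y * y', by simp [hy, hy'], by push_cast; rw [← h, ← h']; ring⟩
        algebraMap_mem' := fun c => ⟨algebraMap K T c, 1, by simp, by simp⟩ }
    choose nu de hde heq using fun z : T' => z.2
    have hval : ∀ (z : T') (x y : T), ψ y ≠ 0 → (z : F) * y = x →
        ψ (nu z) / ψ (de z) = ψ x / ψ y := fun z x y hy h => by
      rw [div_eq_div_iff (hde z) hy, ← map_mul, ← map_mul]
      refine congrArg ψ (Subtype.ext ?_)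
      push_cast
      rw [← heq z, ← h]; ring
    let ψ' : T' →ₐ[K] F' :=
      { toFun := fun z => ψ (nu z) / ψ (de z)
        map_one' := (hval 1 1 1 (by simp) (by simp)).trans (by simp)
        map_zero' := (hval 0 0 1 (by simp) (by simp)).trans (by simp)
        map_mul' := fun z w => (hval (z * w) (nu z * nu w) (de z * de w)
          (by simp [hde z, hde w]) (by push_cast; rw [← heq z, ← heq w]; ring)).trans (by
            rw [map_mul, map_mul, mul_div_mul_comm])
        map_add' := fun z w => (hval (z + w) (nu z * de w + nu w * de z) (de z * de w)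
          (by simp [hde z, hde w]) (by push_cast; rw [← heq z, ← heq w]; ring)).trans (by
            rw [map_add, map_mul, map_mul, map_mul, div_add_div _ _ (hde z) (hde w)]; ring)
        commutes' := fun c => (hval (algebraMap K T' c) (algebraMap K T c) 1 (by simp)
          (by simp)).trans (by simp) }
    have hTT' : T ≤ T' := fun x hx => ⟨⟨x, hx⟩, 1, by simp, by simp⟩
    have hext : ∀ x : T, ψ' ⟨x, hTT' x.2⟩ = ψ x := fun x =>
      (hval _ x 1 (by simp) (by simp)).trans (by simp)
    obtain ⟨hle', -⟩ := hmax (b := ⟨T', hle.trans hTT', ψ', AlgHom.ext fun x => by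
      rw [← hψ]; exact hext (Subalgebra.inclusion hle x)⟩) ⟨hTT', AlgHom.ext hext⟩
    refine hle' ⟨1, t, ht, ?_⟩
    rw [inv_mul_cancel₀ fun h => ht (by rw [show t = 0 from Subtype.ext h, map_zero])]
    rfl
  have hunit' : ∀ t : T, ψ t ≠ 0 → IsUnit t := fun t ht =>
    IsUnit.of_mul_eq_one ⟨_, hunit t ht⟩ (Subtype.ext
      (mul_inv_cancel₀ fun h => ht (by rw [show t = 0 from Subtype.ext h, map_zero])))
  have hloc : IsLocalRing T.toSubring :=
    IsLocalRing.of_isUnit_or_isUnit_one_sub_self fun t => by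
      by_cases ht : ψ t = 0
      · exact Or.inr (hunit' (1 - t) (by
          rw [map_sub, map_one, ht, sub_zero]; exact one_ne_zero))
      · exact Or.inl (hunit' t ht)
  let A : LocalSubring F := ⟨T.toSubring⟩
  have hA : IsMax A := fun B hB => by
    by_contra hlt
    obtain ⟨x, hxB, hxT⟩ : ∃ x, x ∈ B.toSubring ∧ x ∉ T := by
      by_contra! h
      refine hlt (le_of_eq (LocalSubring.toSubring_injective ?_))
      exact le_antisymm (fun z hz => h z hz) hB.1
    -- the image of the ideal of relations of `x` is proper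
    let ψX : T[X] →+* F'[X] := mapRingHom ψ.toRingHom
    let k : Subalgebra K F' := ψ.range
    have hk : IsField k := by
      refine ⟨⟨0, 1, zero_ne_one⟩, mul_comm, fun {a} ha => ?_⟩
      obtain ⟨t, ht⟩ := a.2
      have ht' : ψ t = (a : F') := ht
      obtain ⟨b, hb⟩ := isUnit_iff_exists_inv.mp
        (hunit' t (ht' ▸ fun h => ha (Subtype.ext h)))
      exact ⟨⟨ψ b, ⟨b, rfl⟩⟩, Subtype.ext (by
        rw [MulMemClass.coe_mul, ← ht', ← map_mul, hb, map_one]; rfl)⟩
    let _ : Field k := hk.toField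
    let θ : T[X] →+* k[X] := mapRingHom ψ.rangeRestrict.toRingHom
    have hθ : Function.Surjective θ :=
      map_surjective _ (AlgHom.rangeRestrict_surjective ψ)
    let I : Ideal k[X] := (RingHom.ker (aeval (R := T) x).toRingHom).map θ
    have hI : I ≠ ⊤ := fun h => by
      rw [Ideal.eq_top_iff_one, Ideal.mem_map_iff_of_surjective _ hθ] at h
      obtain ⟨p, hp, hp1⟩ := h
      let ι : T →+* B.toSubring := Subring.inclusion hB.1
      have hker : ∀ t : T, ψ t = 0 → ι t ∈ IsLocalRing.maximalIdeal B.toSubring := fun t ht hu =>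
        not_isUnit_zero (M₀ := F') (ht ▸ (hB.2.1 t hu).map ψ)
      have hp' : (p.map ι).eval (⟨x, hxB⟩ : B.toSubring) = 0 := by
        refine Subtype.ext ?_
        have h0 : aeval x p = 0 := hp
        rw [eval_map]
        show B.toSubring.subtype _ = _
        rw [hom_eval₂]
        exact h0
      have h2 : (p.map ι).eval (⟨x, hxB⟩ : B.toSubring) - 1 ∈
          IsLocalRing.maximalIdeal B.toSubring := by
        rw [show (p.map ι).eval (⟨x, hxB⟩ : B.toSubring) - 1 = ((p - 1).map ι).eval ⟨x, hxB⟩ by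
          simp, eval_eq_sum_range]
        refine Ideal.sum_mem _ fun i _ => Ideal.mul_mem_right _ _ ?_
        rw [coeff_map]
        refine hker _ ?_
        have h3 := congrArg (fun q : k[X] => ((q.coeff i : k) : F')) hp1
        simp only [θ, coe_mapRingHom, coeff_map, coeff_one] at h3
        rw [coeff_sub, map_sub, coeff_one]
        split_ifs with hi
        · rw [map_one, sub_eq_zero]; simpa [hi] using h3
        · rw [map_zero, sub_zero]; simpa [hi] using h3
      rw [hp', zero_sub] at h2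
      exact (IsLocalRing.maximalIdeal.isMaximal _).ne_top
        (Ideal.eq_top_iff_one _ |>.mpr (neg_mem_iff.mp h2))
    obtain ⟨z, hz⟩ : ∃ z : F', ∀ q ∈ I, aeval z q = 0 := by
      obtain ⟨g, hg⟩ := (IsPrincipalIdealRing.principal I).1
      rcases eq_or_ne g 0 with rfl | hg0
      · exact ⟨0, fun q hq => by
          rw [hg, Submodule.mem_span_singleton] at hq
          obtain ⟨r, rfl⟩ := hq; simp⟩
      · obtain ⟨z, hz⟩ := IsAlgClosed.exists_aeval_eq_zero F' g fun hd => hI (by
          rw [hg]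
          exact Ideal.span_singleton_eq_top.mpr (isUnit_iff_degree_eq_zero.mpr hd))
        exact ⟨z, fun q hq => by
          rw [hg, Submodule.mem_span_singleton] at hq
          obtain ⟨r, rfl⟩ := hq
          rw [smul_eq_mul, map_mul, hz, mul_zero]⟩
    let T' : Subalgebra K F := ((aeval (R := T) x).range).restrictScalars K
    let ev : T[X] →+* F' := eval₂RingHom ψ.toRingHom z
    have hev : ∀ p : T[X], aeval x p = 0 → ev p = 0 := fun p hp => by
      have h := hz (θ p) (Ideal.mem_map_of_mem θ hp)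
      simp only [θ, coe_mapRingHom, aeval_def, eval₂_map] at h
      exact h
    choose pre hpre using fun w : T' => (w.2 : (w : F) ∈ (aeval (R := T) x).range)
    have hwd : ∀ (w : T') (p : T[X]), aeval x p = (w : F) → ev (pre w) = ev p := fun w p hp => by
      have h1 : aeval x (pre w) = (w : F) := hpre w
      rw [← sub_eq_zero, ← map_sub]
      exact hev _ (by rw [map_sub, h1, hp, sub_self])
    let ψ' : T' →ₐ[K] F' :=
      { toFun := fun w => ev (pre w)
        map_one' := (hwd 1 1 (map_one _)).trans (map_one ev)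
        map_zero' := (hwd 0 0 (map_zero _)).trans (map_zero ev)
        map_mul' := fun a b => (hwd _ (pre a * pre b) (by
          rw [map_mul]; exact congrArg₂ (· * ·) (hpre a) (hpre b))).trans (map_mul ev _ _)
        map_add' := fun a b => (hwd _ (pre a + pre b) (by
          rw [map_add]; exact congrArg₂ (· + ·) (hpre a) (hpre b))).trans (map_add ev _ _)
        commutes' := fun c => (hwd _ (C (algebraMap K T c)) (by simp)).trans (by
          simp [ev]) }
    have hTT' : T ≤ T' := fun y hy => ⟨C ⟨y, hy⟩, by simp⟩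
    have hext : ∀ y : T, ψ' ⟨y, hTT' y.2⟩ = ψ y := fun y =>
      (hwd _ (C y) (by simp)).trans (by simp [ev])
    obtain ⟨hle', -⟩ := hmax (b := ⟨T', hle.trans hTT', ψ', AlgHom.ext fun y => by
      rw [← hψ]; exact hext (Subalgebra.inclusion hle y)⟩) ⟨hTT', AlgHom.ext hext⟩
    exact hxT (hle' ⟨X, aeval_X x⟩)
  obtain ⟨V, hV⟩ := LocalSubring.exists_valuationRing_of_isMax hA
  have hmem : ∀ y : F, y ∈ V ↔ y ∈ T := fun y => by
    rw [← ValuationSubring.mem_toSubring]
    exact SetLike.ext_iff.mp (congrArg LocalSubring.toSubring hV) y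
  let u : KVal K F := ⟨V, fun c => (hmem _).mpr (T.algebraMap_mem c)⟩
  have hu : u.sub ≤ T := fun y hy => (hmem y).mp hy
  refine ⟨⟨u, ψ.comp (Subalgebra.inclusion hu), ⟨fun a ha => ?_⟩⟩,
    fun y hy => (hmem y).mpr (hle hy), ?_⟩
  · have h0 : ψ (Subalgebra.inclusion hu a) ≠ 0 := ha.ne_zero
    obtain ⟨b, hb⟩ := isUnit_iff_exists_inv.mp (hunit' _ h0)
    exact IsUnit.of_mul_eq_one ⟨(b : F), (hmem _).mpr b.2⟩ (Subtype.ext (congrArg (fun w : T => (w : F)) hb))
  · refine AlgHom.ext fun y => ?_
    rw [← hψ]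
    rfl

end Extend

namespace ClassFunctor

variable (Φ : ClassFunctor K)

theorem red_eq {π : KPlace K F F'} {P : Φ.Pt F} {Q : Φ.Pt π.ring.sub}
    (h : Φ.map π.ring.sub.val Q = P) : Φ.red π P = Φ.map π.res Q := by
  rw [← h, red_map]

/-- Reduction of a point which is defined on a subring. -/
theorem red_map_of_factor {R : Type u} [CommRing R] [Algebra K R] (π : KPlace K F F')
    (ι : R →ₐ[K] F) (j : R →ₐ[K] F') (h : ∀ r, ι r ∈ π.ring.1)
    (hj : ∀ r, π.res ⟨ι r, h r⟩ = j r) (P : Φ.Pt R) : Φ.red π (Φ.map ι P) = Φ.map j P := by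
  let ι' : R →ₐ[K] π.ring.sub := ι.codRestrict _ h
  rw [Φ.red_eq (Q := Φ.map ι' P) (by rw [← Φ.map_comp]; rfl), ← Φ.map_comp,
    show π.res.comp ι' = j from AlgHom.ext hj]

/-- Reduction commutes with compatible embeddings. -/
theorem red_map_hom {L L' : Type u} [Field L] [Algebra K L] [Field L'] [Algebra K L']
    (π₀ : KPlace K L L') (π : KPlace K F F') (ι : L →ₐ[K] F) (j : L' →ₐ[K] F')
    (h : ∀ r : π₀.ring.sub, ι (r : L) ∈ π.ring.1)
    (hj : ∀ r : π₀.ring.sub, π.res ⟨ι (r : L), h r⟩ = j (π₀.res r)) (P : Φ.Pt L) :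
    Φ.red π (Φ.map ι P) = Φ.map j (Φ.red π₀ P) := by
  obtain ⟨Q, rfl⟩ := (Φ.bijective_map_val π₀.ring).2 P
  rw [red_map, ← Φ.map_comp, ← Φ.map_comp]
  exact Φ.red_map_of_factor π (ι.comp π₀.ring.sub.val) (j.comp π₀.res) h hj Q

theorem red_comp (π : KPlace K F F') (π' : KPlace K F' F'') (P : Φ.Pt F) :
    Φ.red (π.comp π') P = Φ.red π' (Φ.red π P) := by
  obtain ⟨Q, rfl⟩ := (Φ.bijective_map_val (π.comp π').ring).2 P
  let inc : (π.comp π').ring.sub →ₐ[K] π.ring.sub :=
    Subalgebra.inclusion (π.comap_le π'.ring)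
  rw [red_map, Φ.red_eq (π := π) (Q := Φ.map inc Q) (by rw [← Φ.map_comp]; rfl), ← Φ.map_comp]
  exact (Φ.red_map_of_factor π' (π.res.comp inc) (π.comp π').res
    (fun r => π.res_mem_of_mem_comap r.2) (fun r => rfl) Q).symm

end ClassFunctor

end Fermat.Agent.Tors
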