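import Mathlib

/-!
# Power series in finitely many variables over an infinite field form a factorial ring

The proof is the classical one: after a linear change of variables an element is regular
in one variable, hence associated to a distinguished polynomial by Weierstrass preparation.
-/

noncomputable section

namespace Fermat.Agent.Tors

open MvPowerSeries Finsupp

variable {k : Type*} [Field k]

/-- Power series whose constant coefficient vanishes lie in the span of the variables. -/
theorem mem_span_range_X_of_constantCoeff_eq_zero {σ : Type*} [Fintype σ]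
    {f : MvPowerSeries σ k} (hf : constantCoeff f = 0) :
    f ∈ Ideal.span (Set.range (X : σ → MvPowerSeries σ k)) := by
  classical
  suffices H : ∀ s : Finset σ, ∀ f : MvPowerSeries σ k,
      (∀ d, (∀ i ∈ s, d i = 0) → coeff d f = 0) →
        f ∈ Ideal.span (Set.range (X : σ → MvPowerSeries σ k)) by
    refine H Finset.univ f fun d hd => ?_
    obtain rfl : d = 0 := Finsupp.ext fun i => hd i (Finset.mem_univ i)
    simpa using hf
  intro s
  induction s using Finset.induction_on with
  | empty =>
    intro f hf
    have : f = 0 := ext fun d => by simpa using hf d (by simp)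
    simp [this]
  | insert i s hi ih =>
    intro f hf
    let f₁ : MvPowerSeries σ k := fun d => if d i = 0 then 0 else coeff d f
    let f₂ : MvPowerSeries σ k := fun d => if d i = 0 then coeff d f else 0
    have h12 : f = f₁ + f₂ := ext fun d => by
      rw [map_add]
      show _ = f₁ d + f₂ d
      by_cases h : d i = 0 <;> simp [f₁, f₂, h]
    rw [h12]
    refine add_mem ?_ (ih f₂ fun d hd => ?_)
    · obtain ⟨g, hg⟩ := (X_dvd_iff (s := i) (φ := f₁)).mpr
        (fun d hd => by show f₁ d = 0; simp [f₁, hd])
      rw [hg]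
      exact Ideal.mul_mem_right _ _ (Ideal.subset_span ⟨i, rfl⟩)
    · show f₂ d = 0
      by_cases h : d i = 0
      · simp only [f₂, h, if_true]
        exact hf d fun j hj => by
          rcases Finset.mem_insert.mp hj with rfl | hj
          · exact h
          · exact hd j hj
      · simp [f₂, h]

theorem maximalIdeal_mvPowerSeries_eq_span {σ : Type*} [Fintype σ] :
    IsLocalRing.maximalIdeal (MvPowerSeries σ k) =
      Ideal.span (Set.range (X : σ → MvPowerSeries σ k)) := by
  refine le_antisymm (fun f hf => mem_span_range_X_of_constantCoeff_eq_zero ?_) ?_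
  · by_contra h
    exact hf (isUnit_iff_constantCoeff.mpr (Ne.isUnit h))
  · rw [Ideal.span_le]
    rintro _ ⟨i, rfl⟩
    intro h
    simpa using (isUnit_iff_constantCoeff.mp h)

instance isAdicComplete_maximalIdeal_mvPowerSeries {σ : Type*} [Fintype σ] :
    IsAdicComplete (IsLocalRing.maximalIdeal (MvPowerSeries σ k)) (MvPowerSeries σ k) := by
  rw [maximalIdeal_mvPowerSeries_eq_span]
  infer_instance

/-- The restriction of a power series to the first axis. -/
def firstAxis (n : ℕ) : MvPowerSeries (Fin (n + 1)) k →+* PowerSeries k :=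
  (PowerSeries.map (constantCoeff (σ := Fin n) (R := k))).comp
    (MvPowerSeries.finSuccEquiv k n).toRingEquiv.toRingHom

theorem coeff_firstAxis {n : ℕ} (f : MvPowerSeries (Fin (n + 1)) k) (d : ℕ) :
    PowerSeries.coeff d (firstAxis n f) = coeff ((0 : Fin n →₀ ℕ).cons d) f := by
  show PowerSeries.coeff d (PowerSeries.map (constantCoeff (σ := Fin n) (R := k))
    (MvPowerSeries.finSuccEquiv k n f)) = _
  rw [PowerSeries.coeff_map, ← coeff_zero_eq_constantCoeff_apply, coeff_coeff_finSuccEquiv]

theorem firstAxis_X_zero (n : ℕ) : firstAxis (k := k) n (X 0) = PowerSeries.X := by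
  simp [firstAxis, finSuccEquiv_X_zero]

theorem firstAxis_X_succ {n : ℕ} (j : Fin n) : firstAxis (k := k) n (X j.succ) = 0 := by
  simp [firstAxis, finSuccEquiv_X_succ]

theorem firstAxis_C {n : ℕ} (c : k) :
    firstAxis n (MvPowerSeries.C c : MvPowerSeries (Fin (n + 1)) k) = PowerSeries.C c := by
  simp [firstAxis, finSuccEquiv_C]

/-- The shear `x₀ ↦ x₀`, `xⱼ ↦ xⱼ + vⱼ x₀`. -/
def shear {n : ℕ} (v : Fin n → k) : Fin (n + 1) → MvPowerSeries (Fin (n + 1)) k :=
  Fin.cons (X 0) fun j => X j.succ + MvPowerSeries.C (v j) * X 0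

theorem hasSubst_shear {n : ℕ} (v : Fin n → k) : HasSubst (shear v) :=
  hasSubst_of_constantCoeff_zero fun i => by
    refine Fin.cases ?_ (fun j => ?_) i <;> simp [shear]

theorem subst_shear_subst_shear {n : ℕ} (v : Fin n → k) (f : MvPowerSeries (Fin (n + 1)) k) :
    subst (shear (-v)) (subst (shear v) f) = f := by
  have hX : ∀ i, subst (shear (-v)) (X i : MvPowerSeries (Fin (n + 1)) k) = shear (-v) i :=
    fun i => subst_X (hasSubst_shear (-v)) i
  have hC : ∀ c : k, subst (shear (-v)) (MvPowerSeries.C c : MvPowerSeries (Fin (n + 1)) k) =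
      MvPowerSeries.C c := fun c => by
    rw [← coe_substAlgHom (hasSubst_shear (-v)), MvPowerSeries.c_eq_algebraMap, AlgHom.commutes]
  rw [subst_comp_subst_apply (hasSubst_shear v) (hasSubst_shear (-v))]
  have h : (fun i => subst (shear (-v)) (shear v i)) =
      (X : Fin (n + 1) → MvPowerSeries (Fin (n + 1)) k) := by
    funext i
    refine Fin.cases ?_ (fun j => ?_) i
    · rw [show shear v 0 = X 0 by simp [shear], hX]
      simp [shear]
    · rw [show shear v j.succ = X j.succ + MvPowerSeries.C (v j) * X 0 by simp [shear],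
        ← coe_substAlgHom (hasSubst_shear (-v)), map_add, map_mul, coe_substAlgHom, hX, hX, hC]
      simp [shear]
  rw [h, subst_self]
  rfl

/-- A shear as an automorphism. -/
def shearEquiv {n : ℕ} (v : Fin n → k) :
    MvPowerSeries (Fin (n + 1)) k ≃ₐ[k] MvPowerSeries (Fin (n + 1)) k :=
  AlgEquiv.ofAlgHom (substAlgHom (hasSubst_shear v)) (substAlgHom (hasSubst_shear (-v)))
    (AlgHom.ext fun f => by
      simpa [coe_substAlgHom] using subst_shear_subst_shear (-v) f)
    (AlgHom.ext fun f => by
      simpa [coe_substAlgHom] using subst_shear_subst_shear v f)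

theorem firstAxis_shear {n : ℕ} (v : Fin n → k) (i : Fin (n + 1)) :
    firstAxis n (shear v i) = PowerSeries.C ((Fin.cons 1 v : Fin (n + 1) → k) i) * PowerSeries.X := by
  refine Fin.cases ?_ (fun j => ?_) i
  · simp [shear, firstAxis_X_zero]
  · simp [shear, firstAxis_X_succ, firstAxis_X_zero, firstAxis_C]

/-- Over an infinite field a nonzero power series is regular in `x₀` after some shear. -/
theorem exists_shear_firstAxis_ne_zero [Infinite k] {n : ℕ} {f : MvPowerSeries (Fin (n + 1)) k}
    (hf : f ≠ 0) : ∃ v : Fin n → k, firstAxis n (subst (shear v) f) ≠ 0 := by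
  classical
  obtain ⟨d₀, hd₀⟩ : ∃ d, coeff d f ≠ 0 := by
    by_contra h
    push Not at h
    exact hf (ext fun d => by simp [h d])
  have hex : ∃ D, ∃ d, d.degree = D ∧ coeff d f ≠ 0 := ⟨_, d₀, rfl, hd₀⟩
  set D := Nat.find hex with hD
  obtain ⟨d₁, hd₁D, hd₁⟩ := Nat.find_spec hex
  have hlow : ∀ d, d.degree < D → coeff d f = 0 := fun d hd => by
    by_contra h
    exact Nat.find_min hex hd ⟨d, rfl, h⟩
  set P : MvPolynomial (Fin (n + 1)) k := truncTotal (D + 1) f with hP
  have hP0 : P ≠ 0 := fun h => hd₁ <| by
    rw [← coeff_truncTotal f (n := D + 1) (x := d₁) (by omega), ← hP, h]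
    simp
  obtain ⟨w, hw⟩ : ∃ w : Fin (n + 1) → k, MvPolynomial.eval w (P * MvPolynomial.X 0) ≠ 0 := by
    by_contra h
    push Not at h
    exact mul_ne_zero hP0 (MvPolynomial.X_ne_zero 0)
      (MvPolynomial.funext fun w => by simp [h w])
  simp only [map_mul, MvPolynomial.eval_X, mul_ne_zero_iff] at hw
  obtain ⟨hw, hw0⟩ := hw
  refine ⟨fun j => w j.succ / w 0, fun hzero => hw ?_⟩
  set v : Fin n → k := fun j => w j.succ / w 0 with hv
  have hwv : ∀ i, w i = w 0 * ((Fin.cons 1 v : Fin (n + 1) → k) i) := fun i => by
    refine Fin.cases ?_ (fun j => ?_) i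
    · simp
    · simp [hv]; field_simp
  have hcons : ∀ d : Fin (n + 1) →₀ ℕ, firstAxis n (d.prod fun s e => shear v s ^ e) =
      PowerSeries.C (d.prod fun s e => ((Fin.cons 1 v : Fin (n + 1) → k) s) ^ e) * PowerSeries.X ^ d.degree := by
    intro d
    simp only [Finsupp.prod, map_prod, map_pow, firstAxis_shear, mul_pow, Finset.prod_mul_distrib,
      Finset.prod_pow_eq_pow_sum]
    rfl
  have key : PowerSeries.coeff D (firstAxis n (subst (shear v) f)) =
      MvPolynomial.eval (Fin.cons 1 v : Fin (n + 1) → k) P := by
    rw [coeff_firstAxis, coeff_subst (hasSubst_shear v), MvPolynomial.eval_eq]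
    rw [finsum_eq_sum_of_support_subset _ (s := P.support)]
    · refine Finset.sum_congr rfl fun d hd => ?_
      have hdlt : d.degree < D + 1 := by
        by_contra h
        exact (MvPolynomial.mem_support_iff.mp hd) (coeff_truncTotal_eq_zero f (by omega))
      have hne : coeff d f ≠ 0 := by
        rw [← coeff_truncTotal f hdlt]; exact MvPolynomial.mem_support_iff.mp hd
      have hdD : d.degree = D := le_antisymm (by omega) (Nat.find_min' hex ⟨d, rfl, hne⟩)
      rw [← coeff_firstAxis, hcons, hdD, hP, coeff_truncTotal f hdlt]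
      rw [PowerSeries.coeff_C_mul_X_pow, if_pos rfl, smul_eq_mul]
      rfl
    · intro d hd
      simp only [Function.mem_support, ← coeff_firstAxis, hcons,
        PowerSeries.coeff_C_mul_X_pow] at hd
      have hdD : D = d.degree := by
        by_contra h
        exact hd (by simp [h])
      have hne : coeff d f ≠ 0 := fun h => hd (by simp [h])
      rw [Finset.mem_coe, MvPolynomial.mem_support_iff, hP, coeff_truncTotal f (by omega)]
      exact hne
  have key0 : MvPolynomial.eval (Fin.cons 1 v : Fin (n + 1) → k) P = 0 := by rw [← key, hzero, map_zero]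
  have hhom : ∀ d ∈ P.support, d.degree = D := by
    intro d hd
    have hdlt : d.degree < D + 1 := by
      by_contra h
      exact (MvPolynomial.mem_support_iff.mp hd) (coeff_truncTotal_eq_zero f (by omega))
    refine le_antisymm (by omega) (Nat.find_min' hex ⟨d, rfl, ?_⟩)
    rw [← coeff_truncTotal f hdlt]; exact MvPolynomial.mem_support_iff.mp hd
  rw [MvPolynomial.eval_eq] at key0 ⊢
  calc ∑ d ∈ P.support, P.coeff d * ∏ i ∈ d.support, w i ^ d i
      = w 0 ^ D * ∑ d ∈ P.support, P.coeff d * ∏ i ∈ d.support, ((Fin.cons 1 v : Fin (n + 1) → k) i) ^ d i := by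
        rw [Finset.mul_sum]
        refine Finset.sum_congr rfl fun d hd => ?_
        rw [Finset.prod_congr rfl fun i _ => by rw [hwv i, mul_pow], Finset.prod_mul_distrib,
          Finset.prod_pow_eq_pow_sum]
        have : ∑ i ∈ d.support, d i = D := hhom d hd
        rw [this]; ring
    _ = 0 := by rw [key0, mul_zero]

section Weierstrass

open Polynomial in
/-- An irreducible power series regular in the variable is prime, over a complete local
factorial ring. -/
theorem prime_of_irreducible_of_map_residue_ne_zero {B : Type*} [CommRing B] [IsDomain B]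
    [IsLocalRing B] [IsAdicComplete (IsLocalRing.maximalIdeal B) B]
    [UniqueFactorizationMonoid B] {g : PowerSeries B} (hg : Irreducible g)
    (hres : g.map (IsLocalRing.residue B) ≠ 0) : Prime g := by
  obtain ⟨P, h, H⟩ := PowerSeries.exists_isWeierstrassFactorization hres
  set m := IsLocalRing.maximalIdeal B with hm
  have hassoc : Associated g (P : PowerSeries B) := by
    rw [H.eq_mul]
    exact associated_mul_unit_left _ _ H.isUnit
  have hPirr : Irreducible (P : PowerSeries B) := hassoc.irreducible hg
  have hPd := H.isDistinguishedAt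
  have hP : Irreducible P := by
    refine ⟨fun hu => hPirr.not_isUnit (hu.map Polynomial.coeToPowerSeries.ringHom), ?_⟩
    intro a b hab
    have hmonic : (a * b).Monic := hab ▸ hPd.monic
    have hlab : a.leadingCoeff * b.leadingCoeff = 1 := by
      rw [← leadingCoeff_mul]; exact hmonic
    obtain ⟨ua, hua⟩ : IsUnit a.leadingCoeff := IsUnit.of_mul_eq_one _ hlab
    obtain ⟨ub, hub⟩ : IsUnit b.leadingCoeff :=
      IsUnit.of_mul_eq_one _ (by rw [mul_comm]; exact hlab)
    rcases hPirr.isUnit_or_isUnit
      (show (P : PowerSeries B) = (a : PowerSeries B) * (b : PowerSeries B) by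
        rw [hab, Polynomial.coe_mul]) with hu | hu
    · left
      rw [PowerSeries.isUnit_iff_constantCoeff, Polynomial.constantCoeff_coe] at hu
      have hmap := hPd.map_eq_X_pow
      rw [hab, Polynomial.map_mul] at hmap
      obtain ⟨i, hi, hai⟩ := (dvd_prime_pow Polynomial.prime_X _ (q := a.map (Ideal.Quotient.mk m))).mp
        ⟨_, hmap.symm⟩
      have hi0 : i = 0 := by
        by_contra hne
        obtain ⟨u, hu'⟩ := hai.symm
        have hc : (a.map (Ideal.Quotient.mk m)).coeff 0 = 0 := by
          rw [← hu', Polynomial.coeff_zero_eq_eval_zero]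
          simp [zero_pow hne]
        rw [Polynomial.coeff_map, Ideal.Quotient.eq_zero_iff_mem] at hc
        exact hc hu
      subst hi0
      rw [pow_zero, associated_one_iff_isUnit] at hai
      have hdeg := Polynomial.natDegree_eq_zero_of_isUnit hai
      rw [Polynomial.natDegree_map_of_leadingCoeff_ne_zero] at hdeg
      · rw [Polynomial.eq_C_of_natDegree_eq_zero hdeg] at hu ⊢
        exact Polynomial.isUnit_C.mpr (by simpa using hu)
      · rw [Ne, Ideal.Quotient.eq_zero_iff_mem, ← hua]
        exact fun hmem => hmem ua.isUnit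
    · right
      rw [PowerSeries.isUnit_iff_constantCoeff, Polynomial.constantCoeff_coe] at hu
      have hmap := hPd.map_eq_X_pow
      rw [hab, Polynomial.map_mul] at hmap
      obtain ⟨i, hi, hai⟩ := (dvd_prime_pow Polynomial.prime_X _ (q := b.map (Ideal.Quotient.mk m))).mp
        ⟨_, (mul_comm _ _).trans hmap |>.symm⟩
      have hi0 : i = 0 := by
        by_contra hne
        obtain ⟨u, hu'⟩ := hai.symm
        have hc : (b.map (Ideal.Quotient.mk m)).coeff 0 = 0 := by
          rw [← hu', Polynomial.coeff_zero_eq_eval_zero]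
          simp [zero_pow hne]
        rw [Polynomial.coeff_map, Ideal.Quotient.eq_zero_iff_mem] at hc
        exact hc hu
      subst hi0
      rw [pow_zero, associated_one_iff_isUnit] at hai
      have hdeg := Polynomial.natDegree_eq_zero_of_isUnit hai
      rw [Polynomial.natDegree_map_of_leadingCoeff_ne_zero] at hdeg
      · rw [Polynomial.eq_C_of_natDegree_eq_zero hdeg] at hu ⊢
        exact Polynomial.isUnit_C.mpr (by simpa using hu)
      · rw [Ne, Ideal.Quotient.eq_zero_iff_mem, ← hub]
        exact fun hmem => hmem ub.isUnit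
  have hPp : Prime P := UniqueFactorizationMonoid.irreducible_iff_prime.mp hP
  have hI : (Ideal.span {P} : Ideal B[X]).IsPrime :=
    (Ideal.span_singleton_prime hP.ne_zero).mpr hPp
  have hI' : (Ideal.span {g} : Ideal (PowerSeries B)).IsPrime := by
    rw [← Ideal.Quotient.isDomain_iff_prime] at hI ⊢
    exact (H.algEquivQuotient).toRingEquiv.toMulEquiv.symm.isDomain
  exact (Ideal.span_singleton_prime hg.ne_zero).mp hI'

end Weierstrass

theorem uniqueFactorizationMonoid_mvPowerSeries_fin (k : Type*) [Field k] [Infinite k] :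
    ∀ n : ℕ, UniqueFactorizationMonoid (MvPowerSeries (Fin n) k)
  | 0 => by
    have e : k ≃+* MvPowerSeries (Fin 0) k :=
      (MvPowerSeries.isEmptyEquiv (Fin 0) k).toRingEquiv.symm
    exact e.toMulEquiv.uniqueFactorizationMonoid inferInstance
  | n + 1 => by
    have := uniqueFactorizationMonoid_mvPowerSeries_fin k n
    have : IsDomain (MvPowerSeries (Fin (n + 1)) k) := NoZeroDivisors.to_isDomain _
    have : IsDomain (MvPowerSeries (Fin n) k) := NoZeroDivisors.to_isDomain _
    refine { irreducible_iff_prime := fun {f} => ⟨fun hf => ?_, Prime.irreducible⟩ }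
    obtain ⟨v, hv⟩ := exists_shear_firstAxis_ne_zero hf.ne_zero
    set e : MvPowerSeries (Fin (n + 1)) k ≃* PowerSeries (MvPowerSeries (Fin n) k) :=
      ((shearEquiv v).toRingEquiv.trans (MvPowerSeries.finSuccEquiv k n).toRingEquiv).toMulEquiv
      with he
    have hg : Irreducible (e f) := (MulEquiv.irreducible_iff e).mpr hf
    refine (MulEquiv.prime_iff e).mp (prime_of_irreducible_of_map_residue_ne_zero hg ?_)
    intro h0
    refine hv (PowerSeries.ext fun d => ?_)
    have h1 := congr_arg (PowerSeries.coeff d) h0
    rw [PowerSeries.coeff_map, map_zero, IsLocalRing.residue_eq_zero_iff] at h1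
    rw [← coe_substAlgHom (hasSubst_shear v)]
    show PowerSeries.coeff d (PowerSeries.map (constantCoeff (σ := Fin n) (R := k))
      (e f)) = _
    rw [PowerSeries.coeff_map, map_zero]
    by_contra hne
    exact h1 (isUnit_iff_constantCoeff.mpr (Ne.isUnit hne))

end Fermat.Agent.Tors
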