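import Fermat.Agent.Tors.CurveField

/-!
# Families on `TF K E M` which are locally principal over `E ⊗ M` models (`S26`)

`centre V` is the local ring at the centre of `V` on the model `Spec (R ⊗ u)`, `R = V ∩ E`,
`u = V ∩ M`. The key lemma says that a regular family which is integral at the valuations trivial
on `M` and at the Gauss extension of `u` is integral at every valuation over `u`.
-/

set_option autoImplicit false

noncomputable section

universe u

open Polynomial
open scoped TensorProduct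

namespace Fermat.Agent.Tors

section Fraction

variable {F : Type u} [Field F]

/-- Fractions of an integrally closed subring form an integrally closed subring. -/
theorem exists_mul_mem_of_isIntegral (B : Subring F) [IsIntegrallyClosedIn B F] (S : Submonoid F)
    (hS : ∀ s ∈ S, s ∈ B) (z : F) (p : F[X]) (hp : p.Monic) (hpz : p.eval z = 0)
    (hcoef : ∀ i, ∃ s ∈ S, s * p.coeff i ∈ B) : ∃ s ∈ S, s * z ∈ B := by
  classical
  choose s hs hsm using hcoef
  let Q := ∏ i ∈ p.support, s i
  have hQ : Q ∈ S := S.prod_mem fun i _ => hs i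
  refine ⟨Q, hQ, Subring.isIntegrallyClosedIn_iff.mp ‹_› ?_⟩
  set p' := p.scaleRoots Q
  have hmem : ∀ i, p'.coeff i ∈ B := fun i => by
    rw [coeff_scaleRoots]
    by_cases hi : i ∈ p.support
    · rcases Nat.eq_zero_or_pos (p.natDegree - i) with h | h
      · have : i = p.natDegree := le_antisymm (le_natDegree_of_mem_supp i hi) (by omega)
        rw [h, pow_zero, mul_one, this, ← leadingCoeff, hp.leadingCoeff]
        exact one_mem _
      · obtain ⟨k, hk⟩ := Nat.exists_eq_succ_of_ne_zero h.ne'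
        rw [hk, pow_succ', ← mul_assoc]
        refine mul_mem ?_ (pow_mem (hS _ hQ) k)
        rw [mul_comm, show Q = (∏ j ∈ p.support.erase i, s j) * s i from
          (Finset.prod_erase_mul _ _ hi).symm, mul_assoc]
        exact mul_mem (prod_mem fun j _ => hS _ (hs j)) (hsm i)
    · rw [notMem_support_iff.mp hi, zero_mul]; exact zero_mem _
  refine ⟨p'.toSubring B fun a ha => ?_, (monic_toSubring _ _ _).mpr
    ((monic_scaleRoots_iff _).mpr hp), ?_⟩
  · obtain ⟨i, -, rfl⟩ := mem_coeffs_iff.mp ha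
    exact hmem i
  · show eval₂ B.subtype _ _ = 0
    rw [← eval_map, map_toSubring]
    simpa [coe_aeval_eq_eval] using
      scaleRoots_aeval_eq_zero (R := F) (A := F) (p := p) (a := z) (r := Q)
        (by rwa [coe_aeval_eq_eval])

end Fraction

variable {K : Type u} [Field K] [IsAlgClosed K] {E M M' : Type u} [Field E] [Algebra K E]
  [Field M] [Algebra K M] [Field M'] [Algebra K M']

open TF

/-- The integral model of a valuation. -/
def centreMap (V : KVal K (TF K E M)) :
    (V.comapHom (inl K E M)).sub ⊗[K] (V.comapHom (inr K E M)).sub →ₐ[K] TF K E M :=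
  Algebra.TensorProduct.productMap ((inl K E M).comp (V.comapHom (inl K E M)).sub.val)
    ((inr K E M).comp (V.comapHom (inr K E M)).sub.val)

theorem centreMap_mem (V : KVal K (TF K E M))
    (x : (V.comapHom (inl K E M)).sub ⊗[K] (V.comapHom (inr K E M)).sub) :
    centreMap V x ∈ V.1 := by
  induction x with
  | zero => rw [map_zero]; exact zero_mem _
  | add x y hx hy => rw [map_add]; exact add_mem hx hy
  | tmul r c =>
    rw [centreMap, Algebra.TensorProduct.productMap_apply_tmul]
    exact mul_mem r.2 c.2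

/-- The tensors which are units at `V`. -/
def UnitAt (V : KVal K (TF K E M))
    (y : (V.comapHom (inl K E M)).sub ⊗[K] (V.comapHom (inr K E M)).sub) : Prop :=
  centreMap V y ≠ 0 ∧ (centreMap V y)⁻¹ ∈ V.1

theorem UnitAt.mul {V : KVal K (TF K E M)}
    {x y : (V.comapHom (inl K E M)).sub ⊗[K] (V.comapHom (inr K E M)).sub}
    (hx : UnitAt V x) (hy : UnitAt V y) : UnitAt V (x * y) :=
  ⟨by rw [map_mul]; exact mul_ne_zero hx.1 hy.1,
    by rw [map_mul, mul_inv]; exact mul_mem hx.2 hy.2⟩

theorem unitAt_one (V : KVal K (TF K E M)) : UnitAt V 1 :=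
  ⟨by rw [map_one]; exact one_ne_zero, by rw [map_one, inv_one]; exact one_mem _⟩

/-- The local ring of the centre of a valuation on its model. -/
def centre (V : KVal K (TF K E M)) : Subalgebra K (TF K E M) where
  carrier := {z | ∃ x y, UnitAt V y ∧ z * centreMap V y = centreMap V x}
  mul_mem' := by
    rintro a b ⟨x, y, hy, h⟩ ⟨x', y', hy', h'⟩
    exact ⟨x * x', y * y', hy.mul hy', by rw [map_mul, map_mul, ← h, ← h']; ring⟩
  add_mem' := by
    rintro a b ⟨x, y, hy, h⟩ ⟨x', y', hy', h'⟩
    exact ⟨x * y' + x' * y, y * y', hy.mul hy', by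
      rw [map_add, map_mul, map_mul, map_mul, ← h, ← h']; ring⟩
  algebraMap_mem' := fun c => ⟨algebraMap K _ c, 1, unitAt_one V, by
    rw [map_one, mul_one, AlgHom.commutes]⟩

theorem centre_le (V : KVal K (TF K E M)) : centre V ≤ V.sub := fun z ⟨x, y, hy, h⟩ => by
  rw [KVal.mem_sub, show z = centreMap V x * (centreMap V y)⁻¹ by
    rw [← h, mul_inv_cancel_right₀ hy.1]]
  exact mul_mem (centreMap_mem V x) hy.2

theorem inv_mem_centre {V : KVal K (TF K E M)} {z : TF K E M} (hz : z ∈ centre V) (h0 : z ≠ 0)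
    (hinv : z⁻¹ ∈ V.1) : z⁻¹ ∈ centre V := by
  obtain ⟨x, y, hy, h⟩ := hz
  have hx : centreMap V x ≠ 0 := fun h1 => mul_ne_zero h0 hy.1 (h.trans h1)
  refine ⟨y, x, ⟨hx, ?_⟩, ?_⟩
  · rw [← h, mul_inv]; exact mul_mem hinv hy.2
  · rw [← h, inv_mul_cancel_left₀ h0]

instance isLocalRing_centre (V : KVal K (TF K E M)) : IsLocalRing (centre V) := by
  have key : ∀ a : centre V, IsUnit a ↔ ((a : TF K E M) ≠ 0 ∧ (a : TF K E M)⁻¹ ∈ V.1) := by
    refine fun a => ⟨fun ha => ?_, fun ⟨h0, hinv⟩ => IsUnit.of_mul_eq_one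
      ⟨_, inv_mem_centre a.2 h0 hinv⟩ (Subtype.ext (mul_inv_cancel₀ h0))⟩
    obtain ⟨b, hb⟩ := isUnit_iff_exists_inv.mp ha
    have hb' : (a : TF K E M) * b = 1 := congrArg Subtype.val hb
    refine ⟨left_ne_zero_of_mul_eq_one hb', ?_⟩
    rw [← eq_inv_of_mul_eq_one_right hb']
    exact centre_le V b.2
  refine IsLocalRing.of_isUnit_or_isUnit_one_sub_self fun a => ?_
  rcases IsLocalRing.isUnit_or_isUnit_one_sub_self (⟨(a : TF K E M), centre_le V a.2⟩ : V.sub)
    with h | h <;>
  · obtain ⟨b, hb⟩ := isUnit_iff_exists_inv.mp h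
    have hb' := congrArg Subtype.val hb
    first
    | refine Or.inl ((key a).mpr ⟨left_ne_zero_of_mul_eq_one hb', ?_⟩)
      rw [← eq_inv_of_mul_eq_one_right hb']
      exact b.2
    | refine Or.inr ((key (1 - a)).mpr ⟨left_ne_zero_of_mul_eq_one hb', ?_⟩)
      rw [show ((1 - a : centre V) : TF K E M)⁻¹ = (b : TF K E M) from
        (eq_inv_of_mul_eq_one_right hb').symm]
      exact b.2

theorem inl_mem_centre {V : KVal K (TF K E M)} (r : (V.comapHom (inl K E M)).sub) :
    inl K E M (r : E) ∈ centre V :=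
  ⟨r ⊗ₜ 1, 1, unitAt_one V, by simp [centreMap]⟩

theorem inr_mem_centre {V : KVal K (TF K E M)} (c : (V.comapHom (inr K E M)).sub) :
    inr K E M (c : M) ∈ centre V :=
  ⟨1 ⊗ₜ c, 1, unitAt_one V, by simp [centreMap]⟩

/-- A family is regular if near every valuation it is given by one function on the model. -/
def Regular (d : Dv K (TF K E M)) : Prop :=
  ∀ V, ∃ t : (TF K E M)ˣ, ∀ V', centre V ≤ V'.sub → d V' / t ∈ V'.units

theorem Regular.mul {d e : Dv K (TF K E M)} (hd : Regular d) (he : Regular e) :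
    Regular (d * e) := fun V => by
  obtain ⟨s, hs⟩ := hd V
  obtain ⟨t, ht⟩ := he V
  exact ⟨s * t, fun V' h => by
    rw [Pi.mul_apply, mul_div_mul_comm]; exact mul_mem (hs V' h) (ht V' h)⟩

theorem Regular.inv {d : Dv K (TF K E M)} (hd : Regular d) : Regular d⁻¹ := fun V => by
  obtain ⟨s, hs⟩ := hd V
  exact ⟨s⁻¹, fun V' h => by
    rw [Pi.inv_apply, inv_div_inv, ← inv_div]; exact inv_mem (hs V' h)⟩

theorem Regular.div {d e : Dv K (TF K E M)} (hd : Regular d) (he : Regular e) :
    Regular (d / e) := by rw [div_eq_mul_inv]; exact hd.mul he.inv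

theorem regular_const (h : (TF K E M)ˣ) : Regular (fun _ : KVal K (TF K E M) => h) :=
  fun _ => ⟨h, fun _ _ => by simp⟩

/-- A family on `E` which is compatible with generalisation. -/
def Compatible (e : Dv K E) : Prop := ∀ R R' : KVal K E, R.1 ≤ R'.1 → e R' / e R ∈ R'.units

variable (M) in
/-- A family on `E` pulled back to `TF K E M`. -/
def pullE (e : Dv K E) : Dv K (TF K E M) :=
  fun V => Units.map (inl K E M).toMonoidHom (e (V.comapHom (inl K E M)))

theorem regular_pullE {e : Dv K E} (he : Compatible e) : Regular (pullE M e) := fun V =>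
  ⟨pullE M e V, fun V' h => by
    have hle : (V.comapHom (inl K E M)).1 ≤ (V'.comapHom (inl K E M)).1 := fun r hr =>
      h (inl_mem_centre ⟨r, hr⟩)
    obtain ⟨h1, h2⟩ := KVal.mem_units_iff.mp (he _ _ hle)
    refine KVal.mem_units_iff.mpr ⟨?_, ?_⟩
    · simp only [pullE, ← _root_.map_div]; exact h1
    · simp only [pullE, ← _root_.map_div, ← map_inv]; exact h2⟩

section ClassFunctor

variable (Φ : ClassFunctor K)

theorem regular_q (ψ : Φ.Pt E) (a : Φ.Pt M) :
    Regular (Φ.q (Φ.map (inl K E M) ψ + Φ.map (inr K E M) a)) := fun V => by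
  obtain ⟨ψ₀, hψ⟩ := (Φ.bijective_map_val (V.comapHom (inl K E M))).2 ψ
  obtain ⟨a₀, ha⟩ := (Φ.bijective_map_val (V.comapHom (inr K E M))).2 a
  let i := ((inl K E M).comp (V.comapHom (inl K E M)).sub.val).codRestrict (centre V) inl_mem_centre
  let j := ((inr K E M).comp (V.comapHom (inr K E M)).sub.val).codRestrict (centre V) inr_mem_centre
  obtain ⟨t, ht⟩ := Φ.q_local (centre V) (Φ.map i ψ₀ + Φ.map j a₀)
  refine ⟨t, fun V' h => ?_⟩
  have h1 := ht V' h
  rwa [map_add, ← Φ.map_comp, ← Φ.map_comp, AlgHom.val_comp_codRestrict,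
    AlgHom.val_comp_codRestrict, Φ.map_comp, Φ.map_comp, hψ, ha] at h1

theorem regular_bil (ψ : Φ.Pt E) (a b : Φ.Pt M) :
    Regular (Φ.bil (Φ.map (inl K E M) ψ + Φ.map (inr K E M) a) (Φ.map (inr K E M) b)) := by
  refine (?_ : Regular _).div ((regular_q Φ ψ a).mul ?_)
  · rw [add_assoc, ← map_add]; exact regular_q Φ ψ (a + b)
  · have := regular_q Φ (0 : Φ.Pt E) b
    rwa [map_zero, zero_add] at this

theorem regular_cube (ψ : Φ.Pt E) (a b : Φ.Pt M) :
    Regular (Φ.cube (Φ.map (inl K E M) ψ) (Φ.map (inr K E M) a) (Φ.map (inr K E M) b)) := by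
  refine (regular_bil Φ ψ a b).div (Regular.mul ?_ ?_)
  · have := regular_bil Φ ψ 0 b
    rwa [map_zero, add_zero] at this
  · have := regular_bil Φ (0 : Φ.Pt E) a b
    rwa [map_zero, zero_add] at this

end ClassFunctor

section Key

variable [FF.IsFunctionField K E]

/-- An element which is integral at every valuation containing `R ⊗ M` is in `R ⊗ M`. -/
theorem mem_range_model (R : KVal K E) {z : TF K E M}
    (h : ∀ P : KVal K (TF K E M), (∀ r : R.sub, inl K E M (r : E) ∈ P.1) →
      (∀ c, inr K E M c ∈ P.1) → z ∈ P.1) :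
    ∃ b : R.sub ⊗[K] M, mk K E M (Algebra.TensorProduct.map R.sub.val (AlgHom.id K M) b) = z := by
  obtain ⟨a, rfl⟩ := mem_range_of_forall_mem M (z := z) fun P hP =>
    h P (fun r => hP _) fun c => hP _
  let π := KPlace.ofRing R
  have hW := h ((gauss M π).ring.comapHom (swap K M E))
    (fun r => by
      rw [KVal.mem_comapHom, swap_inl]
      exact inr_mem (E := M) (π := π) r)
    (fun c => by
      rw [KVal.mem_comapHom, swap_inr]
      exact inl_mem (π := π) c)
  rw [KVal.mem_comapHom, AlgHom.toRingHom_eq_coe, RingHom.coe_coe, swap_mk] at hW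
  let b₁ := Algebra.TensorProduct.map (Subalgebra.topEquiv (R := K) (A := M)).symm.toAlgHom
    (AlgHom.id K E) (Algebra.TensorProduct.comm K E M a)
  have hb₁ : Algebra.TensorProduct.map (⊤ : Subalgebra K M).val (AlgHom.id K E) b₁ =
      Algebra.TensorProduct.comm K E M a := by
    simp only [b₁]
    induction Algebra.TensorProduct.comm K E M a with
    | zero => simp
    | add x y hx hy => simp [map_add, hx, hy]
    | tmul c e => simp
  obtain ⟨b', hb'⟩ := exists_integral_of_mem_gauss (π := π) ⊤ b₁ (by rw [hb₁]; exact hW)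
  refine ⟨Algebra.TensorProduct.comm K M R.sub
    (Algebra.TensorProduct.map (⊤ : Subalgebra K M).val (AlgHom.id K R.sub) b'),
    congrArg (mk K E M) ((Algebra.TensorProduct.comm K E M).injective ?_)⟩
  have key : ∀ z : (⊤ : Subalgebra K M) ⊗[K] R.sub,
      Algebra.TensorProduct.comm K E M (Algebra.TensorProduct.map R.sub.val (AlgHom.id K M)
        (Algebra.TensorProduct.comm K M R.sub
          (Algebra.TensorProduct.map (⊤ : Subalgebra K M).val (AlgHom.id K R.sub) z))) =
      Algebra.TensorProduct.map (⊤ : Subalgebra K M).val (AlgHom.id K E)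
        (Algebra.TensorProduct.map (AlgHom.id K _) R.sub.val z) := fun z => by
    induction z with
    | zero => simp
    | add x y hx hy => simp only [map_add, hx, hy]
    | tmul c r => simp
  rw [← hb₁, ← hb']
  exact key b'

variable {d : Dv K (TF K E M)} (hd : Regular d) (V : KVal K (TF K E M)) (π : KPlace K M M')

omit [FF.IsFunctionField K E] in
/-- Units at `V` are primitive for the Gauss extension. -/
theorem exists_resMap_ne_zero (hu : ∀ c : M, c ∈ π.ring.1 ↔ inr K E M c ∈ V.1)
    {y : (V.comapHom (inl K E M)).sub ⊗[K] (V.comapHom (inr K E M)).sub} (hy : UnitAt V y) :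
    ∃ y' : E ⊗[K] π.ring.sub, intMap E π y' = centreMap V y ∧ resMap E π y' ≠ 0 := by
  let j : (V.comapHom (inr K E M)).sub →ₐ[K] π.ring.sub :=
    (V.comapHom (inr K E M)).sub.val.codRestrict π.ring.sub fun c => (hu _).mpr c.2
  let y₁ : (V.comapHom (inl K E M)).sub ⊗[K] π.ring.sub :=
    Algebra.TensorProduct.map (AlgHom.id K _) j y
  let toE := Algebra.TensorProduct.map (V.comapHom (inl K E M)).sub.val (AlgHom.id K π.ring.sub)
  have hy₁ : intMap E π (toE y₁) = centreMap V y := by
    simp only [y₁, toE]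
    clear * -
    induction y with
    | zero => simp
    | add a b ha hb => rw [map_add, map_add, map_add, ha, hb, map_add]
    | tmul r c =>
      rw [Algebra.TensorProduct.map_tmul, Algebra.TensorProduct.map_tmul, intMap_tmul, centreMap,
        Algebra.TensorProduct.productMap_apply_tmul]
      rfl
  refine ⟨_, hy₁, fun h0 => ?_⟩
  set x₀ := Algebra.TensorProduct.map (AlgHom.id K _) π.ring.sub.val y₁ with hx₀def
  have hx₀ : x₀ ≠ 0 := fun h => hy.1 (by
    rw [← hy₁, map_injective (R := (V.comapHom (inl K E M)).sub) Subtype.val_injective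
      (h.trans (map_zero _).symm), map_zero, map_zero])
  obtain ⟨c, x, hx, hx'⟩ := exists_scale π x₀ hx₀
  -- the scaling constant is integral
  have hcu : (c : M) ∈ π.ring.1 := by
    by_contra hc
    have hi : ((c⁻¹ : Mˣ) : M) ∈ π.ring.1 := by
      rw [Units.val_inv_eq_inv_val]
      exact (π.ring.1.mem_or_inv_mem _).resolve_left hc
    have hx1 : x = (1 ⊗ₜ ⟨_, hi⟩) * y₁ :=
      map_injective (R := (V.comapHom (inl K E M)).sub) Subtype.val_injective
        (hx.trans (by rw [map_mul, Algebra.TensorProduct.map_tmul, map_one]; rfl))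
    have hres : π.res ⟨_, hi⟩ = 0 := by
      by_contra hne
      obtain ⟨b, hb⟩ := isUnit_iff_exists_inv.mp
        ((isUnit_map_iff π.res _).mp (Ne.isUnit hne))
      have := congrArg Subtype.val hb
      rw [MulMemClass.coe_mul, OneMemClass.coe_one] at this
      refine hc ?_
      rw [show (c : M) = b from (inv_inv (c : M)).symm.trans
        ((congrArg Inv.inv (Units.val_inv_eq_inv_val c)).symm.trans
          (eq_inv_of_mul_eq_one_right this).symm)]
      exact b.2
    exact hx' (by rw [hx1, map_res_smul, hres]; simp)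
  have hy₁' : y₁ = ((1 : (V.comapHom (inl K E M)).sub) ⊗ₜ[K] (⟨_, hcu⟩ : π.ring.sub)) * x :=
    map_injective (R := (V.comapHom (inl K E M)).sub) (φ := π.ring.sub.val) Subtype.val_injective (by
      rw [map_mul, hx, Algebra.TensorProduct.map_tmul, map_one, ← mul_assoc,
        Algebra.TensorProduct.tmul_mul_tmul]
      simp [← Algebra.TensorProduct.one_def, hx₀def])
  have hxne : resMap E π (toE x) ≠ 0 := fun h => hx' <| by
    have h1 := mk_injective (h.trans (map_zero _).symm)
    refine Module.Flat.rTensor_preserves_injective_linearMap (M := M')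
      (V.comapHom (inl K E M)).sub.val.toLinearMap Subtype.val_injective ?_
    show Algebra.TensorProduct.map (V.comapHom (inl K E M)).sub.val (AlgHom.id K M') _ = _
    rw [← map_map_comm, map_zero]
    exact h1
  rw [hy₁', map_mul, map_mul, Algebra.TensorProduct.map_tmul, map_one, resMap_tmul, map_one,
    one_mul, AlgHom.id_apply] at h0
  have hc0 : π.res ⟨_, hcu⟩ = 0 :=
    (map_eq_zero _).mp ((mul_eq_zero.mp h0).resolve_right hxne)
  -- so `y` is a nonunit
  have hcy : centreMap V y = inr K E M (c : M) * intMap E π (toE x) := by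
    rw [← hy₁, hy₁', map_mul, map_mul, Algebra.TensorProduct.map_tmul, map_one, intMap_tmul,
      map_one, one_mul]
    rfl
  have hxV : intMap E π (toE x) ∈ V.1 := by
    simp only [toE]
    clear * - hu
    induction x with
    | zero => rw [map_zero, map_zero]; exact zero_mem _
    | add a b ha hb => rw [map_add, map_add]; exact add_mem ha hb
    | tmul r s =>
      rw [Algebra.TensorProduct.map_tmul, intMap_tmul]
      exact mul_mem r.2 ((hu _).mp s.2)
  have hcinv : ((c : M))⁻¹ ∈ π.ring.1 := by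
    rw [hu, map_inv₀]
    have h1 : inr K E M (c : M) ≠ 0 := (_root_.map_ne_zero _).mpr c.ne_zero
    have h2 : intMap E π (toE x) ≠ 0 := intMap_ne_zero hxne
    have : (inr K E M (c : M))⁻¹ = intMap E π (toE x) * (centreMap V y)⁻¹ := by
      rw [hcy]; field_simp
    rw [this]; exact mul_mem hxV hy.2
  have h2 : π.res ⟨_, hcu⟩ * π.res ⟨_, hcinv⟩ = 1 := by
    rw [← map_mul]
    exact (congrArg π.res (Subtype.ext (mul_inv_cancel₀ c.ne_zero))).trans (map_one _)
  rw [hc0, zero_mul] at h2
  exact zero_ne_one h2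

omit [FF.IsFunctionField K E] in
theorem centre_le_gauss (hu : ∀ c : M, c ∈ π.ring.1 ↔ inr K E M c ∈ V.1) :
    centre V ≤ (gauss E π).ring.sub := fun z ⟨x, y, hy, h⟩ => by
  obtain ⟨y', hy', hres⟩ := exists_resMap_ne_zero V π hu hy
  let j : (V.comapHom (inr K E M)).sub →ₐ[K] π.ring.sub :=
    (V.comapHom (inr K E M)).sub.val.codRestrict π.ring.sub fun c => (hu _).mpr c.2
  refine mem_gauss.mpr ⟨Algebra.TensorProduct.map (V.comapHom (inl K E M)).sub.val j x, y', hres, ?_⟩
  rw [hy', h]
  clear * -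
  induction x with
  | zero => simp
  | add a b ha hb => rw [map_add, map_add, ha, hb, map_add]
  | tmul r c =>
    rw [Algebra.TensorProduct.map_tmul, intMap_tmul, centreMap,
      Algebra.TensorProduct.productMap_apply_tmul]
    rfl

include hd in
/-- The key lemma. -/
theorem exists_mem_centre (hu : ∀ c : M, c ∈ π.ring.1 ↔ inr K E M c ∈ V.1)
    (hgen : ∀ P : KVal K (TF K E M), (∀ c, inr K E M c ∈ P.1) → ((d P : _ˣ) : TF K E M) ∈ P.1)
    (hW : ((d (gauss E π).ring : _ˣ) : TF K E M) ∈ (gauss E π).ring.1) :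
    ∃ t : (TF K E M)ˣ, (t : TF K E M) ∈ centre V ∧
      ∀ V', centre V ≤ V'.sub → d V' / t ∈ V'.units := by
  classical
  obtain ⟨t, ht⟩ := hd V
  refine ⟨t, ?_, ht⟩
  have hmem : ∀ V', centre V ≤ V'.sub → ((d V' : _ˣ) : TF K E M) ∈ V'.1 →
      (t : TF K E M) ∈ V'.1 := fun V' h h' => by
    obtain ⟨-, h2⟩ := KVal.mem_units_iff.mp (ht V' h)
    have h3 := mul_mem h' h2
    rw [← Units.val_mul, inv_div, mul_div_cancel] at h3
    exact h3
  have htW := hmem _ (centre_le_gauss V π hu) hW
  -- `t` is a fraction of `R ⊗ M`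
  let R := V.comapHom (inl K E M)
  let BM : R.sub ⊗[K] M →ₐ[K] TF K E M :=
    (mk K E M).comp (Algebra.TensorProduct.map R.sub.val (AlgHom.id K M))
  have hBM : ∀ (r : R.sub) (c : M), BM (r ⊗ₜ c) = inl K E M (r : E) * inr K E M c := fun r c => by
    simp [BM, mk_tmul]
  let B : Subring (TF K E M) := BM.range.toSubring
  have hBmem : ∀ P : KVal K (TF K E M), (∀ r : R.sub, inl K E M (r : E) ∈ P.1) →
      (∀ c, inr K E M c ∈ P.1) → ∀ w ∈ B, w ∈ P.1 := by
    rintro P h1 h2 _ ⟨b, rfl⟩
    show BM b ∈ P.1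
    induction b with
    | zero => rw [map_zero]; exact zero_mem _
    | add a b ha hb => rw [map_add]; exact add_mem ha hb
    | tmul r c => rw [hBM]; exact mul_mem (h1 r) (h2 c)
  have : IsIntegrallyClosedIn B (TF K E M) := Subring.isIntegrallyClosedIn_iff.mpr fun {z} hz => by
    obtain ⟨b, hb⟩ := mem_range_model R (z := z) fun P h1 h2 => by
      have : IsIntegrallyClosedIn P.1.toSubring (TF K E M) :=
        inferInstanceAs (IsIntegrallyClosedIn P.1 (TF K E M))
      refine Subring.isIntegrallyClosedIn_iff.mp this ?_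
      obtain ⟨p, hp, hpz⟩ := hz
      exact ⟨p.map (Subring.inclusion (hBmem P h1 h2)), hp.map _, by rw [eval₂_map]; exact hpz⟩
    exact ⟨b, hb⟩
  let S : Submonoid (TF K E M) :=
    { carrier := {w | ∃ y, UnitAt V y ∧ centreMap V y = w}
      one_mem' := ⟨1, unitAt_one V, map_one _⟩
      mul_mem' := by
        rintro _ _ ⟨a, ha, rfl⟩ ⟨b, hb, rfl⟩
        exact ⟨a * b, ha.mul hb, map_mul _ _ _⟩ }
  have hSB : ∀ s ∈ S, s ∈ B := by
    rintro _ ⟨y, -, rfl⟩
    refine ⟨Algebra.TensorProduct.map (AlgHom.id K R.sub) (V.comapHom (inr K E M)).sub.val y, ?_⟩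
    show BM _ = _
    clear * - hBM
    induction y with
    | zero => simp
    | add a b ha hb => rw [map_add, map_add, ha, hb, map_add]
    | tmul r c =>
      rw [Algebra.TensorProduct.map_tmul, hBM, centreMap,
        Algebra.TensorProduct.productMap_apply_tmul]
      rfl
  let SB : Subalgebra K (TF K E M) :=
    { carrier := {w | ∃ s ∈ S, s * w ∈ B}
      mul_mem' := by
        rintro a b ⟨s, hs, h⟩ ⟨s', hs', h'⟩
        exact ⟨s * s', mul_mem hs hs', by convert mul_mem h h' using 1; ring⟩
      add_mem' := by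
        rintro a b ⟨s, hs, h⟩ ⟨s', hs', h'⟩
        refine ⟨s * s', mul_mem hs hs', ?_⟩
        convert add_mem (mul_mem (hSB _ hs') h) (mul_mem (hSB _ hs) h') using 1
        ring
      algebraMap_mem' := fun c => ⟨1, one_mem _, by
        rw [one_mul]; exact BM.range.algebraMap_mem c⟩ }
  have hSBt : ∃ s ∈ S, s * (t : TF K E M) ∈ B := by
    by_contra hcon
    have hcl : IsIntegrallyClosedIn SB.toSubring (TF K E M) :=
      Subring.isIntegrallyClosedIn_iff.mpr fun {z} ⟨p, hp, hpz⟩ => by
        refine exists_mul_mem_of_isIntegral B S hSB z (p.map SB.toSubring.subtype) (hp.map _)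
          (by rw [eval_map]; exact hpz) fun i => ?_
        rw [coeff_map]
        exact (p.coeff i).2
    obtain ⟨P, hP, htP⟩ := Subring.exists_le_valuationSubring_of_isIntegrallyClosedIn
      (R := SB.toSubring) (x := (t : TF K E M)) hcon
    let P' : KVal K (TF K E M) := ⟨P, fun c => hP (SB.algebraMap_mem c)⟩
    have hcP : centre V ≤ P'.sub := fun z ⟨x, y, hy, h⟩ => hP (show ∃ s ∈ S, s * z ∈ B from
      ⟨_, ⟨y, hy, rfl⟩, by
        rw [mul_comm, h]
        exact hSB' x⟩)
    refine htP (hmem P' hcP (hgen P' fun c => hP ⟨1, one_mem _, ?_⟩))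
    rw [one_mul]
    exact ⟨1 ⊗ₜ c, by show BM _ = _; rw [hBM]; simp⟩
  obtain ⟨_, ⟨y, hy, rfl⟩, hyB⟩ := hSBt
  obtain ⟨b, hb⟩ := hyB
  have hbW : BM b ∈ (gauss E π).ring.1 := by
    show _ ∈ _
    rw [show BM b = centreMap V y * t from hb]
    exact mul_mem (centre_le_gauss V π hu ⟨y, 1, unitAt_one V, by rw [map_one, mul_one]⟩) htW
  obtain ⟨b', hb'⟩ := exists_integral_of_mem_gauss R.sub b hbW
  let i : π.ring.sub →ₐ[K] (V.comapHom (inr K E M)).sub :=
    π.ring.sub.val.codRestrict _ fun c => (hu _).mp c.2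
  refine ⟨Algebra.TensorProduct.map (AlgHom.id K R.sub) i b', y, hy, ?_⟩
  rw [mul_comm, ← show BM b = centreMap V y * t from hb, ← hb']
  clear * - hBM
  induction b' with
  | zero => simp
  | add a b ha hb => rw [map_add, map_add, ha, hb, map_add, map_add]
  | tmul r c =>
    rw [Algebra.TensorProduct.map_tmul, hBM, Algebra.TensorProduct.map_tmul, centreMap,
      Algebra.TensorProduct.productMap_apply_tmul]
    rfl
where
  hSB' (x : (V.comapHom (inl K E M)).sub ⊗[K] (V.comapHom (inr K E M)).sub) :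
      centreMap V x ∈ ((mk K E M).comp (Algebra.TensorProduct.map (V.comapHom (inl K E M)).sub.val
        (AlgHom.id K M))).range.toSubring := by
    refine ⟨Algebra.TensorProduct.map (AlgHom.id K _) (V.comapHom (inr K E M)).sub.val x, ?_⟩
    induction x with
    | zero => simp
    | add a b ha hb => simp only [map_add]; exact congrArg₂ (· + ·) ha hb
    | tmul r c =>
      show mk K E M _ = _
      simp [mk_tmul, centreMap]

end Key

end Fermat.Agent.Tors
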