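import Mathlib.AlgebraicGeometry.AlgClosed.Basic
import Mathlib.AlgebraicGeometry.Morphisms.Smooth
import Mathlib.AlgebraicGeometry.FunctionField
import Fermat.Agent.Tors.SmoothFactorial
import Fermat.Agent.Tors.Points

/-!
# Smooth connected schemes over an algebraically closed field are integral, with factorial
local rings at closed points (`S26`)
-/

set_option autoImplicit false

noncomputable section

universe u

open CategoryTheory AlgebraicGeometry TopologicalSpace

namespace Fermat.Agent.Tors

variable {K : Type u} [Field K] {A : Scheme.{u}} (f : A ⟶ Spec (CommRingCat.of K))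

/-- Constants as sections over an open. -/
def constSec (U : A.Opens) : K →+* Γ(A, U) :=
  ((Scheme.ΓSpecIso (CommRingCat.of K)).inv ≫ f.appLE ⊤ U le_top).hom

/-- Sections over an open as an algebra over the constants. -/
@[reducible] def secAlgebra (U : A.Opens) : Algebra K Γ(A, U) := (constSec f U).toAlgebra

theorem map_constSec {U V : A.Opens} (h : V ≤ U) (r : K) :
    A.presheaf.map (homOfLE h).op (constSec f U r) = constSec f V r := by
  have h0 : f.appLE ⊤ U le_top ≫ A.presheaf.map (homOfLE h).op = f.appLE ⊤ V le_top :=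
    f.appLE_map _ _
  simp only [constSec, ← h0]
  rfl

/-- The stalks as algebras over the constants. -/
@[reducible] def stalkAlgebra (x : A) : Algebra K (A.presheaf.stalk x) :=
  ((A.presheaf.germ ⊤ x trivial).hom.comp (constSec f ⊤)).toAlgebra

theorem germ_constSec {U : A.Opens} {x : A} (hx : x ∈ U) (r : K) :
    A.presheaf.germ U x hx (constSec f U r) = A.presheaf.germ ⊤ x trivial (constSec f ⊤ r) := by
  rw [← map_constSec f (le_top : U ≤ ⊤) r]
  exact A.presheaf.germ_res_apply (homOfLE _) _ _ _

theorem fromSpecStalk_comp_base (x : A) :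
    letI := stalkAlgebra f x
    A.fromSpecStalk x ≫ f = baseMap K (A.presheaf.stalk x) := by
  let := stalkAlgebra f x
  refine ext_to_Spec ?_
  show _ ≫ (A.fromSpecStalk x ≫ f).appTop =
    _ ≫ (Spec.map (CommRingCat.ofHom (algebraMap K (A.presheaf.stalk x)))).appTop
  rw [Scheme.Hom.comp_appTop, Scheme.fromSpecStalk_appTop,
    ← cancel_mono (Scheme.ΓSpecIso (A.presheaf.stalk x)).hom]
  simp [Scheme.ΓSpecIso_naturality]
  rw [show f.appTop = f.appLE ⊤ ⊤ le_top from f.app_eq_appLE]
  rfl

variable [Smooth f]
include f

theorem exists_smooth_chart (x : A) : ∃ V : A.Opens, IsAffineOpen V ∧ x ∈ V ∧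
    letI := secAlgebra f V
    Algebra.Smooth K Γ(A, V) := by
  obtain ⟨U, hU, V, hV, hxV, e, hf⟩ := Smooth.exists_isStandardSmooth f x
  obtain rfl : U = ⊤ := eq_top_iff.mpr fun y _ => by
    rw [Subsingleton.elim y (f.base x)]; exact e hxV
  refine ⟨V, hV, hxV, ?_⟩
  let := secAlgebra f V
  have h := RingHom.isStandardSmooth_respectsIso.2 _
    (Scheme.ΓSpecIso (CommRingCat.of K)).symm.commRingCatIsoToRingEquiv hf
  have h' : (constSec f V).IsStandardSmooth := h
  have h2 : Algebra.IsStandardSmooth K Γ(A, V) := h'
  exact inferInstance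

theorem formallySmooth_stalk (x : A) :
    letI := stalkAlgebra f x
    Algebra.FormallySmooth K (A.presheaf.stalk x) := by
  obtain ⟨V, hV, hxV, hsm⟩ := exists_smooth_chart f x
  let := secAlgebra f V
  let := stalkAlgebra f x
  let _ := TopCat.Presheaf.algebra_section_stalk A.presheaf (⟨x, hxV⟩ : V)
  have : IsScalarTower K Γ(A, V) (A.presheaf.stalk x) :=
    IsScalarTower.of_algebraMap_eq fun r => (germ_constSec f hxV r).symm
  have := hV.isLocalization_stalk ⟨x, hxV⟩
  have : Algebra.FormallySmooth Γ(A, V) (A.presheaf.stalk x) :=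
    Algebra.FormallySmooth.of_isLocalization (hV.primeIdealOf ⟨x, hxV⟩).asIdeal.primeCompl
  have := hsm.formallySmooth
  exact Algebra.FormallySmooth.comp K Γ(A, V) _

theorem isNoetherianRing_stalk (x : A) : IsNoetherianRing (A.presheaf.stalk x) := by
  have : IsLocallyNoetherian A := LocallyOfFiniteType.isLocallyNoetherian f
  infer_instance

variable [IsAlgClosed K]

theorem surjective_algebraMap_residueField {x : A} (hx : IsClosed {x}) :
    letI := stalkAlgebra f x
    Function.Surjective (algebraMap K (IsLocalRing.ResidueField (A.presheaf.stalk x))) := by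
  let := stalkAlgebra f x
  intro y
  obtain ⟨r, hr⟩ := ((residueFieldIsoBase f x hx).commRingCatIsoToRingEquiv.symm).surjective y
  refine ⟨r, ?_⟩
  rw [← hr]
  have h1 : (residueFieldIsoBase f x hx).inv =
      CommRingCat.ofHom (algebraMap K (A.presheaf.stalk x)) ≫ A.residue x := by
    apply Spec.map_injective
    rw [SpecMap_residueFieldIsoBase_inv, Scheme.fromSpecResidueField, Category.assoc,
      fromSpecStalk_comp_base, Spec.map_comp]
  show _ = (residueFieldIsoBase f x hx).inv r
  rw [h1]
  rfl

theorem factorial_stalk {x : A} (hx : IsClosed {x}) :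
    IsDomain (A.presheaf.stalk x) ∧ UniqueFactorizationMonoid (A.presheaf.stalk x) := by
  let := stalkAlgebra f x
  have := formallySmooth_stalk f x
  have := isNoetherianRing_stalk f x
  exact isDomain_and_uniqueFactorizationMonoid_of_formallySmooth K (A.presheaf.stalk x)
    (surjective_algebraMap_residueField f hx)

/-- A connected smooth scheme over an algebraically closed field is integral. -/
theorem isIntegral_of_smooth_connected [CompactSpace A] [ConnectedSpace A] : IsIntegral A := by
  have : LocallyOfFiniteType f := inferInstance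
  have : JacobsonSpace A := LocallyOfFiniteType.jacobsonSpace f
  have : IsLocallyNoetherian A := LocallyOfFiniteType.isLocallyNoetherian f
  have : IsNoetherian A := {}
  have : NoetherianSpace A := inferInstance
  have hred : AlgebraicGeometry.IsReduced A := ⟨fun U => ⟨fun s hs => by
    refine TopCat.Presheaf.section_ext A.sheaf U s 0 fun y hy => ?_
    rw [map_zero]
    -- the set of points where the germ vanishes is open and contains all closed points
    by_contra hne
    have hopen : IsOpen {z : A | ∃ hz : z ∈ U, A.presheaf.germ U z hz s = 0} := by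
      refine isOpen_iff_forall_mem_open.mpr fun z ⟨hz, hz0⟩ => ?_
      obtain ⟨W, hzW, iW, _, e⟩ := A.presheaf.germ_eq z hz hz s 0 (by rw [hz0, map_zero])
      refine ⟨W, fun w hw => ⟨iW.le hw, ?_⟩, W.2, hzW⟩
      rw [← A.presheaf.germ_res_apply iW w hw, e]
      simp
    obtain ⟨a, ⟨haU, hane⟩, ha⟩ := nonempty_inter_closedPoints
      (Z := (U : Set A) ∩ {z : A | ∃ hz : z ∈ U, A.presheaf.germ U z hz s = 0}ᶜ)
      ⟨y, hy, fun ⟨_, h⟩ => hne h⟩ (U.2.isLocallyClosed.inter hopen.isClosed_compl.isLocallyClosed)
    have := (factorial_stalk f ha).1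
    exact hane ⟨haU, ((hs.map (A.presheaf.germ U a haU).hom).eq_zero)⟩⟩⟩
  -- two irreducible components cannot meet
  have hdisj : ∀ Z₁ ∈ irreducibleComponents A, ∀ Z₂ ∈ irreducibleComponents A,
      (Z₁ ∩ Z₂).Nonempty → Z₁ = Z₂ := by
    intro Z₁ h₁ Z₂ h₂ hne
    obtain ⟨a, ⟨ha₁, ha₂⟩, ha⟩ := nonempty_inter_closedPoints hne
      ((isClosed_of_mem_irreducibleComponents _ h₁).inter
        (isClosed_of_mem_irreducibleComponents _ h₂)).isLocallyClosed
    have := (factorial_stalk f ha).1
    let η : PrimeSpectrum (A.presheaf.stalk a) := ⟨⊥, Ideal.isPrime_bot⟩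
    set y₀ := A.fromSpecStalk a η
    have key : ∀ Z ∈ irreducibleComponents A, a ∈ Z → Z = closure {y₀} := by
      intro Z hZ haZ
      obtain ⟨y, hy⟩ := QuasiSober.sober hZ.1 (isClosed_of_mem_irreducibleComponents _ hZ)
      have hya : y ⤳ a := hy.specializes haZ
      rw [← Set.mem_ofPred_eq (p := fun z => z ⤳ a), ← Scheme.range_fromSpecStalk] at hya
      obtain ⟨q, hq⟩ := hya
      have h0 : y₀ ⤳ y := hq ▸ ((PrimeSpectrum.le_iff_specializes η q).mp bot_le).map
        (A.fromSpecStalk a).continuous
      have hsub : Z ⊆ closure {y₀} := by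
        rw [← hy.def]
        exact closure_minimal (Set.singleton_subset_iff.mpr (specializes_iff_mem_closure.mp h0))
          isClosed_closure
      exact le_antisymm hsub (hZ.2 isIrreducible_singleton.closure hsub)
    rw [key Z₁ h₁ ha₁, key Z₂ h₂ ha₂]
  have : IrreducibleSpace A := by
    obtain ⟨x⟩ := (inferInstance : Nonempty A)
    set Z := irreducibleComponent x
    have hZ := irreducibleComponent_mem_irreducibleComponents x
    have hfin := TopologicalSpace.NoetherianSpace.finite_irreducibleComponents (α := A)
    have hopen : IsOpen Z := by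
      rw [← isClosed_compl_iff]
      have : Zᶜ = ⋃ W ∈ irreducibleComponents A \ {Z}, W := by
        ext y
        simp only [Set.mem_compl_iff, Set.mem_iUnion, Set.mem_sdiff, Set.mem_singleton_iff,
          exists_prop]
        constructor
        · exact fun hy => ⟨irreducibleComponent y, ⟨irreducibleComponent_mem_irreducibleComponents y,
            fun h => hy (h ▸ mem_irreducibleComponent)⟩, mem_irreducibleComponent⟩
        · rintro ⟨W, ⟨hW, hWZ⟩, hyW⟩ hyZ
          exact hWZ (hdisj W hW Z hZ ⟨y, hyW, hyZ⟩)
      rw [this]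
      exact hfin.sdiff.isClosed_biUnion fun W hW => isClosed_of_mem_irreducibleComponents _ hW.1
    have hZu : Z = Set.univ :=
      IsClopen.eq_univ ⟨isClosed_of_mem_irreducibleComponents _ hZ, hopen⟩
        ⟨x, mem_irreducibleComponent⟩
    have : PreirreducibleSpace A := ⟨hZu ▸ isIrreducible_irreducibleComponent.2⟩
    exact { toNonempty := ⟨x⟩ }
  exact isIntegral_of_irreducibleSpace_of_isReduced A

end Fermat.Agent.Tors
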