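import Fermat.Agent.Tors.Place
import Mathlib.RingTheory.Jacobson.Ring
import Mathlib.RingTheory.Localization.FractionRing
import Mathlib.RingTheory.TensorProduct.Free
import Mathlib.RingTheory.Flat.Basic

/-!
# The field generated by two fields over an algebraically closed field, Gauss places (`S26`)

Over an algebraically closed `K` the tensor product of two domains is a domain; `TF K E M` is the
field generated by `E` and `M`. A place `M ⇢ M'` extends to a place `TF K E M ⇢ TF K E M'` which
is the identity on `E`.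
-/

set_option autoImplicit false

noncomputable section

universe u

open scoped TensorProduct

namespace Fermat.Agent.Tors

variable {K : Type u} [Field K]

section Coord

variable {R : Type u} [CommRing R] [Algebra K R]

/-- The coordinates of a tensor in a basis of the left factor. -/
def coords {ι : Type u} (e : Module.Basis ι K R) (N : Type u) [AddCommGroup N] [Module K N] :
    R ⊗[K] N ≃ₗ[K] ι →₀ N :=
  letI := Classical.decEq ι
  TensorProduct.equivFinsuppOfBasisLeft e

theorem coords_map {ι : Type u} (e : Module.Basis ι K R) {S T : Type u} [CommRing S] [Algebra K S]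
    [CommRing T] [Algebra K T] (φ : S →ₐ[K] T) (x : R ⊗[K] S) (i : ι) :
    coords e T (Algebra.TensorProduct.map (AlgHom.id K R) φ x) i = φ (coords e S x i) := by
  induction x with
  | zero => simp
  | add x y hx hy => simp [map_add, hx, hy]
  | tmul r s => simp [coords, map_smul]

theorem map_injective {S T : Type u} [CommRing S] [Algebra K S] [CommRing T] [Algebra K T]
    {φ : S →ₐ[K] T} (h : Function.Injective φ) :
    Function.Injective (Algebra.TensorProduct.map (AlgHom.id K R) φ) := fun x y hxy => by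
  refine (coords (Module.Basis.ofVectorSpace K R) S).injective (Finsupp.ext fun i => h ?_)
  rw [← coords_map, ← coords_map, hxy]

theorem coords_mem_of_map_eq {ι : Type u} (e : Module.Basis ι K R) {T : Type u} [CommRing T]
    [Algebra K T] (S : Subalgebra K T) (x : R ⊗[K] T) (h : ∀ i, coords e T x i ∈ S) :
    ∃ y : R ⊗[K] S, Algebra.TensorProduct.map (AlgHom.id K R) S.val y = x := by
  refine ⟨(coords e S).symm (Finsupp.onFinset (coords e T x).support (fun i => ⟨_, h i⟩)
    fun i hi => Finsupp.mem_support_iff.mpr fun h0 => hi (Subtype.ext h0)), ?_⟩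
  refine (coords e T).injective (Finsupp.ext fun i => ?_)
  rw [coords_map, LinearEquiv.apply_symm_apply]
  rfl

theorem one_tmul_mul_coords {ι : Type u} (e : Module.Basis ι K R) {T : Type u} [CommRing T]
    [Algebra K T] (c : T) (x : R ⊗[K] T) (i : ι) :
    coords e T ((1 ⊗ₜ[K] c) * x) i = c * coords e T x i := by
  induction x with
  | zero => simp
  | add x y hx hy => simp [mul_add, map_add, hx, hy]
  | tmul r s => simp [coords, Algebra.TensorProduct.tmul_mul_tmul, mul_smul_comm]

variable [IsAlgClosed K] [IsDomain R]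

/-- The tensor product of domains over an algebraically closed field is a domain. -/
theorem noZeroDivisors_tensor (S : Type u) [CommRing S] [IsDomain S] [Algebra K S] :
    NoZeroDivisors (R ⊗[K] S) := by
  classical
  refine ⟨fun {x y} hxy => ?_⟩
  by_contra! hne
  let e := Module.Basis.ofVectorSpace K R
  obtain ⟨i, hi⟩ : ∃ i, coords e S x i ≠ 0 := by
    by_contra! h
    exact hne.1 ((coords e S).injective (Finsupp.ext fun i => by simp [h i]))
  obtain ⟨j, hj⟩ : ∃ j, coords e S y j ≠ 0 := by
    by_contra! h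
    exact hne.2 ((coords e S).injective (Finsupp.ext fun i => by simp [h i]))
  set F := FractionRing S
  let a : F := algebraMap S F (coords e S x i) * algebraMap S F (coords e S y j)
  have ha : a ≠ 0 := mul_ne_zero ((map_ne_zero_iff _ (IsFractionRing.injective S F)).mpr hi)
    ((map_ne_zero_iff _ (IsFractionRing.injective S F)).mpr hj)
  let ξ := Algebra.TensorProduct.map (AlgHom.id K R) (IsScalarTower.toAlgHom K S F)
  let s : Finset F := ((coords e F (ξ x)).frange ∪ (coords e F (ξ y)).frange) ∪ {a⁻¹}
  let S₀ : Subalgebra K F := Algebra.adjoin K (s : Set F)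
  have hmem : ∀ z : R ⊗[K] F, (coords e F z).frange ⊆ s → ∀ k, coords e F z k ∈ S₀ :=
    fun z hz k => by
      by_cases h0 : coords e F z k = 0
      · rw [h0]; exact zero_mem _
      · exact Algebra.subset_adjoin (hz (Finsupp.mem_frange.mpr ⟨h0, k, rfl⟩))
  obtain ⟨x', hx'⟩ := coords_mem_of_map_eq e S₀ (ξ x)
    (hmem _ (Finset.subset_union_left.trans Finset.subset_union_left))
  obtain ⟨y', hy'⟩ := coords_mem_of_map_eq e S₀ (ξ y)
    (hmem _ (Finset.subset_union_right.trans Finset.subset_union_left))
  have hxy' : x' * y' = 0 := map_injective (R := R) (φ := S₀.val) Subtype.val_injective (by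
    rw [map_mul, hx', hy', ← map_mul, hxy, map_zero, map_zero])
  have : Algebra.FiniteType K S₀ :=
    (Subalgebra.fg_iff_finiteType _).mp (Subalgebra.fg_adjoin_finset s)
  obtain ⟨m, hm⟩ := Ideal.exists_maximal S₀
  let _ : Field (S₀ ⧸ m) := Ideal.Quotient.field m
  have : Module.Finite K (S₀ ⧸ m) := finite_of_finite_type_of_isJacobsonRing K (S₀ ⧸ m)
  let φ : S₀ →ₐ[K] K :=
    (AlgEquiv.ofBijective (Algebra.ofId K (S₀ ⧸ m))
      (IsAlgClosed.algebraMap_bijective_of_isIntegral (k := K) (K := S₀ ⧸ m))).symm.toAlgHom.comp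
      (Ideal.Quotient.mkₐ K m)
  let χ : R ⊗[K] S₀ →ₐ[K] R :=
    (Algebra.TensorProduct.rid K K R).toAlgHom.comp (Algebra.TensorProduct.map (AlgHom.id K R) φ)
  have hχ : ∀ z : R ⊗[K] S₀, χ z = 0 → ∀ k, φ (coords e S₀ z k) = 0 := fun z hz k => by
    have h0 : Algebra.TensorProduct.map (AlgHom.id K R) φ z = 0 :=
      (map_eq_zero_iff _ (Algebra.TensorProduct.rid K K R).injective).mp hz
    rw [← coords_map, h0]; simp
  have hprod : φ (coords e S₀ x' i * coords e S₀ y' j) = 0 := by
    rcases mul_eq_zero.mp (show χ x' * χ y' = 0 by rw [← map_mul, hxy', map_zero]) with h | h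
    · rw [map_mul, hχ _ h, zero_mul]
    · rw [map_mul, hχ _ h, mul_zero]
  have hcx : ((coords e S₀ x' i : S₀) : F) = algebraMap S F (coords e S x i) := by
    rw [show ((coords e S₀ x' i : S₀) : F) = S₀.val (coords e S₀ x' i) from rfl,
      ← coords_map, hx', coords_map]; rfl
  have hcy : ((coords e S₀ y' j : S₀) : F) = algebraMap S F (coords e S y j) := by
    rw [show ((coords e S₀ y' j : S₀) : F) = S₀.val (coords e S₀ y' j) from rfl,
      ← coords_map, hy', coords_map]; rfl
  have hinv : coords e S₀ x' i * coords e S₀ y' j *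
      (⟨a⁻¹, Algebra.subset_adjoin (by simp [s])⟩ : S₀) = 1 := Subtype.ext (by
    push_cast
    rw [hcx, hcy]
    exact mul_inv_cancel₀ ha)
  have := congrArg φ hinv
  rw [map_mul, hprod, zero_mul, map_one] at this
  exact zero_ne_one this

instance isDomain_tensor (S : Type u) [CommRing S] [IsDomain S] [Algebra K S] :
    IsDomain (R ⊗[K] S) := by
  have : Nontrivial (R ⊗[K] K) :=
    (Algebra.TensorProduct.rid K K R).symm.injective.nontrivial
  have : Nontrivial (R ⊗[K] S) :=
    (map_injective (R := R) (φ := Algebra.ofId K S)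
      (FaithfulSMul.algebraMap_injective K S)).nontrivial
  have := noZeroDivisors_tensor (K := K) (R := R) S
  exact NoZeroDivisors.to_isDomain _

end Coord

variable [IsAlgClosed K] {E M M' : Type u} [Field E] [Algebra K E] [Field M] [Algebra K M]
  [Field M'] [Algebra K M']

variable (K E M) in
/-- The field generated by `E` and `M` over `K`. -/
abbrev TF : Type u := FractionRing (E ⊗[K] M)

namespace TF

variable (K E M) in
/-- The canonical map from the tensor product. -/
def mk : E ⊗[K] M →ₐ[K] TF K E M := IsScalarTower.toAlgHom K (E ⊗[K] M) (TF K E M)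

theorem mk_injective : Function.Injective (mk K E M) :=
  IsFractionRing.injective (E ⊗[K] M) (TF K E M)

variable (K E M) in
/-- The left inclusion. -/
def inl : E →ₐ[K] TF K E M := (mk K E M).comp Algebra.TensorProduct.includeLeft

variable (K E M) in
/-- The right inclusion. -/
def inr : M →ₐ[K] TF K E M := (mk K E M).comp Algebra.TensorProduct.includeRight

theorem inl_apply (e : E) : inl K E M e = mk K E M (e ⊗ₜ 1) := rfl

theorem inr_apply (c : M) : inr K E M c = mk K E M (1 ⊗ₜ c) := rfl

theorem mk_tmul (e : E) (c : M) : mk K E M (e ⊗ₜ c) = inl K E M e * inr K E M c := by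
  rw [inl_apply, inr_apply, ← map_mul, Algebra.TensorProduct.tmul_mul_tmul, mul_one, one_mul]

theorem exists_mk_div (z : TF K E M) : ∃ a b : E ⊗[K] M, b ≠ 0 ∧ z = mk K E M a / mk K E M b := by
  obtain ⟨a, b, hb, rfl⟩ := IsFractionRing.div_surjective (E ⊗[K] M) z
  exact ⟨a, b, nonZeroDivisors.ne_zero hb, rfl⟩

theorem algHom_ext {L : Type u} [Field L] [Algebra K L] {f g : TF K E M →ₐ[K] L}
    (hl : ∀ e, f (inl K E M e) = g (inl K E M e)) (hr : ∀ c, f (inr K E M c) = g (inr K E M c)) :
    f = g := by
  have h : f.comp (mk K E M) = g.comp (mk K E M) :=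
    Algebra.TensorProduct.ext' fun e c => by simp [mk_tmul, hl, hr]
  refine AlgHom.ext fun z => ?_
  obtain ⟨a, b, -, rfl⟩ := exists_mk_div z
  simp only [map_div₀]
  exact congrArg₂ (· / ·) (DFunLike.congr_fun h a) (DFunLike.congr_fun h b)

variable {L : Type u} [Field L] [Algebra K L]

/-- The homomorphism out of `TF K E M` defined by two linearly disjoint embeddings. -/
def lift (f : E →ₐ[K] L) (g : M →ₐ[K] L)
    (h : Function.Injective (Algebra.TensorProduct.productMap f g)) : TF K E M →ₐ[K] L :=
  IsFractionRing.liftAlgHom (g := Algebra.TensorProduct.productMap f g) h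

theorem lift_mk (f : E →ₐ[K] L) (g : M →ₐ[K] L)
    (h : Function.Injective (Algebra.TensorProduct.productMap f g)) (a : E ⊗[K] M) :
    lift f g h (mk K E M a) = Algebra.TensorProduct.productMap f g a :=
  IsFractionRing.lift_algebraMap h a

variable (K E M) in
/-- Exchanging the two fields. -/
def swap : TF K M E →ₐ[K] TF K E M :=
  lift (inr K E M) (inl K E M) <| by
    rw [show Algebra.TensorProduct.productMap (inr K E M) (inl K E M) =
        (mk K E M).comp (Algebra.TensorProduct.comm K M E).toAlgHom from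
      Algebra.TensorProduct.ext' fun c e => by simp [mk_tmul, mul_comm]]
    exact mk_injective.comp (Algebra.TensorProduct.comm K M E).injective

@[simp] theorem swap_inl (c : M) : swap K E M (inl K M E c) = inr K E M c := by
  rw [inl_apply, swap, lift_mk]; simp

@[simp] theorem swap_inr (e : E) : swap K E M (inr K M E e) = inl K E M e := by
  rw [inr_apply, swap, lift_mk]; simp

theorem swap_mk (x : M ⊗[K] E) :
    swap K E M (mk K M E x) = mk K E M (Algebra.TensorProduct.comm K M E x) := by
  induction x with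
  | zero => simp
  | add x y hx hy => rw [map_add, map_add, hx, hy, map_add, map_add]
  | tmul c e => simp [mk_tmul, mul_comm]

@[simp] theorem swap_swap (z : TF K M E) : swap K M E (swap K E M z) = z :=
  DFunLike.congr_fun (algHom_ext (f := (swap K M E).comp (swap K E M)) (g := AlgHom.id K _)
    (fun e => by simp) fun c => by simp) z

end TF

section Gauss

open TF

section Scale

variable {R : Type u} [CommRing R] [Algebra K R]

/-- A nonzero tensor becomes primitive after scaling by a constant. -/
theorem exists_scale (π : KPlace K M M') (x : R ⊗[K] M) (hx : x ≠ 0) :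
    ∃ (c : Mˣ) (y : R ⊗[K] π.ring.sub),
      Algebra.TensorProduct.map (AlgHom.id K R) π.ring.sub.val y = (1 ⊗ₜ ((c⁻¹ : Mˣ) : M)) * x ∧
        Algebra.TensorProduct.map (AlgHom.id K R) π.res y ≠ 0 := by
  classical
  let e := Module.Basis.ofVectorSpace K R
  have hsupp : (coords e M x).support.Nonempty :=
    Finsupp.support_nonempty_iff.mpr fun h => hx ((coords e M).injective (h.trans (map_zero _).symm))
  obtain ⟨i, hi, hmax⟩ := Finset.exists_max_image _
    (fun i => π.ring.1.valuation (coords e M x i)) hsupp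
  have hi0 : coords e M x i ≠ 0 := Finsupp.mem_support_iff.mp hi
  obtain ⟨y, hy⟩ := coords_mem_of_map_eq e π.ring.sub
    ((1 ⊗ₜ (((Units.mk0 _ hi0)⁻¹ : Mˣ) : M)) * x) fun k => by
      rw [one_tmul_mul_coords, KVal.mem_sub, ← ValuationSubring.valuation_le_one_iff, map_mul,
        Units.val_inv_eq_inv_val, Units.val_mk0, map_inv₀,
        inv_mul_le_iff₀ (zero_lt_iff.mpr ((map_ne_zero _).mpr hi0)), mul_one]
      by_cases hk : k ∈ (coords e M x).support
      · exact hmax k hk
      · rw [Finsupp.notMem_support_iff.mp hk, map_zero]; exact zero_le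
  refine ⟨Units.mk0 _ hi0, y, hy, fun h0 => ?_⟩
  have h1 : coords e π.ring.sub y i = 1 := Subtype.ext (by
    have := congrArg (fun z => coords e M z i) hy
    simp only [coords_map, one_tmul_mul_coords, Units.val_inv_eq_inv_val, Units.val_mk0,
      inv_mul_cancel₀ hi0] at this
    exact this)
  have h2 := coords_map e π.res y i
  rw [h0, h1, map_zero, map_one] at h2
  exact zero_ne_one h2

theorem map_res_smul (π : KPlace K M M') (c : π.ring.sub) (y : R ⊗[K] π.ring.sub) :
    Algebra.TensorProduct.map (AlgHom.id K R) π.res ((1 ⊗ₜ c) * y) =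
      (1 ⊗ₜ π.res c) * Algebra.TensorProduct.map (AlgHom.id K R) π.res y := by
  rw [map_mul, Algebra.TensorProduct.map_tmul, map_one]

end Scale

variable (E) (π : KPlace K M M')

/-- Integral tensors inside the field. -/
def intMap : E ⊗[K] π.ring.sub →ₐ[K] TF K E M :=
  (mk K E M).comp (Algebra.TensorProduct.map (AlgHom.id K E) π.ring.sub.val)

/-- Reduction of integral tensors. -/
def resMap : E ⊗[K] π.ring.sub →ₐ[K] TF K E M' :=
  (mk K E M').comp (Algebra.TensorProduct.map (AlgHom.id K E) π.res)

theorem intMap_injective : Function.Injective (intMap E π) :=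
  mk_injective.comp (map_injective (R := E) Subtype.val_injective)

variable {E π}

theorem intMap_tmul (e : E) (c : π.ring.sub) :
    intMap E π (e ⊗ₜ c) = inl K E M e * inr K E M (c : M) := by
  simp [intMap, mk_tmul]

theorem resMap_tmul (e : E) (c : π.ring.sub) :
    resMap E π (e ⊗ₜ c) = inl K E M' e * inr K E M' (π.res c) := by
  simp [resMap, mk_tmul]

theorem intMap_ne_zero {y : E ⊗[K] π.ring.sub} (h : resMap E π y ≠ 0) : intMap E π y ≠ 0 :=
  fun h0 => h (by rw [intMap_injective E π (h0.trans (map_zero _).symm), map_zero])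

/-- Every nonzero element is a constant times a quotient of primitive tensors. -/
theorem exists_scale_field (z : TF K E M) (hz : z ≠ 0) :
    ∃ (c : Mˣ) (x y : E ⊗[K] π.ring.sub), resMap E π x ≠ 0 ∧ resMap E π y ≠ 0 ∧
      z * intMap E π y = inr K E M (c : M) * intMap E π x := by
  obtain ⟨a, b, hb, rfl⟩ := exists_mk_div z
  have ha : a ≠ 0 := fun h => hz (by simp [h])
  obtain ⟨ca, x, hx, hx'⟩ := exists_scale π a ha
  obtain ⟨cb, y, hy, hy'⟩ := exists_scale π b hb
  refine ⟨ca / cb, x, y, ?_, ?_, ?_⟩
  · exact fun h => hx' (mk_injective (h.trans (map_zero _).symm))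
  · exact fun h => hy' (mk_injective (h.trans (map_zero _).symm))
  · have hb' : mk K E M b ≠ 0 := (map_ne_zero_iff _ mk_injective).mpr hb
    simp only [intMap, AlgHom.comp_apply, hx, hy, map_mul, ← inr_apply, Units.val_div_eq_div_val,
      map_div₀, Units.val_inv_eq_inv_val, map_inv₀]
    have : inr K E M (cb : M) ≠ 0 := (map_ne_zero _).mpr cb.ne_zero
    have : inr K E M (ca : M) ≠ 0 := (map_ne_zero _).mpr ca.ne_zero
    field_simp

variable (E π) in
/-- The Gauss extension of a valuation subring. -/
def gaussRing : KVal K (TF K E M) :=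
  ⟨{ carrier := {z | ∃ x y : E ⊗[K] π.ring.sub, resMap E π y ≠ 0 ∧
        z * intMap E π y = intMap E π x}
     mul_mem' := by
       rintro a b ⟨x, y, hy, h⟩ ⟨x', y', hy', h'⟩
       exact ⟨x * x', y * y', by rw [map_mul]; exact mul_ne_zero hy hy', by
         rw [map_mul, map_mul, ← h, ← h']; ring⟩
     one_mem' := ⟨1, 1, by simp, by simp⟩
     add_mem' := by
       rintro a b ⟨x, y, hy, h⟩ ⟨x', y', hy', h'⟩
       exact ⟨x * y' + x' * y, y * y', by rw [map_mul]; exact mul_ne_zero hy hy', by
         rw [map_add, map_mul, map_mul, map_mul, ← h, ← h']; ring⟩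
     zero_mem' := ⟨0, 1, by simp, by simp⟩
     neg_mem' := by
       rintro a ⟨x, y, hy, h⟩
       exact ⟨-x, y, hy, by rw [map_neg, ← h]; ring⟩
     mem_or_inv_mem' := fun z => by
       rcases eq_or_ne z 0 with rfl | hz
       · exact Or.inl ⟨0, 1, by simp, by simp⟩
       obtain ⟨c, x, y, hx, hy, h⟩ := exists_scale_field (π := π) z hz
       have hc : inr K E M (c : M) ≠ 0 := (map_ne_zero _).mpr c.ne_zero
       rcases π.ring.1.mem_or_inv_mem (c : M) with hm | hm
       · exact Or.inl ⟨(1 ⊗ₜ ⟨_, hm⟩) * x, y, hy, by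
           rw [map_mul, intMap_tmul, map_one, one_mul, h]⟩
       · refine Or.inr ⟨(1 ⊗ₜ ⟨_, hm⟩) * y, x, hx, ?_⟩
         rw [map_mul, intMap_tmul, map_one, one_mul, map_inv₀]
         field_simp
         linear_combination -h },
   fun c => ⟨algebraMap K _ c, 1, by rw [map_one]; exact one_ne_zero,
     by rw [map_one, mul_one, AlgHom.commutes]⟩⟩

theorem gauss_res_wd {z : TF K E M} {x y x' y' : E ⊗[K] π.ring.sub} (hy : resMap E π y ≠ 0)
    (h : z * intMap E π y = intMap E π x) (hy' : resMap E π y' ≠ 0)
    (h' : z * intMap E π y' = intMap E π x') :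
    resMap E π x / resMap E π y = resMap E π x' / resMap E π y' := by
  rw [div_eq_div_iff hy hy', ← map_mul, ← map_mul]
  refine congrArg _ (intMap_injective E π ?_)
  rw [map_mul, map_mul, ← h, ← h']; ring

/-- A numerator of an integral element. -/
def gaussNum (z : (gaussRing E π).sub) : E ⊗[K] π.ring.sub := z.2.choose

/-- A denominator of an integral element. -/
def gaussDen (z : (gaussRing E π).sub) : E ⊗[K] π.ring.sub := z.2.choose_spec.choose

theorem gaussDen_ne_zero (z : (gaussRing E π).sub) : resMap E π (gaussDen z) ≠ 0 :=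
  z.2.choose_spec.choose_spec.1

theorem mul_gaussDen (z : (gaussRing E π).sub) :
    (z : TF K E M) * intMap E π (gaussDen z) = intMap E π (gaussNum z) :=
  z.2.choose_spec.choose_spec.2

/-- The reduction of an integral element. -/
def gaussVal (z : (gaussRing E π).sub) : TF K E M' :=
  resMap E π (gaussNum z) / resMap E π (gaussDen z)

theorem gaussVal_eq (z : (gaussRing E π).sub) {x y : E ⊗[K] π.ring.sub} (hy : resMap E π y ≠ 0)
    (h : (z : TF K E M) * intMap E π y = intMap E π x) :
    gaussVal z = resMap E π x / resMap E π y :=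
  gauss_res_wd (gaussDen_ne_zero z) (mul_gaussDen z) hy h

variable (E π) in
/-- The Gauss extension of a place, the identity on `E`. -/
def gauss : KPlace K (TF K E M) (TF K E M') where
  ring := gaussRing E π
  res :=
    { toFun := gaussVal
      map_one' := (gaussVal_eq 1 (x := 1) (y := 1) (by rw [map_one]; exact one_ne_zero)
        (by rw [OneMemClass.coe_one, one_mul])).trans (by rw [map_one, div_one])
      map_zero' := (gaussVal_eq 0 (x := 0) (y := 1) (by rw [map_one]; exact one_ne_zero)
        (by rw [ZeroMemClass.coe_zero, zero_mul, map_zero])).trans (by rw [map_zero, zero_div])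
      map_mul' := fun a b => by
        refine (gaussVal_eq (a * b) (x := gaussNum a * gaussNum b) (y := gaussDen a * gaussDen b)
          (by rw [map_mul]; exact mul_ne_zero (gaussDen_ne_zero a) (gaussDen_ne_zero b))
          (by rw [map_mul, map_mul, ← mul_gaussDen a, ← mul_gaussDen b, MulMemClass.coe_mul]
              ring)).trans ?_
        rw [map_mul, map_mul, gaussVal, gaussVal, div_mul_div_comm]
      map_add' := fun a b => by
        refine (gaussVal_eq (a + b) (x := gaussNum a * gaussDen b + gaussDen a * gaussNum b)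
          (y := gaussDen a * gaussDen b)
          (by rw [map_mul]; exact mul_ne_zero (gaussDen_ne_zero a) (gaussDen_ne_zero b))
          (by rw [map_add, map_mul, map_mul, map_mul, ← mul_gaussDen a, ← mul_gaussDen b,
                AddMemClass.coe_add]
              ring)).trans ?_
        rw [map_add, map_mul, map_mul, map_mul, gaussVal, gaussVal,
          div_add_div _ _ (gaussDen_ne_zero a) (gaussDen_ne_zero b)]
      commutes' := fun c => (gaussVal_eq (algebraMap K (gaussRing E π).sub c)
          (x := algebraMap K _ c) (y := 1) (by rw [map_one]; exact one_ne_zero)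
          (by rw [map_one, mul_one, AlgHom.commutes]; rfl)).trans
            (by rw [map_one, div_one, AlgHom.commutes]) }
  isLocalHom := ⟨fun a ha => by
    have hne : gaussVal a ≠ 0 := ha.ne_zero
    have hx : resMap E π (gaussNum a) ≠ 0 := fun h0 => hne (by rw [gaussVal, h0, zero_div])
    have h := mul_gaussDen a
    have ha0 : (a : TF K E M) ≠ 0 := fun h0 => intMap_ne_zero hx (by
      rw [← h]; exact mul_eq_zero_of_left h0 _)
    exact IsUnit.of_mul_eq_one ⟨(a : TF K E M)⁻¹, gaussDen a, gaussNum a, hx, by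
      rw [← h]; exact inv_mul_cancel_left₀ ha0 _⟩ (Subtype.ext (mul_inv_cancel₀ ha0))⟩

theorem mem_gauss {z : TF K E M} : z ∈ (gauss E π).ring.1 ↔
    ∃ x y : E ⊗[K] π.ring.sub, resMap E π y ≠ 0 ∧ z * intMap E π y = intMap E π x := Iff.rfl

theorem gauss_res_eq {z : TF K E M} (hz : z ∈ (gauss E π).ring.1) {x y : E ⊗[K] π.ring.sub}
    (hy : resMap E π y ≠ 0) (h : z * intMap E π y = intMap E π x) :
    (gauss E π).res ⟨z, hz⟩ = resMap E π x / resMap E π y :=
  gaussVal_eq ⟨z, hz⟩ hy h

theorem intMap_mem (x : E ⊗[K] π.ring.sub) : intMap E π x ∈ (gauss E π).ring.1 :=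
  mem_gauss.mpr ⟨x, 1, by rw [map_one]; exact one_ne_zero, by rw [map_one, mul_one]⟩

theorem gauss_res_intMap (x : E ⊗[K] π.ring.sub) :
    (gauss E π).res ⟨intMap E π x, intMap_mem x⟩ = resMap E π x :=
  (gauss_res_eq _ (x := x) (y := 1) (by rw [map_one]; exact one_ne_zero)
    (by rw [map_one, mul_one])).trans (by rw [map_one, div_one])

theorem inl_mem (e : E) : inl K E M e ∈ (gauss E π).ring.1 := by
  simpa [intMap_tmul] using intMap_mem (π := π) (e ⊗ₜ[K] (1 : π.ring.sub))

theorem gauss_res_inl (e : E) : (gauss E π).res ⟨inl K E M e, inl_mem e⟩ = inl K E M' e :=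
  (gauss_res_eq _ (x := e ⊗ₜ 1) (y := 1) (by simp) (by simp [intMap_tmul])).trans
    (by simp [resMap_tmul])

theorem inr_mem (c : π.ring.sub) : inr K E M (c : M) ∈ (gauss E π).ring.1 := by
  simpa [intMap_tmul] using intMap_mem (π := π) ((1 : E) ⊗ₜ[K] c)

theorem gauss_res_inr (c : π.ring.sub) :
    (gauss E π).res ⟨inr K E M (c : M), inr_mem c⟩ = inr K E M' (π.res c) :=
  (gauss_res_eq _ (x := 1 ⊗ₜ c) (y := 1) (by simp) (by simp [intMap_tmul])).trans
    (by simp [resMap_tmul])

theorem inr_mem_iff {c : M} : inr K E M c ∈ (gauss E π).ring.1 ↔ c ∈ π.ring.1 := by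
  refine ⟨fun h => ?_, fun h => inr_mem ⟨c, h⟩⟩
  by_contra hc
  have hi : c⁻¹ ∈ π.ring.1 := (π.ring.1.mem_or_inv_mem c).resolve_left hc
  have hc0 : c ≠ 0 := fun h0 => hc (h0 ▸ zero_mem _)
  have h1 : (gauss E π).res ⟨_, h⟩ * (gauss E π).res ⟨_, inr_mem (E := E) ⟨c⁻¹, hi⟩⟩ = 1 := by
    rw [← map_mul]
    refine (congrArg _ (Subtype.ext ?_)).trans (map_one _)
    show inr K E M c * inr K E M c⁻¹ = 1
    rw [← map_mul, mul_inv_cancel₀ hc0, map_one]
  rw [gauss_res_inr] at h1
  have h2 : IsUnit (π.res ⟨c⁻¹, hi⟩) := Ne.isUnit fun h0 => by simp [h0] at h1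
  obtain ⟨b, hb⟩ := isUnit_iff_exists_inv.mp ((isUnit_map_iff π.res _).mp h2)
  exact hc (inv_inv c ▸ (eq_inv_of_mul_eq_one_right (congrArg Subtype.val hb) ▸ b.2))

theorem map_map_comm {R₁ R₂ S₁ S₂ : Type u} [CommRing R₁] [Algebra K R₁] [CommRing R₂]
    [Algebra K R₂] [CommRing S₁] [Algebra K S₁] [CommRing S₂] [Algebra K S₂] (f : R₁ →ₐ[K] R₂)
    (g : S₁ →ₐ[K] S₂) (x : R₁ ⊗[K] S₁) :
    Algebra.TensorProduct.map (AlgHom.id K R₂) g (Algebra.TensorProduct.map f (AlgHom.id K S₁) x) =
      Algebra.TensorProduct.map f (AlgHom.id K S₂)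
        (Algebra.TensorProduct.map (AlgHom.id K R₁) g x) := by
  induction x with
  | zero => simp
  | add x y hx hy => simp [map_add, hx, hy]
  | tmul r t => simp

/-- A tensor in `R ⊗ M` which is integral for the Gauss place is in `R ⊗ u`. -/
theorem exists_integral_of_mem_gauss (R : Subalgebra K E) (b : R ⊗[K] M)
    (hb : mk K E M (Algebra.TensorProduct.map R.val (AlgHom.id K M) b) ∈ (gauss E π).ring.1) :
    ∃ b' : R ⊗[K] π.ring.sub,
      Algebra.TensorProduct.map (AlgHom.id K R) π.ring.sub.val b' = b := by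
  rcases eq_or_ne b 0 with rfl | hb0
  · exact ⟨0, map_zero _⟩
  obtain ⟨c, y, hy, hy'⟩ := exists_scale π b hb0
  set y₀ := Algebra.TensorProduct.map R.val (AlgHom.id K π.ring.sub) y
  have hy₀ : intMap E π y₀ = inr K E M ((c⁻¹ : Mˣ) : M) *
      mk K E M (Algebra.TensorProduct.map R.val (AlgHom.id K M) b) := by
    rw [inr_apply, ← map_mul]
    refine congrArg (mk K E M) ?_
    rw [show (1 : E) ⊗ₜ[K] ((c⁻¹ : Mˣ) : M) = Algebra.TensorProduct.map R.val (AlgHom.id K M)
      (1 ⊗ₜ ((c⁻¹ : Mˣ) : M)) by simp, ← map_mul, ← hy]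
    exact map_map_comm R.val π.ring.sub.val y
  have hres : resMap E π y₀ ≠ 0 := fun h => hy' <| by
    have h1 := mk_injective (h.trans (map_zero _).symm)
    have hinj : Function.Injective (Algebra.TensorProduct.map R.val (AlgHom.id K M')) := by
      exact Module.Flat.rTensor_preserves_injective_linearMap (M := M') R.val.toLinearMap
        Subtype.val_injective
    refine hinj ?_
    rw [map_zero, ← h1]
    exact (map_map_comm R.val π.res y).symm
  have hc : (c : M) ∈ π.ring.1 := by
    rw [← inr_mem_iff (E := E) (π := π)]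
    obtain ⟨x, y', hy'', hxy⟩ := mem_gauss.mp hb
    refine mem_gauss.mpr ⟨x, y₀ * y', by rw [map_mul]; exact mul_ne_zero hres hy'', ?_⟩
    have hc1 : inr K E M (c : M) * inr K E M ((c⁻¹ : Mˣ) : M) = 1 := by
      rw [← map_mul, Units.mul_inv, map_one]
    rw [map_mul, hy₀, ← hxy]
    linear_combination (mk K E M (Algebra.TensorProduct.map R.val (AlgHom.id K M) b) *
      intMap E π y') * hc1
  refine ⟨(1 ⊗ₜ ⟨_, hc⟩) * y, ?_⟩
  rw [map_mul, hy, Algebra.TensorProduct.map_tmul, ← mul_assoc,
    Algebra.TensorProduct.tmul_mul_tmul]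
  simp [← Algebra.TensorProduct.one_def]

end Gauss

end Fermat.Agent.Tors
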